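import Fermat.Agent.Transcendence.BrumerExp
import Mathlib.Analysis.SpecificLimits.Basic
import Mathlib.NumberTheory.NumberField.Ideal.Basic
import Mathlib.RingTheory.Ideal.Quotient.Basic

/-!
# The `p`-adic logarithm near `1`

The exponential maps the disc `‖x‖ ≤ p ^ (-3)` bijectively onto `1 +` that disc, by successive
approximation; and a fixed power of every unit of a number field is in that disc around `1`.
-/

set_option autoImplicit false
set_option linter.unusedSectionVars false
set_option linter.style.haveILetI false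

noncomputable section

namespace FA.Brumer

open scoped Nat

variable {p : ℕ} [hp : Fact p.Prime] {C : Type*} [NontriviallyNormedField C] [CompleteSpace C]
  [IsUltrametricDist C] [hC : NormedAlgebra ℚ_[p] C]

/-- The radius `p ^ (-3)`. -/
def rad (p : ℕ) : ℝ := (((p : ℝ)) ^ 3)⁻¹

include hp in
theorem rad_pos : 0 < rad p := inv_pos.mpr (pow_pos (prime_pos p) 3)

include hp in
theorem mul_rad_le : (p : ℝ) ^ 2 * rad p ≤ (p : ℝ)⁻¹ := by
  rw [rad, pow_succ (p : ℝ) 2, mul_inv, ← mul_assoc,
    mul_inv_cancel₀ (pow_ne_zero 2 (prime_pos p).ne'), one_mul]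

include hp in
theorem small_of_le {x : C} (hx : ‖x‖ ≤ rad p) : Small p x := by
  refine lt_of_le_of_lt ((mul_le_mul_of_nonneg_left hx (prime_pos p).le).trans
    ((mul_le_mul_of_nonneg_right (le_self_pow₀ (one_lt_prime p).le two_ne_zero)
      (rad_pos (p := p)).le).trans mul_rad_le)) ?_
  exact inv_lt_one_of_one_lt₀ (one_lt_prime p)

include hp hC in
/-- `exp x = 1 + x` to first order. -/
theorem norm_pexp_sub_le {x : C} (hx : ‖x‖ ≤ rad p) :
    ‖pexp x - 1 - x‖ ≤ (p : ℝ)⁻¹ * ‖x‖ := by
  have hs := (summable_norm_expTerm (small_of_le (p := p) hx)).of_norm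
  have h := hs.sum_add_tsum_nat_add 2
  rw [Finset.sum_range_succ, Finset.sum_range_one] at h
  rw [pexp, ← h, show expTerm x 0 = (1 : C) by simp [expTerm],
    show expTerm x 1 = x by simp [expTerm], add_sub_right_comm, add_sub_cancel_left,
    add_sub_cancel_left]
  refine IsUltrametricDist.norm_tsum_le_of_forall_le_of_nonneg
    (mul_nonneg (inv_nonneg.mpr (prime_pos p).le) (norm_nonneg x)) fun n => ?_
  refine (norm_expTerm_le p x _).trans ((pow_le_pow_of_le_one
    (mul_nonneg (prime_pos p).le (norm_nonneg x)) (small_of_le hx).le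
    (Nat.le_add_left 2 n)).trans ?_)
  calc ((p : ℝ) * ‖x‖) ^ 2 = (p : ℝ) ^ 2 * ‖x‖ * ‖x‖ := by ring
    _ ≤ (p : ℝ)⁻¹ * ‖x‖ := mul_le_mul_of_nonneg_right
        ((mul_le_mul_of_nonneg_left hx (sq_nonneg _)).trans mul_rad_le) (norm_nonneg _)

include hp hC in
/-- The exponential is a contraction away from the identity. -/
theorem norm_pexp_diff_le {x y : C} (hx : ‖x‖ ≤ rad p) (hy : ‖y‖ ≤ rad p) :
    ‖pexp x - pexp y - (x - y)‖ ≤ (p : ℝ)⁻¹ * ‖x - y‖ := by
  have hd : ‖x - y‖ ≤ rad p := by
    have := IsUltrametricDist.norm_add_le_max x (-y)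
    rw [← sub_eq_add_neg, norm_neg] at this
    exact this.trans (max_le hx hy)
  have e : pexp x = pexp y * pexp (x - y) := by
    rw [← pexp_add (small_of_le (p := p) hy) (small_of_le hd), add_sub_cancel]
  rw [e, show pexp y * pexp (x - y) - pexp y - (x - y) =
    pexp y * (pexp (x - y) - 1 - (x - y)) + (pexp y - 1) * (x - y) by ring]
  refine (IsUltrametricDist.norm_add_le_max _ _).trans (max_le ?_ ?_)
  · rw [norm_mul, norm_pexp (small_of_le (p := p) hy), one_mul]
    exact norm_pexp_sub_le hd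
  · rw [norm_mul]
    refine mul_le_mul_of_nonneg_right ((norm_pexp_sub_one_le (small_of_le (p := p) hy)).trans ?_)
      (norm_nonneg _)
    exact (mul_le_mul_of_nonneg_left hy (prime_pos p).le).trans
      ((mul_le_mul_of_nonneg_right (le_self_pow₀ (one_lt_prime p).le two_ne_zero)
        (rad_pos (p := p)).le).trans mul_rad_le)

include hp hC in
theorem pexp_injOn {x y : C} (hx : ‖x‖ ≤ rad p) (hy : ‖y‖ ≤ rad p) (h : pexp x = pexp y) :
    x = y := by
  have := norm_pexp_diff_le hx hy
  rw [h, sub_self, zero_sub, norm_neg] at this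
  refine sub_eq_zero.mp (norm_le_zero_iff.mp ?_)
  have h1 : 0 < 1 - (p : ℝ)⁻¹ := sub_pos.mpr (inv_lt_one_of_one_lt₀ (one_lt_prime p))
  refine le_of_mul_le_mul_left ?_ h1
  rw [mul_zero, sub_mul, one_mul]
  linarith

include hp hC in
/-- **The logarithm exists.** -/
theorem exists_pexp_eq {α : C} (hα : ‖α - 1‖ ≤ rad p) :
    ∃ x : C, ‖x‖ ≤ rad p ∧ pexp x = α := by
  set f : C → C := fun x => x - (pexp x - α)
  set x : ℕ → C := fun n => f^[n] 0
  have h0 : ‖(0 : C)‖ ≤ rad p := by rw [norm_zero]; exact (rad_pos (p := p)).le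
  have hball : ∀ z : C, ‖z‖ ≤ rad p → ‖f z‖ ≤ rad p := fun z hz => by
    rw [show f z = (α - 1) + -(pexp z - 1 - z) by simp only [f]; ring]
    refine (IsUltrametricDist.norm_add_le_max _ _).trans (max_le hα ?_)
    rw [norm_neg]
    exact ((norm_pexp_sub_le hz).trans (mul_le_of_le_one_left (norm_nonneg z)
      (inv_le_one_of_one_le₀ (one_lt_prime p).le))).trans hz
  have hx : ∀ n, ‖x n‖ ≤ rad p := fun n => by
    induction n with
    | zero => exact h0
    | succ n ih => simp only [x, Function.iterate_succ_apply']; exact hball _ ih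
  have hcontr : ∀ a b : C, ‖a‖ ≤ rad p → ‖b‖ ≤ rad p → ‖f a - f b‖ ≤ (p : ℝ)⁻¹ * ‖a - b‖ :=
    fun a b ha hb => by
    rw [show f a - f b = -(pexp a - pexp b - (a - b)) by simp only [f]; ring, norm_neg]
    exact norm_pexp_diff_le ha hb
  have hgeom : ∀ n, dist (x n) (x (n + 1)) ≤ dist (x 0) (x 1) * ((p : ℝ)⁻¹) ^ n := fun n => by
    induction n with
    | zero => simp
    | succ n ih =>
      rw [dist_eq_norm, show x (n + 1) = f (x n) from Function.iterate_succ_apply' f n 0,
        show x (n + 1 + 1) = f (x (n + 1)) from Function.iterate_succ_apply' f (n + 1) 0]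
      refine (hcontr _ _ (hx _) (hx _)).trans ?_
      rw [← dist_eq_norm, pow_succ', ← mul_assoc, mul_comm (dist (x 0) (x 1)) ((p : ℝ)⁻¹),
        mul_assoc]
      exact mul_le_mul_of_nonneg_left ih (inv_nonneg.mpr (prime_pos p).le)
  obtain ⟨l, hl⟩ := cauchySeq_tendsto_of_complete
    (cauchySeq_of_le_geometric _ _ (inv_lt_one_of_one_lt₀ (one_lt_prime p)) hgeom)
  have hlr : ‖l‖ ≤ rad p := le_of_tendsto' hl.norm hx
  refine ⟨l, hlr, ?_⟩
  have h1 : Filter.Tendsto (fun n => x (n + 1)) Filter.atTop (nhds (f l)) := by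
    refine tendsto_iff_norm_sub_tendsto_zero.mpr (squeeze_zero (fun n => norm_nonneg _)
      (fun n => ?_) (tendsto_iff_norm_sub_tendsto_zero.mp hl))
    rw [show x (n + 1) = f (x n) from Function.iterate_succ_apply' f n 0]
    exact (hcontr _ _ (hx n) hlr).trans (mul_le_of_le_one_left (norm_nonneg _)
      (inv_le_one_of_one_le₀ (one_lt_prime p).le))
  have := tendsto_nhds_unique h1 (hl.comp (Filter.tendsto_add_atTop_nat 1))
  simp only [f] at this
  exact sub_eq_zero.mp (by linear_combination -this)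

variable (p) in
/-- The logarithm (junk `0` outside the disc around `1`). -/
def plog (α : C) : C :=
  open Classical in if h : ∃ x : C, ‖x‖ ≤ rad p ∧ pexp x = α then h.choose else 0

include hp hC in
theorem norm_plog_le (α : C) : ‖plog p α‖ ≤ rad p := by
  unfold plog
  split_ifs with h
  · exact h.choose_spec.1
  · rw [norm_zero]; exact (rad_pos (p := p)).le

include hp hC in
theorem pexp_plog {α : C} (hα : ‖α - 1‖ ≤ rad p) : pexp (plog p α) = α := by
  unfold plog
  rw [dif_pos (exists_pexp_eq hα)]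
  exact (exists_pexp_eq hα).choose_spec.2

include hp hC in
theorem plog_mul {α β : C} (hα : ‖α - 1‖ ≤ rad p) (hβ : ‖β - 1‖ ≤ rad p) :
    plog p (α * β) = plog p α + plog p β := by
  have hab : ‖α * β - 1‖ ≤ rad p := by
    rw [show α * β - 1 = (α - 1) * β + (β - 1) by ring]
    refine (IsUltrametricDist.norm_add_le_max _ _).trans (max_le ?_ hβ)
    rw [norm_mul, ← pexp_plog hβ, norm_pexp (small_of_le (p := p) (norm_plog_le β)), mul_one]
    exact hα
  refine pexp_injOn (norm_plog_le _)
    ((IsUltrametricDist.norm_add_le_max _ _).trans (max_le (norm_plog_le α) (norm_plog_le β))) ?_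
  rw [pexp_plog hab, pexp_add (small_of_le (p := p) (norm_plog_le α))
    (small_of_le (norm_plog_le β)), pexp_plog hα, pexp_plog hβ]

open NumberField in
include hp hC in
/-- **A fixed power of every unit is close to `1`.** -/
theorem exists_power_close (K : Type*) [Field K] [NumberField K] :
    ∃ M : ℕ, 0 < M ∧ ∀ (ψ : K →+* C) (u : (𝓞 K)ˣ),
      ‖ψ (((u : 𝓞 K) : K)) ^ M - 1‖ ≤ rad p := by
  set I : Ideal (𝓞 K) := Ideal.span {((p : 𝓞 K)) ^ 3}
  have hI : I ≠ ⊥ := by
    simp only [I, ne_eq, Ideal.span_singleton_eq_bot]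
    exact pow_ne_zero 3 (Nat.cast_ne_zero.mpr hp.out.ne_zero)
  haveI : Finite (𝓞 K ⧸ I) := I.finiteQuotientOfFreeOfNeBot hI
  refine ⟨Nat.card (𝓞 K ⧸ I)ˣ, Nat.card_pos, fun ψ u => ?_⟩
  have h1 : Ideal.Quotient.mk I ((u : 𝓞 K) ^ Nat.card (𝓞 K ⧸ I)ˣ) = 1 := by
    have h := congrArg Units.val (pow_card_eq_one'
      (x := Units.map (Ideal.Quotient.mk I).toMonoidHom u))
    rw [Units.val_pow_eq_pow_val, Units.val_one] at h
    rw [map_pow]
    exact h
  rw [← map_one (Ideal.Quotient.mk I), Ideal.Quotient.eq, Ideal.mem_span_singleton] at h1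
  obtain ⟨c, hc⟩ := h1
  have e := congrArg (fun x : 𝓞 K => ψ (x : K)) hc
  simp only [map_sub, map_pow, map_one, map_mul, map_natCast] at e
  rw [e, norm_mul, norm_pow, norm_prime p, rad, inv_pow]
  exact mul_le_of_le_one_right (inv_nonneg.mpr (pow_nonneg (prime_pos p).le 3))
    (norm_le_one_of_integral (c.isIntegral_coe.map ψ.toIntAlgHom))

end FA.Brumer

end
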