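import Fermat.Agent.Transcendence.GelfondSchneiderAnalysis
import Mathlib.NumberTheory.NumberField.House
import Mathlib.RingTheory.Algebraic.Integral
import Mathlib.LinearAlgebra.Lagrange

/-!
# The Gelfond–Schneider theorem

Gelfond's proof. If `β`, `exp L` and `exp (β L)` lie in a number field of degree `h`, Siegel's
lemma gives small integers `η i j`, `i, j < q`, such that `∑ η i j exp ((i + β j) L z)` vanishes
to order `n` at `1, …, m`, where `q ^ 2 = 2 m n`, `m = 2 h + 2`. The first derivative that does not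
vanish there, of order `r ≥ n`, is a non-zero algebraic number whose norm is less than one.
-/

set_option autoImplicit false
set_option linter.style.haveILetI false

noncomputable section

namespace FA.GelfondSchneider

open NumberField Module Matrix
open scoped Nat

/-- Siegel's lemma with an unnamed constant. -/
theorem exists_siegel (K : Type*) [Field K] [NumberField K] :
    ∃ C : ℝ, ∀ (α β : Type) [Fintype α] [Fintype β] (M : Matrix α β (𝓞 K)) (p q : ℕ) (A : ℝ),
      M ≠ 0 → 0 < p → p < q → Fintype.card α = p → Fintype.card β = q →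
      (∀ k l, house (M k l : K) ≤ A) →
        ∃ ξ : β → 𝓞 K, ξ ≠ 0 ∧ M *ᵥ ξ = 0 ∧
          ∀ l, house (ξ l : K) ≤ C * ((C * q * A) ^ ((p : ℝ) / (q - p))) := by
  classical
  exact ⟨_, fun α β _ _ M p q A hM hp hpq hα hβ habs =>
    NumberField.house.exists_ne_zero_int_vec_house_le K M hM hp hpq hβ habs hα⟩

/-- Vanishing power sums with distinct nodes. -/
theorem eq_zero_of_power_sums {ι : Type*} [Fintype ι] (v w : ι → ℂ) (hw : Function.Injective w)
    (h : ∀ k : ℕ, ∑ x, v x * w x ^ k = 0) : v = 0 := by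
  classical
  funext x₀
  set P : Polynomial ℂ :=
    ∏ x ∈ Finset.univ.erase x₀, (Polynomial.X - Polynomial.C (w x)) with hP
  have hsum : ∑ x, v x * P.eval (w x) = 0 := by
    simp only [Polynomial.eval_eq_sum_range, Finset.mul_sum]
    rw [Finset.sum_comm]
    refine Finset.sum_eq_zero fun i _ => ?_
    rw [show ∑ x, v x * (P.coeff i * w x ^ i) = P.coeff i * ∑ x, v x * w x ^ i from by
      rw [Finset.mul_sum]; exact Finset.sum_congr rfl fun x _ => by ring, h, mul_zero]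
  rw [Finset.sum_eq_single x₀ (fun x _ hx => by
    rw [hP, Polynomial.eval_prod, Finset.prod_eq_zero (Finset.mem_erase.2 ⟨hx, Finset.mem_univ x⟩)
      (by simp), mul_zero]) (fun hx => absurd (Finset.mem_univ _) hx)] at hsum
  refine (mul_eq_zero.1 hsum).resolve_right ?_
  rw [hP, Polynomial.eval_prod]
  refine Finset.prod_ne_zero_iff.2 fun x hx => ?_
  rw [Polynomial.eval_sub, Polynomial.eval_X, Polynomial.eval_C]
  exact sub_ne_zero.2 fun e => (Finset.mem_erase.1 hx).1 (hw e.symm)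

variable {K : Type*} [Field K] [NumberField K]

/-- The entry of the linear system. -/
def entry (D : ℤ) (B A C : 𝓞 K) (e k l i j : ℕ) : 𝓞 K :=
  ((D : 𝓞 K) * (i : 𝓞 K) + (j : 𝓞 K) * B) ^ k * A ^ (i * l) * C ^ (j * l) *
    (D : 𝓞 K) ^ (e - i * l - j * l)

/-- The house of an entry. -/
theorem house_entry_le {D : ℤ} {B A C : 𝓞 K} {M : ℝ} (hM : 1 ≤ M) (hD : |(D : ℝ)| ≤ M)
    (hDB : |(D : ℝ)| + house (B : K) ≤ M) (hA : house (A : K) ≤ M) (hC : house (C : K) ≤ M)
    {e k l i j q : ℕ} (hi : i ≤ q) (hj : j ≤ q) (he : i * l + j * l ≤ e) :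
    house (entry D B A C e k l i j : K) ≤ ((q : ℝ) * M) ^ k * M ^ e := by
  have hbase : house (((D : 𝓞 K) * (i : 𝓞 K) + (j : 𝓞 K) * B : 𝓞 K) : K) ≤ (q : ℝ) * M := by
    simp only [map_add, map_mul, map_natCast, map_intCast]
    refine (house_add_le _ _).trans ?_
    have h1 : house ((D : K) * (i : K)) ≤ (q : ℝ) * |(D : ℝ)| := by
      rw [mul_comm (D : K), house_nat_mul, house_intCast, Int.cast_abs]
      exact mul_le_mul_of_nonneg_right (by exact_mod_cast hi) (abs_nonneg _)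
    have h2 : house ((j : K) * (B : K)) ≤ (q : ℝ) * house (B : K) := by
      rw [house_nat_mul]
      exact mul_le_mul_of_nonneg_right (by exact_mod_cast hj) (house_nonneg _)
    nlinarith [Nat.cast_nonneg (α := ℝ) q,
      mul_le_mul_of_nonneg_left hDB (Nat.cast_nonneg (α := ℝ) q)]
  have hpow : ∀ (x : 𝓞 K) (N : ℝ) (t : ℕ), house (x : K) ≤ N →
      house ((x ^ t : 𝓞 K) : K) ≤ N ^ t := fun x N t hx => by
    push_cast
    exact (house_pow_le _ _).trans (pow_le_pow_left₀ (house_nonneg _) hx t)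
  have hM0 : 0 ≤ M := by linarith
  have hmul : ∀ (x y : 𝓞 K) (a b : ℝ), house (x : K) ≤ a → house (y : K) ≤ b →
      house ((x * y : 𝓞 K) : K) ≤ a * b := fun x y a b hx hy => by
    push_cast
    exact (house_mul_le _ _).trans (mul_le_mul hx hy (house_nonneg _) ((house_nonneg _).trans hx))
  have hDh : house (((D : 𝓞 K) : K)) ≤ M := by
    show house (algebraMap (𝓞 K) K (D : 𝓞 K)) ≤ M
    rw [map_intCast, house_intCast, Int.cast_abs]; exact hD
  refine (hmul _ _ _ _ (hmul _ _ _ _ (hmul _ _ _ _ (hpow _ _ k hbase) (hpow _ _ _ hA))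
    (hpow _ _ _ hC)) (hpow _ _ _ hDh)).trans (le_of_eq ?_)
  rw [mul_assoc, mul_assoc, ← pow_add, ← pow_add]
  congr 2
  omega

/-- A non-zero integer of a number field is not small at one place unless it has a large house. -/
theorem one_le_norm_mul_house_pow {x : 𝓞 K} (hx : x ≠ 0) (ψ : K →+* ℂ) :
    1 ≤ ‖ψ (x : K)‖ * house (x : K) ^ (finrank ℚ K - 1) := by
  refine le_trans ?_ (norm_norm_le_norm_mul_house_pow (x : K) ψ)
  rw [← Algebra.coe_norm_int, Int.norm_cast_rat, Int.norm_eq_abs]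
  exact_mod_cast Int.one_le_abs (Algebra.norm_ne_zero_iff.2 hx)

set_option maxHeartbeats 1000000 in
/-- **Gelfond's argument.** -/
theorem false_of_data (ψ : K →+* ℂ) (b a c : K) (L : ℂ) (hL : L ≠ 0)
    (hb : ∀ r : ℚ, ψ b ≠ r) (ha : Complex.exp L = ψ a) (hc : Complex.exp (ψ b * L) = ψ c) :
    False := by
  classical
  -- denominators
  haveI : Algebra.IsAlgebraic ℤ K :=
    (IsFractionRing.comap_isAlgebraic_iff (A := ℤ) (K := ℚ) (C := K)).2 inferInstance
  obtain ⟨D, hD, hint⟩ := Algebra.IsAlgebraic.exists_integral_multiples ℤ ({b, a, c} : Finset K)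
  obtain ⟨B', hB'⟩ : ∃ x : 𝓞 K, (x : K) = (D : K) * b :=
    ⟨⟨(D : K) * b, by simpa [mem_integralClosure_iff, zsmul_eq_mul] using hint b (by simp)⟩, rfl⟩
  obtain ⟨A', hA'⟩ : ∃ x : 𝓞 K, (x : K) = (D : K) * a :=
    ⟨⟨(D : K) * a, by simpa [mem_integralClosure_iff, zsmul_eq_mul] using hint a (by simp)⟩, rfl⟩
  obtain ⟨C', hC'⟩ : ∃ x : 𝓞 K, (x : K) = (D : K) * c :=
    ⟨⟨(D : K) * c, by simpa [mem_integralClosure_iff, zsmul_eq_mul] using hint c (by simp)⟩, rfl⟩
  obtain ⟨C₁, hsiegel⟩ := exists_siegel K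
  -- constants
  set h := finrank ℚ K with hh
  have hh1 : 1 ≤ h := finrank_pos
  set m := 2 * h + 2 with hm
  set M : ℝ := max 1 (max (|(D : ℝ)| + house (B' : K)) (max (house (A' : K)) (house (C' : K))))
    with hM
  have hM1 : 1 ≤ M := le_max_left _ _
  have hDB : |(D : ℝ)| + house (B' : K) ≤ M := (le_max_left _ _).trans (le_max_right _ _)
  have hAM : house (A' : K) ≤ M :=
    ((le_max_left _ _).trans (le_max_right _ _)).trans (le_max_right _ _)
  have hCM : house (C' : K) ≤ M :=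
    ((le_max_right _ _).trans (le_max_right _ _)).trans (le_max_right _ _)
  have hDM : |(D : ℝ)| ≤ M := le_trans (by linarith [house_nonneg (B' : K)]) hDB
  set K₁ : ℝ := (max 1 |C₁|) ^ 2 * 4 * (2 * (m : ℝ) * M) * M ^ 2 with hK₁
  set K₂ : ℝ := 4 * K₁ * (2 * (m : ℝ) * M) * M ^ 2 with hK₂
  set E : ℝ := Real.exp ((1 + ‖ψ b‖) * ‖L‖) with hE
  set K₄ : ℝ := 2 * (8 * (m : ℝ) ^ 2) ^ m * (4 * K₁ * E) with hK₄
  set K₅ : ℝ := M ^ 3 * K₄ / ‖L‖ with hK₅
  set Kc : ℝ := K₅ * K₂ ^ (h - 1) with hKc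
  -- parameters
  set N : ℕ := ⌈Kc ^ 2⌉₊ + 2 * m + 1 with hN
  set q := 2 * m * N with hq
  set n := 2 * m * N ^ 2 with hn
  have hN1 : 1 ≤ N := by omega
  have hn0 : 0 < n := by positivity
  have hqq : q * q = 2 * (m * n) := by rw [hq, hn]; ring
  have hmq : m * q ≤ n := by
    rw [hq, hn]; nlinarith [Nat.mul_le_mul_left (2 * m * N) (show m ≤ N by omega)]
  have hqn : q ≤ n := le_trans (Nat.le_mul_of_pos_left q (by omega)) hmq
  have hNn : N ≤ n := by rw [hn]; nlinarith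
  -- Siegel
  let idx := Fin q × Fin q
  let Mat : Matrix (Fin m × Fin n) idx (𝓞 K) := fun lk x =>
    entry D B' A' C' (2 * m * q) lk.2 (lk.1.val + 1) x.1 x.2
  have hexp : ∀ (x : idx) (l : ℕ), l ≤ m → x.1.val * l + x.2.val * l ≤ 2 * m * q := fun x l hl => by
    nlinarith [Nat.mul_le_mul x.1.isLt.le hl, Nat.mul_le_mul x.2.isLt.le hl]
  have hMat0 : Mat ≠ 0 := fun h0 => by
    have hq0 : 0 < q := by positivity
    have := congrFun (congrFun h0 (⟨0, by omega⟩, ⟨0, hn0⟩)) (⟨0, hq0⟩, ⟨0, hq0⟩)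
    simp [Mat, entry, hD] at this
  obtain ⟨η, hη0, hηM, hηb⟩ := hsiegel (Fin m × Fin n) idx Mat (m * n) (q * q)
    (((q : ℝ) * M) ^ n * M ^ (2 * m * q)) hMat0 (by positivity)
    (by rw [hqq]; have : 0 < m * n := (by positivity); omega) (by simp) (by simp [idx])
    fun lk x => (house_entry_le hM1 hDM hDB hAM hCM x.1.isLt.le x.2.isLt.le
      (hexp x _ lk.1.isLt)).trans (by
        refine mul_le_mul_of_nonneg_right (pow_le_pow_right₀ ?_ lk.2.isLt.le) (by positivity)
        have : (1 : ℝ) ≤ q := by exact_mod_cast Nat.one_le_iff_ne_zero.2 (by positivity : q ≠ 0)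
        nlinarith)
  have hexp1 : (((m * n : ℕ) : ℝ) / (((q * q : ℕ) : ℝ) - ((m * n : ℕ) : ℝ))) = 1 := by
    rw [hqq]; push_cast
    rw [show 2 * ((m : ℝ) * n) - (m : ℝ) * n = (m : ℝ) * n by ring, div_self (by positivity)]
  rw [hexp1] at hηb
  simp only [Real.rpow_one] at hηb
  -- the auxiliary function
  let w : idx → ℂ := fun x => ((x.1.val : ℂ) + (x.2.val : ℂ) * ψ b) * L
  let F : ℂ → ℂ := fun z => ∑ x, ψ (η x : K) * Complex.exp (w x * z)
  let S : ℕ → ℕ → 𝓞 K := fun k l => ∑ x, η x * entry D B' A' C' (2 * m * q) k l x.1 x.2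
  have hderiv : ∀ (k : ℕ) (z : ℂ), iteratedDeriv k F z =
      ∑ x, ψ (η x : K) * (w x ^ k * Complex.exp (w x * z)) := fun k z => by
    show iteratedDeriv k (fun z => ∑ x, ψ (η x : K) * Complex.exp (w x * z)) z = _
    rw [iteratedDeriv_fun_sum fun x _ => by fun_prop]
    exact Finset.sum_congr rfl fun x _ => by
      rw [iteratedDeriv_const_mul_field, iteratedDeriv_cexp_const_mul]
  have hDC : (D : ℂ) ≠ 0 := Int.cast_ne_zero.2 hD
  have hS : ∀ k l : ℕ, l ≤ m → ψ (S k l : K) * L ^ k =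
      (D : ℂ) ^ (k + 2 * m * q) * iteratedDeriv k F (l : ℂ) := by
    intro k l hl
    rw [hderiv, Finset.mul_sum]
    show ψ ((∑ x, η x * entry D B' A' C' (2 * m * q) k l x.1 x.2 : 𝓞 K) : K) * L ^ k = _
    push_cast
    rw [map_sum, Finset.sum_mul]
    refine Finset.sum_congr rfl fun x _ => ?_
    obtain ⟨t, ht⟩ : ∃ t, 2 * m * q = x.1.val * l + x.2.val * l + t :=
      ⟨_, (Nat.add_sub_cancel' (hexp x l hl)).symm⟩
    have hexpw : Complex.exp (w x * l) = ψ a ^ (x.1.val * l) * ψ c ^ (x.2.val * l) := by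
      rw [← ha, ← hc, ← Complex.exp_nat_mul, ← Complex.exp_nat_mul, ← Complex.exp_add]
      congr 1
      simp only [w]; push_cast; ring
    rw [hexpw, entry, ht, show x.1.val * l + x.2.val * l + t - x.1.val * l - x.2.val * l = t by
      omega]
    push_cast
    simp only [map_mul, map_pow, map_add, map_intCast, map_natCast, hA', hB', hC', w]
    rw [show (D : ℂ) * (x.1.val : ℂ) + (x.2.val : ℂ) * ((D : ℂ) * ψ b) =
      (D : ℂ) * ((x.1.val : ℂ) + (x.2.val : ℂ) * ψ b) by ring, mul_pow, mul_pow, mul_pow, mul_pow,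
      pow_add, pow_add, pow_add]
    ring
  have hwinj : Function.Injective w := by
    intro x y hxy
    have h1 := mul_right_cancel₀ hL hxy
    by_cases hj : x.2.val = y.2.val
    · rw [hj] at h1
      exact Prod.ext (Fin.ext (by exact_mod_cast add_right_cancel h1)) (Fin.ext hj)
    · refine absurd ?_ (hb (((y.1.val : ℚ) - x.1.val) / ((x.2.val : ℚ) - y.2.val)))
      have : (x.2.val : ℂ) - (y.2.val : ℂ) ≠ 0 := sub_ne_zero.2 (by exact_mod_cast hj)
      push_cast
      rw [eq_div_iff this]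
      linear_combination h1
  -- the first non-vanishing derivative
  have hex : ∃ k, ∃ l ∈ Finset.Icc 1 m, S k l ≠ 0 := by
    by_contra hall
    push Not at hall
    refine hη0 (funext fun x => ?_)
    have hz : ∀ k : ℕ, ∑ x, (ψ (η x : K) * Complex.exp (w x)) * w x ^ k = 0 := fun k => by
      have h1 := hS k 1 (by omega)
      rw [hall k 1 (Finset.mem_Icc.2 ⟨le_rfl, by omega⟩), show ((0 : 𝓞 K) : K) = 0 from map_zero _,
        map_zero, zero_mul, eq_comm,
        mul_eq_zero] at h1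
      have h2 := h1.resolve_left (pow_ne_zero _ hDC)
      rw [hderiv, Nat.cast_one] at h2
      rw [← h2]
      exact Finset.sum_congr rfl fun x _ => by rw [mul_one]; ring
    have h3 := congrFun (eq_zero_of_power_sums _ w hwinj hz) x
    simp only [Pi.zero_apply, mul_eq_zero, Complex.exp_ne_zero, or_false,
      map_eq_zero] at h3
    exact RingOfIntegers.ext (by simpa using h3)
  set r := Nat.find hex with hr
  obtain ⟨l₀, hl₀, hρ⟩ := Nat.find_spec hex
  have hmin : ∀ k < r, ∀ l ∈ Finset.Icc 1 m, S k l = 0 := fun k hk l hl => by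
    by_contra h0
    exact Nat.find_min hex hk ⟨l, hl, h0⟩
  have hnr : n ≤ r := by
    by_contra hlt
    push Not at hlt
    obtain ⟨h1, h2⟩ := Finset.mem_Icc.1 hl₀
    refine hρ ?_
    have h3 := congrFun hηM (⟨l₀ - 1, by omega⟩, ⟨r, hlt⟩)
    simp only [Matrix.mulVec, dotProduct, Pi.zero_apply, Mat,
      show l₀ - 1 + 1 = l₀ by omega] at h3
    show S r l₀ = 0
    rw [← h3]
    exact Finset.sum_congr rfl fun x _ => mul_comm _ _
  -- the size
  set s : ℝ := √(r : ℝ) with hs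
  have hr1 : 1 ≤ r := by omega
  have hs2 : s ^ 2 = r := Real.sq_sqrt (by positivity)
  have hs1 : 1 ≤ s := Real.one_le_sqrt.2 (by exact_mod_cast hr1)
  have hqs : (q : ℝ) ≤ 2 * m * s := by
    refine (pow_le_pow_iff_left₀ (by positivity) (by positivity) two_ne_zero).1 ?_
    have h1 : (q : ℝ) * q = 2 * ((m : ℝ) * n) := by exact_mod_cast hqq
    have h2 : (n : ℝ) ≤ r := by exact_mod_cast hnr
    have h3 : (1 : ℝ) ≤ m := by exact_mod_cast (show 1 ≤ m by omega)
    rw [mul_pow, hs2]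
    nlinarith [mul_le_mul_of_nonneg_left h2 (show (0 : ℝ) ≤ m by positivity),
      mul_le_mul_of_nonneg_right h3 (show (0 : ℝ) ≤ m * r by positivity)]
  have hqq4 : ((q * q : ℕ) : ℝ) ≤ 4 ^ r := by
    have : q ≤ 2 ^ r := (hqn.trans hnr).trans Nat.lt_two_pow_self.le
    calc ((q * q : ℕ) : ℝ) ≤ ((2 ^ r * 2 ^ r : ℕ) : ℝ) := by exact_mod_cast Nat.mul_le_mul this this
      _ = 4 ^ r := by push_cast; rw [← mul_pow]; norm_num
  have hM2r : M ^ (2 * m * q) ≤ (M ^ 2) ^ r := by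
    rw [← pow_mul]
    exact pow_le_pow_right₀ hM1 (by nlinarith [hmq.trans hnr])
  have hqM : ∀ k ≤ r, ((q : ℝ) * M) ^ k ≤ (2 * (m : ℝ) * M * s) ^ r := fun k hk => by
    have h1 : (q : ℝ) * M ≤ 2 * (m : ℝ) * M * s := by nlinarith
    refine (pow_le_pow_left₀ (by positivity) h1 k).trans (pow_le_pow_right₀ ?_ hk)
    have : (1 : ℝ) ≤ m := by exact_mod_cast (show 1 ≤ m by omega)
    nlinarith [mul_le_mul hM1 hs1 zero_le_one (by positivity)]
  have hη : ∀ x, house (η x : K) ≤ K₁ ^ r * s ^ r := fun x => by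
    refine ((hηb x).trans (le_abs_self _)).trans ?_
    rw [abs_mul, abs_mul, abs_mul, abs_of_nonneg (show (0 : ℝ) ≤ ((q * q : ℕ) : ℝ) by positivity),
      abs_of_nonneg (show (0 : ℝ) ≤ ((q : ℝ) * M) ^ n * M ^ (2 * m * q) by positivity)]
    have hC1 : |C₁| * |C₁| ≤ ((max 1 |C₁|) ^ 2) ^ r := by
      refine le_trans ?_ (le_self_pow₀ (one_le_pow₀ (le_max_left _ _)) (by omega))
      rw [sq]
      exact mul_le_mul (le_max_right _ _) (le_max_right _ _) (abs_nonneg _) (by positivity)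
    calc |C₁| * (|C₁| * ((q * q : ℕ) : ℝ) * (((q : ℝ) * M) ^ n * M ^ (2 * m * q)))
        = (|C₁| * |C₁|) * ((q * q : ℕ) : ℝ) * ((q : ℝ) * M) ^ n * M ^ (2 * m * q) := by ring
      _ ≤ ((max 1 |C₁|) ^ 2) ^ r * 4 ^ r * (2 * (m : ℝ) * M * s) ^ r * (M ^ 2) ^ r := by
        gcongr
        exact hqM n hnr
      _ = K₁ ^ r * s ^ r := by rw [hK₁]; simp only [mul_pow]; ring
  have hcard : Fintype.card idx = q * q := by simp [idx]
  have hl₀m : l₀ ≤ m := (Finset.mem_Icc.1 hl₀).2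
  have hK₁0 : 0 ≤ K₁ := by positivity
  have hρh : house (S r l₀ : K) ≤ K₂ ^ r * (s ^ 2) ^ r := by
    show house ((∑ x, η x * entry D B' A' C' (2 * m * q) r l₀ x.1 x.2 : 𝓞 K) : K) ≤ _
    push_cast
    refine (house_sum_le_sum_house _ _).trans ?_
    refine (Finset.sum_le_card_nsmul _ _
      ((K₁ ^ r * s ^ r) * ((2 * (m : ℝ) * M * s) ^ r * (M ^ 2) ^ r)) fun x _ => ?_).trans ?_
    · refine (house_mul_le _ _).trans (mul_le_mul (hη x) ?_ (house_nonneg _) (by positivity))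
      exact (house_entry_le hM1 hDM hDB hAM hCM x.1.isLt.le x.2.isLt.le (hexp x _ hl₀m)).trans
        (mul_le_mul (hqM r le_rfl) hM2r (by positivity) (by positivity))
    · rw [Finset.card_univ, hcard, nsmul_eq_mul]
      refine (mul_le_mul_of_nonneg_right hqq4 (by positivity)).trans (le_of_eq ?_)
      rw [hK₂]; simp only [mul_pow]; ring
  -- the analytic bound
  set R : ℝ := (r : ℝ) / q with hR
  have hq0 : (0 : ℝ) < q := by exact_mod_cast (show 0 < q by positivity)
  have hR2 : 2 * (m : ℝ) ≤ R := by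
    rw [hR, le_div_iff₀ hq0]
    have h1 : 2 * m * q ≤ r := le_trans (by
      rw [hn, hq]; nlinarith [Nat.mul_le_mul_left (2 * m * N) (show 2 * m ≤ N by omega)]) hnr
    exact_mod_cast h1
  have hR1 : 1 ≤ R := le_trans (by
    have : (1 : ℝ) ≤ m := by exact_mod_cast (show 1 ≤ m by omega)
    linarith) hR2
  have hFdiff : Differentiable ℂ F := Differentiable.fun_sum fun x _ => by fun_prop
  have hbound : ∀ z : ℂ, ‖z‖ ≤ R → ‖F z‖ ≤ (4 * K₁ * E) ^ r * s ^ r := fun z hz => by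
    refine (norm_sum_le _ _).trans ?_
    refine (Finset.sum_le_card_nsmul _ _ ((K₁ ^ r * s ^ r) * E ^ r) fun x _ => ?_).trans ?_
    · rw [norm_mul]
      refine mul_le_mul ((norm_embedding_le_house _ ψ).trans (hη x)) ?_ (norm_nonneg _)
        (by positivity)
      rw [hE, ← Real.exp_nat_mul, Complex.norm_exp]
      refine Real.exp_le_exp.2 ((Complex.re_le_norm _).trans ?_)
      rw [norm_mul]
      have hw : ‖w x‖ ≤ (q : ℝ) * ((1 + ‖ψ b‖) * ‖L‖) := by
        simp only [w]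
        rw [norm_mul, ← mul_assoc]
        refine mul_le_mul_of_nonneg_right ((norm_add_le _ _).trans ?_) (norm_nonneg _)
        rw [norm_mul, Complex.norm_natCast, Complex.norm_natCast, mul_add, mul_one]
        refine add_le_add ?_ (mul_le_mul_of_nonneg_right ?_ (norm_nonneg _))
        · exact_mod_cast x.1.isLt.le
        · exact_mod_cast x.2.isLt.le
      refine (mul_le_mul hw hz (norm_nonneg _) (by positivity)).trans (le_of_eq ?_)
      rw [hR]; field_simp
    · rw [Finset.card_univ, hcard, nsmul_eq_mul]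
      refine (mul_le_mul_of_nonneg_right hqq4 (by positivity)).trans (le_of_eq ?_)
      simp only [mul_pow]; ring
  have hzero : ∀ l ∈ Finset.Icc 1 m, ∀ k < r, iteratedDeriv k F (l : ℂ) = 0 := fun l hl k hk => by
    have h1 := hS k l (Finset.mem_Icc.1 hl).2
    rw [hmin k hk l hl, show ((0 : 𝓞 K) : K) = 0 from map_zero _, map_zero, zero_mul, eq_comm,
      mul_eq_zero] at h1
    exact h1.resolve_left (pow_ne_zero _ hDC)
  have hder := norm_iteratedDeriv_le hFdiff hR2 hR1 hzero hbound hl₀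
  have hder' : ‖iteratedDeriv r F (l₀ : ℂ)‖ * s ^ (m * r) ≤ K₄ ^ r * (s ^ 3) ^ r := by
    have hfac : (r ! : ℝ) ≤ (s ^ 2) ^ r := by rw [hs2]; exact_mod_cast Nat.factorial_le_pow r
    have h2R : 2 / R * s ≤ 4 * m := by
      rw [hR, div_div_eq_mul_div, div_mul_eq_mul_div, div_le_iff₀ (by exact_mod_cast hr1),
        ← hs2]
      nlinarith [mul_le_mul_of_nonneg_right hqs (show (0 : ℝ) ≤ 2 * s by positivity)]
    calc ‖iteratedDeriv r F (l₀ : ℂ)‖ * s ^ (m * r)
        ≤ (r ! * 2 ^ r * ((2 * (m : ℝ)) ^ (m * r) * ((4 * K₁ * E) ^ r * s ^ r *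
            (2 / R) ^ (m * r)))) * s ^ (m * r) :=
          mul_le_mul_of_nonneg_right hder (by positivity)
      _ = (r ! : ℝ) * 2 ^ r * (2 * (m : ℝ)) ^ (m * r) * ((4 * K₁ * E) ^ r * s ^ r) *
            (2 / R * s) ^ (m * r) := by rw [mul_pow (2 / R)]; ring
      _ ≤ (s ^ 2) ^ r * 2 ^ r * (2 * (m : ℝ)) ^ (m * r) * ((4 * K₁ * E) ^ r * s ^ r) *
            (4 * (m : ℝ)) ^ (m * r) := by gcongr
      _ = K₄ ^ r * (s ^ 3) ^ r := by
        have e : (8 * (m : ℝ) ^ 2) ^ (m * r) =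
            (2 * (m : ℝ)) ^ (m * r) * (4 * (m : ℝ)) ^ (m * r) := by
          rw [← mul_pow]; ring_nf
        rw [hK₄, mul_pow _ (4 * K₁ * E), mul_pow (2 : ℝ) ((8 * (m : ℝ) ^ 2) ^ m),
          ← pow_mul (8 * (m : ℝ) ^ 2), e]
        ring
  -- the contradiction
  have hnorm := one_le_norm_mul_house_pow hρ ψ
  have hψ : ‖ψ (S r l₀ : K)‖ * s ^ (m * r) ≤ K₅ ^ r * (s ^ 3) ^ r := by
    have h1 := congrArg norm (hS r l₀ hl₀m)
    rw [norm_mul, norm_mul, norm_pow, norm_pow, Complex.norm_intCast] at h1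
    have hL0 : 0 < ‖L‖ := norm_pos_iff.2 hL
    have hD3 : |(D : ℝ)| ^ (r + 2 * m * q) ≤ (M ^ 3) ^ r := by
      rw [← pow_mul]
      refine (pow_le_pow_left₀ (abs_nonneg _) hDM _).trans (pow_le_pow_right₀ hM1 ?_)
      nlinarith [hmq.trans hnr]
    refine le_of_mul_le_mul_right ?_ (pow_pos hL0 r)
    calc ‖ψ (S r l₀ : K)‖ * s ^ (m * r) * ‖L‖ ^ r
        = |(D : ℝ)| ^ (r + 2 * m * q) * (‖iteratedDeriv r F (l₀ : ℂ)‖ * s ^ (m * r)) := by
          rw [mul_right_comm, h1, mul_assoc]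
      _ ≤ (M ^ 3) ^ r * (K₄ ^ r * (s ^ 3) ^ r) :=
          mul_le_mul hD3 hder' (by positivity) (by positivity)
      _ = K₅ ^ r * (s ^ 3) ^ r * ‖L‖ ^ r := by
          rw [hK₅, div_pow, mul_pow (M ^ 3)]; field_simp
  have hfinal : s ^ (m * r) ≤ (Kc * s ^ (2 * h + 1)) ^ r := by
    calc s ^ (m * r) ≤ (‖ψ (S r l₀ : K)‖ * house (S r l₀ : K) ^ (h - 1)) * s ^ (m * r) :=
          le_mul_of_one_le_left (by positivity) hnorm
      _ = ‖ψ (S r l₀ : K)‖ * s ^ (m * r) * house (S r l₀ : K) ^ (h - 1) := by ring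
      _ ≤ K₅ ^ r * (s ^ 3) ^ r * (K₂ ^ r * (s ^ 2) ^ r) ^ (h - 1) :=
          mul_le_mul hψ (pow_le_pow_left₀ (house_nonneg _) hρh _)
            (pow_nonneg (house_nonneg _) _) (by positivity)
      _ = (Kc * s ^ (2 * h + 1)) ^ r := by
          obtain ⟨g, hg⟩ : ∃ g, h = g + 1 := ⟨h - 1, by omega⟩
          rw [hKc, hg, Nat.add_sub_cancel]
          simp only [mul_pow, ← pow_mul]
          ring
  have hKc0 : 0 ≤ Kc := by positivity
  rw [pow_mul] at hfinal
  have hle := (pow_le_pow_iff_left₀ (by positivity) (by positivity) (by omega)).1 hfinal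
  have hsK : s ≤ Kc := by
    refine le_of_mul_le_mul_right ?_ (show (0 : ℝ) < s ^ (2 * h + 1) by positivity)
    refine le_trans (le_of_eq ?_) hle
    rw [hm]; ring
  have hrK : (r : ℝ) ≤ Kc ^ 2 := hs2 ▸ pow_le_pow_left₀ (by positivity) hsK 2
  have hNr : (N : ℝ) ≤ r := by exact_mod_cast hNn.trans hnr
  have hceil : Kc ^ 2 < N := by
    rw [hN]; push_cast
    linarith [Nat.le_ceil (Kc ^ 2), show (0 : ℝ) ≤ m by positivity]
  linarith

/-- **Gelfond–Schneider.** -/
theorem transcendental_exp_mul {L β : ℂ} (hL : L ≠ 0) (hβ : IsAlgebraic ℚ β)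
    (hirr : ∀ r : ℚ, β ≠ r) (ha : IsAlgebraic ℚ (Complex.exp L)) :
    Transcendental ℚ (Complex.exp (β * L)) := by
  intro hc
  set T : Set ℂ := {β, Complex.exp L, Complex.exp (β * L)}
  haveI : FiniteDimensional ℚ (IntermediateField.adjoin ℚ T) :=
    IntermediateField.finiteDimensional_adjoin fun x hx => by
      rcases hx with rfl | rfl | rfl
      exacts [hβ.isIntegral, ha.isIntegral, hc.isIntegral]
  haveI : NumberField (IntermediateField.adjoin ℚ T) := { }
  exact false_of_data (K := IntermediateField.adjoin ℚ T)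
    (IntermediateField.adjoin ℚ T).val.toRingHom
    ⟨β, IntermediateField.subset_adjoin ℚ T (by simp [T])⟩
    ⟨Complex.exp L, IntermediateField.subset_adjoin ℚ T (by simp [T])⟩
    ⟨Complex.exp (β * L), IntermediateField.subset_adjoin ℚ T (by simp [T])⟩
    L hL hirr rfl rfl

end FA.GelfondSchneider

end
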