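import Fermat.Agent.Transcendence.BrumerExp

/-!
# The ultrametric Schwarz lemma

A series with `‖a k‖ R ^ k ≤ B`, `R > 1`, is divided by `t - l`, `‖l‖ ≤ 1`, term by term; the
quotient gains a factor `R` and the values of the repeated quotients at `l` are its Taylor
coefficients there. If those are small up to order `T` at the points of a finite set, with
separation `1 / S`, all coefficients are small.
-/

set_option autoImplicit false
set_option linter.unusedSectionVars false

noncomputable section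

namespace FA.Brumer

variable {C : Type*} [NontriviallyNormedField C] [CompleteSpace C] [IsUltrametricDist C]

theorem norm_sub_le_max (x y : C) : ‖x - y‖ ≤ max ‖x‖ ‖y‖ := by
  simpa [sub_eq_add_neg] using IsUltrametricDist.norm_add_le_max x (-y)

/-- The coefficients decay like `B / R ^ k`. -/
def Decays (R B : ℝ) (a : ℕ → C) : Prop := ∀ k, ‖a k‖ * R ^ k ≤ B

/-- The value of a series. -/
def seqEval (a : ℕ → C) (x : C) : C := ∑' k, a k * x ^ k

/-- The quotient of `a - a (l)` by `t - l`. -/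
def seqDiv (l : C) (a : ℕ → C) (k : ℕ) : C := ∑' i, a (k + 1 + i) * l ^ i

variable {R B : ℝ} {a b : ℕ → C}

theorem Decays.nonneg (ha : Decays R B a) : 0 ≤ B := by
  have h := ha 0
  rw [pow_zero, mul_one] at h
  exact (norm_nonneg _).trans h

theorem Decays.coeff_le (hR : 1 ≤ R) (ha : Decays R B a) (k : ℕ) : ‖a k‖ ≤ B :=
  le_trans (le_mul_of_one_le_right (norm_nonneg _) (one_le_pow₀ hR)) (ha k)

theorem Decays.norm_term_le (hR : 1 < R) (ha : Decays R B a) {x : C} (hx : ‖x‖ ≤ 1) (k : ℕ) :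
    ‖a k * x ^ k‖ ≤ B * (R⁻¹) ^ k := by
  have hk : 0 < R ^ k := pow_pos (by linarith) k
  rw [norm_mul, norm_pow, inv_pow, ← div_eq_mul_inv, le_div_iff₀ hk]
  exact le_trans (mul_le_mul_of_nonneg_right (mul_le_of_le_one_right (norm_nonneg _)
    (pow_le_one₀ (norm_nonneg x) hx)) hk.le) (ha k)

theorem Decays.summable (hR : 1 < R) (ha : Decays R B a) {x : C} (hx : ‖x‖ ≤ 1) :
    Summable fun k => a k * x ^ k :=
  Summable.of_norm_bounded ((summable_geometric_of_lt_one (inv_nonneg.mpr (by linarith))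
    (inv_lt_one_of_one_lt₀ hR)).mul_left B) (ha.norm_term_le hR hx)

theorem Decays.tail (hR : 1 ≤ R) (ha : Decays R B a) (n : ℕ) : Decays R B fun i => a (n + i) :=
  fun k => le_trans (mul_le_mul_of_nonneg_left (pow_le_pow_right₀ hR (Nat.le_add_left k n))
    (norm_nonneg _)) (ha (n + k))

theorem norm_seqEval_le (hR : 1 < R) (ha : Decays R B a) {x : C} (hx : ‖x‖ ≤ 1) :
    ‖seqEval a x‖ ≤ B :=
  IsUltrametricDist.norm_tsum_le_of_forall_le_of_nonneg ha.nonneg fun k =>
    (ha.norm_term_le hR hx k).trans (mul_le_of_le_one_right ha.nonneg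
      (pow_le_one₀ (inv_nonneg.mpr (by linarith)) (inv_le_one_of_one_le₀ hR.le)))

variable {l : C}

theorem decays_seqDiv (hR : 1 < R) (hl : ‖l‖ ≤ 1) (ha : Decays R B a) :
    Decays R (B / R) (seqDiv l a) := by
  intro k
  have hR0 : 0 < R := by linarith
  have hb : ‖seqDiv l a k‖ ≤ B / R ^ (k + 1) := by
    refine IsUltrametricDist.norm_tsum_le_of_forall_le_of_nonneg
      (div_nonneg ha.nonneg (pow_nonneg hR0.le _)) fun i => ?_
    rw [norm_mul, norm_pow]
    refine (mul_le_of_le_one_right (norm_nonneg _) (pow_le_one₀ (norm_nonneg l) hl)).trans ?_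
    rw [le_div_iff₀ (pow_pos hR0 _)]
    exact (mul_le_mul_of_nonneg_left (pow_le_pow_right₀ hR.le (Nat.le_add_right (k + 1) i))
      (norm_nonneg _)).trans (ha (k + 1 + i))
  refine (mul_le_mul_of_nonneg_right hb (pow_nonneg hR0.le k)).trans_eq ?_
  rw [pow_succ]
  field_simp

theorem summable_seqDiv_term (hR : 1 < R) (hl : ‖l‖ ≤ 1) (ha : Decays R B a) (k : ℕ) :
    Summable fun i => a (k + 1 + i) * l ^ i :=
  (ha.tail hR.le (k + 1)).summable hR hl

theorem seqDiv_succ (hR : 1 < R) (hl : ‖l‖ ≤ 1) (ha : Decays R B a) (k : ℕ) :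
    seqDiv l a k = a (k + 1) + l * seqDiv l a (k + 1) := by
  rw [seqDiv, seqDiv, (summable_seqDiv_term hR hl ha k).tsum_eq_zero_add, pow_zero, mul_one,
    add_zero, ← tsum_mul_left]
  congr 1
  refine tsum_congr fun i => ?_
  rw [pow_succ, show k + 1 + (i + 1) = k + 1 + 1 + i by ring]
  ring

theorem seqEval_self (hR : 1 < R) (hl : ‖l‖ ≤ 1) (ha : Decays R B a) :
    seqEval a l = a 0 + l * seqDiv l a 0 := by
  rw [seqEval, seqDiv, (ha.summable hR hl).tsum_eq_zero_add, pow_zero, mul_one, ← tsum_mul_left]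
  congr 1
  refine tsum_congr fun i => ?_
  rw [zero_add, add_comm 1 i, pow_succ]
  ring

theorem seqEval_sub (hR : 1 < R) (hl : ‖l‖ ≤ 1) (ha : Decays R B a) {x : C} (hx : ‖x‖ ≤ 1) :
    seqEval a x = seqEval a l + (x - l) * seqEval (seqDiv l a) x := by
  have hg := decays_seqDiv hR hl ha
  set g := seqDiv l a
  have h1 := hg.summable hR hx
  have h2 : Summable fun k => g (k + 1) * x ^ (k + 1) :=
    (summable_nat_add_iff (f := fun k => g k * x ^ k) 1).mpr h1
  rw [seqEval_self hR hl ha, seqEval, (ha.summable hR hx).tsum_eq_zero_add, pow_zero, mul_one,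
    seqEval]
  rw [show (fun k => a (k + 1) * x ^ (k + 1)) =
      fun k => x * (g k * x ^ k) - l * (g (k + 1) * x ^ (k + 1)) from funext fun k => by
    rw [show a (k + 1) = g k - l * g (k + 1) by
      linear_combination -seqDiv_succ hR hl ha k, pow_succ]
    ring,
    (h1.mul_left x).tsum_sub (h2.mul_left l), tsum_mul_left, tsum_mul_left, h1.tsum_eq_zero_add,
    pow_zero, mul_one]
  ring

theorem decays_seqDiv_iterate (hR : 1 < R) (hl : ‖l‖ ≤ 1) (ha : Decays R B a) :
    ∀ j : ℕ, Decays R (B / R ^ j) ((seqDiv l)^[j] a)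
  | 0 => by simpa using ha
  | j + 1 => by
    rw [Function.iterate_succ_apply', pow_succ, ← div_div]
    exact decays_seqDiv hR hl (decays_seqDiv_iterate hR hl ha j)

theorem Decays.mono {B' : ℝ} (hBB : B ≤ B') (ha : Decays R B a) : Decays R B' a :=
  fun k => (ha k).trans hBB

theorem decays_seqDiv_iterate' (hR : 1 < R) (hl : ‖l‖ ≤ 1) (ha : Decays R B a) (j : ℕ) :
    Decays R B ((seqDiv l)^[j] a) :=
  (decays_seqDiv_iterate hR hl ha j).mono (div_le_self ha.nonneg (one_le_pow₀ hR.le))

/-- Bounded solutions of `w k = l w (k + 1)` vanish. -/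
theorem eq_zero_of_rec (hR : 1 < R) (hl : ‖l‖ ≤ 1) {w : ℕ → C} (hw : Decays R B w)
    (hrec : ∀ k, w k = l * w (k + 1)) : w = 0 := by
  funext k
  have h : ∀ n, w k = l ^ n * w (k + n) := fun n => by
    induction n with
    | zero => simp
    | succ n ih => rw [ih, hrec (k + n), pow_succ, mul_assoc, add_assoc]
  have hb : ∀ n : ℕ, ‖w k‖ ≤ B * (R⁻¹) ^ n := fun n => by
    have hk : 0 < R ^ n := pow_pos (by linarith) n
    rw [h n, norm_mul, norm_pow, inv_pow, ← div_eq_mul_inv, le_div_iff₀ hk]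
    refine (mul_le_mul_of_nonneg_right (mul_le_of_le_one_left (norm_nonneg _)
      (pow_le_one₀ (norm_nonneg l) hl)) hk.le).trans ?_
    exact (mul_le_mul_of_nonneg_left (pow_le_pow_right₀ hR.le (Nat.le_add_left n k))
      (norm_nonneg _)).trans (hw (k + n))
  refine norm_le_zero_iff.mp (ge_of_tendsto' (x := Filter.atTop) ?_ hb)
  simpa using (tendsto_pow_atTop_nhds_zero_of_lt_one (inv_nonneg.mpr (by linarith : (0 : ℝ) ≤ R))
    (inv_lt_one_of_one_lt₀ hR)).const_mul B

/-- The first divided difference of a quotient. -/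
theorem seqDiv_seqDiv (hR : 1 < R) (hl : ‖l‖ ≤ 1) {l' : C} (hl' : ‖l'‖ ≤ 1) (hne : l ≠ l')
    (ha : Decays R B a) :
    seqDiv l (seqDiv l' a) = (l - l')⁻¹ • (seqDiv l a - seqDiv l' a) := by
  have hd : l - l' ≠ 0 := sub_ne_zero.mpr hne
  set g := seqDiv l a
  set g' := seqDiv l' a
  have hg := (decays_seqDiv hR hl ha).mono (div_le_self ha.nonneg hR.le)
  have hg' := (decays_seqDiv hR hl' ha).mono (div_le_self ha.nonneg hR.le)
  have hh := (decays_seqDiv hR hl hg').mono (div_le_self ha.nonneg hR.le)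
  refine sub_eq_zero.mp (eq_zero_of_rec hR hl (B := max 1 ‖(l - l')⁻¹‖ * B) (fun k => ?_)
    fun k => ?_)
  · have hmax : ∀ {y : C}, ‖y‖ * R ^ k ≤ B →
        ‖y‖ * R ^ k ≤ max 1 ‖(l - l')⁻¹‖ * B := fun hy =>
      hy.trans (le_mul_of_one_le_left ha.nonneg (le_max_left _ _))
    simp only [Pi.sub_apply, Pi.smul_apply, smul_eq_mul]
    refine le_trans (mul_le_mul_of_nonneg_right ?_ (pow_nonneg (by linarith) k))
      ((max_mul_of_nonneg (‖seqDiv l g' k‖) (‖(l - l')⁻¹‖ * max ‖g k‖ ‖g' k‖)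
        (pow_nonneg (by linarith) k)).le.trans (max_le (hmax (hh k)) ?_))
    · have h1 := IsUltrametricDist.norm_add_le_max (seqDiv l g' k) (-((l - l')⁻¹ * (g k - g' k)))
      rw [← sub_eq_add_neg, norm_neg, norm_mul] at h1
      refine h1.trans (max_le_max le_rfl (mul_le_mul_of_nonneg_left ?_ (norm_nonneg _)))
      rw [sub_eq_add_neg]
      simpa using IsUltrametricDist.norm_add_le_max (g k) (-g' k)
    · rw [mul_assoc]
      refine mul_le_mul (le_max_right _ _) ?_
        (mul_nonneg (le_max_of_le_left (norm_nonneg _)) (pow_nonneg (by linarith) k))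
        (le_max_of_le_left zero_le_one)
      rw [max_mul_of_nonneg _ _ (pow_nonneg (by linarith) k)]
      exact max_le (hg k) (hg' k)
  · simp only [Pi.sub_apply, Pi.smul_apply, smul_eq_mul, g, g']
    linear_combination seqDiv_succ hR hl hg' k - (l - l')⁻¹ * seqDiv_succ hR hl ha k +
      (l - l')⁻¹ * seqDiv_succ hR hl' ha k - seqDiv l' a (k + 1) * inv_mul_cancel₀ hd

theorem seqDiv_linear (hR : 1 < R) (hl : ‖l‖ ≤ 1) (ha : Decays R B a) (hb : Decays R B b) (c : C) :
    seqDiv l (c • (a - b)) = c • (seqDiv l a - seqDiv l b) := by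
  funext k
  simp only [seqDiv, Pi.smul_apply, Pi.sub_apply, smul_eq_mul]
  rw [← (summable_seqDiv_term hR hl ha k).tsum_sub (summable_seqDiv_term hR hl hb k),
    ← tsum_mul_left]
  exact tsum_congr fun i => by ring

theorem seqEval_linear (hR : 1 < R) (hl : ‖l‖ ≤ 1) (ha : Decays R B a) (hb : Decays R B b) (c : C) :
    seqEval (c • (a - b)) l = c * (seqEval a l - seqEval b l) := by
  simp only [seqEval, Pi.smul_apply, Pi.sub_apply, smul_eq_mul]
  rw [← (ha.summable hR hl).tsum_sub (hb.summable hR hl), ← tsum_mul_left]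
  exact tsum_congr fun i => by ring

theorem seqDiv_comm (hR : 1 < R) (hl : ‖l‖ ≤ 1) {l' : C} (hl' : ‖l'‖ ≤ 1) (ha : Decays R B a) :
    seqDiv l (seqDiv l' a) = seqDiv l' (seqDiv l a) := by
  rcases eq_or_ne l l' with rfl | hne
  · rfl
  rw [seqDiv_seqDiv hR hl hl' hne ha, seqDiv_seqDiv hR hl' hl hne.symm ha,
    show (l' - l)⁻¹ = -(l - l')⁻¹ by rw [← inv_neg, neg_sub], neg_smul, ← smul_neg, neg_sub]

theorem iterate_linear (hR : 1 < R) (hl : ‖l‖ ≤ 1) (ha : Decays R B a) (hb : Decays R B b) (c : C) :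
    ∀ j : ℕ, (seqDiv l)^[j] (c • (a - b)) = c • ((seqDiv l)^[j] a - (seqDiv l)^[j] b)
  | 0 => rfl
  | j + 1 => by
    rw [Function.iterate_succ_apply', Function.iterate_succ_apply', Function.iterate_succ_apply',
      iterate_linear hR hl ha hb c j, seqDiv_linear hR hl (decays_seqDiv_iterate' hR hl ha j)
        (decays_seqDiv_iterate' hR hl hb j)]

/-- The small values are kept, up to the separation, by the quotient at another point. -/
theorem norm_mixed_le (hR : 1 < R) (hl : ‖l‖ ≤ 1) {l' : C} (hl' : ‖l'‖ ≤ 1) (ha : Decays R B a)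
    {S ε : ℝ} (hS : 1 ≤ S) (hsep : 1 ≤ S * ‖l - l'‖) {T : ℕ}
    (h1 : ∀ j < T, ‖seqEval ((seqDiv l)^[j] a) l‖ ≤ ε)
    (h2 : ∀ j < T, ‖seqEval ((seqDiv l')^[j] a) l'‖ ≤ ε) :
    ∀ i j : ℕ, i ≤ T → j < T →
      ‖seqEval ((seqDiv l')^[j] ((seqDiv l)^[i] a)) l'‖ ≤ S ^ (i + j) * ε := by
  rcases Nat.eq_zero_or_pos T with hT0 | hT0
  · intro i j _ hj; omega
  have hε : 0 ≤ ε := (norm_nonneg _).trans (h1 0 hT0)
  have hd0 : l - l' ≠ 0 := fun h => by rw [h, norm_zero, mul_zero] at hsep; linarith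
  have hdinv : ‖(l - l')⁻¹‖ ≤ S := by
    rw [norm_inv, inv_le_iff_one_le_mul₀ (norm_pos_iff.mpr hd0)]
    exact hsep
  intro i
  induction i with
  | zero =>
    intro j _ hj
    exact (h2 j hj).trans (le_mul_of_one_le_left hε (one_le_pow₀ hS))
  | succ i ih =>
    intro j
    set ai := (seqDiv l)^[i] a
    have hai : Decays R B ai := decays_seqDiv_iterate' hR hl ha i
    rw [Function.iterate_succ_apply']
    induction j with
    | zero =>
      intro hi _
      have h := seqEval_sub hR hl hai hl'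
      have hv : seqEval (seqDiv l ai) l' = (l' - l)⁻¹ * (seqEval ai l' - seqEval ai l) := by
        rw [h, add_sub_cancel_left, ← mul_assoc,
          inv_mul_cancel₀ (by simpa [sub_eq_zero, eq_comm] using hd0), one_mul]
      rw [Function.iterate_zero_apply, hv, norm_mul, norm_inv, norm_sub_rev, ← norm_inv,
        add_zero, pow_succ', mul_assoc]
      refine mul_le_mul hdinv ((norm_sub_le_max _ _).trans (max_le ?_ ?_))
        (norm_nonneg _) (by linarith)
      · simpa using ih 0 (by omega) hT0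
      · exact (h1 i (by omega)).trans (le_mul_of_one_le_left hε (one_le_pow₀ hS))
    | succ j ihj =>
      intro hi hj
      have hgl := (decays_seqDiv hR hl hai).mono (div_le_self ha.nonneg hR.le)
      have hgl' := (decays_seqDiv hR hl' hai).mono (div_le_self ha.nonneg hR.le)
      rw [Function.iterate_succ_apply, seqDiv_comm hR hl' hl hai,
        seqDiv_seqDiv hR hl hl' (fun e => hd0 (sub_eq_zero.mpr e)) hai,
        iterate_linear hR hl' hgl hgl',
        seqEval_linear hR hl' (decays_seqDiv_iterate' hR hl' hgl j)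
          (decays_seqDiv_iterate' hR hl' hgl' j), norm_mul,
        show i + 1 + (j + 1) = (i + 1 + j) + 1 by ring, pow_succ', mul_assoc]
      refine mul_le_mul hdinv ((norm_sub_le_max _ _).trans (max_le ?_ ?_))
        (norm_nonneg _) (by linarith)
      · exact ihj hi (by omega)
      · rw [← Function.iterate_succ_apply]
        exact (ih (j + 1) (by omega) hj).trans_eq (by rw [show i + (j + 1) = i + 1 + j by ring])

theorem coeff_le_of_seqDiv (hR : 1 < R) (hl : ‖l‖ ≤ 1) (ha : Decays R B a) {M : ℝ}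
    (h0 : ‖seqEval a l‖ ≤ M) (hg : ∀ k, ‖seqDiv l a k‖ ≤ M) : ∀ k, ‖a k‖ ≤ M
  | 0 => by
    rw [show a 0 = seqEval a l + -(l * seqDiv l a 0) by rw [seqEval_self hR hl ha]; ring]
    refine (IsUltrametricDist.norm_add_le_max _ _).trans (max_le h0 ?_)
    rw [norm_neg, norm_mul]
    exact (mul_le_of_le_one_left (norm_nonneg _) hl).trans (hg 0)
  | k + 1 => by
    rw [show a (k + 1) = seqDiv l a k + -(l * seqDiv l a (k + 1)) by
      rw [seqDiv_succ hR hl ha k]; ring]
    refine (IsUltrametricDist.norm_add_le_max _ _).trans (max_le (hg k) ?_)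
    rw [norm_neg, norm_mul]
    exact (mul_le_of_le_one_left (norm_nonneg _) hl).trans (hg (k + 1))

theorem coeff_le_of_iterate (hR : 1 < R) (hl : ‖l‖ ≤ 1) {M : ℝ} : ∀ (T : ℕ) {a : ℕ → C},
    Decays R B a → (∀ j < T, ‖seqEval ((seqDiv l)^[j] a) l‖ ≤ M) →
      (∀ k, ‖(seqDiv l)^[T] a k‖ ≤ M) → ∀ k, ‖a k‖ ≤ M
  | 0, _, _, _, hg => hg
  | T + 1, a, ha, h, hg => by
    refine coeff_le_of_seqDiv hR hl ha (h 0 (Nat.succ_pos T)) (coeff_le_of_iterate hR hl T
      ((decays_seqDiv hR hl ha).mono (div_le_self ha.nonneg hR.le)) (fun j hj => ?_) ?_)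
    · rw [← Function.iterate_succ_apply]; exact h (j + 1) (by omega)
    · rwa [← Function.iterate_succ_apply]

/-- **The ultrametric Schwarz lemma.** -/
theorem schwarz (hR : 1 < R) {S : ℝ} (hS : 1 ≤ S) {T : ℕ} (nodes : Finset C)
    (hnodes : ∀ x ∈ nodes, ‖x‖ ≤ 1)
    (hsep : ∀ x ∈ nodes, ∀ y ∈ nodes, x ≠ y → 1 ≤ S * ‖x - y‖) :
    ∀ {a : ℕ → C} {B ε : ℝ}, Decays R B a → 0 ≤ ε →
      (∀ x ∈ nodes, ∀ j < T, ‖seqEval ((seqDiv x)^[j] a) x‖ ≤ ε) →
      ∀ k, ‖a k‖ ≤ max ((S ^ (2 * T)) ^ nodes.card * ε) (B / (R ^ T) ^ nodes.card) := by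
  classical
  induction nodes using Finset.induction with
  | empty =>
    intro a B ε ha _ _ k
    exact le_max_of_le_right (by simpa using ha.coeff_le hR.le k)
  | @insert l s hls ih =>
    intro a B ε ha hε h k
    have hl : ‖l‖ ≤ 1 := hnodes l (Finset.mem_insert_self l s)
    have hD : 1 ≤ S ^ (2 * T) := one_le_pow₀ hS
    have hε' : 0 ≤ S ^ (2 * T) * ε := by positivity
    have hs := ih (fun x hx => hnodes x (Finset.mem_insert_of_mem hx))
      (fun x hx y hy => hsep x (Finset.mem_insert_of_mem hx) y (Finset.mem_insert_of_mem hy))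
      (decays_seqDiv_iterate hR hl ha T) hε' fun x hx j hj => by
        refine (norm_mixed_le hR hl (hnodes x (Finset.mem_insert_of_mem hx)) ha hS
          (hsep l (Finset.mem_insert_self l s) x (Finset.mem_insert_of_mem hx)
            fun e => hls (e ▸ hx)) (h l (Finset.mem_insert_self l s))
          (h x (Finset.mem_insert_of_mem hx)) T j le_rfl hj).trans ?_
        exact mul_le_mul_of_nonneg_right (pow_le_pow_right₀ hS (by omega)) hε
    rw [Finset.card_insert_of_notMem hls, pow_succ, pow_succ', ← div_div, mul_assoc]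
    refine coeff_le_of_iterate hR hl T ha (fun j hj => le_max_of_le_left ?_) hs k
    exact (h l (Finset.mem_insert_self l s) j hj).trans
      ((le_mul_of_one_le_left hε hD).trans (le_mul_of_one_le_left hε' (one_le_pow₀ hD)))

/-- Uniqueness of the Taylor coefficients at a point. -/
theorem seqEval_iterate_eq (hR : 1 < R) (hl : ‖l‖ ≤ 1) : ∀ (j : ℕ) {a b : ℕ → C},
    Decays R B a → Decays R B b → (∀ h : C, ‖h‖ ≤ 1 → seqEval a (l + h) = seqEval b h) →
      seqEval ((seqDiv l)^[j] a) l = b j := by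
  have h0 : ‖(0 : C)‖ ≤ 1 := by simp
  have hb0 : ∀ {b : ℕ → C}, Decays R B b → seqEval b 0 = b 0 := fun {b} hb => by
    rw [seqEval_self hR h0 hb, zero_mul, add_zero]
  intro j
  induction j with
  | zero =>
    intro a b _ hb hab
    have := hab 0 h0
    rw [add_zero, hb0 hb] at this
    exact this
  | succ j ih =>
    intro a b ha hb hab
    have hga := (decays_seqDiv hR hl ha).mono (div_le_self ha.nonneg hR.le)
    have hshift : ∀ k, seqDiv (0 : C) b k = b (k + 1) := fun k => by
      rw [seqDiv_succ hR h0 hb, zero_mul, add_zero]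
    have hgb := (decays_seqDiv hR h0 hb).mono (div_le_self ha.nonneg hR.le)
    rw [Function.iterate_succ_apply, ih hga hgb, hshift]
    -- away from `0`
    have hne : ∀ h : C, ‖h‖ ≤ 1 → h ≠ 0 →
        seqEval (seqDiv l a) (l + h) = seqEval (seqDiv 0 b) h := fun h hh hne => by
      have hlh : ‖l + h‖ ≤ 1 :=
        (IsUltrametricDist.norm_add_le_max l h).trans (max_le hl hh)
      have e1 := seqEval_sub hR hl ha hlh
      have e2 := seqEval_sub hR h0 hb hh
      have e3 := hab 0 h0
      rw [add_zero] at e3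
      rw [hab h hh, e3, e2, add_right_inj, add_sub_cancel_left, sub_zero] at e1
      exact (mul_left_cancel₀ hne e1).symm
    intro h hh
    by_cases hz : h = 0
    · subst hz
      rw [add_zero]
      refine sub_eq_zero.mp (norm_le_zero_iff.mp (le_of_forall_gt_imp_ge_of_dense fun δ hδ => ?_))
      obtain ⟨c, hc0, hc⟩ := NormedField.exists_norm_lt C
        (lt_min one_pos (div_pos hδ (lt_of_le_of_lt ha.nonneg (lt_add_one B))))
      have hc1 : ‖c‖ ≤ 1 := hc.le.trans (min_le_left _ _)
      have hcB : ‖c‖ * B ≤ δ := by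
        have h1 := hc.le.trans (min_le_right _ _)
        rw [le_div_iff₀ (lt_of_le_of_lt ha.nonneg (lt_add_one B))] at h1
        linarith [norm_nonneg c]
      have hlc : ‖l + c‖ ≤ 1 := (IsUltrametricDist.norm_add_le_max l c).trans (max_le hl hc1)
      have e1 := seqEval_sub hR hl hga hlc
      have e2 := seqEval_sub hR h0 hgb hc1
      rw [add_sub_cancel_left] at e1
      rw [sub_zero] at e2
      rw [show seqEval (seqDiv l a) l - seqEval (seqDiv 0 b) 0 =
          c * seqEval (seqDiv 0 (seqDiv 0 b)) c + -(c * seqEval (seqDiv l (seqDiv l a)) (l + c)) by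
        have e := hne c hc1 (norm_pos_iff.mp hc0)
        linear_combination e - e1 + e2]
      refine (IsUltrametricDist.norm_add_le_max _ _).trans (max_le ?_ ?_)
      · rw [norm_mul]
        exact (mul_le_mul_of_nonneg_left (norm_seqEval_le hR
          ((decays_seqDiv hR h0 hgb).mono (div_le_self ha.nonneg hR.le)) hc1) (norm_nonneg _)).trans
            hcB
      · rw [norm_neg, norm_mul]
        exact (mul_le_mul_of_nonneg_left (norm_seqEval_le hR
          ((decays_seqDiv hR hl hga).mono (div_le_self ha.nonneg hR.le)) hlc) (norm_nonneg _)).trans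
            hcB
    · exact hne h hh hz

end FA.Brumer

end
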