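import Mathlib.NumberTheory.Transcendental.Lindemann.AnalyticalPart
import Mathlib.FieldTheory.AlgebraicClosure
import Mathlib.Algebra.MonoidAlgebra.NoZeroDivisors
import Mathlib.Algebra.Group.UniqueProds.VectorSpace
import Mathlib.RingTheory.Algebraic.Integral
import Mathlib.FieldTheory.Normal.Basic
import Mathlib.RingTheory.IntegralClosure.IntegrallyClosed
import Mathlib.RingTheory.Localization.Integral
import Mathlib.RingTheory.RootsOfUnity.Complex
import Mathlib.RingTheory.Polynomial.RationalRoot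
import Mathlib.Topology.Algebra.Order.Floor
import Mathlib.Analysis.Complex.Polynomial.Basic

/-!
# The algebraic half of the Hermite–Lindemann theorem

Let `α ≠ 0` be algebraic and suppose `exp α` is a root of `P ∈ ℤ[X]`, `P(0) ≠ 0`. The product of
`P(exp a)` over the conjugates `a` of `α` expands into a relation `∑ w(θ) exp θ = 0` in integers,
not identically zero as the group ring of `(A, +)` has no zero divisors, and invariant under the
automorphisms of the field `A` of algebraic numbers; multiplying by an orbit puts a non-zero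
coefficient at `θ = 0`. Mathlib's analytic approximation of `exp θ` then gives a non-zero integer
of absolute value less than one.
-/

set_option autoImplicit false
set_option linter.style.haveILetI false

noncomputable section

namespace FA.HermiteLindemann

open Polynomial
open scoped Nat

/-- The algebraic numbers in `ℂ`. -/
abbrev Alg : IntermediateField ℚ ℂ := algebraicClosure ℚ ℂ

instance isAlgebraicAlg : Algebra.IsAlgebraic ℚ Alg := algebraicClosure.isAlgebraic ℚ ℂ

instance normalAlg : Normal ℚ Alg :=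
  haveI : IsAlgClosure ℚ Alg := algebraicClosure.isAlgClosure ℚ ℂ
  IsAlgClosure.normal ℚ Alg

theorem isAlgebraic_int (x : Alg) : IsAlgebraic ℤ x :=
  (IsFractionRing.isAlgebraic_iff ℤ ℚ Alg).2 (Algebra.IsAlgebraic.isAlgebraic x)

/-- A non-zero algebraic number is a root of an integer polynomial with non-zero constant. -/
theorem exists_intPoly {x : Alg} (hx : x ≠ 0) :
    ∃ P : ℤ[X], P.eval 0 ≠ 0 ∧ aeval x P = 0 := by
  obtain ⟨p, hp, hpx⟩ := isAlgebraic_int x
  obtain ⟨q, hq, hdvd⟩ := Polynomial.exists_eq_pow_rootMultiplicity_mul_and_not_dvd p hp 0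
  refine ⟨q, fun h => hdvd (dvd_iff_isRoot.2 h), ?_⟩
  rw [hq, map_mul, map_pow, map_sub, aeval_X, aeval_C, map_zero, sub_zero, mul_eq_zero] at hpx
  exact hpx.resolve_left (pow_ne_zero _ hx)

/-- Automorphisms are transitive on the roots of a minimal polynomial. -/
theorem exists_aut {x y : Alg} (h : aeval y (minpoly ℚ x) = 0) : ∃ τ : Alg ≃ₐ[ℚ] Alg, τ x = y :=
  minpoly.exists_algEquiv_of_root' (Algebra.IsAlgebraic.isAlgebraic x) h

/-- An algebraic number fixed by every automorphism is rational. -/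
theorem rational_of_fixed {x : Alg} (h : ∀ τ : Alg ≃ₐ[ℚ] Alg, τ x = x) :
    ∃ q : ℚ, x = algebraMap ℚ Alg q := by
  classical
  have hi : IsIntegral ℚ x := Algebra.IsIntegral.isIntegral x
  have hsub : ((minpoly ℚ x).aroots Alg).toFinset ⊆ {x} := fun r hr => by
    rw [Multiset.mem_toFinset, mem_aroots] at hr
    obtain ⟨τ, hτ⟩ := exists_aut hr.2
    rw [Finset.mem_singleton, ← hτ, h τ]
  have hcard : ((minpoly ℚ x).aroots Alg).toFinset.card = (minpoly ℚ x).natDegree := by
    rw [Multiset.toFinset_card_of_nodup (Polynomial.nodup_roots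
      ((minpoly.irreducible hi).separable.map (f := algebraMap ℚ Alg))),
      Splits.natDegree_eq_card_roots (Normal.splits (F := ℚ) (K := Alg) inferInstance x)
        |>.symm, natDegree_map]
  obtain ⟨q, hq⟩ := minpoly.natDegree_eq_one_iff.1 (le_antisymm
    (hcard ▸ (Finset.card_le_card hsub).trans_eq (Finset.card_singleton x))
    (minpoly.natDegree_pos hi))
  exact ⟨q, hq.symm⟩

/-- A common integer clearing the denominators. -/
theorem exists_denominator (S : Finset Alg) :
    ∃ D : ℤ, D ≠ 0 ∧ ∀ x ∈ S, IsIntegral ℤ ((D : Alg) * x) := by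
  classical
  induction S using Finset.induction with
  | empty => exact ⟨1, one_ne_zero, by simp⟩
  | @insert a S _ ih =>
    obtain ⟨D, hD, h⟩ := ih
    obtain ⟨y, hy, hy'⟩ := (isAlgebraic_int a).exists_integral_multiple
    refine ⟨D * y, mul_ne_zero hD hy, fun x hx => ?_⟩
    rcases Finset.mem_insert.1 hx with rfl | hx
    · rw [zsmul_eq_mul] at hy'
      rw [Int.cast_mul, mul_assoc]
      exact (isIntegral_algebraMap (R := ℤ) (x := D)).mul hy'
    · rw [Int.cast_mul, mul_comm (D : Alg), mul_assoc]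
      exact (isIntegral_algebraMap (R := ℤ) (x := y)).mul (h x hx)

/-- **The analytic contradiction.** -/
theorem relation_ne_zero (S : Finset Alg) (h0 : (0 : Alg) ∉ S) (w : Alg → ℤ)
    (hS : ∀ (τ : Alg ≃ₐ[ℚ] Alg), ∀ x ∈ S, τ x ∈ S)
    (hw : ∀ (τ : Alg ≃ₐ[ℚ] Alg) (x : Alg), w (τ x) = w x) {k : ℤ} (hk : k ≠ 0) :
    (k : ℂ) + ∑ x ∈ S, (w x : ℂ) * Complex.exp (x : ℂ) ≠ 0 := by
  classical
  intro heq
  choose P hP0 hP using fun x : {x : Alg // x ∈ S} =>
    exists_intPoly (x := x.1) fun h => h0 (h ▸ x.2)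
  set f : ℤ[X] := ∏ x, P x with hf
  have hf0 : f.eval 0 ≠ 0 := by
    rw [hf, eval_prod]; exact Finset.prod_ne_zero_iff.2 fun x _ => hP0 x
  have hroot : ∀ x ∈ S, (x : ℂ) ∈ f.aroots ℂ := fun x hx => by
    rw [mem_aroots]
    refine ⟨fun h => hf0 (by rw [h, eval_zero]), ?_⟩
    rw [hf, map_prod]
    refine Finset.prod_eq_zero (Finset.mem_univ ⟨x, hx⟩) ?_
    rw [show (x : ℂ) = (Alg.val.restrictScalars ℤ) x from rfl, aeval_algHom_apply,
      hP ⟨x, hx⟩, map_zero]
  obtain ⟨D, hD, hDint⟩ := exists_denominator S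
  obtain ⟨c, hc⟩ := LindemannWeierstrass.exp_polynomial_approx f hf0
  set W : ℝ := ∑ x ∈ S, |(w x : ℝ)| with hW
  set b : ℝ := |(D : ℝ)| ^ f.natDegree * |c| with hb
  obtain ⟨N, hN⟩ := Filter.eventually_atTop.1
    ((((FloorSemiring.tendsto_pow_div_factorial_atTop b).const_mul (b * W)).congr'
      (Filter.Eventually.of_forall fun _ => rfl)).eventually_lt_const
        (u := (1 : ℝ)) (by simp))
  obtain ⟨p, hpN, hp⟩ :=
    Nat.exists_infinite_primes (N + (f.eval 0).natAbs + D.natAbs + k.natAbs + 2)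
  obtain ⟨n, hn, g, hg, happ⟩ := hc p (by omega) hp
  set m := p * f.natDegree with hm
  -- the integer `D ^ m * ∑ w x * g x`
  have hint : IsIntegral ℤ ((D : Alg) ^ m * ∑ x ∈ S, (w x : Alg) * aeval x g) := by
    rw [Finset.mul_sum]
    refine IsIntegral.sum _ fun x hx => ?_
    rw [mul_left_comm, aeval_eq_sum_range, Finset.mul_sum, Finset.mul_sum]
    refine IsIntegral.sum _ fun i hi => ?_
    have hi' : i ≤ m := by
      have := Finset.mem_range.1 hi
      omega
    rw [zsmul_eq_mul, show (D : Alg) ^ m = (D : Alg) ^ (m - i) * (D : Alg) ^ i by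
      rw [← pow_add, Nat.sub_add_cancel hi'], show (w x : Alg) * ((D : Alg) ^ (m - i) *
        (D : Alg) ^ i * ((g.coeff i : Alg) * x ^ i)) =
        (w x : Alg) * (D : Alg) ^ (m - i) * (g.coeff i : Alg) * ((D : Alg) * x) ^ i by ring]
    exact (((isIntegral_algebraMap (R := ℤ) (x := w x)).mul
      ((isIntegral_algebraMap (R := ℤ) (x := D)).pow _)).mul
      (isIntegral_algebraMap (R := ℤ) (x := g.coeff i))).mul ((hDint x hx).pow _)
  obtain ⟨q, hq⟩ := rational_of_fixed
    (x := (D : Alg) ^ m * ∑ x ∈ S, (w x : Alg) * aeval x g) fun τ => by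
      rw [map_mul, map_pow, map_intCast, map_sum]
      congr 1
      refine Finset.sum_bij (fun x _ => τ x) (fun x hx => hS τ x hx)
        (fun x _ y _ h => τ.injective h)
        (fun y hy => ⟨τ.symm y, hS τ.symm y hy, τ.apply_symm_apply y⟩) fun x _ => ?_
      rw [map_mul, map_intCast, hw τ x,
        show τ x = (τ.toAlgHom.restrictScalars ℤ) x from rfl, aeval_algHom_apply]
      rfl
  rw [hq, isIntegral_algebraMap_iff (algebraMap ℚ Alg).injective] at hint
  obtain ⟨M, hM⟩ := IsIntegrallyClosed.isIntegral_iff.1 hint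
  have hMC : (M : ℂ) = (D : ℂ) ^ m * ∑ x ∈ S, (w x : ℂ) * aeval (x : ℂ) g := by
    have h := congrArg (fun z : Alg => (z : ℂ)) hq
    rw [← hM] at h
    push_cast at h
    rw [show (M : ℂ) = ((algebraMap ℚ Alg (algebraMap ℤ ℚ M) : Alg) : ℂ) by simp]
    rw [← h]
    congr 1
    refine Finset.sum_congr rfl fun x _ => ?_
    rw [show (x : ℂ) = (Alg.val.restrictScalars ℤ) x from rfl, aeval_algHom_apply]
    rfl
  have hne : n * k * D ^ m + p * M ≠ 0 := fun h => by
    have hdvd : (p : ℤ) ∣ n * k * D ^ m := ⟨-M, by linarith⟩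
    rcases Int.Prime.dvd_mul' hp hdvd with h1 | h1
    · rcases Int.Prime.dvd_mul' hp h1 with h2 | h2
      · exact hn h2
      · have := Nat.le_of_dvd (Int.natAbs_pos.2 hk) (Int.natCast_dvd.1 h2)
        omega
    · have := Nat.le_of_dvd (Int.natAbs_pos.2 hD)
        (Int.natCast_dvd.1 (Int.Prime.dvd_pow' hp h1))
      omega
  have hval : ((n * k * D ^ m + p * M : ℤ) : ℂ) =
      -((D : ℂ) ^ m * ∑ x ∈ S, (w x : ℂ) * (n • Complex.exp (x : ℂ) - p • aeval (x : ℂ) g)) := by
    have e : ∑ x ∈ S, (w x : ℂ) * (n • Complex.exp (x : ℂ) - p • aeval (x : ℂ) g) =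
        (n : ℂ) * ∑ x ∈ S, (w x : ℂ) * Complex.exp (x : ℂ) -
          (p : ℂ) * ∑ x ∈ S, (w x : ℂ) * aeval (x : ℂ) g := by
      rw [Finset.mul_sum, Finset.mul_sum, ← Finset.sum_sub_distrib]
      refine Finset.sum_congr rfl fun x _ => ?_
      rw [zsmul_eq_mul, nsmul_eq_mul]; ring
    rw [e]
    push_cast
    rw [hMC]
    linear_combination ((n : ℂ) * (D : ℂ) ^ m) * heq
  have h1 : (1 : ℝ) ≤ ‖((n * k * D ^ m + p * M : ℤ) : ℂ)‖ := by
    rw [Complex.norm_intCast]
    exact_mod_cast Int.one_le_abs hne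
  have h2 : ‖((n * k * D ^ m + p * M : ℤ) : ℂ)‖ ≤ b * W * (b ^ (p - 1) / (p - 1)!) := by
    have hbp : b * W * (b ^ (p - 1) / (p - 1)!) =
        |(D : ℝ)| ^ m * (W * (|c| ^ p / (p - 1)!)) := by
      rw [hb, hm, mul_pow, ← pow_mul, mul_comm p f.natDegree]
      obtain ⟨j, hj⟩ : ∃ j, p = j + 1 := ⟨p - 1, by omega⟩
      rw [hj, Nat.add_sub_cancel, Nat.mul_succ, pow_add, pow_succ (|c|)]
      ring
    rw [hval, norm_neg, norm_mul, norm_pow, Complex.norm_intCast, hbp]
    refine mul_le_mul_of_nonneg_left ((norm_sum_le _ _).trans ?_) (by positivity)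
    rw [hW, Finset.sum_mul]
    refine Finset.sum_le_sum fun x hx => ?_
    rw [norm_mul, Complex.norm_intCast]
    refine mul_le_mul_of_nonneg_left ((happ (hroot x hx)).trans ?_) (abs_nonneg _)
    exact div_le_div_of_nonneg_right ((le_abs_self _).trans_eq (abs_pow c p)) (by positivity)
  have h3 := hN (p - 1) (by omega)
  linarith

/-- The action of an automorphism on the group ring of `(A, +)`. -/
def act (τ : Alg ≃ₐ[ℚ] Alg) : AddMonoidAlgebra ℤ Alg ≃+* AddMonoidAlgebra ℤ Alg :=
  AddMonoidAlgebra.mapDomainRingEquiv ℤ τ.toRingEquiv.toAddEquiv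

theorem coeff_act (τ : Alg ≃ₐ[ℚ] Alg) (G : AddMonoidAlgebra ℤ Alg) (x : Alg) :
    (act τ G).coeff (τ x) = G.coeff x := by
  rw [act, AddMonoidAlgebra.coeff_mapDomainRingEquiv, Finsupp.equivMapDomain_apply]
  exact congrArg G.coeff (τ.symm_apply_apply x)

theorem act_single (τ : Alg ≃ₐ[ℚ] Alg) (x : Alg) (r : ℤ) :
    act τ (AddMonoidAlgebra.single x r) = AddMonoidAlgebra.single (τ x) r := by
  apply AddMonoidAlgebra.coeff_injective
  rw [act, AddMonoidAlgebra.coeff_mapDomainRingEquiv, AddMonoidAlgebra.coeff_single,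
    AddMonoidAlgebra.coeff_single, Finsupp.equivMapDomain_single]
  rfl

/-- `x ↦ exp x` on the group ring. -/
def expHom : AddMonoidAlgebra ℤ Alg →ₐ[ℤ] ℂ :=
  AddMonoidAlgebra.lift ℤ ℂ Alg
    { toFun := fun x => Complex.exp (x.toAdd : Alg)
      map_one' := by simp
      map_mul' := fun x y => by simp [Complex.exp_add] }

theorem expHom_single (x : Alg) (r : ℤ) :
    expHom (AddMonoidAlgebra.single x r) = (r : ℂ) * Complex.exp (x : ℂ) := by
  rw [expHom, AddMonoidAlgebra.lift_single, zsmul_eq_mul]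
  rfl

/-- Automorphisms permute the roots of a rational polynomial. -/
theorem image_roots (p : ℚ[X]) (τ : Alg ≃ₐ[ℚ] Alg) [DecidableEq Alg] :
    (p.aroots Alg).toFinset.image τ = (p.aroots Alg).toFinset := by
  refine Finset.eq_of_subset_of_card_le (fun y hy => ?_)
    (Finset.card_image_of_injective _ τ.injective).ge
  obtain ⟨x, hx, rfl⟩ := Finset.mem_image.1 hy
  rw [Multiset.mem_toFinset, mem_aroots] at hx ⊢
  refine ⟨hx.1, ?_⟩
  rw [show τ x = τ.toAlgHom x from rfl, aeval_algHom_apply, hx.2, map_zero]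

/-- **A non-zero invariant element of the group ring does not evaluate to zero**. -/
theorem expHom_ne_zero {G : AddMonoidAlgebra ℤ Alg} (hG : G ≠ 0)
    (hinv : ∀ τ : Alg ≃ₐ[ℚ] Alg, act τ G = G) : expHom G ≠ 0 := by
  classical
  intro hzero
  have hco : ∀ (τ : Alg ≃ₐ[ℚ] Alg) (x : Alg), G.coeff (τ x) = G.coeff x := fun τ x => by
    conv_lhs => rw [← hinv τ]
    exact coeff_act τ G x
  obtain ⟨x₀, hx₀⟩ : ∃ x₀, G.coeff x₀ ≠ 0 := by
    by_contra hcon
    push Not at hcon
    exact hG (AddMonoidAlgebra.coeff_injective (Finsupp.ext (by simpa using hcon)))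
  have hi₀ : IsIntegral ℚ x₀ := Algebra.IsIntegral.isIntegral x₀
  set O := ((minpoly ℚ x₀).aroots Alg).toFinset with hO
  set H := G * ∑ o ∈ O, AddMonoidAlgebra.single (-o) (1 : ℤ) with hH
  have hHinv : ∀ τ : Alg ≃ₐ[ℚ] Alg, act τ H = H := fun τ => by
    rw [hH, map_mul, hinv, map_sum]
    congr 1
    conv_rhs => rw [hO, ← image_roots _ τ, Finset.sum_image τ.injective.injOn]
    refine Finset.sum_congr rfl fun o _ => ?_
    rw [act_single, map_neg]
  have hk : H.coeff 0 = (O.card : ℤ) * G.coeff x₀ := by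
    rw [hH, Finset.mul_sum, AddMonoidAlgebra.coeff_sum, Finset.sum_apply',
      Finset.card_eq_sum_ones, Nat.cast_sum, Finset.sum_mul]
    refine Finset.sum_congr rfl fun o ho => ?_
    rw [AddMonoidAlgebra.coeff_mul_single_apply, mul_one, Nat.cast_one, one_mul, neg_neg, zero_add]
    rw [hO, Multiset.mem_toFinset, mem_aroots] at ho
    obtain ⟨τ, rfl⟩ := exists_aut ho.2
    exact hco τ x₀
  have hO0 : O.card ≠ 0 := Finset.card_ne_zero.2 ⟨x₀, by
    rw [hO, Multiset.mem_toFinset, mem_aroots]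
    exact ⟨minpoly.ne_zero hi₀, minpoly.aeval ℚ x₀⟩⟩
  have hcoH : ∀ (τ : Alg ≃ₐ[ℚ] Alg) (x : Alg), H.coeff (τ x) = H.coeff x := fun τ x => by
    conv_lhs => rw [← hHinv τ]
    exact coeff_act τ H x
  refine relation_ne_zero (H.coeff.support.erase 0) (Finset.notMem_erase _ _) H.coeff
    (fun τ x hx => ?_) hcoH (k := H.coeff 0)
    (by rw [hk]; exact mul_ne_zero (Nat.cast_ne_zero.2 hO0) hx₀) ?_
  · rw [Finset.mem_erase, Finsupp.mem_support_iff] at hx ⊢
    exact ⟨fun h => hx.1 (by simpa using h), by rw [hcoH]; exact hx.2⟩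
  have hsum : expHom H = ∑ x ∈ H.coeff.support, (H.coeff x : ℂ) * Complex.exp (x : ℂ) := by
    conv_lhs => rw [← AddMonoidAlgebra.sum_coeff_single H]
    rw [Finsupp.sum, map_sum]
    exact Finset.sum_congr rfl fun x _ => expHom_single x _
  have hHz : expHom H = 0 := by rw [hH, map_mul, hzero, zero_mul]
  rw [hsum, ← Finset.add_sum_erase _ _ (a := (0 : Alg)) (Finsupp.mem_support_iff.2
    (by rw [hk]; exact mul_ne_zero (Nat.cast_ne_zero.2 hO0) hx₀))] at hHz
  simpa using hHz

/-- **Hermite–Lindemann.** -/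
theorem transcendental_exp {a : ℂ} (ha : a ≠ 0) (halg : IsAlgebraic ℚ a) :
    Transcendental ℚ (Complex.exp a) := by
  classical
  intro hb
  set α : Alg := ⟨a, mem_algebraicClosure_iff.2 halg⟩ with hα
  set β : Alg := ⟨Complex.exp a, mem_algebraicClosure_iff.2 hb⟩ with hβ
  obtain ⟨P, hP0, hP⟩ := exists_intPoly (x := β) fun h =>
    Complex.exp_ne_zero a (congrArg (fun z : Alg => (z : ℂ)) h)
  have hiα : IsIntegral ℚ α := Algebra.IsIntegral.isIntegral α
  set A := ((minpoly ℚ α).aroots Alg).toFinset with hA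
  set G := ∏ x ∈ A, aeval (AddMonoidAlgebra.single x (1 : ℤ)) P with hG
  refine expHom_ne_zero (G := G) ?_ ?_ ?_
  · refine Finset.prod_ne_zero_iff.2 fun x hx h => ?_
    rw [hA, Multiset.mem_toFinset, mem_aroots] at hx
    obtain ⟨τ, rfl⟩ := exists_aut hx.2
    have hne : α ≠ 0 := fun h0 => ha (congrArg (fun z : Alg => (z : ℂ)) h0)
    have h0 := congrArg (fun Q : AddMonoidAlgebra ℤ Alg => Q.coeff 0) h
    simp only [aeval_eq_sum_range, AddMonoidAlgebra.coeff_sum, Finset.sum_apply',
      AddMonoidAlgebra.single_pow, one_pow, AddMonoidAlgebra.smul_single, smul_eq_mul, mul_one,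
      AddMonoidAlgebra.coeff_single, Finsupp.single_apply, AddMonoidAlgebra.coeff_zero,
      Finsupp.coe_zero, Pi.zero_apply] at h0
    rw [Finset.sum_eq_single 0] at h0
    · rw [if_pos (zero_smul ℕ _), coeff_zero_eq_eval_zero] at h0
      exact hP0 h0
    · intro j _ hj
      rw [if_neg]
      rw [smul_eq_zero]
      exact not_or_intro hj (fun h1 => hne (by simpa using h1))
    · simp
  · intro τ
    rw [hG, map_prod]
    conv_rhs => rw [hA, ← image_roots _ τ, Finset.prod_image τ.injective.injOn]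
    refine Finset.prod_congr rfl fun x _ => ?_
    rw [← act_single, show (act τ) (aeval (AddMonoidAlgebra.single x (1 : ℤ)) P) =
      (act τ).toRingHom.toIntAlgHom (aeval (AddMonoidAlgebra.single x (1 : ℤ)) P) from rfl,
      ← aeval_algHom_apply]
    rfl
  · rw [hG, map_prod]
    refine Finset.prod_eq_zero (i := α) ?_ ?_
    · rw [hA, Multiset.mem_toFinset, mem_aroots]
      exact ⟨minpoly.ne_zero hiα, minpoly.aeval ℚ α⟩
    · rw [← aeval_algHom_apply, expHom_single, Int.cast_one, one_mul,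
        show Complex.exp (α : ℂ) = (Alg.val.restrictScalars ℤ) β from rfl, aeval_algHom_apply, hP,
        map_zero]

end FA.HermiteLindemann

end
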