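import Fermat.Agent.Transcendence.SchneiderJ

/-!
# Periods and `π`

If `℘` has algebraic invariants, the quotient of `π` by a non-zero period is transcendental:
otherwise `exp z` and `℘ (c z)`, for `c` the period divided by `2 π i`, would be algebraically
independent with algebraic values, together with their derivatives, at all odd multiples of `π i`.
-/

set_option autoImplicit false
set_option linter.style.haveILetI false

noncomputable section

namespace FA.SchneiderLang

open PeriodPair MvPolynomial Module
open scoped Topology Real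

variable {L : PeriodPair}

/-- Some period is not commensurable with a given non-zero one. -/
theorem exists_independent_period (η : ℂ) :
    ∃ ω ∈ L.lattice, ∀ a b : ℤ, (a : ℂ) * ω = b * η → a = 0 := by
  by_contra hno
  push Not at hno
  obtain ⟨a₁, b₁, e₁, ha₁⟩ := hno _ L.ω₁_mem_lattice
  obtain ⟨a₂, b₂, e₂, ha₂⟩ := hno _ L.ω₂_mem_lattice
  have h := LinearIndependent.pair_iff.1 L.indep ((a₁ * b₂ : ℤ) : ℝ) ((-(a₂ * b₁) : ℤ) : ℝ) (by
    simp only [Complex.real_smul]
    push_cast
    linear_combination (b₂ : ℂ) * e₁ - (b₁ : ℂ) * e₂)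
  have hb₂ : b₂ = 0 := by
    have : a₁ * b₂ = 0 := by exact_mod_cast h.1
    exact (mul_eq_zero.1 this).resolve_left ha₁
  rw [hb₂, Int.cast_zero, zero_mul] at e₂
  exact (mul_ne_zero (Int.cast_ne_zero.2 ha₂) (by simpa using L.indep.ne_zero 1)) e₂

/-- **`π / ω` is transcendental** for a non-zero period `ω` of a `℘` with algebraic invariants. -/
theorem transcendental_pi_div_period (h₂ : IsAlgebraic ℚ L.g₂) (h₃ : IsAlgebraic ℚ L.g₃) {ω : ℂ}
    (hω : ω ∈ L.lattice) (h0 : ω ≠ 0) : Transcendental ℚ ((π : ℂ) / ω) := by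
  classical
  obtain ⟨η, hη, hη0, hη2, s, rfl⟩ := exists_primitive_period hω h0
  intro hal
  have hπ : (π : ℂ) ≠ 0 := Complex.ofReal_ne_zero.2 Real.pi_ne_zero
  set c : ℂ := η / (2 * π * Complex.I) with hc_def
  have hc : IsAlgebraic ℚ c := by
    have hI : IsAlgebraic ℚ Complex.I :=
      IsAlgebraic.of_pow two_pos (by rw [Complex.I_sq]; exact isAlgebraic_one.neg)
    have h2 : IsAlgebraic ℚ ((2 : ℂ) ^ s) := (isAlgebraic_natCast 2).pow s
    have h := (((isAlgebraic_natCast 2).mul hI).mul (h2.mul hal)).inv
    rw [show c = (((2 : ℕ) : ℂ) * Complex.I * (2 ^ s * ((π : ℂ) / (2 ^ s * η))))⁻¹ by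
      rw [hc_def]; push_cast; field_simp]
    exact h
  have hcη : c * (π * Complex.I) = η / 2 := by rw [hc_def]; field_simp
  have hc0 : c ≠ 0 := fun e => hη2 (by rw [← hcη, e, zero_mul]; exact zero_mem _)
  have he := isAlgebraic_weierstrassP_half h₂ h₃ hη hη2
  set T : Set ℂ := {c, L.g₂, ℘[L] (η / 2)}
  haveI : FiniteDimensional ℚ (IntermediateField.adjoin ℚ T) :=
    IntermediateField.finiteDimensional_adjoin fun x hx => by
      rcases hx with rfl | rfl | rfl
      exacts [hc.isIntegral, h₂.isIntegral, he.isIntegral]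
  haveI : NumberField (IntermediateField.adjoin ℚ T) := { }
  set K := IntermediateField.adjoin ℚ T
  have hmem : ∀ x ∈ T, ∃ a : K, (a : ℂ) = x := fun x hx =>
    ⟨⟨x, IntermediateField.subset_adjoin ℚ T hx⟩, rfl⟩
  obtain ⟨ac, hac⟩ := hmem c (by simp [T])
  obtain ⟨ag, hag⟩ := hmem L.g₂ (by simp [T])
  obtain ⟨ae, hae⟩ := hmem (℘[L] (η / 2)) (by simp [T])
  obtain ⟨θ, g, hθ, hθ0, hg, hgθ, Cb, hC, hb⟩ := exists_multiplier L
  set n := 4 * 2 * finrank ℚ K
  let pts : ℕ → ℂ := fun k => π * Complex.I + k * (2 * π * Complex.I)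
  have hinj : Function.Injective pts := fun a b hab => by
    simpa [pts, hπ] using hab
  have hcpts : ∀ k, c * pts k = η / 2 + k * η := fun k => by
    simp only [pts]; linear_combination (1 + 2 * (k : ℂ)) * hcη
  have hcard := card_le_of_values_mem (K := K) K.val.toRingHom (σ := Fin 3)
    (f := ![Complex.exp, fun z => ℘[L] (c * z), fun z => ℘'[L] (c * z)])
    (U := (fun z => c * z) ⁻¹' (L.lattice : Set ℂ)ᶜ)
    (L.isClosed_lattice.isOpen_compl.preimage (by fun_prop))
    ![X 0, C ac * X 2, C ac * (C 6 * X 1 ^ 2 - C (ag / 2))]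
    (fun i z hz => by
      fin_cases i
      · simpa using Complex.hasDerivAt_exp z
      · have := (Mazur.Weier.analyticAt_P L hz).differentiableAt.hasDerivAt
        rw [L.deriv_weierstrassP] at this
        simpa [hac, mul_comm c, Function.comp_def] using
          this.comp z ((hasDerivAt_id' z).const_mul c)
      · have := (Mazur.Weier.analyticAt_P' L hz).differentiableAt.hasDerivAt
        rw [Mazur.Weier.deriv_derivWeierstrassP L hz] at this
        simpa [hac, hag, map_ofNat, mul_comm c, Function.comp_def] using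
          this.comp z ((hasDerivAt_id' z).const_mul c))
    ((Finset.range (n + 1)).image pts)
    (fun w hw => by
      obtain ⟨k, -, rfl⟩ := Finset.mem_image.1 hw
      intro hm
      have hm' : c * pts k ∈ L.lattice := hm
      rw [hcpts] at hm'
      exact hη2 ((values_add_mul hη k).2.2.1 hm'))
    (fun w hw i => by
      obtain ⟨k, -, rfl⟩ := Finset.mem_image.1 hw
      fin_cases i
      · exact ⟨-1, by simp [pts, Complex.exp_add, Complex.exp_nat_mul_two_pi_mul_I,
          Complex.exp_pi_mul_I]⟩
      · exact ⟨ae, by simp [hcpts, hae, (values_add_mul hη k).1]⟩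
      · exact ⟨0, by simp [hcpts, (values_add_mul hη k).2.1, derivWeierstrassP_half hη]⟩)
    0 1 (θ := fun z => θ (c * z)) (hθ.comp (differentiable_id.const_mul c))
    (fun h => hθ0 (funext fun y => by
      have := congrFun h (y / c); simpa [mul_div_cancel₀ _ hc0] using this))
    (g₀ := fun z => θ (c * z) * Complex.exp z) (g₁ := fun z => g (c * z))
    ((hθ.comp (differentiable_id.const_mul c)).mul Complex.differentiable_exp)
    (hg.comp (differentiable_id.const_mul c))
    (fun z _ => by simp) (fun z hz => by simp [hgθ _ hz])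
    (ρ := 2) two_pos (C := Cb * (‖c‖ + 1) ^ 2 + 1)
    (fun z => (hb (c * z)).1.trans (Real.exp_le_exp.2 (by
      nlinarith [scale_bound hC c z, sq_nonneg (‖z‖ + 1)])))
    (fun z => (norm_mul_le_exp (hb (c * z)).1
      (show ‖Complex.exp z‖ ≤ Real.exp ((‖z‖ + 1) ^ 2) by
        rw [Complex.norm_exp]
        exact Real.exp_le_exp.2 (by nlinarith [Complex.re_le_norm z, norm_nonneg z]))).trans
      (Real.exp_le_exp.2 (by linarith [scale_bound hC c z])))
    (fun z => (hb (c * z)).2.trans (Real.exp_le_exp.2 (by
      nlinarith [scale_bound hC c z, sq_nonneg (‖z‖ + 1)])))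
    (fun q d hd => by
      obtain ⟨ω', hω', hind⟩ := exists_independent_period (L := L) η
      refine eq_zero_of_grid d (infinite_image_weierstrassP L
        (Mazur.Weier.countable_lattice L) le_rfl) ?_
      rintro _ ⟨w, hw, rfl⟩
      refine ⟨Set.range fun k : ℕ => Complex.exp (w / c + k * (ω' / c)),
        Set.infinite_range_of_injective fun a b hab => ?_, ?_⟩
      · obtain ⟨m, hm⟩ := Complex.exp_eq_exp_iff_exists_int.1 hab
        have h1 := hind ((a : ℤ) - b) m (by
          push_cast
          rw [show η = c * (2 * π * Complex.I) by linear_combination -2 * hcη]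
          have hc1 : c * (ω' / c) = ω' := mul_div_cancel₀ _ hc0
          linear_combination c * hm - ((a : ℂ) - b) * hc1)
        omega
      · rintro _ ⟨k, rfl⟩
        have hcz : c * (w / c + k * (ω' / c)) = w + k * ω' := by field_simp
        have hmem' : c * (w / c + k * (ω' / c)) ∉ L.lattice := by
          rw [hcz]; exact fun hm => hw ((values_add_mul hω' k).2.2.1 hm)
        have h := hd (w / c + k * (ω' / c)) hmem'
        simpa [hcz, (values_add_mul (v := w) hω' k).1] using h)
  rw [Finset.card_image_of_injective _ hinj, Finset.card_range] at hcard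
  omega

end FA.SchneiderLang

end
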