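import Fermat.Agent.Transcendence.SchneiderJ

/-!
# Values of `℘` at algebraic points

If `℘` has algebraic invariants, it takes a transcendental value at every non-zero algebraic
point: otherwise `z` and `℘ z` would have algebraic values, with bounded degree, at all multiples
of the point. The ratio of two periods is algebraic only if it is quadratic.
-/

set_option autoImplicit false
set_option linter.style.haveILetI false

noncomputable section

namespace FA.SchneiderLang

open PeriodPair MvPolynomial Module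
open scoped Topology

variable {L : PeriodPair}

/-- A number field contains few points with all of `z`, `℘ z`, `℘' z` in it. -/
theorem card_le_of_weierstrass_values (K : IntermediateField ℚ ℂ) [FiniteDimensional ℚ K]
    (hg₂ : L.g₂ ∈ K) (W : Finset ℂ) (hWL : ∀ w ∈ W, w ∉ L.lattice)
    (hW : ∀ w ∈ W, w ∈ K ∧ ℘[L] w ∈ K ∧ ℘'[L] w ∈ K) : W.card ≤ 4 * 2 * finrank ℚ K := by
  classical
  haveI : NumberField K := { }
  obtain ⟨θ, g, hθ, hθ0, hg, hgθ, Cb, hC, hb⟩ := exists_multiplier L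
  have hω : L.ω₁ ≠ 0 := by simpa using L.indep.ne_zero 0
  set ag : K := ⟨L.g₂, hg₂⟩ with hag
  exact card_le_of_values_mem (K := K) K.val.toRingHom (σ := Fin 3)
    (f := ![fun z => z, ℘[L], ℘'[L]]) (U := (L.lattice : Set ℂ)ᶜ) L.isClosed_lattice.isOpen_compl
    ![1, X 2, C 6 * X 1 ^ 2 - C (ag / 2)]
    (fun i z hz => by
      fin_cases i
      · simpa using hasDerivAt_id' z
      · have := (Mazur.Weier.analyticAt_P L hz).differentiableAt.hasDerivAt
        rw [L.deriv_weierstrassP] at this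
        simpa using this
      · have := (Mazur.Weier.analyticAt_P' L hz).differentiableAt.hasDerivAt
        rw [Mazur.Weier.deriv_derivWeierstrassP L hz] at this
        simpa [hag, map_ofNat] using this)
    W hWL
    (fun w hw i => by
      fin_cases i
      · exact ⟨⟨w, (hW w hw).1⟩, rfl⟩
      · exact ⟨⟨_, (hW w hw).2.1⟩, rfl⟩
      · exact ⟨⟨_, (hW w hw).2.2⟩, rfl⟩)
    0 1 hθ hθ0 (g₀ := fun z => θ z * z) (g₁ := g) (hθ.mul differentiable_id) hg
    (fun z _ => by simp) (fun z hz => by simpa using hgθ z hz) (ρ := 2) two_pos (C := Cb + 1)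
    (fun z => (hb z).1.trans (Real.exp_le_exp.2 (by nlinarith [sq_nonneg (‖z‖ + 1)])))
    (fun z => (norm_mul_le_exp (hb z).1
      (show ‖z‖ ≤ Real.exp ((‖z‖ + 1) ^ 2) by
        nlinarith [Real.add_one_le_exp ((‖z‖ + 1) ^ 2), norm_nonneg z])).trans
      (le_of_eq (by ring_nf)))
    (fun z => (hb z).2.trans (Real.exp_le_exp.2 (by nlinarith [sq_nonneg (‖z‖ + 1)])))
    (fun q c hc => by
      refine eq_zero_of_grid c (infinite_image_weierstrassP L
        (Mazur.Weier.countable_lattice L) le_rfl) ?_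
      rintro _ ⟨z, hz, rfl⟩
      refine ⟨Set.range fun k : ℕ => z + k * L.ω₁,
        Set.infinite_range_of_injective fun a b hab => by simpa [hω] using hab, ?_⟩
      rintro _ ⟨k, rfl⟩
      have h := hc (z + k * L.ω₁) fun hm => hz ((values_add_mul L.ω₁_mem_lattice k).2.2.1 hm)
      simpa [(values_add_mul (v := z) L.ω₁_mem_lattice k).1] using h)

/-- **Schneider: `℘ α` is transcendental** at a non-zero algebraic `α`. -/
theorem transcendental_weierstrassP (h₂ : IsAlgebraic ℚ L.g₂) (h₃ : IsAlgebraic ℚ L.g₃) {α : ℂ}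
    (hα : IsAlgebraic ℚ α) (h0 : α ≠ 0) : Transcendental ℚ (℘[L] α) := by
  classical
  intro hP
  have hnot : ∀ k : ℤ, k ≠ 0 → (k : ℂ) * α ∉ L.lattice := fun k hk hm =>
    transcendental_period h₂ h₃ hm (mul_ne_zero (Int.cast_ne_zero.2 hk) h0)
      ((isAlgebraic_intCast k).mul hα)
  have hαL : α ∉ L.lattice := by simpa using hnot 1 one_ne_zero
  have hP'0 : ℘'[L] α ≠ 0 := fun h => hnot 2 two_ne_zero (by
    have := Mazur.Weier.sub_mem_of_eq L (x := -α) (fun hm => hαL (by simpa using neg_mem hm)) hαL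
      (L.weierstrassP_neg α) (by simp [h])
    simpa [two_mul] using this)
  have hP' : IsAlgebraic ℚ (℘'[L] α) := IsAlgebraic.of_pow two_pos (by
    rw [L.derivWeierstrassP_sq α hαL]
    exact (((isAlgebraic_natCast 4).mul (hP.pow 3)).sub (h₂.mul hP)).sub h₃)
  set T : Set ℂ := {α, L.g₂, L.g₃, ℘[L] α, ℘'[L] α}
  haveI : FiniteDimensional ℚ (IntermediateField.adjoin ℚ T) :=
    IntermediateField.finiteDimensional_adjoin fun x hx => by
      rcases hx with rfl | rfl | rfl | rfl | rfl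
      exacts [hα.isIntegral, h₂.isIntegral, h₃.isIntegral, hP.isIntegral, hP'.isIntegral]
  set K := IntermediateField.adjoin ℚ T
  have hT : ∀ x ∈ T, x ∈ K := fun x hx => IntermediateField.subset_adjoin ℚ T hx
  have hαK : α ∈ K := hT _ (by simp [T])
  have h2K : L.g₂ ∈ K := hT _ (by simp [T])
  have h3K : L.g₃ ∈ K := hT _ (by simp [T])
  have hPK : ℘[L] α ∈ K := hT _ (by simp [T])
  have hP'K : ℘'[L] α ∈ K := hT _ (by simp [T])
  have hnat : ∀ k : ℕ, k ≠ 0 → (k : ℂ) * α ∉ L.lattice := fun k hk => by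
    simpa using hnot k (by exact_mod_cast hk)
  have hne : ∀ k : ℕ, 2 ≤ k → ℘[L] (k * α) ≠ ℘[L] α := fun k hk h => by
    rcases Mazur.Weier.eq_or_eq_neg_of_eq L (hnat k (by omega)) hαL h with h | h
    · refine hnot (1 - k) (by omega) ?_
      rw [show (((1 - k : ℤ)) : ℂ) * α = α - k * α by push_cast; ring]
      exact h
    · refine hnot (1 + k) (by omega) ?_
      rw [show (((1 + k : ℤ)) : ℂ) * α = α + k * α by push_cast; ring]
      exact h
  -- the values of `℘` at the multiples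
  have hP2 : ℘[L] ((2 : ℕ) * α) ∈ K := by
    rw [Nat.cast_two, two_mul, Mazur.Weier.weierstrassP_double L hαL hP'0]
    exact sub_mem (div_mem (pow_mem (div_mem (sub_mem (mul_mem (natCast_mem K 6) (pow_mem hPK 2))
      (div_mem h2K (natCast_mem K 2))) hP'K) 2) (natCast_mem K 4)) (mul_mem (natCast_mem K 2) hPK)
  have hsq : ∀ {z : ℂ}, z ∉ L.lattice → ℘[L] z ∈ K → ℘'[L] z ^ 2 ∈ K := fun {z} hz h => by
    rw [L.derivWeierstrassP_sq z hz]
    exact sub_mem (sub_mem (mul_mem (natCast_mem K 4) (pow_mem h 3)) (mul_mem h2K h)) h3K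
  have hall : ∀ k : ℕ, ℘[L] ((k + 1 : ℕ) * α) ∈ K ∧ ℘[L] ((k + 2 : ℕ) * α) ∈ K := by
    intro k
    induction k with
    | zero => exact ⟨by simpa using hPK, hP2⟩
    | succ k ih =>
      refine ⟨ih.2, ?_⟩
      have h := Mazur.Weier.weierstrassP_add_sub L (hnat (k + 2) (by omega)) hαL hP'0
        (hne (k + 2) (by omega))
      rw [show ((k + 2 : ℕ) : ℂ) * α + α = ((k + 1 + 2 : ℕ) : ℂ) * α by push_cast; ring,
        show ((k + 2 : ℕ) : ℂ) * α - α = ((k + 1 : ℕ) : ℂ) * α by push_cast; ring] at h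
      rw [eq_sub_of_add_eq h]
      exact sub_mem (sub_mem (div_mem (div_mem (add_mem (hsq (hnat _ (by omega)) ih.2)
        (hsq hαL hPK)) (pow_mem (sub_mem ih.2 hPK) 2)) (natCast_mem K 2))
        (mul_mem (natCast_mem K 2) (add_mem ih.2 hPK))) ih.1
  have hderiv : ∀ k : ℕ, ℘'[L] ((k + 2 : ℕ) * α) ∈ K := fun k => by
    have hz := hnat (k + 2) (by omega)
    have hd : ℘[L] ((k + 2 : ℕ) * α) - ℘[L] α ≠ 0 := sub_ne_zero.2 (hne (k + 2) (by omega))
    have h := Mazur.Weier.weierstrassP_add L hz hαL hP'0 (hne (k + 2) (by omega))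
    rw [show ((k + 2 : ℕ) : ℂ) * α + α = ((k + 1 + 2 : ℕ) : ℂ) * α by push_cast; ring] at h
    have e : ℘'[L] ((k + 2 : ℕ) * α) = (℘'[L] ((k + 2 : ℕ) * α) ^ 2 + ℘'[L] α ^ 2 -
        (4 : ℕ) * (℘[L] ((k + 1 + 2 : ℕ) * α) + ℘[L] ((k + 2 : ℕ) * α) + ℘[L] α) *
          (℘[L] ((k + 2 : ℕ) * α) - ℘[L] α) ^ 2) / ((2 : ℕ) * ℘'[L] α) := by
      rw [h]
      field_simp
      push_cast
      ring
    rw [e]
    exact div_mem (sub_mem (add_mem (hsq hz (hall k).2) (pow_mem hP'K 2))
      (mul_mem (mul_mem (natCast_mem K 4) (add_mem (add_mem (hall (k + 1)).2 (hall k).2) hPK))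
        (pow_mem (sub_mem (hall k).2 hPK) 2))) (mul_mem (natCast_mem K 2) hP'K)
  let pts : ℕ → ℂ := fun k => ((k + 2 : ℕ) : ℂ) * α
  have hinj : Function.Injective pts := fun a b hab => by
    have := mul_right_cancel₀ h0 hab
    exact Nat.add_right_cancel (Nat.cast_injective this)
  set n := 4 * 2 * finrank ℚ K
  have hcard := card_le_of_weierstrass_values K h2K ((Finset.range (n + 1)).image pts)
    (fun w hw => by
      obtain ⟨k, -, rfl⟩ := Finset.mem_image.1 hw
      exact hnat _ (by omega))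
    (fun w hw => by
      obtain ⟨k, -, rfl⟩ := Finset.mem_image.1 hw
      exact ⟨mul_mem (natCast_mem K _) hαK, (hall k).2, hderiv k⟩)
  rw [Finset.card_image_of_injective _ hinj, Finset.card_range] at hcard
  omega

/-- **The period ratio** of a `℘` with algebraic invariants is algebraic only if quadratic. -/
theorem exists_quadratic_period_ratio (h₂ : IsAlgebraic ℚ L.g₂) (h₃ : IsAlgebraic ℚ L.g₃)
    (hτ : IsAlgebraic ℚ (L.ω₂ / L.ω₁)) :
    ∃ a b c : ℤ, a ≠ 0 ∧
      (a : ℂ) * (L.ω₂ / L.ω₁) ^ 2 + b * (L.ω₂ / L.ω₁) + c = 0 := by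
  have hω : L.ω₁ ≠ 0 := by simpa using L.indep.ne_zero 0
  have e : L.ω₂ / L.ω₁ * L.ω₁ = L.ω₂ := div_mul_cancel₀ _ hω
  obtain ⟨N, hN, hmem⟩ := exists_mul_sq_mem h₂ h₃ hτ L.ω₁_mem_lattice L.ω₁_div_two_notMem_lattice
    (e.symm ▸ L.ω₂_mem_lattice) (e.symm ▸ L.ω₂_div_two_notMem_lattice)
  obtain ⟨m, n, hmn⟩ := PeriodPair.mem_lattice.1 hmem
  refine ⟨N, -n, -m, hN, mul_left_cancel₀ hω ?_⟩
  push_cast
  linear_combination -hmn - (n : ℂ) * e

end FA.SchneiderLang

end
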