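import Mathlib.Analysis.Normed.Ring.InfiniteSum
import Mathlib.Analysis.Normed.Ring.Ultra
import Mathlib.NumberTheory.Padics.PadicNumbers
import Mathlib.NumberTheory.Padics.PadicVal.Basic
import Mathlib.NumberTheory.NumberField.House
import Mathlib.RingTheory.Ideal.Norm.AbsNorm
import Fermat.Agent.Transcendence.GelfondSchneider

/-!
# The `p`-adic exponential, and the size of algebraic integers

In a complete ultrametric field over `ℚ_p` the exponential series converges for `‖x‖ < 1 / p` and
turns sums into products there. An algebraic integer has `‖ψ x‖ ≤ 1` at every `p`-adic place and,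
as it divides its norm, `1 ≤ ‖ψ x‖ house (x) ^ d`.
-/

set_option autoImplicit false
set_option linter.unusedSectionVars false
set_option linter.style.haveILetI false

noncomputable section

namespace FA.Brumer

open scoped Nat

section Basic

variable (p : ℕ) [hp : Fact p.Prime]

include hp in
theorem one_lt_prime : (1 : ℝ) < p := by exact_mod_cast hp.out.one_lt

include hp in
theorem prime_pos : (0 : ℝ) < p := lt_trans one_pos (one_lt_prime p)

variable {C : Type*} [NontriviallyNormedField C] [IsUltrametricDist C]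

/-- The exponential series. -/
def expTerm (x : C) (n : ℕ) : C := x ^ n * ((n ! : ℕ) : C)⁻¹

/-- The disc on which we use the exponential. -/
def Small (x : C) : Prop := (p : ℝ) * ‖x‖ < 1

variable {p}

theorem small_iff {x : C} : Small p x ↔ (p : ℝ) * ‖x‖ < 1 := Iff.rfl

theorem Small.zero : Small p (0 : C) := by simp [small_iff]

include hp in
theorem Small.add {x y : C} (hx : Small p x) (hy : Small p y) : Small p (x + y) := by
  refine lt_of_le_of_lt (mul_le_mul_of_nonneg_left (IsUltrametricDist.norm_add_le_max x y)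
    (prime_pos p).le) ?_
  rw [mul_max_of_nonneg _ _ (prime_pos p).le]
  exact max_lt hx hy

include hp in
theorem Small.sum {κ : Type*} {S : Finset κ} {x : κ → C} (h : ∀ i ∈ S, Small p (x i)) :
    Small p (∑ i ∈ S, x i) := by
  classical
  induction S using Finset.induction with
  | empty => simpa using Small.zero
  | insert i S hi ih =>
    rw [Finset.sum_insert hi]
    exact (h i (Finset.mem_insert_self i S)).add (ih fun j hj => h j (Finset.mem_insert_of_mem hj))

include hp in
theorem Small.mul {x : C} (hx : Small p x) {c : C} (hc : ‖c‖ ≤ 1) : Small p (c * x) := by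
  rw [small_iff, norm_mul]
  exact lt_of_le_of_lt (mul_le_mul_of_nonneg_left
    (mul_le_of_le_one_left (norm_nonneg x) hc) (prime_pos p).le) hx

/-- The exponential. -/
def pexp (x : C) : C := ∑' n, expTerm x n

theorem pexp_zero : pexp (0 : C) = 1 := by
  rw [pexp, tsum_eq_single 0 fun n hn => by simp [expTerm, zero_pow hn]]
  simp [expTerm]

end Basic

section Exp

variable (p : ℕ) [hp : Fact p.Prime] {C : Type*} [NontriviallyNormedField C] [CompleteSpace C]
  [IsUltrametricDist C] [hC : NormedAlgebra ℚ_[p] C]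

include hp hC

theorem charZero_of_padic : CharZero C :=
  charZero_of_injective_algebraMap (algebraMap ℚ_[p] C).injective

theorem norm_natCast (n : ℕ) : ‖(n : C)‖ = ‖(n : ℚ_[p])‖ := by
  rw [← map_natCast (algebraMap ℚ_[p] C), norm_algebraMap']

theorem norm_intCast (n : ℤ) : ‖(n : C)‖ = ‖(n : ℚ_[p])‖ := by
  rw [← map_intCast (algebraMap ℚ_[p] C), norm_algebraMap']

theorem norm_prime : ‖(p : C)‖ = (p : ℝ)⁻¹ := by rw [norm_natCast p, Padic.norm_p]

/-- `1 / n ≤ ‖n‖`. -/
theorem inv_natCast_le_norm {n : ℕ} (hn : n ≠ 0) : (n : ℝ)⁻¹ ≤ ‖(n : C)‖ := by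
  rw [norm_natCast p, show (n : ℚ_[p]) = ((n : ℚ) : ℚ_[p]) by norm_cast, Padic.eq_padicNorm,
    padicNorm.eq_zpow_of_nonzero (Nat.cast_ne_zero.mpr hn), padicValRat.of_nat, zpow_neg,
    zpow_natCast]
  push_cast
  refine inv_anti₀ (pow_pos (prime_pos p) _) ?_
  exact_mod_cast Nat.le_of_dvd (Nat.pos_of_ne_zero hn) pow_padicValNat_dvd

theorem norm_inv_factorial_le (n : ℕ) : ‖((n ! : ℕ) : C)⁻¹‖ ≤ (p : ℝ) ^ n := by
  rw [norm_inv, norm_natCast p, show ((n ! : ℕ) : ℚ_[p]) = (((n ! : ℕ) : ℚ) : ℚ_[p]) by norm_cast,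
    Padic.eq_padicNorm, padicNorm.eq_zpow_of_nonzero (Nat.cast_ne_zero.mpr n.factorial_ne_zero),
    padicValRat.of_nat, zpow_neg, zpow_natCast]
  push_cast
  rw [inv_inv]
  exact pow_le_pow_right₀ (one_lt_prime p).le (padicValNat_factorial_le (p := p) n)

theorem norm_expTerm_le (x : C) (n : ℕ) : ‖expTerm x n‖ ≤ ((p : ℝ) * ‖x‖) ^ n := by
  rw [expTerm, norm_mul, norm_pow, mul_pow, mul_comm ((p : ℝ) ^ n)]
  exact mul_le_mul_of_nonneg_left (norm_inv_factorial_le p n) (pow_nonneg (norm_nonneg x) n)

variable {p}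

theorem summable_norm_expTerm {x : C} (hx : Small p x) : Summable fun n => ‖expTerm x n‖ :=
  Summable.of_nonneg_of_le (fun _ => norm_nonneg _) (norm_expTerm_le p x)
    (summable_geometric_of_lt_one (mul_nonneg (prime_pos p).le (norm_nonneg x)) hx)

theorem pexp_add {x y : C} (hx : Small p x) (hy : Small p y) :
    pexp (x + y) = pexp x * pexp y := by
  haveI := charZero_of_padic p (C := C)
  rw [pexp, pexp, pexp, tsum_mul_tsum_eq_tsum_sum_antidiagonal_of_summable_norm
    (summable_norm_expTerm hx) (summable_norm_expTerm hy)]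
  refine tsum_congr fun n => ?_
  rw [expTerm, add_pow, Finset.Nat.sum_antidiagonal_eq_sum_range_succ
    (fun i j => expTerm x i * expTerm y j), Finset.sum_mul]
  refine Finset.sum_congr rfl fun i hi => ?_
  have hin : i ≤ n := Nat.lt_succ_iff.mp (Finset.mem_range.mp hi)
  have h1 : ∀ k : ℕ, ((k ! : ℕ) : C) ≠ 0 := fun k => Nat.cast_ne_zero.mpr k.factorial_ne_zero
  have h := congrArg (fun k : ℕ => (k : C)) (Nat.choose_mul_factorial_mul_factorial hin)
  push_cast at h
  simp only [expTerm]
  field_simp [h1]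
  linear_combination (x ^ i * y ^ (n - i)) * h

theorem pexp_sum {κ : Type*} {S : Finset κ} {x : κ → C} (h : ∀ i ∈ S, Small p (x i)) :
    pexp (∑ i ∈ S, x i) = ∏ i ∈ S, pexp (x i) := by
  classical
  induction S using Finset.induction with
  | empty => simpa using pexp_zero
  | insert i S hi ih =>
    rw [Finset.sum_insert hi, Finset.prod_insert hi, pexp_add (h i (Finset.mem_insert_self i S))
      (Small.sum fun j hj => h j (Finset.mem_insert_of_mem hj)),
      ih fun j hj => h j (Finset.mem_insert_of_mem hj)]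

theorem pexp_nat_mul {x : C} (hx : Small p x) (n : ℕ) : pexp ((n : C) * x) = pexp x ^ n := by
  induction n with
  | zero => rw [Nat.cast_zero, zero_mul, pow_zero, pexp_zero]
  | succ n ih =>
    rw [Nat.cast_succ, add_mul, one_mul, pexp_add (hx.mul
      (IsUltrametricDist.norm_natCast_le_one C n))
      hx, ih, pow_succ]

theorem norm_pexp_sub_one_le {x : C} (hx : Small p x) : ‖pexp x - 1‖ ≤ (p : ℝ) * ‖x‖ := by
  have hs := (summable_norm_expTerm hx).of_norm
  have h := hs.sum_add_tsum_nat_add 1
  rw [Finset.sum_range_one] at h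
  rw [pexp, ← h, show expTerm x 0 = (1 : C) by simp [expTerm], add_sub_cancel_left]
  refine IsUltrametricDist.norm_tsum_le_of_forall_le_of_nonneg
    (mul_nonneg (prime_pos p).le (norm_nonneg x)) fun n => (norm_expTerm_le p x _).trans ?_
  exact (pow_le_pow_of_le_one (mul_nonneg (prime_pos p).le (norm_nonneg x)) hx.le
    (Nat.le_add_left 1 n)).trans_eq (pow_one _)

theorem norm_pexp {x : C} (hx : Small p x) : ‖pexp x‖ = 1 := by
  have h := lt_of_le_of_lt (norm_pexp_sub_one_le hx) hx
  refine le_antisymm ?_ ?_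
  · have := IsUltrametricDist.norm_add_le_max (pexp x - 1) (1 : C)
    rw [sub_add_cancel, norm_one] at this
    exact this.trans (max_le h.le le_rfl)
  · have h' := IsUltrametricDist.norm_add_le_max (pexp x) (-(pexp x - 1))
    rw [norm_neg, show pexp x + -(pexp x - 1) = 1 by ring, norm_one] at h'
    rcases le_max_iff.mp h' with h2 | h2
    · exact h2
    · linarith

end Exp

section Integral

variable {C : Type*} [NormedField C] [IsUltrametricDist C]

/-- Algebraic integers lie in the unit disc. -/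
theorem norm_le_one_of_integral {y : C} (hy : IsIntegral ℤ y) : ‖y‖ ≤ 1 := by
  obtain ⟨f, hf, hroot⟩ := hy
  refine not_lt.mp fun h => ?_
  have hf0 : 0 < f.natDegree := Nat.pos_of_ne_zero fun h0 => by
    rw [hf.natDegree_eq_zero.mp h0, Polynomial.eval₂_one] at hroot
    exact one_ne_zero hroot
  rw [Polynomial.eval₂_eq_sum_range, Finset.sum_range_succ, hf.coeff_natDegree, map_one, one_mul,
    add_eq_zero_iff_eq_neg'] at hroot
  have h2 := congrArg norm hroot
  rw [norm_pow, norm_neg] at h2
  have h3 : ‖∑ x ∈ Finset.range f.natDegree, algebraMap ℤ C (f.coeff x) * y ^ x‖ ≤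
      ‖y‖ ^ (f.natDegree - 1) := by
    refine IsUltrametricDist.norm_sum_le_of_forall_le_of_nonneg (by positivity) fun i hi => ?_
    rw [norm_mul, norm_pow, eq_intCast]
    exact (mul_le_of_le_one_left (pow_nonneg (norm_nonneg y) _)
      (IsUltrametricDist.norm_intCast_le_one C _)).trans
      (pow_le_pow_right₀ h.le (by have := Finset.mem_range.mp hi; omega))
  rw [← h2] at h3
  exact absurd h3 (not_le.mpr (pow_lt_pow_right₀ h (by omega)))

end Integral

open NumberField Module in
/-- **The product formula**, at a `p`-adic place. -/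
theorem one_le_norm_mul_house_pow (p : ℕ) [Fact p.Prime] {C : Type*} [NontriviallyNormedField C]
    [CompleteSpace C] [IsUltrametricDist C] [NormedAlgebra ℚ_[p] C] {K : Type*} [Field K]
    [NumberField K] {x : 𝓞 K} (hx : x ≠ 0) (ψ : K →+* C) :
    1 ≤ ‖ψ (x : K)‖ * house (x : K) ^ finrank ℚ K := by
  obtain ⟨y, hy⟩ := Ideal.mem_span_singleton.mp (Ideal.absNorm_mem (Ideal.span {x}))
  have hN0 : Ideal.absNorm (Ideal.span {x}) ≠ 0 := by
    simpa [Ideal.absNorm_eq_zero_iff, Ideal.span_singleton_eq_bot] using hx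
  rw [Ideal.absNorm_span_singleton] at hy hN0
  set N := (Algebra.norm ℤ x).natAbs with hN
  have h1 : (N : ℝ)⁻¹ ≤ ‖ψ (x : K)‖ := by
    refine (inv_natCast_le_norm p (C := C) hN0).trans ?_
    have e : (N : C) = ψ (x : K) * ψ (y : K) := by
      rw [← map_mul, ← map_mul, ← hy, map_natCast, map_natCast]
    rw [e, norm_mul]
    exact mul_le_of_le_one_right (norm_nonneg _)
      (norm_le_one_of_integral (y.isIntegral_coe.map ψ.toIntAlgHom))
  have h2 : (N : ℝ) ≤ house (x : K) ^ finrank ℚ K := by
    obtain ⟨σ⟩ : Nonempty (K →+* ℂ) := inferInstance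
    have h := norm_norm_le_norm_mul_house_pow (x : K) σ
    rw [← Algebra.coe_norm_int, Int.norm_cast_rat, Int.norm_eq_abs] at h
    calc (N : ℝ) = |((Algebra.norm ℤ x : ℤ) : ℝ)| := by
          rw [hN, Nat.cast_natAbs, Int.cast_abs]
      _ ≤ ‖σ (x : K)‖ * house (x : K) ^ (finrank ℚ K - 1) := h
      _ ≤ house (x : K) * house (x : K) ^ (finrank ℚ K - 1) :=
          mul_le_mul_of_nonneg_right (norm_embedding_le_house _ σ) (pow_nonneg (house_nonneg _) _)
      _ = _ := by rw [← pow_succ', Nat.sub_add_cancel finrank_pos]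
  have hN1 : (0 : ℝ) < N := by exact_mod_cast Nat.pos_of_ne_zero hN0
  calc (1 : ℝ) = (N : ℝ)⁻¹ * N := (inv_mul_cancel₀ hN1.ne').symm
    _ ≤ _ := mul_le_mul h1 h2 hN1.le (norm_nonneg _)

end FA.Brumer

end
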