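import Fermat.Agent.Transcendence.BrumerCriterion
import Mathlib.FieldTheory.Fixed
import Mathlib.RingTheory.Trace.Basic
import Mathlib.RingTheory.IntegralClosure.IntegrallyClosed

/-!
# The theorem of Brumer

Baker's reduction, `p`-adically: with integral coefficients the traces are integers, so all the
exponentials stay in the disc of convergence.
-/

set_option autoImplicit false
set_option linter.unusedSectionVars false
set_option linter.style.haveILetI false

noncomputable section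

namespace FA.Brumer

open NumberField Module

variable {p : ℕ} [hp : Fact p.Prime] {C : Type} [NontriviallyNormedField C] [CompleteSpace C]
  [IsUltrametricDist C] [hC : NormedAlgebra ℚ_[p] C] [CharZero C]

/-- Both signs of an integer multiple. -/
theorem isAlgebraic_pexp_int_mul {z : C} (hz : Small p z) (h : IsAlgebraic ℚ (pexp z)) (n : ℤ) :
    IsAlgebraic ℚ (pexp ((n : C) * z)) := by
  obtain ⟨k, hk | hk⟩ := Int.eq_nat_or_neg n
  · rw [hk, Int.cast_natCast, pexp_nat_mul hz]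
    exact h.pow k
  · have hs : Small p ((k : C) * z) := hz.mul (IsUltrametricDist.norm_natCast_le_one C k)
    have hn : Small p (-((k : C) * z)) := by
      rw [small_iff, norm_neg]; exact hs
    have e := pexp_add hs hn
    rw [add_neg_cancel, pexp_zero] at e
    rw [hk, Int.cast_neg, Int.cast_natCast, neg_mul, eq_inv_of_mul_eq_one_right e.symm,
      pexp_nat_mul hz]
    exact (h.pow k).inv

theorem isAlgebraic_pexp_sum {κ : Type*} (S : Finset κ) (z : κ → C) (n : κ → ℤ)
    (hz : ∀ i, Small p (z i)) (h : ∀ i, IsAlgebraic ℚ (pexp (z i))) :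
    IsAlgebraic ℚ (pexp (∑ i ∈ S, (n i : C) * z i)) := by
  rw [pexp_sum (p := p) fun i _ => (hz i).mul (IsUltrametricDist.norm_intCast_le_one C _)]
  exact IsIntegral.isAlgebraic
    (IsIntegral.prod _ fun i _ => (isAlgebraic_pexp_int_mul (hz i) (h i) (n i)).isIntegral)

include hp hC in
/-- **The criterion.** -/
theorem criterion {ι : Type} [Fintype ι] [Nonempty ι] {g e : ℕ} (L : Fin g → ι → C) (δ : ι → ℕ)
    (y : ι → ι → C) (hy : LinearIndependent C y) (hys : ∀ t σ, ‖y t σ‖ ≤ ((p : ℝ) ^ 2)⁻¹)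
    (hL : ∀ i σ, IsIntegral ℤ (L i σ))
    (hη : ∀ t, IsAlgebraic ℚ (∑ σ, (δ σ : C) * y t σ))
    (hα : ∀ i t, IsAlgebraic ℚ (pexp (∑ σ, L i σ * y t σ)))
    (hind : ∀ c : Fin g → ℤ, (∀ σ, ∑ i, (c i : C) * L i σ = 0) → c = 0)
    (he : g + e = Fintype.card ι + 1) (he1 : e ≤ 1) (hδ : e = 1 → ∃ σ, δ σ ≠ 0) : False := by
  classical
  set η₀ := fun t => ∑ σ, (δ σ : C) * y t σ
  set α₀ := fun i t => pexp (∑ σ, L i σ * y t σ)
  set S : Set C := Set.range (fun x : Fin g × ι => L x.1 x.2) ∪ Set.range η₀ ∪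
    Set.range (fun x : Fin g × ι => α₀ x.1 x.2)
  have hSfin : S.Finite :=
    ((Set.finite_range _).union (Set.finite_range _)).union (Set.finite_range _)
  have hSalg : ∀ x ∈ S, IsIntegral ℚ x := by
    rintro x ((⟨i, rfl⟩ | ⟨t, rfl⟩) | ⟨i, rfl⟩)
    · exact (hL i.1 i.2).tower_top
    · exact (hη t).isIntegral
    · exact (hα i.1 i.2).isIntegral
  haveI : Finite S := hSfin.to_subtype
  set K := IntermediateField.adjoin ℚ S
  haveI : FiniteDimensional ℚ K := IntermediateField.finiteDimensional_adjoin hSalg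
  haveI : NumberField K := ⟨⟩
  haveI : Algebra.IsAlgebraic ℤ K :=
    (IsFractionRing.comap_isAlgebraic_iff (A := ℤ) (K := ℚ) (C := K)).2 inferInstance
  set ψ : K →+* C := algebraMap K C
  set ηK : ι → K := fun t => ⟨η₀ t, IntermediateField.subset_adjoin _ _ (Or.inl (Or.inr ⟨t, rfl⟩))⟩
  set αK : Fin g → ι → K := fun i t =>
    ⟨α₀ i t, IntermediateField.subset_adjoin _ _ (Or.inr ⟨(i, t), rfl⟩)⟩
  obtain ⟨D, hD, hint⟩ := Algebra.IsAlgebraic.exists_integral_multiples ℤ
    (Finset.univ.image ηK ∪ Finset.univ.image fun x : Fin g × ι => αK x.1 x.2)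
  have hint' : ∀ x : K, x ∈ Finset.univ.image ηK ∪
      Finset.univ.image (fun x : Fin g × ι => αK x.1 x.2) → IsIntegral ℤ ((D : K) * x) :=
    fun x hx => by simpa [zsmul_eq_mul] using hint x hx
  refine false_of_field (p := p) ψ L δ y hy hys hind he he1 hδ D hD
    (fun t => ⟨(D : K) * ηK t, hint' _ (by simp)⟩)
    (fun i t => ⟨(D : K) * αK i t, hint' _ (by simp)⟩)
    (fun i σ => ⟨⟨L i σ, IntermediateField.subset_adjoin _ _ (Or.inl (Or.inl ⟨(i, σ), rfl⟩))⟩,
      (isIntegral_algHom_iff ψ.toIntAlgHom ψ.injective).mp (hL i σ)⟩)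
    (fun t => ?_) (fun i t => ?_) (fun i σ => rfl)
  · show ψ ((D : K) * ηK t) = _
    rw [map_mul, map_intCast]; rfl
  · show ψ ((D : K) * αK i t) = _
    rw [map_mul, map_intCast]; rfl

variable [IsAlgClosed C] {K : Type} [Field K] [NumberField K]

/-- Rows of the matrix of embeddings that form a basis on a set of them. -/
theorem exists_rows {ι κ : Type} [Fintype ι] [Finite κ] (emb : ι → (K →ₐ[ℚ] C))
    (hemb : Function.Injective emb) (γ : Basis κ ℚ K) :
    ∃ k : ι → κ, LinearIndependent C fun t => (fun σ => emb σ (γ (k t)) : ι → C) := by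
  classical
  set v : κ → ι → C := fun j σ => emb σ (γ j)
  have hspan : Submodule.span C (Set.range v) = ⊤ := by
    by_contra hne
    obtain ⟨f, hf, hle⟩ := Submodule.exists_le_ker_of_lt_top _ (lt_top_iff_ne_top.mpr hne)
    refine hf (LinearMap.pi_ext' fun σ => LinearMap.ext_ring ?_)
    have hli := (linearIndependent_toLinearMap ℚ K C).comp emb hemb
    rw [Fintype.linearIndependent_iff] at hli
    refine hli (fun σ => f (Pi.single σ 1)) (γ.ext fun j => ?_) σ
    have h0 : f (v j) = 0 := hle (Submodule.subset_span ⟨j, rfl⟩)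
    rw [pi_eq_sum_univ' (v j), map_sum] at h0
    simp only [map_smul, smul_eq_mul] at h0
    simpa [mul_comm] using h0
  obtain ⟨b, k, hk, hb, hli⟩ := exists_linearIndependent' C v
  haveI : Finite b := Finite.of_injective k hk
  haveI : Fintype b := Fintype.ofFinite b
  rw [hspan] at hb
  have hcard : Fintype.card b = Fintype.card ι := by
    rw [← finrank_eq_card_basis (Basis.mk hli hb.ge), Module.finrank_fintype_fun_eq_card]
  exact ⟨k ∘ (Fintype.equivOfCardEq hcard).symm,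
    hli.comp _ (Fintype.equivOfCardEq hcard).symm.injective⟩

theorem exists_int_trace {x : K} (hx : IsIntegral ℤ x) :
    ∃ n : ℤ, (n : ℚ) = Algebra.trace ℚ K x := by
  obtain ⟨n, hn⟩ := IsIntegrallyClosed.isIntegral_iff.mp
    (Algebra.isIntegral_trace (L := ℚ) (F := K) hx)
  exact ⟨n, by simpa using hn⟩

include hp hC in
/-- **Integral relations between logarithms in the small disc are impossible.** -/
theorem false_of_coeffs {κ₀ : Type} [Fintype κ₀] (σ₀ : K →ₐ[ℚ] C) (ℓ : κ₀ → C)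
    (hℓ : ∀ i, ‖ℓ i‖ ≤ ((p : ℝ) ^ 2)⁻¹)
    (hexp : ∀ i, IsAlgebraic ℚ (pexp (ℓ i))) (hind : LinearIndependent ℚ ℓ)
    (b : κ₀ → 𝓞 K) (hb : b ≠ 0) (b₀ : K) (hrel : ∑ i, σ₀ (b i : K) * ℓ i = σ₀ b₀) : False := by
  classical
  have hsmall : ∀ i, Small p (ℓ i) := fun i => by
    refine lt_of_le_of_lt (mul_le_mul_of_nonneg_left (hℓ i) (prime_pos p).le) ?_
    rw [pow_two, mul_inv, ← mul_assoc, mul_inv_cancel₀ (prime_pos p).ne', one_mul]
    exact inv_lt_one_of_one_lt₀ (one_lt_prime p)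
  have hσint : ∀ (σ : K →ₐ[ℚ] C) {x : K}, IsIntegral ℤ x → IsIntegral ℤ (σ x) :=
    fun σ x hx => hx.map (σ.restrictScalars ℤ)
  set u : (K →ₐ[ℚ] C) → C := fun σ => ∑ i, σ (b i : K) * ℓ i
  have htr : ∀ x : K, ∑ σ : K →ₐ[ℚ] C, σ x * u σ =
      ∑ i, ((Algebra.trace ℚ K (x * (b i : K)) : ℚ) : C) * ℓ i := fun x => by
    have hc : ∀ z : K, ((Algebra.trace ℚ K z : ℚ) : C) = ∑ σ : K →ₐ[ℚ] C, σ z := fun z => by
      rw [← trace_eq_sum_embeddings (K := ℚ) (E := C), eq_ratCast]
    simp only [u, Finset.mul_sum, hc, map_mul, Finset.sum_mul]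
    rw [Finset.sum_comm]
    exact Finset.sum_congr rfl fun i _ => Finset.sum_congr rfl fun σ _ => by ring
  obtain ⟨σ₁, hσ₁⟩ : ∃ σ, u σ ≠ 0 := by
    by_contra hall
    push Not at hall
    obtain ⟨i, hi⟩ := Function.ne_iff.mp hb
    have hi' : (b i : K) ≠ 0 := fun h => hi (RingOfIntegers.ext h)
    have h0 := htr (b i : K)⁻¹
    simp only [hall, mul_zero, Finset.sum_const_zero] at h0
    have := Fintype.linearIndependent_iff.mp hind
      (fun j => Algebra.trace ℚ K ((b i : K)⁻¹ * (b j : K))) (by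
      rw [h0]
      exact Finset.sum_congr rfl fun j _ => Rat.smul_def _ _) i
    simp only [inv_mul_cancel₀ hi'] at this
    rw [← map_one (algebraMap ℚ K), Algebra.trace_algebraMap, nsmul_eq_mul, mul_one] at this
    exact (finrank_pos (R := ℚ) (M := K)).ne' (by exact_mod_cast this)
  set ι := {σ : K →ₐ[ℚ] C // u σ ≠ 0}
  haveI : Nonempty ι := ⟨⟨σ₁, hσ₁⟩⟩
  set γ := integralBasis K
  have hγ : ∀ j, IsIntegral ℤ (γ j) := fun j => by
    simp only [γ, integralBasis_apply]
    exact RingOfIntegers.isIntegral_coe _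
  obtain ⟨k, hk⟩ := exists_rows (fun σ : ι => σ.1) Subtype.val_injective γ
  set y : ι → ι → C := fun t σ => σ.1 (γ (k t)) * u σ.1
  have hy : LinearIndependent C y := by
    set Dg : (ι → C) →ₗ[C] (ι → C) := LinearMap.pi fun σ => u σ.1 • LinearMap.proj σ
    have hinj : LinearMap.ker Dg = ⊥ := LinearMap.ker_eq_bot'.mpr fun x hx => funext fun σ => by
      have := congrFun hx σ
      simp only [Dg, LinearMap.pi_apply, LinearMap.smul_apply, LinearMap.coe_proj, Function.eval,
        smul_eq_mul, Pi.zero_apply, mul_eq_zero] at this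
      exact this.resolve_left σ.2
    have e : y = Dg ∘ fun t (σ : ι) => σ.1 (γ (k t)) :=
      funext fun t => funext fun σ => by simp [y, Dg, mul_comm]
    rw [e]
    exact hk.map' Dg hinj
  have hys : ∀ t σ, ‖y t σ‖ ≤ ((p : ℝ) ^ 2)⁻¹ := fun t σ => by
    rw [norm_mul]
    refine (mul_le_of_le_one_left (norm_nonneg _)
      (norm_le_one_of_integral (hσint _ (hγ _)))).trans ?_
    refine IsUltrametricDist.norm_sum_le_of_forall_le_of_nonneg
      (inv_nonneg.mpr (sq_nonneg _)) fun i _ => ?_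
    rw [norm_mul]
    exact (mul_le_of_le_one_left (norm_nonneg _)
      (norm_le_one_of_integral (hσint _ (RingOfIntegers.isIntegral_coe (b i))))).trans (hℓ i)
  have hsum : ∀ (a : K) (t : ι), ∑ σ : ι, σ.1 a * y t σ =
      ∑ i, ((Algebra.trace ℚ K (a * γ (k t) * (b i : K)) : ℚ) : C) * ℓ i := fun a t => by
    rw [← htr, ← Finset.sum_subset (Finset.subset_univ (Finset.univ.filter fun σ => u σ ≠ 0))
      (fun σ _ hσ => by simp only [Finset.mem_filter, Finset.mem_univ, true_and, ne_eq,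
        not_not] at hσ; rw [hσ, mul_zero])]
    rw [Finset.sum_subtype (Finset.univ.filter fun σ : K →ₐ[ℚ] C => u σ ≠ 0)
      (p := fun σ => u σ ≠ 0) (fun σ => by simp)]
    exact Finset.sum_congr rfl fun σ _ => by simp only [y, map_mul]; ring
  have hcard : Fintype.card (K →ₐ[ℚ] C) = Fintype.card (Free.ChooseBasisIndex ℤ (𝓞 K)) := by
    rw [AlgHom.card, finrank_eq_card_basis γ]
  set r := Fintype.card ι with hr
  have hrd : r ≤ Fintype.card (K →ₐ[ℚ] C) := Fintype.card_subtype_le _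
  have main : ∀ (g e : ℕ) (δ : ι → ℕ), g + e = r + 1 → e ≤ 1 → (e = 1 → ∃ σ, δ σ ≠ 0) →
      g ≤ Fintype.card (K →ₐ[ℚ] C) →
      (∀ t, IsAlgebraic ℚ (∑ σ, (δ σ : C) * y t σ)) → False := by
    intro g e δ he he1 hδ hg hη
    obtain ⟨sel⟩ : Nonempty (Fin g ↪ Free.ChooseBasisIndex ℤ (𝓞 K)) :=
      Function.Embedding.nonempty_of_card_le (by rwa [Fintype.card_fin, ← hcard])
    refine criterion (p := p) (fun i (σ : ι) => σ.1 (γ (sel i))) δ y hy hys
      (fun i σ => hσint _ (hγ _)) hη (fun i t => ?_) (fun c hc => ?_) he he1 hδ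
    · rw [hsum]
      choose n hn using fun j => exists_int_trace (((hγ (sel i)).mul (hγ (k t))).mul
        (RingOfIntegers.isIntegral_coe (b j)))
      simp only [← hn, Rat.cast_intCast]
      exact isAlgebraic_pexp_sum _ _ _ hsmall hexp
    · obtain ⟨σ⟩ := (inferInstance : Nonempty ι)
      have h0 : ∑ i, (c i : ℚ) • γ (sel i) = 0 := σ.1.injective <| by
        rw [map_zero, map_sum]
        refine (Finset.sum_congr rfl fun i _ => ?_).trans (hc σ)
        show σ.1 ((c i : ℚ) • γ (sel i)) = _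
        rw [Rat.smul_def, map_mul, Rat.cast_intCast, map_intCast]
      funext i
      exact_mod_cast Fintype.linearIndependent_iff.mp (γ.linearIndependent.comp sel sel.injective)
        (fun i => (c i : ℚ)) h0 i
  have hu₀ : u σ₀ = σ₀ b₀ := hrel
  rcases eq_or_ne b₀ 0 with h | h
  · refine main (r + 1) 0 0 rfl zero_le_one (fun e => absurd e zero_ne_one) ?_ fun t => ?_
    · exact Fintype.card_subtype_lt (x := σ₀) (by simp [hu₀, h])
    · simpa using (isAlgebraic_zero : IsAlgebraic ℚ (0 : C))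
  · have hσ₀ : u σ₀ ≠ 0 := by rw [hu₀]; exact (map_ne_zero σ₀).mpr h
    refine main r 1 (Pi.single ⟨σ₀, hσ₀⟩ 1) rfl le_rfl (fun _ => ⟨⟨σ₀, hσ₀⟩, by simp⟩) hrd
      fun t => ?_
    rw [Finset.sum_eq_single ⟨σ₀, hσ₀⟩ (fun σ _ hne => by simp [hne]) (by simp)]
    simp only [Pi.single_eq_same, Nat.cast_one, one_mul, y, hu₀, ← map_mul]
    exact (Algebra.IsAlgebraic.isAlgebraic _).algHom σ₀

include hp hC in
/-- **Brumer's theorem**, as a relation. -/
theorem false_of_relation {κ₀ : Type} [Fintype κ₀] (ℓ : κ₀ → C) (hℓ : ∀ i, Small p (ℓ i))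
    (hexp : ∀ i, IsAlgebraic ℚ (pexp (ℓ i))) (hind : LinearIndependent ℚ ℓ) (β : κ₀ → C)
    (hβ : ∀ i, IsAlgebraic ℚ (β i)) (β₀ : C) (hβ₀ : IsAlgebraic ℚ β₀) (hne : β ≠ 0)
    (hrel : ∑ i, β i * ℓ i = β₀) : False := by
  classical
  set S : Set C := insert β₀ (Set.range β)
  haveI : Finite S := ((Set.finite_range β).insert β₀).to_subtype
  have hS : ∀ x ∈ S, IsIntegral ℚ x := by
    rintro x (rfl | ⟨i, rfl⟩)
    · exact hβ₀.isIntegral
    · exact (hβ i).isIntegral
  set K := IntermediateField.adjoin ℚ S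
  haveI : FiniteDimensional ℚ K := IntermediateField.finiteDimensional_adjoin hS
  haveI : NumberField K := ⟨⟩
  haveI : Algebra.IsAlgebraic ℤ K :=
    (IsFractionRing.comap_isAlgebraic_iff (A := ℤ) (K := ℚ) (C := K)).2 inferInstance
  set bK : κ₀ → K := fun i => ⟨β i, IntermediateField.subset_adjoin _ _ (Or.inr ⟨i, rfl⟩)⟩
  obtain ⟨D, hD, hint⟩ := Algebra.IsAlgebraic.exists_integral_multiples ℤ (Finset.univ.image bK)
  have hint' : ∀ i, IsIntegral ℤ ((D : K) * bK i) := fun i => by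
    simpa [zsmul_eq_mul] using hint _ (Finset.mem_image_of_mem bK (Finset.mem_univ i))
  have hp0 : (p : ℚ) ≠ 0 := Nat.cast_ne_zero.mpr hp.out.ne_zero
  refine false_of_coeffs (p := p) K.val (fun i => (p : C) * ℓ i) (fun i => ?_) (fun i => ?_) ?_
    (fun i => ⟨(D : K) * bK i, hint' i⟩) (fun h0 => hne ?_)
    ((D : K) * (p : K) * ⟨β₀, IntermediateField.subset_adjoin _ _ (Or.inl rfl)⟩) ?_
  · rw [norm_mul, norm_prime, pow_two, mul_inv]
    refine mul_le_mul_of_nonneg_left ?_ (inv_nonneg.mpr (prime_pos p).le)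
    rw [inv_eq_one_div, le_div_iff₀ (prime_pos p), mul_comm]
    exact (hℓ i).le
  · rw [pexp_nat_mul (hℓ i)]
    exact (hexp i).pow p
  · rw [Fintype.linearIndependent_iff] at hind ⊢
    intro c hc i
    have := hind (fun j => c j * (p : ℚ)) (by
      rw [← hc]
      refine Finset.sum_congr rfl fun j _ => ?_
      simp only [Rat.smul_def, Rat.cast_mul, Rat.cast_natCast, mul_assoc]) i
    exact (mul_eq_zero.mp this).resolve_right hp0
  · funext i
    have h1 : (D : K) * bK i = 0 := congrArg Subtype.val (congrFun h0 i)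
    have h2 := congrArg Subtype.val ((mul_eq_zero.mp h1).resolve_left (Int.cast_ne_zero.mpr hD))
    simpa [bK] using h2
  · show ∑ i, K.val ((D : K) * bK i) * ((p : C) * ℓ i) = _
    simp only [map_mul, map_intCast, map_natCast]
    show ∑ i, (D : C) * β i * ((p : C) * ℓ i) = (D : C) * (p : C) * β₀
    rw [← hrel, Finset.mul_sum]
    exact Finset.sum_congr rfl fun i _ => by ring

/-- Logarithms are combinations of independent ones. -/
theorem exists_independent_logs {κ₀ : Type} [Fintype κ₀] (ℓ : κ₀ → C) :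
    ∃ (κ : Type) (_ : Fintype κ) (a : κ → κ₀) (c : κ₀ → κ → ℚ),
      LinearIndependent ℚ (ℓ ∘ a) ∧ ∀ i, ℓ i = ∑ j, (c i j : C) * ℓ (a j) := by
  obtain ⟨κ, a, ha, hspan, hli⟩ := exists_linearIndependent' ℚ ℓ
  haveI : Finite κ := Finite.of_injective a ha
  haveI : Fintype κ := Fintype.ofFinite κ
  have h : ∀ i, ∃ c : κ → ℚ, ∑ j, c j • ℓ (a j) = ℓ i := fun i =>
    (Submodule.mem_span_range_iff_exists_fun ℚ).mp
      (show ℓ i ∈ Submodule.span ℚ (Set.range (ℓ ∘ a)) from
        hspan ▸ Submodule.subset_span ⟨i, rfl⟩)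
  choose c hc using h
  exact ⟨κ, inferInstance, a, c, hli, fun i => by
    conv_lhs => rw [← hc i]
    exact Finset.sum_congr rfl fun j _ => Rat.smul_def _ _⟩

include hp hC in
/-- A relation on arbitrary logarithms, transported to independent ones. -/
theorem exists_relation_coeffs {κ₀ : Type} [Fintype κ₀] (ℓ : κ₀ → C) (hℓ : ∀ i, Small p (ℓ i))
    (hexp : ∀ i, IsAlgebraic ℚ (pexp (ℓ i))) (β : κ₀ → C)
    (hβ : ∀ i, IsAlgebraic ℚ (β i)) (β₀ : C) (hβ₀ : IsAlgebraic ℚ β₀)
    (hrel : ∑ i, β i * ℓ i = β₀) :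
    β₀ = 0 ∧ ∃ (κ : Type) (_ : Fintype κ) (a : κ → κ₀) (c : κ₀ → κ → ℚ),
      (∀ i, ℓ i = ∑ j, (c i j : C) * ℓ (a j)) ∧ ∀ j, ∑ i, β i * (c i j : C) = 0 := by
  obtain ⟨κ, hκ, a, c, hli, hc⟩ := exists_independent_logs ℓ
  set β' : κ → C := fun j => ∑ i, β i * (c i j : C)
  have hrel' : ∑ j, β' j * ℓ (a j) = β₀ := by
    rw [← hrel]
    simp only [β', Finset.sum_mul]
    rw [Finset.sum_comm]
    refine Finset.sum_congr rfl fun i _ => ?_
    rw [hc i, Finset.mul_sum]
    exact Finset.sum_congr rfl fun j _ => mul_assoc _ _ _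
  have hzero : β' = 0 := by
    by_contra hne
    refine false_of_relation (p := p) (ℓ ∘ a) (fun j => hℓ _) (fun j => hexp _) hli β'
      (fun j => ?_) β₀ hβ₀ hne hrel'
    have h : IsIntegral ℚ (β' j) := IsIntegral.sum _ fun i _ =>
      (hβ i).isIntegral.mul (isIntegral_algebraMap (R := ℚ) (x := c i j))
    exact h.isAlgebraic
  refine ⟨?_, κ, hκ, a, c, hc, fun j => congrFun hzero j⟩
  rw [← hrel']
  simp [hzero]

end FA.Brumer

end
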