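import Fermat.Agent.Transcendence.MahlerMethod
import Mathlib.Algebra.Polynomial.Div
import Mathlib.Data.Nat.Digits.Defs
import Mathlib.Topology.Algebra.InfiniteSum.NatInt
import Mathlib.Analysis.Normed.Module.MultipliableUniformlyOn

/-!
# The series of Thue and Morse

`T z = ∑ ε n z ^ n`, `ε n` the parity sign of the binary digit sum of `n`, satisfies
`T z = (1 - z) T (z ^ 2)`. A polynomial relation of least degree would give an identity between
polynomials whose orders at `1` differ, so there is none, and Mahler's theorem applies.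
-/

set_option autoImplicit false

noncomputable section

namespace FA.Mahler

open Finset Filter
open scoped Topology

/-- `(-1) ^ (sum of the binary digits of n)`. -/
def sign₂ (n : ℕ) : ℚ := (-1) ^ (Nat.digits 2 n).sum

/-- `∑ sign₂ n z ^ n`. -/
def tmSeries (z : ℂ) : ℂ := ∑' n, (sign₂ n : ℂ) * z ^ n

theorem digits_sum_two_mul (n : ℕ) : (Nat.digits 2 (2 * n)).sum = (Nat.digits 2 n).sum := by
  rcases Nat.eq_zero_or_pos n with rfl | h
  · simp
  · rw [Nat.digits_def' one_lt_two (by omega)]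
    simp

theorem digits_sum_two_mul_add_one (n : ℕ) :
    (Nat.digits 2 (2 * n + 1)).sum = 1 + (Nat.digits 2 n).sum := by
  rw [Nat.digits_def' one_lt_two (by omega), show (2 * n + 1) / 2 = n by omega,
    show (2 * n + 1) % 2 = 1 by omega, List.sum_cons]

theorem norm_sign₂ (n : ℕ) : ‖(sign₂ n : ℂ)‖ = 1 := by simp [sign₂]

theorem summable_norm_tm {z : ℂ} (hz : ‖z‖ < 1) :
    Summable fun n => ‖(sign₂ n : ℂ) * z ^ n‖ := by
  simpa only [norm_mul, norm_sign₂, one_mul, norm_pow] using
    summable_geometric_of_lt_one (norm_nonneg z) hz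

theorem rep_tmSeries : Rep (algebraMap ℚ ℂ) (PowerSeries.mk sign₂) tmSeries := fun z hz => by
  simp only [PowerSeries.coeff_mk, eq_ratCast]
  exact ⟨summable_norm_tm hz, rfl⟩

theorem norm_sq_lt {z : ℂ} (hz : ‖z‖ < 1) : ‖z ^ 2‖ < 1 := by
  rw [norm_pow]; exact pow_lt_one₀ (norm_nonneg z) hz two_ne_zero

/-- **The functional equation.** -/
theorem tmSeries_eq {z : ℂ} (hz : ‖z‖ < 1) : tmSeries z = (1 - z) * tmSeries (z ^ 2) := by
  have hs := (summable_norm_tm (norm_sq_lt hz)).of_norm
  have he : ∀ n, (sign₂ (2 * n) : ℂ) * z ^ (2 * n) = (sign₂ n : ℂ) * (z ^ 2) ^ n := fun n => by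
    rw [sign₂, digits_sum_two_mul, ← pow_mul, sign₂]
  have ho : ∀ n, (sign₂ (2 * n + 1) : ℂ) * z ^ (2 * n + 1) =
      -z * ((sign₂ n : ℂ) * (z ^ 2) ^ n) := fun n => by
    rw [sign₂, digits_sum_two_mul_add_one, pow_add (-1 : ℚ), pow_succ z, pow_mul, sign₂]
    push_cast
    ring
  rw [tmSeries, ← tsum_even_add_odd (f := fun n => (sign₂ n : ℂ) * z ^ n)
    (by simpa only [he] using hs) (by simpa only [ho] using hs.mul_left (-z)),
    tsum_congr he, tsum_congr ho, tsum_mul_left, tmSeries]
  ring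

theorem norm_tmSeries_sub_one_le {z : ℂ} (hz : ‖z‖ ≤ 1 / 2) : ‖tmSeries z - 1‖ ≤ 2 * ‖z‖ := by
  have h1 : ‖z‖ < 1 := lt_of_le_of_lt hz (by norm_num)
  have h := (summable_norm_tm h1).of_norm.sum_add_tsum_nat_add 1
  rw [Finset.sum_range_one] at h
  rw [tmSeries, ← h, show (sign₂ 0 : ℂ) * z ^ 0 = 1 by simp [sign₂], add_sub_cancel_left]
  have hg := (hasSum_geometric_of_lt_one (norm_nonneg z) h1).mul_left ‖z‖
  refine (tsum_of_norm_bounded hg fun n => ?_).trans ?_
  · rw [norm_mul, norm_sign₂, one_mul, norm_pow, pow_succ']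
  · rw [mul_comm]
    refine mul_le_mul_of_nonneg_right ?_ (norm_nonneg z)
    rw [inv_le_comm₀ (by linarith) two_pos]
    norm_num at hz ⊢
    linarith

theorem tmSeries_eq_prod {z : ℂ} (hz : ‖z‖ < 1) :
    ∀ k : ℕ, tmSeries z = (∏ i ∈ range k, (1 - z ^ 2 ^ i)) * tmSeries (z ^ 2 ^ k)
  | 0 => by simp
  | k + 1 => by
    have hk : ‖z ^ 2 ^ k‖ < 1 := by
      rw [norm_pow]; exact pow_lt_one₀ (norm_nonneg z) hz (pow_ne_zero _ two_ne_zero)
    rw [tmSeries_eq_prod hz k, tmSeries_eq hk, Finset.prod_range_succ, ← pow_mul, ← pow_succ,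
      mul_assoc]

theorem tendsto_tmSeries_pow {z : ℂ} (hz : ‖z‖ < 1) :
    Tendsto (fun k : ℕ => tmSeries (z ^ 2 ^ k)) atTop (𝓝 1) := by
  have h0 : Tendsto (fun k : ℕ => ‖z‖ ^ 2 ^ k) atTop (𝓝 0) :=
    (tendsto_pow_atTop_nhds_zero_of_lt_one (norm_nonneg z) hz).comp
      (tendsto_pow_atTop_atTop_of_one_lt (by norm_num : 1 < 2))
  refine tendsto_iff_norm_sub_tendsto_zero.mpr (squeeze_zero' (Eventually.of_forall fun k =>
    norm_nonneg _) ?_ (by simpa using h0.const_mul 2))
  filter_upwards [h0.eventually (ge_mem_nhds (by norm_num : (0 : ℝ) < 1 / 2))] with k hk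
  refine (norm_tmSeries_sub_one_le (by rwa [norm_pow])).trans_eq ?_
  rw [norm_pow]

theorem tmSeries_ne_zero {z : ℂ} (hz : ‖z‖ < 1) : tmSeries z ≠ 0 := fun h0 => by
  obtain ⟨k, hk⟩ := ((tendsto_tmSeries_pow hz).eventually_ne one_ne_zero).exists
  rw [tmSeries_eq_prod hz k, mul_eq_zero] at h0
  obtain ⟨i, -, hi⟩ := Finset.prod_eq_zero_iff.mp (h0.resolve_right hk)
  have h1 : ‖z ^ 2 ^ i‖ < 1 := by
    rw [norm_pow]; exact pow_lt_one₀ (norm_nonneg z) hz (pow_ne_zero _ two_ne_zero)
  rw [← sub_eq_zero.mp hi, norm_one] at h1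
  exact lt_irrefl _ h1

/-- **The infinite product.** -/
theorem hasProd_tmSeries {z : ℂ} (hz : ‖z‖ < 1) :
    HasProd (fun k : ℕ => 1 - z ^ 2 ^ k) (tmSeries z) := by
  have hlim : Tendsto (fun k => ∏ i ∈ range k, (1 - z ^ 2 ^ i)) atTop (𝓝 (tmSeries z)) := by
    have h := (tendsto_tmSeries_pow hz).inv₀ one_ne_zero
    have h2 := h.const_mul (tmSeries z)
    rw [inv_one, mul_one] at h2
    refine h2.congr fun k => ?_
    rw [← div_eq_mul_inv, div_eq_iff (tmSeries_ne_zero ?_), ← tmSeries_eq_prod hz k]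
    rw [norm_pow]; exact pow_lt_one₀ (norm_nonneg z) hz (pow_ne_zero _ two_ne_zero)
  have hm : Multipliable fun k : ℕ => 1 + (-(z ^ 2 ^ k)) := by
    refine multipliable_one_add_of_summable (Summable.of_nonneg_of_le (fun _ => norm_nonneg _)
      (fun k => ?_) (summable_geometric_of_lt_one (norm_nonneg z) hz))
    rw [norm_neg, norm_pow]
    exact pow_le_pow_of_le_one (norm_nonneg z) hz.le k.lt_two_pow_self.le
  simp only [← sub_eq_add_neg] at hm
  rw [tendsto_nhds_unique hlim hm.hasProd.tendsto_prod_nat]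
  exact hm.hasProd

open Polynomial in
theorem rootMultiplicity_one_comp_sq (P : ℂ[X]) :
    (P.comp (X ^ 2)).rootMultiplicity 1 = P.rootMultiplicity 1 := by
  by_cases hP : P = 0
  · simp [hP]
  obtain ⟨R, hR, hR1⟩ := exists_eq_pow_rootMultiplicity_mul_and_not_dvd P hP 1
  rw [dvd_iff_isRoot, IsRoot.def] at hR1
  have h1 : ((X + 1 : ℂ[X]) ^ P.rootMultiplicity 1 * R.comp (X ^ 2)).eval 1 ≠ 0 := by
    rw [eval_mul, eval_comp, eval_pow, eval_pow, eval_add, eval_X, eval_one, one_pow]
    exact mul_ne_zero (pow_ne_zero _ (by norm_num)) hR1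
  have hne : ((X + 1 : ℂ[X]) ^ P.rootMultiplicity 1 * R.comp (X ^ 2)) ≠ 0 := fun h =>
    h1 (by rw [h, eval_zero])
  conv_lhs => rw [hR]
  rw [mul_comp, pow_comp, sub_comp, X_comp, C_comp,
    show (X : ℂ[X]) ^ 2 - C 1 = (X - C 1) * (X + 1) by rw [C_1]; ring, mul_pow, mul_assoc,
    rootMultiplicity_mul (mul_ne_zero (pow_ne_zero _ (X_sub_C_ne_zero 1)) hne),
    rootMultiplicity_X_sub_C_pow, rootMultiplicity_eq_zero h1, add_zero]

open Polynomial in
theorem eq_zero_of_eval_disc {P : ℂ[X]} (h : ∀ z : ℂ, ‖z‖ < 1 → P.eval z = 0) : P = 0 := by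
  refine eq_zero_of_infinite_isRoot P (Set.Infinite.mono (fun z hz => ?_)
    (Set.infinite_range_of_injective (f := fun n : ℕ => ((n : ℂ) + 2)⁻¹)
      fun a b hab => by simpa using hab))
  obtain ⟨n, rfl⟩ := hz
  refine h _ ?_
  rw [norm_inv, show ((n : ℂ) + 2) = ((n + 2 : ℕ) : ℂ) by push_cast; ring, Complex.norm_natCast]
  exact inv_lt_one_of_one_lt₀ (by exact_mod_cast (by omega : 1 < n + 2))

open Polynomial in
/-- **The series is transcendental over `ℂ (z)`.** -/
theorem noRelation_tmSeries : NoRelation tmSeries := by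
  intro m
  induction m with
  | zero => intro P _; funext i; exact i.elim0
  | succ m ih =>
    intro P hP
    set top := P (Fin.last m)
    by_cases htop : top = 0
    · have h0 := ih (fun i => P i.castSucc) fun z hz => by
        have := hP z hz
        rw [Fin.sum_univ_castSucc, show P (Fin.last m) = 0 from htop, eval_zero, zero_mul,
          add_zero] at this
        simpa using this
      funext i
      refine Fin.lastCases htop (fun j => congrFun h0 j) i
    exfalso
    have hQ := ih (fun i => top * (P i.castSucc).comp (X ^ 2) * (1 - X) ^ (m - (i : ℕ)) -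
      top.comp (X ^ 2) * P i.castSucc) fun z hz => by
        have e1 := hP z hz
        have e2 := hP (z ^ 2) (norm_sq_lt hz)
        rw [Fin.sum_univ_castSucc] at e1 e2
        simp only [Fin.val_castSucc, Fin.val_last] at e1 e2
        have hterm : ∀ i : Fin m, (top * (P i.castSucc).comp (X ^ 2) * (1 - X) ^ (m - (i : ℕ)) -
            top.comp (X ^ 2) * P i.castSucc).eval z * tmSeries z ^ (i : ℕ) =
            top.eval z * (1 - z) ^ m *
              ((P i.castSucc).eval (z ^ 2) * tmSeries (z ^ 2) ^ (i : ℕ)) -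
            top.eval (z ^ 2) * ((P i.castSucc).eval z * tmSeries z ^ (i : ℕ)) := fun i => by
          simp only [eval_sub, eval_mul, eval_comp, eval_pow, eval_X, eval_one]
          rw [show (1 - z) ^ m = (1 - z) ^ (m - (i : ℕ)) * (1 - z) ^ (i : ℕ) by
            rw [← pow_add, Nat.sub_add_cancel i.isLt.le], tmSeries_eq hz, mul_pow]
          ring
        rw [Finset.sum_congr rfl fun i _ => hterm i, Finset.sum_sub_distrib, ← Finset.mul_sum,
          ← Finset.mul_sum, eq_neg_of_add_eq_zero_left e1, eq_neg_of_add_eq_zero_left e2,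
          tmSeries_eq hz, mul_pow]
        simp only [top]
        ring
    rcases Nat.eq_zero_or_pos m with rfl | hm
    · exact htop (eq_zero_of_eval_disc fun z hz => by simpa [top] using hP z hz)
    by_cases hP0 : P 0 = 0
    · have h0 := ih (fun i => P i.succ) fun z hz => by
        have := hP z hz
        rw [Fin.sum_univ_succ, hP0, eval_zero, zero_mul, zero_add] at this
        simp only [Fin.val_succ, pow_succ, ← mul_assoc, ← Finset.sum_mul, mul_eq_zero] at this
        exact this.resolve_right (tmSeries_ne_zero hz)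
      refine htop ?_
      have := congrFun h0 ⟨m - 1, by omega⟩
      simp only [Pi.zero_apply] at this
      rw [← this]
      exact congrArg P (Fin.ext (by simp; omega))
    · have h1 := sub_eq_zero.mp (congrFun hQ ⟨0, hm⟩)
      simp only [Nat.sub_zero, show (Fin.castSucc (⟨0, hm⟩ : Fin m)) = 0 from rfl] at h1
      have h2 := congrArg (rootMultiplicity 1) h1
      have hc : ∀ Q : ℂ[X], Q ≠ 0 → Q.comp (X ^ 2) ≠ 0 := fun Q hQ0 h =>
        hQ0 (eq_zero_of_eval_disc fun w hw => by
          obtain ⟨v, rfl⟩ := IsAlgClosed.exists_pow_nat_eq w two_pos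
          have := congrArg (eval v) h
          simpa [eval_comp] using this)
      have hx : (1 - X : ℂ[X]) ^ m ≠ 0 := pow_ne_zero _ (fun h => by
        simpa using congrArg (eval 0) h)
      rw [rootMultiplicity_mul (mul_ne_zero (mul_ne_zero htop (hc _ hP0)) hx),
        rootMultiplicity_mul (mul_ne_zero htop (hc _ hP0)),
        rootMultiplicity_mul (mul_ne_zero (hc _ htop) hP0), rootMultiplicity_one_comp_sq,
        rootMultiplicity_one_comp_sq,
        show (1 - X : ℂ[X]) ^ m = C ((-1) ^ m) * (X - C 1) ^ m by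
          rw [C_pow, ← mul_pow, C_neg, C_1]; ring,
        rootMultiplicity_mul (mul_ne_zero (C_ne_zero.mpr (pow_ne_zero _ (by norm_num)))
          (pow_ne_zero _ (X_sub_C_ne_zero 1))), rootMultiplicity_C,
        rootMultiplicity_X_sub_C_pow] at h2
      omega

/-- **The series takes transcendental values.** -/
theorem transcendental_tmSeries {α : ℂ} (hα : IsAlgebraic ℚ α) (hα0 : α ≠ 0) (hα1 : ‖α‖ < 1) :
    Transcendental ℚ (tmSeries α) :=
  transcendental_of_equation (algebraMap ℚ ℂ) sign₂ rep_tmSeries le_rfl (1 - Polynomial.X) 1 0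
    (fun z hz => by simpa using (tmSeries_eq hz).symm) noRelation_tmSeries hα hα0 hα1 fun k h => by
      have h1 : ‖α ^ 2 ^ k‖ < 1 := by
        rw [norm_pow]; exact pow_lt_one₀ (norm_nonneg α) hα1 (pow_ne_zero _ two_ne_zero)
      simp only [Polynomial.map_sub, Polynomial.map_one, Polynomial.map_X, Polynomial.eval_sub,
        Polynomial.eval_one, Polynomial.eval_X, sub_eq_zero] at h
      rw [← h, norm_one] at h1
      exact lt_irrefl _ h1

end FA.Mahler

end
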