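import Fermat.Agent.Transcendence.GelfondSchneiderAnalysis
import Mathlib.Analysis.Calculus.IteratedDeriv.Lemmas

/-!
# Analysis for the theorem of Schneider and Lang

An entire function vanishing to order `r` at the points of a finite set has a small `r`-th
derivative there, and a product with a function vanishing to order `r` has the obvious `r`-th
derivative.
-/

set_option autoImplicit false

noncomputable section

namespace FA.SchneiderLang

open Metric Filter
open scoped Nat Topology

/-- An entire function that is not identically zero is a power of `z - w` times an entire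
function that does not vanish at `w`. -/
theorem exists_factor_ne_zero {f : ℂ → ℂ} (hf : Differentiable ℂ f) (hne : f ≠ 0) (w : ℂ) :
    ∃ (o : ℕ) (g : ℂ → ℂ), Differentiable ℂ g ∧ g w ≠ 0 ∧ ∀ z, f z = (z - w) ^ o * g z := by
  have htop : analyticOrderAt f w ≠ ⊤ := fun h => hne <| funext fun z =>
    AnalyticOnNhd.eqOn_zero_of_preconnected_of_eventuallyEq_zero
      (fun x _ => hf.analyticAt x) isPreconnected_univ (Set.mem_univ w)
      (analyticOrderAt_eq_top.1 h) (Set.mem_univ z)
  obtain ⟨o, ho⟩ := ENat.ne_top_iff_exists.1 htop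
  obtain ⟨g, hg, hfg⟩ := GelfondSchneider.exists_factor_single hf ho.le
  refine ⟨o, g, hg, fun h0 => ?_, hfg⟩
  obtain ⟨g₁, hg₁, h₁⟩ := GelfondSchneider.exists_factor_single hg (r := 1) (a := w) (by
    rw [Nat.cast_one, Order.one_le_iff_ne_zero]
    exact (hg.analyticAt w).analyticOrderAt_ne_zero.2 h0)
  have hle : ((o + 1 : ℕ) : ℕ∞) ≤ analyticOrderAt f w :=
    (natCast_le_analyticOrderAt (hf.analyticAt w)).2 ⟨g₁, hg₁.analyticAt w,
      Eventually.of_forall fun z => by rw [smul_eq_mul, hfg, h₁, pow_one, pow_succ, mul_assoc]⟩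
  rw [← ho] at hle
  exact absurd (ENat.natCast_le_natCast.1 hle) (by omega)

/-- The `r`-th derivative of a product at a zero of order `r` of the second factor. -/
theorem iteratedDeriv_mul_eq_of_forall_lt {f g : ℂ → ℂ} {x : ℂ} {r : ℕ} (hf : AnalyticAt ℂ f x)
    (hg : AnalyticAt ℂ g x) (h : ∀ k < r, iteratedDeriv k g x = 0) :
    iteratedDeriv r (fun z => f z * g z) x = f x * iteratedDeriv r g x := by
  rw [iteratedDeriv_fun_mul hf.contDiffAt hg.contDiffAt, Finset.sum_eq_single 0]
  · simp
  · intro i hi hi0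
    rw [h (r - i) (by simp only [Finset.mem_range] at hi; omega), mul_zero]
  · simp

/-- Removing a factor does not lower the order of vanishing elsewhere. -/
theorem le_order_of_mul {f g h : ℂ → ℂ} {x : ℂ} {n : ℕ∞} (hh : AnalyticAt ℂ h x)
    (hg : AnalyticAt ℂ g x) (hx : h x ≠ 0) (hfac : f =ᶠ[𝓝 x] h * g)
    (hn : n ≤ analyticOrderAt f x) : n ≤ analyticOrderAt g x := by
  rwa [analyticOrderAt_congr hfac, analyticOrderAt_mul hh hg, hh.analyticOrderAt_eq_zero.2 hx,
    zero_add] at hn

/-- A multiple of a function vanishing to order `n` does so too. -/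
theorem le_order_mul {g h : ℂ → ℂ} {x : ℂ} {n : ℕ∞} (hh : AnalyticAt ℂ h x)
    (hg : AnalyticAt ℂ g x) (hn : n ≤ analyticOrderAt g x) :
    n ≤ analyticOrderAt (h * g) x := by
  rw [analyticOrderAt_mul hh hg]
  exact le_add_left hn

/-- **The derivative at a zero of high order**, for a finite set of points. -/
theorem norm_iteratedDeriv_le {F : ℂ → ℂ} (hF : Differentiable ℂ F) (s : Finset ℂ) {r : ℕ}
    {R B B₀ : ℝ} (hs : ∀ a ∈ s, ‖a‖ ≤ B₀) (hR : 2 * B₀ + 2 ≤ R)
    (hzero : ∀ a ∈ s, (r : ℕ∞) ≤ analyticOrderAt F a)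
    (hB : ∀ z : ℂ, ‖z‖ = R → ‖F z‖ ≤ B) {a₀ : ℂ} (ha₀ : a₀ ∈ s) :
    ‖iteratedDeriv r F a₀‖ ≤
      r ! * ((2 * B₀ + 1) ^ (s.card * r) * (B * (2 / R) ^ (s.card * r))) := by
  classical
  obtain ⟨G, hG, hfac⟩ := GelfondSchneider.exists_factor s hF hzero
  have hB₀ : 0 ≤ B₀ := (norm_nonneg a₀).trans (hs a₀ ha₀)
  have hR0 : (0 : ℝ) < R := by linarith
  have hGb : ∀ z : ℂ, ‖z‖ ≤ R → ‖G z‖ ≤ B * (2 / R) ^ (s.card * r) := by
    intro z hz
    refine Complex.norm_le_of_forall_mem_frontier_norm_le (U := ball (0 : ℂ) R) isBounded_ball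
      hG.diffContOnCl (fun w hw => ?_) ?_
    · rw [frontier_ball _ hR0.ne', mem_sphere_zero_iff_norm] at hw
      have hP : (R / 2) ^ (s.card * r) ≤ ‖∏ a ∈ s, (w - a) ^ r‖ := by
        rw [norm_prod, mul_comm s.card r, pow_mul, ← Finset.prod_const]
        refine Finset.prod_le_prod (fun a _ => by positivity) fun a ha => ?_
        rw [norm_pow]
        refine pow_le_pow_left₀ (by linarith) ?_ r
        have := norm_sub_norm_le w a
        rw [hw] at this
        linarith [hs a ha]
      have hFw := hB w hw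
      rw [hfac w, norm_mul] at hFw
      have h2 : (R / 2) ^ (s.card * r) * ‖G w‖ ≤ B :=
        (mul_le_mul_of_nonneg_right hP (norm_nonneg _)).trans hFw
      rw [show (2 / R) ^ (s.card * r) = ((R / 2) ^ (s.card * r))⁻¹ by rw [← inv_pow, inv_div],
        ← div_eq_mul_inv, le_div_iff₀ (by positivity)]
      linarith
    · rw [closure_ball _ hR0.ne', mem_closedBall_zero_iff]
      exact hz
  have h := Complex.norm_iteratedDeriv_le_of_forall_mem_sphere_norm_le r one_pos
    (hF.diffContOnCl (s := ball a₀ 1))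
    (C := (2 * B₀ + 1) ^ (s.card * r) * (B * (2 / R) ^ (s.card * r))) fun z hz => by
      rw [mem_sphere_iff_norm] at hz
      have hzn : ‖z‖ ≤ B₀ + 1 := by
        have := norm_le_norm_add_norm_sub' z a₀
        rw [hz] at this
        linarith [hs a₀ ha₀]
      rw [hfac z, norm_mul]
      refine mul_le_mul ?_ (hGb z (by linarith)) (norm_nonneg _) (by positivity)
      rw [norm_prod, mul_comm s.card r, pow_mul, ← Finset.prod_const]
      refine Finset.prod_le_prod (fun a _ => norm_nonneg _) fun a ha => ?_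
      rw [norm_pow]
      refine pow_le_pow_left₀ (norm_nonneg _) ?_ r
      linarith [norm_sub_le z a, hs a ha]
  simpa using h

end FA.SchneiderLang

end
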