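import Mathlib.Algebra.MvPolynomial.Derivation
import Mathlib.Algebra.MvPolynomial.Degrees
import Mathlib.Analysis.Calculus.IteratedDeriv.Lemmas
import Mathlib.NumberTheory.NumberField.House

/-!
# Polynomials with algebraic integer coefficients under a derivation

The sum of the houses of the coefficients grows at most linearly in the degree under a
derivation; this bounds the higher derivatives of polynomials in functions that satisfy
polynomial differential equations.
-/

set_option autoImplicit false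

noncomputable section

namespace FA.SchneiderLang

open NumberField MvPolynomial
open scoped Topology

variable {K : Type*} [Field K] [NumberField K] {σ : Type*}

/-- The sum of the houses of the coefficients. -/
def weight (p : MvPolynomial σ (𝓞 K)) : ℝ :=
  ∑ s ∈ p.support, house ((coeff s p : 𝓞 K) : K)

theorem weight_nonneg (p : MvPolynomial σ (𝓞 K)) : 0 ≤ weight p :=
  Finset.sum_nonneg fun _ _ => house_nonneg _

theorem house_zero_le : house ((0 : 𝓞 K) : K) ≤ 0 := by
  rw [show ((0 : 𝓞 K) : K) = ((0 : ℤ) : K) by simp, house_intCast]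
  simp

theorem weight_eq_sum (p : MvPolynomial σ (𝓞 K)) {S : Finset (σ →₀ ℕ)} (h : p.support ⊆ S) :
    weight p = ∑ s ∈ S, house ((coeff s p : 𝓞 K) : K) :=
  Finset.sum_subset h fun s _ hs => by
    rw [notMem_support_iff.1 hs]
    exact le_antisymm house_zero_le (house_nonneg _)

theorem weight_zero : weight (0 : MvPolynomial σ (𝓞 K)) = 0 := by simp [weight]

theorem weight_add_le (p q : MvPolynomial σ (𝓞 K)) : weight (p + q) ≤ weight p + weight q := by
  classical
  rw [weight_eq_sum _ MvPolynomial.support_add, weight_eq_sum p Finset.subset_union_left,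
    weight_eq_sum q Finset.subset_union_right, ← Finset.sum_add_distrib]
  refine Finset.sum_le_sum fun s _ => ?_
  rw [coeff_add]
  push_cast
  exact house_add_le _ _

theorem weight_sum_le {ι : Type*} (s : Finset ι) (p : ι → MvPolynomial σ (𝓞 K)) :
    weight (∑ i ∈ s, p i) ≤ ∑ i ∈ s, weight (p i) :=
  Finset.le_sum_of_subadditive weight weight_zero.le weight_add_le s p

theorem weight_monomial_le (s : σ →₀ ℕ) (c : 𝓞 K) :
    weight (monomial s c) ≤ house (c : K) := by
  classical
  rw [weight_eq_sum _ support_monomial_subset, Finset.sum_singleton, coeff_monomial, if_pos rfl]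

/-- One step of a derivation. -/
theorem weight_mkDerivation_le (Q : σ → MvPolynomial σ (𝓞 K)) {e : ℕ} {G : ℝ}
    (hG : 0 ≤ G) (hQe : ∀ i, (Q i).totalDegree ≤ e) (hQG : ∀ i, weight (Q i) ≤ G)
    {p : MvPolynomial σ (𝓞 K)} {d : ℕ} (hd : p.totalDegree ≤ d) :
    weight (mkDerivation (𝓞 K) Q p) ≤ (d : ℝ) * G * weight p ∧
      (mkDerivation (𝓞 K) Q p).totalDegree ≤ d + e := by
  classical
  have hexp : mkDerivation (𝓞 K) Q p = ∑ s ∈ p.support, ∑ i ∈ s.support, ∑ t ∈ (Q i).support,
      monomial (s - Finsupp.single i 1 + t) (coeff s p * (s i : 𝓞 K) * coeff t (Q i)) := by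
    conv_lhs => rw [p.as_sum]
    rw [map_sum]
    refine Finset.sum_congr rfl fun s _ => ?_
    rw [mkDerivation_monomial, Finsupp.sum, Finset.smul_sum]
    refine Finset.sum_congr rfl fun i _ => ?_
    conv_lhs => rw [(Q i).as_sum, smul_eq_mul, Finset.mul_sum, Finset.smul_sum]
    refine Finset.sum_congr rfl fun t _ => ?_
    rw [monomial_mul, smul_monomial, smul_eq_mul, mul_assoc]
  rw [hexp]
  constructor
  · refine (weight_sum_le _ _).trans ?_
    rw [weight, Finset.mul_sum]
    refine Finset.sum_le_sum fun s hs => ?_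
    refine (weight_sum_le _ _).trans ?_
    have hsd : ∑ i ∈ s.support, (s i : ℝ) ≤ d := by
      exact_mod_cast (le_totalDegree hs).trans hd
    calc ∑ i ∈ s.support, weight (∑ t ∈ (Q i).support,
          monomial (s - Finsupp.single i 1 + t) (coeff s p * (s i : 𝓞 K) * coeff t (Q i)))
        ≤ ∑ i ∈ s.support, (s i : ℝ) * (G * house ((coeff s p : 𝓞 K) : K)) := by
          refine Finset.sum_le_sum fun i _ => (weight_sum_le _ _).trans ?_
          refine (Finset.sum_le_sum fun t _ => (weight_monomial_le _ _).trans (le_of_le_of_eq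
            (show _ ≤ (s i : ℝ) * house ((coeff s p : 𝓞 K) : K) *
              house ((coeff t (Q i) : 𝓞 K) : K) from ?_) rfl)).trans ?_
          · simp only [map_mul, map_natCast]
            refine (house_mul_le _ _).trans (mul_le_mul_of_nonneg_right ?_ (house_nonneg _))
            rw [mul_comm, house_nat_mul]
          · rw [← Finset.mul_sum, mul_assoc]
            refine mul_le_mul_of_nonneg_left ?_ (Nat.cast_nonneg _)
            rw [mul_comm G]
            exact mul_le_mul_of_nonneg_left (hQG i) (house_nonneg _)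
      _ ≤ (d : ℝ) * G * house ((coeff s p : 𝓞 K) : K) := by
          rw [← Finset.sum_mul, mul_assoc]
          exact mul_le_mul_of_nonneg_right hsd (mul_nonneg hG (house_nonneg _))
  · refine totalDegree_finsetSum_le fun s hs => totalDegree_finsetSum_le fun i _ =>
      totalDegree_finsetSum_le fun t ht => (totalDegree_monomial_le _ _).trans ?_
    rw [Finsupp.sum_add_index' (fun _ => rfl) (fun _ _ _ => rfl)]
    refine Nat.add_le_add (le_trans ?_ ((le_totalDegree hs).trans hd))
      ((le_totalDegree ht).trans (hQe i))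
    exact Finsupp.sum_le_sum_index tsub_le_self (fun _ _ _ _ h => h) (fun _ _ => rfl)

/-- Iterated derivations. -/
theorem weight_iterate_le (Q : σ → MvPolynomial σ (𝓞 K)) {e : ℕ} {G : ℝ} (hG : 0 ≤ G)
    (hQe : ∀ i, (Q i).totalDegree ≤ e) (hQG : ∀ i, weight (Q i) ≤ G)
    {p : MvPolynomial σ (𝓞 K)} {d : ℕ} (hd : p.totalDegree ≤ d) (k : ℕ) :
    weight ((⇑(mkDerivation (𝓞 K) Q))^[k] p) ≤ (((d + k * e : ℕ) : ℝ) * G) ^ k * weight p ∧
      ((⇑(mkDerivation (𝓞 K) Q))^[k] p).totalDegree ≤ d + k * e := by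
  induction k with
  | zero => simp [hd]
  | succ k ih =>
    rw [Function.iterate_succ_apply']
    obtain ⟨h1, h2⟩ := weight_mkDerivation_le Q hG hQe hQG ih.2
    refine ⟨h1.trans ?_, h2.trans (le_of_eq (by ring))⟩
    have hmono : ((d + k * e : ℕ) : ℝ) * G ≤ ((d + (k + 1) * e : ℕ) : ℝ) * G :=
      mul_le_mul_of_nonneg_right (by exact_mod_cast (by nlinarith : d + k * e ≤ d + (k + 1) * e)) hG
    calc ((d + k * e : ℕ) : ℝ) * G * weight ((⇑(mkDerivation (𝓞 K) Q))^[k] p)
        ≤ ((d + (k + 1) * e : ℕ) : ℝ) * G *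
            ((((d + (k + 1) * e : ℕ) : ℝ) * G) ^ k * weight p) :=
          mul_le_mul hmono (ih.1.trans (mul_le_mul_of_nonneg_right
            (pow_le_pow_left₀ (by positivity) hmono k) (weight_nonneg p)))
            (weight_nonneg _) (by positivity)
      _ = (((d + (k + 1) * e : ℕ) : ℝ) * G) ^ (k + 1) * weight p := by ring

variable [Fintype σ]

/-- The value of a polynomial at a point with denominator `D`, cleared. -/
theorem exists_eval_house_le (ψ : K →+* ℂ) {D : ℤ} {M : ℝ} (hM : 1 ≤ M) (hD : |(D : ℝ)| ≤ M)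
    {v : σ → ℂ} {x : σ → 𝓞 K} (hx : ∀ i, ψ (x i : K) = (D : ℂ) * v i)
    (hxM : ∀ i, house (x i : K) ≤ M)
    {p : MvPolynomial σ (𝓞 K)} {d : ℕ} (hd : p.totalDegree ≤ d) :
    ∃ y : 𝓞 K, ψ (y : K) = (D : ℂ) ^ d * eval₂ (ψ.comp (algebraMap (𝓞 K) K)) v p ∧
      house (y : K) ≤ weight p * M ^ d := by
  classical
  refine ⟨∑ s ∈ p.support, coeff s p * ((D : 𝓞 K) ^ (d - ∑ i, s i) * ∏ i, x i ^ s i), ?_, ?_⟩
  · rw [eval₂_eq', Finset.mul_sum]
    push_cast
    rw [map_sum]
    refine Finset.sum_congr rfl fun s hs => ?_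
    have hsd : ∑ i, s i ≤ d := by
      rw [← Finsupp.sum_fintype s (fun _ k => k) fun _ => rfl]
      exact (le_totalDegree hs).trans hd
    have hD' : (D : ℂ) ^ d = (D : ℂ) ^ (d - ∑ i, s i) * ∏ i, (D : ℂ) ^ s i := by
      rw [Finset.prod_pow_eq_pow_sum, ← pow_add, Nat.sub_add_cancel hsd]
    simp only [map_mul, map_pow, map_prod, map_intCast, hx, mul_pow, Finset.prod_mul_distrib,
      RingHom.coe_comp, Function.comp_apply, hD']
    ring
  · push_cast
    refine (house_sum_le_sum_house _ _).trans ?_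
    rw [weight, Finset.sum_mul]
    refine Finset.sum_le_sum fun s hs => ?_
    have hsd : ∑ i, s i ≤ d := by
      rw [← Finsupp.sum_fintype s (fun _ k => k) fun _ => rfl]
      exact (le_totalDegree hs).trans hd
    refine (house_mul_le _ _).trans (mul_le_mul_of_nonneg_left ?_ (house_nonneg _))
    have hone : house (1 : K) ≤ 1 := by
      rw [show (1 : K) = ((1 : ℤ) : K) by simp, house_intCast]; simp
    have hpow : ∀ (z : K) (k : ℕ), house z ≤ M → house (z ^ k) ≤ M ^ k := fun z k hz =>
      (house_pow_le _ _).trans (pow_le_pow_left₀ (house_nonneg _) hz k)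
    have hprod : ∀ t : Finset σ, house (∏ i ∈ t, (x i : K) ^ s i) ≤ M ^ ∑ i ∈ t, s i := by
      intro t
      induction t using Finset.induction with
      | empty => simpa using hone
      | @insert a t ha ih =>
        rw [Finset.prod_insert ha, Finset.sum_insert ha, pow_add]
        exact (house_mul_le _ _).trans (mul_le_mul (hpow _ _ (hxM a)) ih (house_nonneg _)
          (by positivity))
    have hDh : house (D : K) ≤ M := by rw [house_intCast, Int.cast_abs]; exact hD
    refine (house_mul_le _ _).trans ?_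
    calc house ((D : K) ^ (d - ∑ i, s i)) * house (∏ i, (x i : K) ^ s i)
        ≤ M ^ (d - ∑ i, s i) * M ^ ∑ i, s i :=
          mul_le_mul (hpow _ _ hDh) (hprod _) (house_nonneg _) (by positivity)
      _ = M ^ d := by rw [← pow_add, Nat.sub_add_cancel hsd]

omit [NumberField K] [Fintype σ] in
/-- Differentiation of polynomials in solutions of polynomial differential equations. -/
theorem hasDerivAt_eval₂ (φ : 𝓞 K →+* ℂ) {D : ℂ} {f : σ → ℂ → ℂ}
    {Q : σ → MvPolynomial σ (𝓞 K)} {z : ℂ}
    (hf : ∀ i, HasDerivAt (f i) (eval₂ φ (fun j => f j z) (Q i) / D) z)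
    (p : MvPolynomial σ (𝓞 K)) :
    HasDerivAt (fun w => eval₂ φ (fun j => f j w) p)
      (eval₂ φ (fun j => f j z) (mkDerivation (𝓞 K) Q p) / D) z := by
  induction p using MvPolynomial.induction_on with
  | C a => simpa using hasDerivAt_const z (φ a)
  | add p q hp hq =>
    simp only [map_add, eval₂_add, add_div]
    exact hp.add hq
  | mul_X p i hp =>
    simp only [eval₂_mul, eval₂_X]
    rw [Derivation.leibniz, mkDerivation_X, smul_eq_mul, smul_eq_mul, eval₂_add, eval₂_mul,
      eval₂_mul, eval₂_X]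
    refine (hp.mul (hf i)).congr_deriv ?_
    ring

omit [NumberField K] [Fintype σ] in
/-- The higher derivatives of polynomials in such functions. -/
theorem pow_mul_iteratedDeriv_eval₂ (φ : 𝓞 K →+* ℂ) {D : ℂ} (hD : D ≠ 0) {f : σ → ℂ → ℂ}
    {Q : σ → MvPolynomial σ (𝓞 K)} {U : Set ℂ} (hU : IsOpen U)
    (hf : ∀ i, ∀ z ∈ U, HasDerivAt (f i) (eval₂ φ (fun j => f j z) (Q i) / D) z)
    (k : ℕ) (p : MvPolynomial σ (𝓞 K)) {z : ℂ} (hz : z ∈ U) :
    D ^ k * iteratedDeriv k (fun w => eval₂ φ (fun j => f j w) p) z =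
      eval₂ φ (fun j => f j z) ((⇑(mkDerivation (𝓞 K) Q))^[k] p) := by
  induction k generalizing p with
  | zero => simp
  | succ k ih =>
    have heq : deriv (fun w => eval₂ φ (fun j => f j w) p) =ᶠ[𝓝 z] fun w =>
        D⁻¹ * eval₂ φ (fun j => f j w) (mkDerivation (𝓞 K) Q p) := by
      filter_upwards [hU.mem_nhds hz] with w hw
      rw [(hasDerivAt_eval₂ φ (fun i => hf i w hw) p).deriv, div_eq_inv_mul]
    rw [iteratedDeriv_succ', heq.iteratedDeriv_eq k, iteratedDeriv_const_mul_field,
      Function.iterate_succ_apply, ← ih, pow_succ]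
    field_simp

end FA.SchneiderLang

end
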