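import Fermat.Agent.Transcendence.GelfondSchneider
import Fermat.Agent.Transcendence.SchneiderLangAnalysis
import Fermat.Agent.Transcendence.SchneiderLangPolynomial

/-!
# The theorem of Schneider and Lang

Let functions satisfy polynomial differential equations over a number field `K` of degree `h`,
let two of them, `f₀` and `f₁`, be algebraically independent quotients of entire functions of
order at most `ρ`. Then at most `4 ρ h` points give values in `K` to all of the functions.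
-/

set_option autoImplicit false
set_option linter.style.haveILetI false

noncomputable section

namespace FA.SchneiderLang

open NumberField Module Matrix MvPolynomial
open scoped Nat Topology

variable {K : Type*} [Field K] [NumberField K] {σ : Type*} [Fintype σ]

/-- The monomial `X i₀ ^ a * X i₁ ^ b`. -/
def auxMonomial (i₀ i₁ : σ) (a b : ℕ) : MvPolynomial σ (𝓞 K) :=
  monomial (Finsupp.single i₀ a + Finsupp.single i₁ b) 1

omit [NumberField K] [Fintype σ] in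
theorem eval₂_auxMonomial (χ : 𝓞 K →+* ℂ) (v : σ → ℂ) (i₀ i₁ : σ) (a b : ℕ) :
    eval₂ χ v (auxMonomial i₀ i₁ a b) = v i₀ ^ a * v i₁ ^ b := by
  rw [auxMonomial, show (monomial (Finsupp.single i₀ a + Finsupp.single i₁ b) (1 : 𝓞 K)) =
    X i₀ ^ a * X i₁ ^ b by rw [X_pow_eq_monomial, X_pow_eq_monomial, monomial_mul, one_mul],
    eval₂_mul, eval₂_pow, eval₂_pow, eval₂_X, eval₂_X]

omit [NumberField K] [Fintype σ] in
theorem totalDegree_auxMonomial_le (i₀ i₁ : σ) (a b : ℕ) :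
    (auxMonomial i₀ i₁ a b : MvPolynomial σ (𝓞 K)).totalDegree ≤ a + b := by
  refine (totalDegree_monomial_le _ _).trans ?_
  rw [Finsupp.sum_add_index' (fun _ => rfl) (fun _ _ _ => rfl)]
  simp

omit [Fintype σ] in
theorem weight_auxMonomial_le (i₀ i₁ : σ) (a b : ℕ) :
    weight (auxMonomial i₀ i₁ a b : MvPolynomial σ (𝓞 K)) ≤ 1 := by
  refine (weight_monomial_le _ _).trans ?_
  rw [show ((1 : 𝓞 K) : K) = ((1 : ℤ) : K) by simp, house_intCast]
  simp

set_option maxHeartbeats 2000000 in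
/-- **Schneider's argument.** -/
theorem false_of_data (ψ : K →+* ℂ) {D : ℤ} (hD : D ≠ 0) {f : σ → ℂ → ℂ} {U : Set ℂ}
    (hU : IsOpen U) (Q : σ → MvPolynomial σ (𝓞 K))
    (hder : ∀ i, ∀ z ∈ U, HasDerivAt (f i)
      (eval₂ (ψ.comp (algebraMap (𝓞 K) K)) (fun j => f j z) (Q i) / (D : ℂ)) z)
    (W : Finset ℂ) (hWU : ∀ w ∈ W, w ∈ U) (x : ℂ → σ → 𝓞 K)
    (hx : ∀ w ∈ W, ∀ i, ψ (x w i : K) = (D : ℂ) * f i w)
    (i₀ i₁ : σ) {θ g₀ g₁ : ℂ → ℂ} (hθ : Differentiable ℂ θ) (hθ0 : θ ≠ 0)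
    (hg₀ : Differentiable ℂ g₀) (hg₁ : Differentiable ℂ g₁)
    (h₀ : ∀ z ∈ U, g₀ z = θ z * f i₀ z) (h₁ : ∀ z ∈ U, g₁ z = θ z * f i₁ z)
    {ρ : ℕ} (hρ : 0 < ρ) {C : ℝ}
    (bθ : ∀ z, ‖θ z‖ ≤ Real.exp (C * (‖z‖ + 1) ^ ρ))
    (b₀ : ∀ z, ‖g₀ z‖ ≤ Real.exp (C * (‖z‖ + 1) ^ ρ))
    (b₁ : ∀ z, ‖g₁ z‖ ≤ Real.exp (C * (‖z‖ + 1) ^ ρ))
    (hind : ∀ (q : ℕ) (c : Fin q × Fin q → ℂ),
      (∀ z ∈ U, ∑ t, c t * (f i₀ z ^ t.1.val * f i₁ z ^ t.2.val) = 0) → c = 0)
    (hcard : 4 * ρ * finrank ℚ K < W.card) : False := by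
  classical
  set χ : 𝓞 K →+* ℂ := ψ.comp (algebraMap (𝓞 K) K) with hχ
  set δ := mkDerivation (𝓞 K) Q with hδ
  obtain ⟨C₁, hsiegel⟩ := GelfondSchneider.exists_siegel K
  choose o θ₁ hθ₁d hθ₁w hθ₁ using fun w => exists_factor_ne_zero hθ hθ0 w
  -- constants
  set h := finrank ℚ K with hh
  have hh1 : 1 ≤ h := finrank_pos
  set m := W.card with hm
  have hm1 : 1 ≤ m := by omega
  set B₀ : ℝ := ∑ w ∈ W, ‖w‖ with hB₀
  have hB₀w : ∀ w ∈ W, ‖w‖ ≤ B₀ := fun w hw =>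
    Finset.single_le_sum (f := fun a => ‖a‖) (fun a _ => norm_nonneg a) hw
  set e := Finset.univ.sup fun i => (Q i).totalDegree with he
  have hQe : ∀ i, (Q i).totalDegree ≤ e := fun i =>
    Finset.le_sup (f := fun i => (Q i).totalDegree) (Finset.mem_univ i)
  set G : ℝ := 1 + ∑ i, weight (Q i) with hG
  have hG1 : 1 ≤ G := by
    have := Finset.sum_nonneg fun i (_ : i ∈ Finset.univ) => weight_nonneg (Q i)
    linarith
  have hQG : ∀ i, weight (Q i) ≤ G := fun i => by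
    have := Finset.single_le_sum (f := fun i => weight (Q i)) (fun i _ => weight_nonneg (Q i))
      (Finset.mem_univ i)
    linarith
  set M : ℝ := 1 + |(D : ℝ)| + ∑ w ∈ W, ∑ i, house (x w i : K) with hM
  have hsum0 : 0 ≤ ∑ w ∈ W, ∑ i, house (x w i : K) :=
    Finset.sum_nonneg fun w _ => Finset.sum_nonneg fun i _ => house_nonneg _
  have hM1 : 1 ≤ M := by linarith [abs_nonneg (D : ℝ)]
  have hDM : |(D : ℝ)| ≤ M := by linarith
  have hxM : ∀ w ∈ W, ∀ i, house (x w i : K) ≤ M := fun w hw i => by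
    have h1 := Finset.single_le_sum (f := fun i => house (x w i : K))
      (fun i _ => house_nonneg _) (Finset.mem_univ i)
    have h2 := Finset.single_le_sum (f := fun w => ∑ i, house (x w i : K))
      (fun w _ => Finset.sum_nonneg fun i _ => house_nonneg _) hw
    linarith [abs_nonneg (D : ℝ)]
  set T : ℝ := 1 + ∑ w ∈ W, (‖θ₁ w w‖⁻¹) ^ 2 with hT
  have hT1 : 1 ≤ T := by
    have := Finset.sum_nonneg fun w (_ : w ∈ W) => sq_nonneg (‖θ₁ w w‖⁻¹)
    linarith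
  have hTw : ∀ w ∈ W, (‖θ₁ w w‖⁻¹) ^ 2 ≤ T := fun w hw => by
    have := Finset.single_le_sum (f := fun w => (‖θ₁ w w‖⁻¹) ^ 2) (fun w _ => sq_nonneg _) hw
    linarith
  set A₀ : ℝ := ((2 + e : ℕ) : ℝ) * G * M ^ (2 + e) with hA₀
  set K₁ : ℝ := (max 1 |C₁|) ^ 2 * 4 * A₀ with hK₁
  set K₂ : ℝ := 4 * K₁ * A₀ with hK₂
  set E : ℝ := Real.exp (4 * m * |C| * 2 ^ ρ) with hE
  set K₄ : ℝ := (2 * (2 * B₀ + 1)) ^ m * (4 * K₁ * E) with hK₄
  set K₅ : ℝ := M ^ (3 + e) * T * K₄ with hK₅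
  set Kc : ℝ := K₅ * K₂ ^ (h - 1) with hKc
  -- parameters
  set N : ℕ := ⌈Kc ^ (2 * ρ)⌉₊ + ⌈(2 * B₀ + 2) ^ (2 * ρ)⌉₊ + 1 with hN
  set q := 2 * m * N with hq
  set n := 2 * m * N ^ 2 with hn
  have hN1 : 1 ≤ N := by omega
  have hn0 : 0 < n := by positivity
  have hq0 : 0 < q := by positivity
  have hqq : q * q = 2 * (m * n) := by rw [hq, hn]; ring
  have hqn : q ≤ n := by rw [hq, hn, sq, ← mul_assoc]; exact Nat.le_mul_of_pos_right _ hN1
  have hNn : N ≤ n := by rw [hn]; nlinarith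
  have hB0' : 0 ≤ B₀ := Finset.sum_nonneg fun w _ => norm_nonneg w
  have hE0 : 0 ≤ E := (Real.exp_pos _).le
  have hA₀0 : 0 ≤ A₀ := by positivity
  have hK₁0 : 0 ≤ K₁ := by positivity
  have hK₂0 : 0 ≤ K₂ := by positivity
  have hK₄0 : 0 ≤ K₄ := by positivity
  have hK₅0 : 0 ≤ K₅ := by positivity
  have hKc0 : 0 ≤ Kc := by positivity
  clear_value Kc K₅ K₄ K₂ K₁ A₀ E T M G e B₀ N q n
  -- the linear system
  let idx := Fin q × Fin q
  let pt := {w // w ∈ W}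
  let mon : idx → MvPolynomial σ (𝓞 K) := fun t => auxMonomial i₀ i₁ t.1 t.2
  have hmond : ∀ t, (mon t).totalDegree ≤ 2 * q := fun t =>
    (totalDegree_auxMonomial_le _ _ _ _).trans (by have := t.1.isLt; have := t.2.isLt; omega)
  have hentry : ∀ (k : ℕ) (w : pt) (t : idx), ∃ y : 𝓞 K,
      ψ (y : K) = (D : ℂ) ^ (2 * q + k * e) * eval₂ χ (fun i => f i w) ((⇑δ)^[k] (mon t)) ∧
      house (y : K) ≤ weight ((⇑δ)^[k] (mon t)) * M ^ (2 * q + k * e) := fun k w t =>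
    exists_eval_house_le ψ hM1 hDM (hx w w.2) (hxM w w.2)
      (weight_iterate_le Q (by linarith) hQe hQG (hmond t) k).2
  choose En hEn hEnh using hentry
  have hEnb : ∀ (k R : ℕ), k ≤ R → q ≤ R → ∀ w t, house (En k w t : K) ≤ (A₀ * R) ^ R := by
    intro k R hk hR w t
    refine (hEnh k w t).trans ?_
    have h1 := (weight_iterate_le Q (by linarith : (0 : ℝ) ≤ G) hQe hQG (hmond t) k).1
    have h2 : weight (mon t) ≤ 1 := weight_auxMonomial_le _ _ _ _
    have hdeg : 2 * q + k * e ≤ (2 + e) * R := by linarith [Nat.mul_le_mul_right e hk]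
    have hR1 : (1 : ℝ) ≤ R := by exact_mod_cast (show 1 ≤ R by omega)
    have he1 : (1 : ℝ) ≤ ((2 + e : ℕ) : ℝ) := by exact_mod_cast (show 1 ≤ 2 + e by omega)
    calc weight ((⇑δ)^[k] (mon t)) * M ^ (2 * q + k * e)
        ≤ (((2 * q + k * e : ℕ) : ℝ) * G) ^ k * 1 * M ^ ((2 + e) * R) := by
          refine mul_le_mul (h1.trans (mul_le_mul_of_nonneg_left h2 (by positivity)))
            (pow_le_pow_right₀ hM1 hdeg) (by positivity) (by positivity)
      _ ≤ (((2 + e : ℕ) : ℝ) * G * R) ^ R * (M ^ (2 + e)) ^ R := by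
          rw [mul_one, ← pow_mul]
          refine mul_le_mul_of_nonneg_right ?_ (by positivity)
          refine (pow_le_pow_left₀ (by positivity) ?_ k).trans (pow_le_pow_right₀ ?_ hk)
          · rw [mul_right_comm ((2 + e : ℕ) : ℝ)]
            exact mul_le_mul_of_nonneg_right (by exact_mod_cast hdeg) (by linarith)
          · exact one_le_mul_of_one_le_of_one_le (one_le_mul_of_one_le_of_one_le he1 hG1) hR1
      _ = (A₀ * R) ^ R := by rw [hA₀, ← mul_pow]; ring_nf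
  let Mat : Matrix (pt × Fin n) idx (𝓞 K) := fun wk t => En wk.2 wk.1 t
  obtain ⟨w₁, hw₁⟩ := Finset.card_pos.1 (show 0 < W.card by omega)
  have hMat0 : Mat ≠ 0 := fun h0 => by
    have h1 := congrFun (congrFun h0 (⟨w₁, hw₁⟩, ⟨0, hn0⟩)) (⟨0, hq0⟩, ⟨0, hq0⟩)
    have h2 := hEn 0 ⟨w₁, hw₁⟩ (⟨0, hq0⟩, ⟨0, hq0⟩)
    simp only [Mat, Matrix.zero_apply] at h1
    rw [h1] at h2
    simp [mon, eval₂_auxMonomial] at h2
    exact pow_ne_zero _ (Int.cast_ne_zero.2 hD) h2.symm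
  obtain ⟨η, hη0, hηM, hηb⟩ := hsiegel (pt × Fin n) idx Mat (m * n) (q * q)
    ((A₀ * n) ^ n) hMat0 (by positivity)
    (by rw [hqq]; have : 0 < m * n := (by positivity); omega)
    (by simp [pt, hm]) (by simp [idx])
    fun wk t => hEnb _ n wk.2.isLt.le hqn wk.1 t
  have hexp1 : (((m * n : ℕ) : ℝ) / (((q * q : ℕ) : ℝ) - ((m * n : ℕ) : ℝ))) = 1 := by
    rw [hqq]; push_cast
    rw [show 2 * ((m : ℝ) * n) - (m : ℝ) * n = (m : ℝ) * n by ring, div_self (by positivity)]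
  rw [hexp1] at hηb
  simp only [Real.rpow_one] at hηb
  -- the auxiliary function
  let p : MvPolynomial σ (𝓞 K) := ∑ t, η t • mon t
  let F : ℂ → ℂ := fun z => eval₂ χ (fun i => f i z) p
  let Φ : ℂ → ℂ := fun z => ∑ t : idx, χ (η t) *
    (g₀ z ^ t.1.val * g₁ z ^ t.2.val * θ z ^ (2 * q - t.1.val - t.2.val))
  have hFsum : ∀ z, F z = ∑ t : idx, χ (η t) * (f i₀ z ^ t.1.val * f i₁ z ^ t.2.val) := fun z => by
    simp only [F, p, eval₂_sum, smul_eq_C_mul, eval₂_mul, eval₂_C, mon, eval₂_auxMonomial]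
  have hΦF : ∀ z ∈ U, Φ z = θ z ^ (2 * q) * F z := fun z hz => by
    rw [hFsum, Finset.mul_sum]
    refine Finset.sum_congr rfl fun t _ => ?_
    obtain ⟨d, hd⟩ : ∃ d, 2 * q = t.1.val + t.2.val + d :=
      ⟨2 * q - t.1.val - t.2.val, by have := t.1.isLt; have := t.2.isLt; omega⟩
    rw [show 2 * q - t.1.val - t.2.val = d by omega, hd, h₀ z hz, h₁ z hz, pow_add, pow_add,
      mul_pow, mul_pow]
    ring
  have hΦd : Differentiable ℂ Φ := Differentiable.fun_sum fun t _ =>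
    (((hg₀.pow _).mul (hg₁.pow _)).mul (hθ.pow _)).const_mul _
  have hFd : DifferentiableOn ℂ F U := fun z hz =>
    (hasDerivAt_eval₂ χ (fun i => hder i z hz) p).differentiableAt.differentiableWithinAt
  have hFan : ∀ w : pt, AnalyticAt ℂ F w := fun w => hFd.analyticAt (hU.mem_nhds (hWU w w.2))
  let S : ℕ → pt → 𝓞 K := fun k w => ∑ t, η t * En k w t
  have hDC : (D : ℂ) ≠ 0 := Int.cast_ne_zero.2 hD
  have hS : ∀ k w, ψ (S k w : K) = (D : ℂ) ^ (2 * q + k * e) *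
      ((D : ℂ) ^ k * iteratedDeriv k F (w : ℂ)) := by
    intro k w
    have hlin : (⇑δ)^[k] p = ∑ t, η t • (⇑δ)^[k] (mon t) := by
      clear hEn hEnh hEnb
      induction k with
      | zero => rfl
      | succ k ih =>
        simp only [Function.iterate_succ_apply', ih, map_sum, Derivation.map_smul]
    rw [pow_mul_iteratedDeriv_eval₂ χ hDC hU hder k p (hWU w w.2), hlin, eval₂_sum,
      Finset.mul_sum]
    simp only [S]
    push_cast
    rw [map_sum]
    refine Finset.sum_congr rfl fun t _ => ?_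
    rw [map_mul, hEn, smul_eq_C_mul, eval₂_mul, eval₂_C, hχ, RingHom.comp_apply]
    ring
  have hzero : ∀ k w, S k w = 0 → iteratedDeriv k F (w : ℂ) = 0 := fun k w h0 => by
    have h1 := hS k w
    rw [h0, show ((0 : 𝓞 K) : K) = 0 from map_zero _, map_zero, eq_comm, mul_eq_zero,
      mul_eq_zero] at h1
    exact (h1.resolve_left (pow_ne_zero _ hDC)).resolve_left (pow_ne_zero _ hDC)
  have hθan : AnalyticOnNhd ℂ θ Set.univ := fun z _ => hθ.analyticAt z
  -- the first non-vanishing derivative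
  have hex : ∃ k, ∃ w : pt, S k w ≠ 0 := by
    by_contra hall
    push Not at hall
    let w : pt := ⟨w₁, hw₁⟩
    have hF0 : ∀ᶠ z in 𝓝 (w : ℂ), F z = 0 :=
      analyticOrderAt_eq_top.1 <| ENat.eq_top_iff_forall_ge.2 fun k =>
        (natCast_le_analyticOrderAt_iff_iteratedDeriv_eq_zero (hFan w)).2
          fun i _ => hzero i w (hall i w)
    have hΦ0 : ∀ z, Φ z = 0 := fun z =>
      AnalyticOnNhd.eqOn_zero_of_preconnected_of_eventuallyEq_zero
        (fun x _ => hΦd.analyticAt x) isPreconnected_univ (Set.mem_univ (w : ℂ)) (by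
          filter_upwards [hF0, hU.mem_nhds (hWU w w.2)] with y hy hyU
          rw [hΦF y hyU, hy, mul_zero]; rfl) (Set.mem_univ z)
    have hFU : ∀ z ∈ U, F z = 0 := fun z hz => by
      have hne : ∀ᶠ y in 𝓝[≠] z, θ y ≠ 0 := by
        refine ((hθ.analyticAt z).eventually_eq_zero_or_eventually_ne_zero).resolve_left
          fun h0 => ?_
        exact hθ0 <| funext fun y => hθan.eqOn_zero_of_preconnected_of_eventuallyEq_zero
          isPreconnected_univ (Set.mem_univ z) h0 (Set.mem_univ y)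
      have hev : F =ᶠ[𝓝[≠] z] fun _ => 0 := by
        filter_upwards [hne, mem_nhdsWithin_of_mem_nhds (hU.mem_nhds hz)] with y hy hyU
        have := hΦF y hyU
        rw [hΦ0, eq_comm, mul_eq_zero] at this
        exact this.resolve_left (pow_ne_zero _ hy)
      exact tendsto_nhds_unique_of_eventuallyEq
        ((hFd.differentiableAt (hU.mem_nhds hz)).continuousAt.continuousWithinAt.tendsto)
        tendsto_const_nhds hev
    refine hη0 (funext fun t => RingOfIntegers.ext (ψ.injective ?_))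
    have h1 := congrFun (hind q (fun t => χ (η t)) fun z hz => by rw [← hFsum]; exact hFU z hz) t
    simpa [hχ] using h1
  obtain ⟨r, ⟨w₀, hSw⟩, hmin⟩ : ∃ r, (∃ w, S r w ≠ 0) ∧ ∀ k < r, ∀ w, S k w = 0 :=
    ⟨Nat.find hex, Nat.find_spec hex, fun k hk w =>
      by_contra fun h0 => Nat.find_min hex hk ⟨w, h0⟩⟩
  have hnr : n ≤ r := by
    by_contra hlt
    push Not at hlt
    refine hSw ?_
    have h3 := congrFun hηM (w₀, ⟨r, hlt⟩)
    simp only [Matrix.mulVec, dotProduct, Pi.zero_apply, Mat] at h3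
    refine (Finset.sum_congr rfl fun t _ => ?_).trans h3
    exact mul_comm _ _
  -- the size
  set u : ℝ := (r : ℝ) ^ (((2 * ρ : ℕ) : ℝ)⁻¹) with hu
  have hu0 : 0 ≤ u := Real.rpow_nonneg (Nat.cast_nonneg r) _
  have hur : u ^ (2 * ρ) = r := Real.rpow_inv_natCast_pow (Nat.cast_nonneg r) (by omega)
  clear_value u
  have hNr : (N : ℝ) ≤ r := by exact_mod_cast hNn.trans hnr
  have huB : 2 * B₀ + 2 ≤ u := by
    refine (pow_le_pow_iff_left₀ (by linarith) hu0 (show 2 * ρ ≠ 0 by omega)).1 ?_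
    rw [hur]
    refine le_trans ?_ hNr
    rw [hN]; push_cast
    linarith [Nat.le_ceil ((2 * B₀ + 2) ^ (2 * ρ)),
      Nat.cast_nonneg (α := ℝ) ⌈Kc ^ (2 * ρ)⌉₊]
  have hu1 : 1 ≤ u := by linarith
  have hqq4 : ((q * q : ℕ) : ℝ) ≤ 4 ^ r := by
    have : q ≤ 2 ^ r := (hqn.trans hnr).trans Nat.lt_two_pow_self.le
    calc ((q * q : ℕ) : ℝ) ≤ ((2 ^ r * 2 ^ r : ℕ) : ℝ) := by exact_mod_cast Nat.mul_le_mul this this
      _ = 4 ^ r := by push_cast; rw [← mul_pow]; norm_num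
  have hA₀1 : 1 ≤ A₀ := hA₀ ▸ one_le_mul_of_one_le_of_one_le
    (one_le_mul_of_one_le_of_one_le
      (show (1 : ℝ) ≤ ((2 + e : ℕ) : ℝ) by exact_mod_cast (show 1 ≤ 2 + e by omega)) hG1)
    (one_le_pow₀ hM1)
  have hn1 : (1 : ℝ) ≤ n := by exact_mod_cast hn0
  have hη : ∀ t, house (η t : K) ≤ K₁ ^ r * (r : ℝ) ^ r := fun t => by
    refine ((hηb t).trans (le_abs_self _)).trans ?_
    rw [abs_mul, abs_mul, abs_mul, abs_of_nonneg (Nat.cast_nonneg (α := ℝ) (q * q)),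
      abs_of_nonneg (pow_nonneg (mul_nonneg hA₀0 (Nat.cast_nonneg n)) n)]
    have hC1 : |C₁| * |C₁| ≤ ((max 1 |C₁|) ^ 2) ^ r := by
      refine le_trans ?_ (le_self_pow₀ (one_le_pow₀ (le_max_left _ _)) (by omega))
      rw [sq]
      exact mul_le_mul (le_max_right _ _) (le_max_right _ _) (abs_nonneg _) (by positivity)
    calc |C₁| * (|C₁| * ((q * q : ℕ) : ℝ) * (A₀ * n) ^ n)
        = (|C₁| * |C₁|) * ((q * q : ℕ) : ℝ) * (A₀ * n) ^ n := by ring
      _ ≤ ((max 1 |C₁|) ^ 2) ^ r * 4 ^ r * (A₀ * r) ^ r := by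
        gcongr
        exact (pow_le_pow_right₀ (one_le_mul_of_one_le_of_one_le hA₀1 hn1) hnr).trans
          (pow_le_pow_left₀ (by positivity) (by gcongr) r)
      _ = K₁ ^ r * (r : ℝ) ^ r := by rw [hK₁]; simp only [mul_pow]; ring
  have hcardi : Fintype.card idx = q * q := by simp [idx]
  have hSh : house (S r w₀ : K) ≤ K₂ ^ r * ((r : ℝ) ^ r) ^ 2 := by
    simp only [S]
    push_cast
    refine (house_sum_le_sum_house _ _).trans ?_
    refine (Finset.sum_le_card_nsmul _ _ ((K₁ ^ r * (r : ℝ) ^ r) * (A₀ * r) ^ r)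
      fun t _ => ?_).trans ?_
    · exact (house_mul_le _ _).trans (mul_le_mul (hη t)
        (hEnb r r le_rfl (hqn.trans hnr) w₀ t) (house_nonneg _) (by positivity))
    · rw [Finset.card_univ, hcardi, nsmul_eq_mul]
      refine (mul_le_mul_of_nonneg_right hqq4 (by positivity)).trans (le_of_eq ?_)
      rw [hK₂]; simp only [mul_pow]; ring
  -- the bound on the circle of radius `u`
  have hΦb : ∀ z : ℂ, ‖z‖ = u → ‖Φ z‖ ≤ (4 * K₁ * E) ^ r * (r : ℝ) ^ r := by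
    intro z hz
    set Ev := Real.exp (|C| * (2 * u) ^ ρ) with hEv
    have hbd : ∀ g : ℂ → ℂ, (∀ z, ‖g z‖ ≤ Real.exp (C * (‖z‖ + 1) ^ ρ)) → ‖g z‖ ≤ Ev :=
      fun g hg => (hg z).trans (Real.exp_le_exp.2 ((mul_le_mul_of_nonneg_right (le_abs_self C)
        (by positivity)).trans (mul_le_mul_of_nonneg_left
          (pow_le_pow_left₀ (by positivity) (by linarith) ρ) (abs_nonneg C))))
    have hquρ : (q : ℝ) * u ^ ρ ≤ 2 * m * r := by
      refine (pow_le_pow_iff_left₀ (by positivity) (by positivity) two_ne_zero).1 ?_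
      rw [mul_pow, ← pow_mul, mul_comm ρ 2, hur, sq (q : ℝ)]
      have h1 : (q : ℝ) * q = 2 * ((m : ℝ) * n) := by exact_mod_cast hqq
      have h2 : (n : ℝ) ≤ r := by exact_mod_cast hnr
      have h3 : (1 : ℝ) ≤ m := by exact_mod_cast hm1
      rw [h1]
      linarith [mul_le_mul_of_nonneg_left h2 (show (0 : ℝ) ≤ m * r by positivity),
        mul_le_mul_of_nonneg_right h3 (show (0 : ℝ) ≤ m * r * r by positivity),
        show (0 : ℝ) ≤ m * m * r * r by positivity]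
    have hEv2q : Ev ^ (2 * q) ≤ E ^ r := by
      rw [hEv, hE, ← Real.exp_nat_mul, ← Real.exp_nat_mul]
      refine Real.exp_le_exp.2 ?_
      push_cast
      rw [mul_pow]
      linarith [mul_le_mul_of_nonneg_left hquρ (show (0 : ℝ) ≤ 2 * |C| * 2 ^ ρ by positivity)]
    refine (norm_sum_le _ _).trans ?_
    refine (Finset.sum_le_card_nsmul _ _ ((K₁ ^ r * (r : ℝ) ^ r) * E ^ r) fun t _ => ?_).trans ?_
    · rw [norm_mul, norm_mul, norm_mul, norm_pow, norm_pow, norm_pow]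
      refine mul_le_mul ((norm_embedding_le_house _ ψ).trans (hη t)) ?_ (by positivity)
        (by positivity)
      refine le_trans ?_ hEv2q
      rw [show 2 * q = t.1.val + t.2.val + (2 * q - t.1.val - t.2.val) by
        have := t.1.isLt; have := t.2.isLt; omega]
      rw [pow_add, pow_add]
      rw [show t.1.val + t.2.val + (2 * q - t.1.val - t.2.val) - t.1.val - t.2.val =
        2 * q - t.1.val - t.2.val by omega]
      gcongr
      exacts [hbd g₀ b₀, hbd g₁ b₁, hbd θ bθ]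
    · rw [Finset.card_univ, hcardi, nsmul_eq_mul]
      refine (mul_le_mul_of_nonneg_right hqq4 (by positivity)).trans (le_of_eq ?_)
      simp only [mul_pow]; ring
  -- removing the zero of `θ` at `w₀`
  set a : ℂ := (w₀ : ℂ) with ha
  have haW : a ∈ W := w₀.2
  let Θ : ℂ → ℂ := fun z => θ₁ a z ^ (2 * q)
  have hΘan : AnalyticAt ℂ Θ a := ((hθ₁d a).pow _).analyticAt a
  have hnear : ∀ᶠ z in 𝓝 a, Φ z = (z - a) ^ (o a * (2 * q)) * (Θ z * F z) := by
    filter_upwards [hU.mem_nhds (hWU a haW)] with z hz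
    rw [hΦF z hz, hθ₁ a z, mul_pow, pow_mul]; ring
  obtain ⟨Φ₁, hΦ₁d, hΦ₁⟩ := GelfondSchneider.exists_factor_single hΦd
    ((natCast_le_analyticOrderAt (hΦd.analyticAt a)).2
      ⟨_, hΘan.mul (hFan w₀), by simpa using hnear⟩)
  have hloc : Φ₁ =ᶠ[𝓝 a] fun z => Θ z * F z := by
    refine (hΦ₁d a).continuousAt.eventuallyEq_nhds_iff_eventuallyEq_nhdsNE
      (hΘan.mul (hFan w₀)).continuousAt |>.1 ?_
    filter_upwards [hnear.filter_mono nhdsWithin_le_nhds, self_mem_nhdsWithin] with z hz hza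
    rw [hΦ₁ z] at hz
    exact mul_left_cancel₀ (pow_ne_zero _ (sub_ne_zero.2 hza)) hz
  have hF0 : ∀ w : pt, (r : ℕ∞) ≤ analyticOrderAt F w := fun w =>
    (natCast_le_analyticOrderAt_iff_iteratedDeriv_eq_zero (hFan w)).2
      fun k hk => hzero k w (hmin k hk w)
  have hord : ∀ w ∈ W, (r : ℕ∞) ≤ analyticOrderAt Φ₁ w := by
    intro w hw
    by_cases hwa : w = a
    · subst hwa
      rw [analyticOrderAt_congr hloc]
      exact le_order_mul hΘan (hFan w₀) (hF0 w₀)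
    · refine le_order_of_mul (f := Φ) (h := fun z => (z - a) ^ (o a * (2 * q))) (by fun_prop)
        (hΦ₁d.analyticAt w) (pow_ne_zero _ (sub_ne_zero.2 hwa))
        (Filter.Eventually.of_forall hΦ₁) ?_
      rw [analyticOrderAt_congr (g := (fun z => θ z ^ (2 * q)) * F) (by
        filter_upwards [hU.mem_nhds (hWU w hw)] with z hz using hΦF z hz)]
      exact le_order_mul ((hθ.pow _).analyticAt w) (hFan ⟨w, hw⟩) (hF0 ⟨w, hw⟩)
  have hΦ₁b : ∀ z : ℂ, ‖z‖ = u → ‖Φ₁ z‖ ≤ (4 * K₁ * E) ^ r * (r : ℝ) ^ r := fun z hz => by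
    refine le_trans ?_ (hΦb z hz)
    rw [hΦ₁ z, norm_mul, norm_pow]
    refine le_mul_of_one_le_left (norm_nonneg _) (one_le_pow₀ ?_)
    linarith [norm_sub_norm_le z a, hB₀w a haW]
  have hder' := norm_iteratedDeriv_le hΦ₁d W hB₀w huB hord hΦ₁b haW
  rw [hloc.iteratedDeriv_eq r, iteratedDeriv_mul_eq_of_forall_lt hΘan (hFan w₀)
    (fun k hk => hzero k w₀ (hmin k hk w₀)), norm_mul] at hder'
  -- the contradiction
  have hψ : ‖ψ (S r w₀ : K)‖ * u ^ (m * r) ≤ K₅ ^ r * ((r : ℝ) ^ r) ^ 2 := by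
    have hθ0' : 0 < ‖θ₁ a a‖ := norm_pos_iff.2 (hθ₁w a)
    have hTr : (‖θ₁ a a‖⁻¹) ^ (2 * q) ≤ T ^ r := by
      rw [pow_mul]
      exact (pow_le_pow_left₀ (by positivity) (hTw a haW) q).trans
        (pow_le_pow_right₀ hT1 (hqn.trans hnr))
    have hder2 : ‖iteratedDeriv r F a‖ * u ^ (m * r) ≤ T ^ r * (K₄ ^ r * ((r : ℝ) ^ r) ^ 2) := by
      have hΘ : ‖Θ a‖ = ‖θ₁ a a‖ ^ (2 * q) := norm_pow _ _
      rw [hΘ] at hder'
      have h2u : 2 / u * u = 2 := div_mul_cancel₀ _ (by linarith)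
      have hfac : (r ! : ℝ) ≤ (r : ℝ) ^ r := by exact_mod_cast Nat.factorial_le_pow r
      calc ‖iteratedDeriv r F a‖ * u ^ (m * r)
          = (‖θ₁ a a‖⁻¹) ^ (2 * q) *
              (‖θ₁ a a‖ ^ (2 * q) * ‖iteratedDeriv r F a‖ * u ^ (m * r)) := by
            rw [inv_pow]; field_simp
        _ ≤ T ^ r * (((r ! : ℝ) * ((2 * B₀ + 1) ^ (m * r) * ((4 * K₁ * E) ^ r * (r : ℝ) ^ r *
              (2 / u) ^ (m * r)))) * u ^ (m * r)) :=
            mul_le_mul hTr (mul_le_mul_of_nonneg_right hder' (by positivity)) (by positivity)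
              (by positivity)
        _ = T ^ r * ((r ! : ℝ) * ((2 * B₀ + 1) ^ (m * r) * ((4 * K₁ * E) ^ r * (r : ℝ) ^ r *
              2 ^ (m * r)))) := by
            rw [show (2 : ℝ) ^ (m * r) = (2 / u) ^ (m * r) * u ^ (m * r) by rw [← mul_pow, h2u]]
            ring
        _ ≤ T ^ r * ((r : ℝ) ^ r * ((2 * B₀ + 1) ^ (m * r) * ((4 * K₁ * E) ^ r * (r : ℝ) ^ r *
              2 ^ (m * r)))) := by gcongr
        _ = T ^ r * (K₄ ^ r * ((r : ℝ) ^ r) ^ 2) := by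
            rw [hK₄, mul_pow _ (4 * K₁ * E), ← pow_mul, mul_pow (2 : ℝ)]; ring
    rw [hS, ← mul_assoc, ← pow_add, norm_mul, norm_pow, Complex.norm_intCast, mul_assoc]
    have hD3 : |(D : ℝ)| ^ (2 * q + r * e + r) ≤ (M ^ (3 + e)) ^ r := by
      rw [← pow_mul]
      refine (pow_le_pow_left₀ (abs_nonneg _) hDM _).trans (pow_le_pow_right₀ hM1 ?_)
      linarith [hqn.trans hnr]
    refine (mul_le_mul hD3 hder2 (by positivity) (by positivity)).trans (le_of_eq ?_)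
    rw [hK₅]; simp only [mul_pow]; ring
  have hnorm := GelfondSchneider.one_le_norm_mul_house_pow hSw ψ
  obtain ⟨g, hg⟩ : ∃ g, h = g + 1 := ⟨h - 1, by omega⟩
  obtain ⟨s, hs⟩ : ∃ s, m = 4 * ρ * h + 1 + s := ⟨m - (4 * ρ * h + 1), by omega⟩
  have hfinal : u ^ (m * r) ≤ (Kc * u ^ (4 * ρ * h)) ^ r := by
    calc u ^ (m * r) ≤ (‖ψ (S r w₀ : K)‖ * house (S r w₀ : K) ^ (h - 1)) * u ^ (m * r) :=
          le_mul_of_one_le_left (by positivity) hnorm
      _ = ‖ψ (S r w₀ : K)‖ * u ^ (m * r) * house (S r w₀ : K) ^ (h - 1) := by ring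
      _ ≤ K₅ ^ r * ((r : ℝ) ^ r) ^ 2 * (K₂ ^ r * ((r : ℝ) ^ r) ^ 2) ^ (h - 1) :=
          mul_le_mul hψ (pow_le_pow_left₀ (house_nonneg _) hSh _)
            (pow_nonneg (house_nonneg _) _) (by positivity)
      _ = (Kc * u ^ (4 * ρ * h)) ^ r := by
          rw [show 4 * ρ * h = 2 * ρ * (2 * h) by ring, pow_mul u (2 * ρ), hur, hKc, hg,
            Nat.add_sub_cancel]
          simp only [mul_pow, ← pow_mul]
          ring
  rw [pow_mul] at hfinal
  have hle := (pow_le_pow_iff_left₀ (by positivity) (by positivity) (by omega)).1 hfinal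
  have huK : u ≤ Kc := by
    refine le_of_mul_le_mul_right ?_ (show (0 : ℝ) < u ^ (4 * ρ * h) by positivity)
    refine le_trans ?_ hle
    rw [← pow_succ', hs]
    exact pow_le_pow_right₀ hu1 (by omega)
  have hrK : (r : ℝ) ≤ Kc ^ (2 * ρ) := hur ▸ pow_le_pow_left₀ hu0 huK _
  have hceil : Kc ^ (2 * ρ) < N := by
    rw [hN]; push_cast
    linarith [Nat.le_ceil (Kc ^ (2 * ρ)),
      Nat.cast_nonneg (α := ℝ) ⌈(2 * B₀ + 2) ^ (2 * ρ)⌉₊]
  linarith

omit [Fintype σ] in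
/-- Coefficients can be cleared of denominators. -/
theorem exists_int_mul_isIntegral (S : Finset K) :
    ∃ D : ℤ, D ≠ 0 ∧ ∀ y ∈ S, ∃ x : 𝓞 K, (x : K) = (D : K) * y := by
  haveI : Algebra.IsAlgebraic ℤ K :=
    (IsFractionRing.comap_isAlgebraic_iff (A := ℤ) (K := ℚ) (C := K)).2 inferInstance
  obtain ⟨D, hD, hint⟩ := Algebra.IsAlgebraic.exists_integral_multiples ℤ S
  exact ⟨D, hD, fun y hy =>
    ⟨⟨(D : K) * y, by simpa [mem_integralClosure_iff, zsmul_eq_mul] using hint y hy⟩, rfl⟩⟩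

/-- **The theorem of Schneider and Lang.** Functions `f i` satisfy `(f i)' = P i (f)` on an
open set `U`, with `P i` over the number field `K ⊆ ℂ`; two of them are algebraically
independent and become entire of order at most `ρ` after multiplication by one entire `θ ≠ 0`.
Then at most `4 * ρ * [K : ℚ]` points of `U` give all of the `f i` values in `K`. -/
theorem card_le_of_values_mem (ψ : K →+* ℂ) {f : σ → ℂ → ℂ} {U : Set ℂ} (hU : IsOpen U)
    (P : σ → MvPolynomial σ K)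
    (hder : ∀ i, ∀ z ∈ U, HasDerivAt (f i) (eval₂ ψ (fun j => f j z) (P i)) z)
    (W : Finset ℂ) (hWU : ∀ w ∈ W, w ∈ U) (hval : ∀ w ∈ W, ∀ i, f i w ∈ ψ.range)
    (i₀ i₁ : σ) {θ g₀ g₁ : ℂ → ℂ} (hθ : Differentiable ℂ θ) (hθ0 : θ ≠ 0)
    (hg₀ : Differentiable ℂ g₀) (hg₁ : Differentiable ℂ g₁)
    (h₀ : ∀ z ∈ U, g₀ z = θ z * f i₀ z) (h₁ : ∀ z ∈ U, g₁ z = θ z * f i₁ z)
    {ρ : ℕ} (hρ : 0 < ρ) {C : ℝ}
    (bθ : ∀ z, ‖θ z‖ ≤ Real.exp (C * (‖z‖ + 1) ^ ρ))
    (b₀ : ∀ z, ‖g₀ z‖ ≤ Real.exp (C * (‖z‖ + 1) ^ ρ))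
    (b₁ : ∀ z, ‖g₁ z‖ ≤ Real.exp (C * (‖z‖ + 1) ^ ρ))
    (hind : ∀ (q : ℕ) (c : Fin q × Fin q → ℂ),
      (∀ z ∈ U, ∑ t, c t * (f i₀ z ^ t.1.val * f i₁ z ^ t.2.val) = 0) → c = 0) :
    W.card ≤ 4 * ρ * finrank ℚ K := by
  classical
  by_contra hcard
  choose v hv using hval
  obtain ⟨D, hD, hint⟩ := exists_int_mul_isIntegral
    ((Finset.univ.biUnion fun i => (P i).support.image fun s => coeff s (P i)) ∪
      W.attach.biUnion fun w => Finset.univ.image fun i => v w.1 w.2 i)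
  have hcoef : ∀ i s, ∃ y : 𝓞 K, (y : K) = (D : K) * coeff s (P i) := fun i s => by
    by_cases hs : s ∈ (P i).support
    · exact hint _ (Finset.mem_union_left _ (Finset.mem_biUnion.2
        ⟨i, Finset.mem_univ i, Finset.mem_image.2 ⟨s, hs, rfl⟩⟩))
    · exact ⟨0, by rw [notMem_support_iff.1 hs, mul_zero]; exact map_zero _⟩
  choose y hy using hcoef
  have hx : ∀ w i, ∃ x : 𝓞 K, w ∈ W → ψ (x : K) = (D : ℂ) * f i w := fun w i => by
    by_cases hw : w ∈ W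
    · obtain ⟨x, hx⟩ := hint (v w hw i) (Finset.mem_union_right _ (Finset.mem_biUnion.2
        ⟨⟨w, hw⟩, Finset.mem_attach _ _, Finset.mem_image.2 ⟨i, Finset.mem_univ i, rfl⟩⟩))
      exact ⟨x, fun _ => by rw [hx, map_mul, map_intCast, hv]⟩
    · exact ⟨0, fun h => absurd h hw⟩
  choose x hx using hx
  refine false_of_data ψ hD hU (fun i => ∑ s ∈ (P i).support, monomial s (y i s))
    (fun i z hz => ?_) W hWU x (fun w hw i => hx w i hw) i₀ i₁ hθ hθ0 hg₀ hg₁ h₀ h₁ hρ bθ b₀ b₁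
    hind (not_le.1 hcard)
  refine (hder i z hz).congr_deriv ?_
  rw [eq_div_iff (Int.cast_ne_zero.2 hD), eval₂_sum]
  conv_lhs => rw [(P i).as_sum, eval₂_sum, Finset.sum_mul]
  refine Finset.sum_congr rfl fun s _ => ?_
  rw [eval₂_monomial, eval₂_monomial, RingHom.comp_apply,
    show algebraMap (𝓞 K) K (y i s) = (D : K) * coeff s (P i) from hy i s, map_mul, map_intCast]
  ring

end FA.SchneiderLang

end
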