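import Fermat.Agent.Transcendence.EllipticMultiplier
import Fermat.Agent.Transcendence.SchneiderLang
import Fermat.Agent.Mazur.Moduli.WeierAdd
import Fermat.Agent.Tau.SingularModuli

/-!
# Schneider's theorems on periods and on the modular invariant

A non-zero period of `℘` with algebraic invariants is transcendental. If `τ` and `j τ` are
algebraic, then `τ` is imaginary quadratic: otherwise `℘ z` and `℘ (τ z)`, for a lattice
`c (ℤ τ + ℤ)` with algebraic invariants, would be algebraically independent and would have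
algebraic values, together with their derivatives, at all odd multiples of `c / 2`.
-/

set_option autoImplicit false
set_option linter.style.haveILetI false

noncomputable section

namespace FA.SchneiderLang

open PeriodPair MvPolynomial Module
open scoped Topology

/-- Two functions are algebraically independent when the first takes infinitely many values over
each of infinitely many values of the second. -/
theorem eq_zero_of_grid {q : ℕ} (c : Fin q × Fin q → ℂ) {A : Set ℂ} (hA : A.Infinite)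
    (h : ∀ y ∈ A, ∃ S : Set ℂ, S.Infinite ∧
      ∀ x ∈ S, ∑ t, c t * (x ^ t.1.val * y ^ t.2.val) = 0) : c = 0 := by
  classical
  have hcoef : ∀ a : Fin q, ∀ y ∈ A, ∑ b, c (a, b) * y ^ b.val = 0 := by
    intro a y hy
    obtain ⟨S, hS, hSy⟩ := h y hy
    set P : Polynomial ℂ :=
      ∑ a : Fin q, Polynomial.C (∑ b, c (a, b) * y ^ b.val) * Polynomial.X ^ a.val with hP
    have hP0 : P = 0 := by
      refine Polynomial.eq_zero_of_infinite_isRoot P (hS.mono fun x hx => ?_)
      show P.IsRoot x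
      rw [Polynomial.IsRoot, hP, Polynomial.eval_finsetSum]
      refine Eq.trans ?_ (hSy x hx)
      rw [Fintype.sum_prod_type]
      refine Finset.sum_congr rfl fun a _ => ?_
      rw [Polynomial.eval_mul, Polynomial.eval_C, Polynomial.eval_pow, Polynomial.eval_X,
        Finset.sum_mul]
      exact Finset.sum_congr rfl fun b _ => by ring
    simpa [hP, -map_sum, -map_mul, -map_pow, Polynomial.coeff_C_mul, Polynomial.coeff_X_pow,
      Fin.val_inj] using
      congrArg (fun R => Polynomial.coeff R a.val) hP0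
  funext t
  set R : Polynomial ℂ := ∑ b : Fin q, Polynomial.C (c (t.1, b)) * Polynomial.X ^ b.val with hR
  have hR0 : R = 0 := by
    refine Polynomial.eq_zero_of_infinite_isRoot R (hA.mono fun y hy => ?_)
    show R.IsRoot y
    simpa [hR, Polynomial.IsRoot, Polynomial.eval_finsetSum] using hcoef t.1 y hy
  simpa [hR, Polynomial.coeff_C_mul, Polynomial.coeff_X_pow, Fin.val_inj] using
    congrArg (fun R => Polynomial.coeff R t.2.val) hR0

variable (L : PeriodPair)

/-- The fibres of `℘` are finite modulo the lattice, so it has infinitely many values on the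
complement of any countable set. -/
theorem infinite_image_weierstrassP {T : Set ℂ} (hT : T.Countable)
    (hLT : (L.lattice : Set ℂ) ⊆ T) : (℘[L] '' Tᶜ).Infinite := by
  intro hfin
  refine not_countable_complex ?_
  have hfib : ∀ v, {z ∈ Tᶜ | ℘[L] z = v}.Countable := by
    intro v
    rcases {z ∈ Tᶜ | ℘[L] z = v}.eq_empty_or_nonempty with h | ⟨x, hxT, hxv⟩
    · rw [h]; exact Set.countable_empty
    · refine (((Mazur.Weier.countable_lattice L).image fun l => x + l).union
        ((Mazur.Weier.countable_lattice L).image fun l => -x + l)).mono fun y hy => ?_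
      rcases Mazur.Weier.eq_or_eq_neg_of_eq L (fun hm => hxT (hLT hm))
        (fun hm => hy.1 (hLT hm)) (hxv.trans hy.2.symm) with h | h
      · exact Or.inl ⟨_, h, by simp⟩
      · exact Or.inr ⟨_, h, by simp⟩
  refine (hT.union (hfin.countable.biUnion fun v _ => hfib v)).mono fun z _ => ?_
  by_cases hz : z ∈ T
  · exact Or.inl hz
  · exact Or.inr (Set.mem_biUnion ⟨z, hz, rfl⟩ ⟨hz, rfl⟩)

/-- Translates by a point of infinite order modulo the lattice give infinitely many values. -/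
theorem infinite_image_translates {u α : ℂ} (hα : ∀ N : ℤ, N ≠ 0 → (N : ℂ) * α ∉ L.lattice) :
    {x | ∃ k : ℤ, u + k * α ∉ L.lattice ∧ ℘[L] (u + k * α) = x}.Infinite := by
  intro hfin
  have hsub : ∀ {P : ℤ → Prop}, (∀ k k', P k → P k' → ((k : ℂ) - k') * α ∈ L.lattice) →
      {k | P k}.Finite := fun h => Set.Subsingleton.finite fun k hk k' hk' => by
    by_contra hne
    exact hα (k - k') (sub_ne_zero.2 hne) (by push_cast; exact h k k' hk hk')
  have hbad : {k : ℤ | u + k * α ∈ L.lattice}.Finite := hsub fun k k' hk hk' => by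
    have := sub_mem hk hk'
    rwa [show u + k * α - (u + k' * α) = ((k : ℂ) - k') * α by ring] at this
  have hfib : ∀ v, {k : ℤ | u + k * α ∉ L.lattice ∧ ℘[L] (u + k * α) = v}.Finite := by
    intro v
    rcases {k : ℤ | u + k * α ∉ L.lattice ∧ ℘[L] (u + k * α) = v}.eq_empty_or_nonempty with
      h | ⟨k₁, hk₁, hv₁⟩
    · rw [h]; exact Set.finite_empty
    · have hA : {k : ℤ | (u + k * α) - (u + k₁ * α) ∈ L.lattice}.Finite := hsub
          fun k k' hk hk' => by
        have := sub_mem hk hk'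
        rwa [show u + k * α - (u + k₁ * α) - (u + k' * α - (u + k₁ * α)) = ((k : ℂ) - k') * α by
          ring] at this
      have hB : {k : ℤ | (u + k * α) + (u + k₁ * α) ∈ L.lattice}.Finite := hsub
          fun k k' hk hk' => by
        have := sub_mem hk hk'
        rwa [show u + k * α + (u + k₁ * α) - (u + k' * α + (u + k₁ * α)) = ((k : ℂ) - k') * α by
          ring] at this
      refine (hA.union hB).subset fun k hk => ?_
      exact Mazur.Weier.eq_or_eq_neg_of_eq L hk₁ hk.1 (hv₁.trans hk.2.symm)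
  refine Set.infinite_univ (α := ℤ) ((hbad.union (hfin.biUnion fun v _ => hfib v)).subset
    fun k _ => ?_)
  by_cases hk : u + k * α ∈ L.lattice
  · exact Or.inl hk
  · exact Or.inr (Set.mem_biUnion ⟨k, hk, rfl⟩ ⟨hk, rfl⟩)

variable {L}

/-- The values at odd multiples of half a period. -/
theorem values_add_mul {v ω : ℂ} (hω : ω ∈ L.lattice) (k : ℕ) :
    ℘[L] (v + k * ω) = ℘[L] v ∧ ℘'[L] (v + k * ω) = ℘'[L] v ∧
      (v + k * ω ∈ L.lattice ↔ v ∈ L.lattice) := by
  have hk : (k : ℂ) * ω ∈ L.lattice := by simpa [nsmul_eq_mul] using nsmul_mem hω k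
  exact ⟨L.weierstrassP_add_coe v ⟨_, hk⟩, L.derivWeierstrassP_add_coe v ⟨_, hk⟩,
    ⟨fun h => by simpa using sub_mem h hk, fun h => add_mem h hk⟩⟩

theorem derivWeierstrassP_half {ω : ℂ} (hω : ω ∈ L.lattice) : ℘'[L] (ω / 2) = 0 := by
  have h1 := L.derivWeierstrassP_add_coe (-(ω / 2)) ⟨ω, hω⟩
  rw [show -(ω / 2) + ((⟨ω, hω⟩ : L.lattice) : ℂ) = ω / 2 from (show -(ω / 2) + ω = ω / 2 by ring),
    L.derivWeierstrassP_neg] at h1
  linear_combination h1 / 2

/-- The value at half a period is algebraic. -/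
theorem isAlgebraic_weierstrassP_half (h₂ : IsAlgebraic ℚ L.g₂) (h₃ : IsAlgebraic ℚ L.g₃) {ω : ℂ}
    (hω : ω ∈ L.lattice) (hω2 : ω / 2 ∉ L.lattice) : IsAlgebraic ℚ (℘[L] (ω / 2)) := by
  set E := IntermediateField.adjoin ℚ ({L.g₂, L.g₃} : Set ℂ)
  haveI : FiniteDimensional ℚ E := IntermediateField.finiteDimensional_adjoin fun x hx => by
    rcases hx with rfl | rfl
    exacts [h₂.isIntegral, h₃.isIntegral]
  refine (isIntegral_trans (R := ℚ) (A := E) _ (IsAlgebraic.isIntegral ?_)).isAlgebraic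
  let a₂ : E := ⟨L.g₂, IntermediateField.subset_adjoin ℚ _ (by simp)⟩
  let a₃ : E := ⟨L.g₃, IntermediateField.subset_adjoin ℚ _ (by simp)⟩
  refine ⟨Polynomial.C 4 * Polynomial.X ^ 3 - Polynomial.C a₂ * Polynomial.X - Polynomial.C a₃,
    fun h0 => ?_, ?_⟩
  · have := congrArg (fun R => Polynomial.coeff R 3) h0
    simp at this
  · have h := L.derivWeierstrassP_sq _ hω2
    rw [derivWeierstrassP_half hω] at h
    simp [a₂, a₃, map_ofNat]
    linear_combination -h

theorem exists_primitive_period {ω : ℂ} (hω : ω ∈ L.lattice) (h0 : ω ≠ 0) :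
    ∃ ω' ∈ L.lattice, ω' ≠ 0 ∧ ω' / 2 ∉ L.lattice ∧ ∃ s : ℕ, ω = 2 ^ s * ω' := by
  obtain ⟨m, n, rfl⟩ := PeriodPair.mem_lattice.1 hω
  induction hN : m.natAbs + n.natAbs using Nat.strong_induction_on generalizing m n with
  | _ N ih =>
    by_cases h2 : (m * L.ω₁ + n * L.ω₂) / 2 ∈ L.lattice
    · obtain ⟨a, b, hab⟩ := PeriodPair.mem_lattice.1 h2
      have h3 : ((2 * a : ℤ) : ℝ) • L.ω₁ + ((2 * b : ℤ) : ℝ) • L.ω₂ =
          ((m : ℤ) : ℝ) • L.ω₁ + ((n : ℤ) : ℝ) • L.ω₂ := by
        simp only [Complex.real_smul]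
        push_cast
        linear_combination 2 * hab
      obtain ⟨e₁, e₂⟩ := L.indep.eq_of_pair h3
      have ha : 2 * a = m := by exact_mod_cast e₁
      have hb : 2 * b = n := by exact_mod_cast e₂
      have hab0 : ((a : ℂ) * L.ω₁ + b * L.ω₂) ≠ 0 := fun e =>
        h0 (by linear_combination 2 * e - 2 * hab)
      have hne : ¬ (a = 0 ∧ b = 0) := fun h => hab0 (by simp [h.1, h.2])
      obtain ⟨ω', hω', hne', hhalf, s, hs⟩ := ih (a.natAbs + b.natAbs) (by omega) a b
        (PeriodPair.mem_lattice.2 ⟨a, b, rfl⟩) hab0 rfl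
      exact ⟨ω', hω', hne', hhalf, s + 1, by linear_combination -2 * hab + 2 * hs⟩
    · exact ⟨_, hω, h0, h2, 0, by simp⟩

/-- A product of two exponentially bounded functions. -/
theorem norm_mul_le_exp {x y : ℂ} {A B : ℝ} (hx : ‖x‖ ≤ Real.exp A) (hy : ‖y‖ ≤ Real.exp B) :
    ‖x * y‖ ≤ Real.exp (A + B) := by
  rw [norm_mul, Real.exp_add]
  exact mul_le_mul hx hy (norm_nonneg y) (Real.exp_pos A).le

/-- Rescaling the variable. -/
theorem scale_bound {C : ℝ} (hC : 0 ≤ C) (τ z : ℂ) :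
    C * (‖τ * z‖ + 1) ^ 2 ≤ C * (‖τ‖ + 1) ^ 2 * (‖z‖ + 1) ^ 2 := by
  rw [mul_assoc, ← mul_pow, norm_mul]
  refine mul_le_mul_of_nonneg_left (pow_le_pow_left₀ (by positivity) ?_ 2) hC
  nlinarith [norm_nonneg τ, norm_nonneg z]

/-- **Schneider: periods are transcendental.** -/
theorem transcendental_period (h₂ : IsAlgebraic ℚ L.g₂) (h₃ : IsAlgebraic ℚ L.g₃) {ω : ℂ}
    (hω : ω ∈ L.lattice) (h0 : ω ≠ 0) : Transcendental ℚ ω := by
  classical
  obtain ⟨η, hη, hη0, hη2, s, rfl⟩ := exists_primitive_period hω h0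
  intro hal
  have hηal : IsAlgebraic ℚ η := by
    have h2 : IsAlgebraic ℚ (((2 : ℂ) ^ s)⁻¹) := ((isAlgebraic_natCast 2).pow s).inv
    simpa using h2.mul hal
  have he := isAlgebraic_weierstrassP_half h₂ h₃ hη hη2
  set T : Set ℂ := {η, L.g₂, L.g₃, ℘[L] (η / 2)}
  haveI : FiniteDimensional ℚ (IntermediateField.adjoin ℚ T) :=
    IntermediateField.finiteDimensional_adjoin fun x hx => by
      rcases hx with rfl | rfl | rfl | rfl
      exacts [hηal.isIntegral, h₂.isIntegral, h₃.isIntegral, he.isIntegral]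
  haveI : NumberField (IntermediateField.adjoin ℚ T) := { }
  set K := IntermediateField.adjoin ℚ T
  have hmem : ∀ x ∈ T, ∃ a : K, (a : ℂ) = x := fun x hx =>
    ⟨⟨x, IntermediateField.subset_adjoin ℚ T hx⟩, rfl⟩
  obtain ⟨aη, haη⟩ := hmem η (by simp [T])
  obtain ⟨ag, hag⟩ := hmem L.g₂ (by simp [T])
  obtain ⟨ae, hae⟩ := hmem (℘[L] (η / 2)) (by simp [T])
  obtain ⟨θ, g, hθ, hθ0, hg, hgθ, Cb, hC, hb⟩ := exists_multiplier L
  set n := 4 * 2 * finrank ℚ K
  let pts : ℕ → ℂ := fun k => η / 2 + k * η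
  have hinj : Function.Injective pts := fun a b hab => by
    simpa [pts, hη0] using hab
  have hcard := card_le_of_values_mem (K := K) K.val.toRingHom (σ := Fin 3)
    (f := ![fun z => z, ℘[L], ℘'[L]]) (U := (L.lattice : Set ℂ)ᶜ) L.isClosed_lattice.isOpen_compl
    ![1, X 2, C 6 * X 1 ^ 2 - C (ag / 2)]
    (fun i z hz => by
      fin_cases i
      · simpa using hasDerivAt_id' z
      · have := (Mazur.Weier.analyticAt_P L hz).differentiableAt.hasDerivAt
        rw [L.deriv_weierstrassP] at this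
        simpa using this
      · have := (Mazur.Weier.analyticAt_P' L hz).differentiableAt.hasDerivAt
        rw [Mazur.Weier.deriv_derivWeierstrassP L hz] at this
        simpa [hag, map_ofNat] using this)
    ((Finset.range (n + 1)).image pts)
    (fun w hw => by
      obtain ⟨k, -, rfl⟩ := Finset.mem_image.1 hw
      exact fun hm => hη2 ((values_add_mul hη k).2.2.1 hm))
    (fun w hw i => by
      obtain ⟨k, -, rfl⟩ := Finset.mem_image.1 hw
      fin_cases i
      · exact ⟨aη / 2 + k * aη, by simp [pts, haη]; rfl⟩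
      · exact ⟨ae, by simp [pts, hae, (values_add_mul hη k).1]⟩
      · exact ⟨0, by simp [pts, (values_add_mul hη k).2.1, derivWeierstrassP_half hη]⟩)
    0 1 hθ hθ0 (g₀ := fun z => θ z * z) (g₁ := g) (hθ.mul differentiable_id) hg
    (fun z _ => by simp) (fun z hz => by simpa using hgθ z hz) (ρ := 2) two_pos (C := Cb + 1)
    (fun z => (hb z).1.trans (Real.exp_le_exp.2 (by nlinarith [sq_nonneg (‖z‖ + 1)])))
    (fun z => (norm_mul_le_exp (hb z).1
      (show ‖z‖ ≤ Real.exp ((‖z‖ + 1) ^ 2) by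
        nlinarith [Real.add_one_le_exp ((‖z‖ + 1) ^ 2), norm_nonneg z])).trans
      (le_of_eq (by ring_nf)))
    (fun z => (hb z).2.trans (Real.exp_le_exp.2 (by nlinarith [sq_nonneg (‖z‖ + 1)])))
    (fun q c hc => by
      refine eq_zero_of_grid c (infinite_image_weierstrassP L
        (Mazur.Weier.countable_lattice L) le_rfl) ?_
      rintro _ ⟨z, hz, rfl⟩
      refine ⟨Set.range fun k : ℕ => z + k * η,
        Set.infinite_range_of_injective fun a b hab => by simpa [hη0] using hab, ?_⟩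
      rintro _ ⟨k, rfl⟩
      have h := hc (z + k * η) fun hm => hz ((values_add_mul hη k).2.2.1 hm)
      simpa [(values_add_mul (v := z) hη k).1] using h)
  rw [Finset.card_image_of_injective _ hinj, Finset.card_range] at hcard
  omega

/-- Schneider's argument for two lattice functions with ratio of arguments `τ`. -/
theorem exists_mul_sq_mem (h₂ : IsAlgebraic ℚ L.g₂) (h₃ : IsAlgebraic ℚ L.g₃) {τ ω : ℂ}
    (hτ : IsAlgebraic ℚ τ) (hω : ω ∈ L.lattice) (hω2 : ω / 2 ∉ L.lattice)
    (hτω : τ * ω ∈ L.lattice) (hτω2 : τ * ω / 2 ∉ L.lattice) :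
    ∃ N : ℤ, N ≠ 0 ∧ (N : ℂ) * (τ * (τ * ω)) ∈ L.lattice := by
  classical
  by_contra hno
  push Not at hno
  have hτ0 : τ ≠ 0 := fun e => hτω2 (by simp [e])
  have hω0 : ω ≠ 0 := fun e => hω2 (by simp [e])
  have he := isAlgebraic_weierstrassP_half h₂ h₃ hω hω2
  have he' := isAlgebraic_weierstrassP_half h₂ h₃ hτω hτω2
  set T : Set ℂ := {τ, L.g₂, ℘[L] (ω / 2), ℘[L] (τ * ω / 2)}
  haveI : FiniteDimensional ℚ (IntermediateField.adjoin ℚ T) :=
    IntermediateField.finiteDimensional_adjoin fun x hx => by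
      rcases hx with rfl | rfl | rfl | rfl
      exacts [hτ.isIntegral, h₂.isIntegral, he.isIntegral, he'.isIntegral]
  haveI : NumberField (IntermediateField.adjoin ℚ T) := { }
  set K := IntermediateField.adjoin ℚ T
  have hmem : ∀ x ∈ T, ∃ a : K, (a : ℂ) = x := fun x hx =>
    ⟨⟨x, IntermediateField.subset_adjoin ℚ T hx⟩, rfl⟩
  obtain ⟨aτ, haτ⟩ := hmem τ (by simp [T])
  obtain ⟨ag, hag⟩ := hmem L.g₂ (by simp [T])
  obtain ⟨ae, hae⟩ := hmem (℘[L] (ω / 2)) (by simp [T])
  obtain ⟨ae', hae'⟩ := hmem (℘[L] (τ * ω / 2)) (by simp [T])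
  obtain ⟨θ, g, hθ, hθ0, hg, hgθ, Cb, hC, hb⟩ := exists_multiplier L
  set T₀ : Set ℂ := (L.lattice : Set ℂ) ∪ (fun l => l / τ) '' (L.lattice : Set ℂ)
  have hT₀ : T₀.Countable :=
    (Mazur.Weier.countable_lattice L).union ((Mazur.Weier.countable_lattice L).image _)
  set U : Set ℂ := (L.lattice : Set ℂ)ᶜ ∩ (fun z => τ * z) ⁻¹' (L.lattice : Set ℂ)ᶜ
  have hU : IsOpen U :=
    L.isClosed_lattice.isOpen_compl.inter (L.isClosed_lattice.isOpen_compl.preimage (by fun_prop))
  have hTU : T₀ᶜ ⊆ U := fun z hz =>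
    ⟨fun h => hz (Or.inl h), fun h => hz (Or.inr ⟨τ * z, h, mul_div_cancel_left₀ z hτ0⟩)⟩
  set n := 4 * 2 * finrank ℚ K
  let pts : ℕ → ℂ := fun k => ω / 2 + k * ω
  have hinj : Function.Injective pts := fun a b hab => by simpa [pts, hω0] using hab
  have hτpts : ∀ k, τ * pts k = τ * ω / 2 + k * (τ * ω) := fun k => by simp only [pts]; ring
  have hcard := card_le_of_values_mem (K := K) K.val.toRingHom (σ := Fin 4)
    (f := ![℘[L], ℘'[L], fun z => ℘[L] (τ * z), fun z => ℘'[L] (τ * z)]) (U := U) hU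
    ![X 1, C 6 * X 0 ^ 2 - C (ag / 2), C aτ * X 3, C aτ * (C 6 * X 2 ^ 2 - C (ag / 2))]
    (fun i z hz => by
      fin_cases i
      · have := (Mazur.Weier.analyticAt_P L hz.1).differentiableAt.hasDerivAt
        rw [L.deriv_weierstrassP] at this
        simpa using this
      · have := (Mazur.Weier.analyticAt_P' L hz.1).differentiableAt.hasDerivAt
        rw [Mazur.Weier.deriv_derivWeierstrassP L hz.1] at this
        simpa [hag, map_ofNat] using this
      · have := (Mazur.Weier.analyticAt_P L hz.2).differentiableAt.hasDerivAt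
        rw [L.deriv_weierstrassP] at this
        simpa [haτ, mul_comm τ, Function.comp_def] using
          this.comp z ((hasDerivAt_id' z).const_mul τ)
      · have := (Mazur.Weier.analyticAt_P' L hz.2).differentiableAt.hasDerivAt
        rw [Mazur.Weier.deriv_derivWeierstrassP L hz.2] at this
        simpa [haτ, hag, map_ofNat, mul_comm τ, Function.comp_def] using
          this.comp z ((hasDerivAt_id' z).const_mul τ))
    ((Finset.range (n + 1)).image pts)
    (fun w hw => by
      obtain ⟨k, -, rfl⟩ := Finset.mem_image.1 hw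
      refine ⟨fun hm => hω2 ((values_add_mul hω k).2.2.1 hm), fun hm => hτω2 ?_⟩
      refine (values_add_mul hτω k).2.2.1 ?_
      rw [← hτpts]
      exact hm)
    (fun w hw i => by
      obtain ⟨k, -, rfl⟩ := Finset.mem_image.1 hw
      fin_cases i
      · exact ⟨ae, by simp [pts, hae, (values_add_mul hω k).1]⟩
      · exact ⟨0, by simp [pts, (values_add_mul hω k).2.1, derivWeierstrassP_half hω]⟩
      · exact ⟨ae', by simp [hτpts, hae', (values_add_mul hτω k).1]⟩
      · exact ⟨0, by simp [hτpts, (values_add_mul hτω k).2.1, derivWeierstrassP_half hτω]⟩)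
    2 0 (θ := fun z => θ z * θ (τ * z))
    (hθ.mul (hθ.comp (differentiable_id.const_mul τ))) (fun h0 => ?_)
    (g₀ := fun z => θ z * g (τ * z)) (g₁ := fun z => g z * θ (τ * z))
    (hθ.mul (hg.comp (differentiable_id.const_mul τ)))
    (hg.mul (hθ.comp (differentiable_id.const_mul τ)))
    (fun z hz => by simp [hgθ _ hz.2]; ring) (fun z hz => by simp [hgθ _ hz.1]; ring)
    (ρ := 2) two_pos (C := Cb + Cb * (‖τ‖ + 1) ^ 2)
    (fun z => (norm_mul_le_exp (hb z).1 (hb (τ * z)).1).trans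
      (Real.exp_le_exp.2 (by rw [add_mul]; linarith [scale_bound hC τ z])))
    (fun z => (norm_mul_le_exp (hb z).1 (hb (τ * z)).2).trans
      (Real.exp_le_exp.2 (by rw [add_mul]; linarith [scale_bound hC τ z])))
    (fun z => (norm_mul_le_exp (hb z).2 (hb (τ * z)).1).trans
      (Real.exp_le_exp.2 (by rw [add_mul]; linarith [scale_bound hC τ z])))
    (fun q c hc => by
      refine eq_zero_of_grid c (infinite_image_weierstrassP L hT₀ Set.subset_union_left) ?_
      rintro _ ⟨z, hz, rfl⟩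
      refine ⟨_, infinite_image_translates L (u := τ * z) (α := τ * (τ * ω)) hno, ?_⟩
      rintro _ ⟨k, hk, rfl⟩
      have hkl : (k : ℂ) * (τ * ω) ∈ L.lattice := by
        simpa [zsmul_eq_mul] using zsmul_mem hτω k
      have hU' : z + k * (τ * ω) ∈ U := by
        refine ⟨fun hm => (hTU hz).1 (by simpa using sub_mem hm hkl), fun hm => hk ?_⟩
        rw [show τ * z + k * (τ * (τ * ω)) = τ * (z + k * (τ * ω)) by ring]
        exact hm
      have h := hc _ hU'
      have hper : ℘[L] (z + k * (τ * ω)) = ℘[L] z := L.weierstrassP_add_coe z ⟨_, hkl⟩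
      simpa [hper, mul_add, mul_left_comm τ (k : ℂ)] using h)
  · rw [Finset.card_image_of_injective _ hinj, Finset.card_range] at hcard
    omega
  · obtain ⟨x, hx⟩ := Function.ne_iff.1 hθ0
    have hev : ∀ᶠ y in 𝓝 x, θ (τ * y) = 0 := by
      filter_upwards [(hθ.continuous.continuousAt (x := x)).eventually_ne hx] with y hy
      exact (mul_eq_zero.1 (congrFun h0 y)).resolve_left hy
    refine hθ0 (funext fun y => ?_)
    have := AnalyticOnNhd.eqOn_zero_of_preconnected_of_eventuallyEq_zero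
      (fun w _ => (hθ.comp (differentiable_id.const_mul τ)).analyticAt w) isPreconnected_univ
      (Set.mem_univ x) hev (Set.mem_univ (y / τ))
    simpa [mul_div_cancel₀ _ hτ0] using this

open UpperHalfPlane hiding I
open FA.ModField FA.Mazur.Wp FA.JInj

/-- A lattice homothetic to that of `τ` with algebraic invariants, if `j τ` is algebraic. -/
theorem exists_scale_algebraic (τ : ℍ) (hj : IsAlgebraic ℚ (jfun τ)) :
    ∃ (c : ℂ) (hc : c ≠ 0), IsAlgebraic ℚ (scalePair (latPair τ) c hc).g₂ ∧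
      IsAlgebraic ℚ (scalePair (latPair τ) c hc).g₃ := by
  set G₂ := (latPair τ).g₂
  set G₃ := (latPair τ).g₃
  have hΔ : G₂ ^ 3 - 27 * G₃ ^ 2 ≠ 0 := discr_latPair_ne_zero τ
  by_cases hG : G₂ = 0
  · have hG₃ : G₃ ≠ 0 := fun h => hΔ (by simp [hG, h])
    obtain ⟨c, hc⟩ := IsAlgClosed.exists_pow_nat_eq G₃ (n := 6) (by norm_num)
    refine ⟨c, fun h => hG₃ (by simp [← hc, h]), ?_, ?_⟩
    · rw [g₂_scalePair, show (latPair τ).g₂ = 0 from hG, mul_zero]
      exact isAlgebraic_zero
    · rw [g₃_scalePair, show (latPair τ).g₃ = c ^ 6 from hc.symm, inv_mul_cancel₀ (hc ▸ hG₃)]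
      exact isAlgebraic_one
  · obtain ⟨c, hc⟩ := IsAlgClosed.exists_pow_nat_eq G₂ (n := 4) (by norm_num)
    have hc0 : c ≠ 0 := fun h => hG (by simp [← hc, h])
    refine ⟨c, hc0, ?_, ?_⟩
    · rw [g₂_scalePair, show (latPair τ).g₂ = c ^ 4 from hc.symm,
        inv_mul_cancel₀ (pow_ne_zero _ hc0)]
      exact isAlgebraic_one
    · refine IsAlgebraic.of_pow two_pos ?_
      have ht : jfun τ = 1728 * (G₂ ^ 3 / (G₂ ^ 3 - 27 * G₃ ^ 2)) :=
        Singular.jfun_eq_invariant τ
      have hj0 : jfun τ ≠ 0 := by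
        rw [ht]
        exact mul_ne_zero (by norm_num) (div_ne_zero (pow_ne_zero _ hG) hΔ)
      have heq : (scalePair (latPair τ) c hc0).g₃ ^ 2 = (1 - 1728 * (jfun τ)⁻¹) * (27 : ℂ)⁻¹ := by
        rw [g₃_scalePair, ht, show (latPair τ).g₃ = G₃ from rfl, ← hc]
        field_simp
        ring
      rw [heq]
      exact (isAlgebraic_one.sub ((isAlgebraic_natCast 1728).mul hj.inv)).mul
        (isAlgebraic_natCast 27).inv

/-- **Schneider: `τ` and `j τ` are both algebraic only if `τ` is quadratic.** -/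
theorem exists_quadratic (τ : ℍ) (hτ : IsAlgebraic ℚ (τ : ℂ)) (hj : IsAlgebraic ℚ (jfun τ)) :
    ∃ a b c : ℤ, a ≠ 0 ∧ (a : ℂ) * (τ : ℂ) ^ 2 + b * (τ : ℂ) + c = 0 := by
  obtain ⟨c, hc, h₂, h₃⟩ := exists_scale_algebraic τ hj
  set L := scalePair (latPair τ) c hc
  have e₁ : L.ω₁ = c * τ := rfl
  have e₂ : L.ω₂ = c := mul_one c
  obtain ⟨N, hN, hmem⟩ := exists_mul_sq_mem h₂ h₃ hτ (ω := c) (e₂ ▸ L.ω₂_mem_lattice)
    (e₂ ▸ L.ω₂_div_two_notMem_lattice) (by rw [mul_comm]; exact e₁ ▸ L.ω₁_mem_lattice)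
    (by rw [mul_comm (τ : ℂ)]; exact e₁ ▸ L.ω₁_div_two_notMem_lattice)
  obtain ⟨m, n, hmn⟩ := PeriodPair.mem_lattice.1 hmem
  refine ⟨N, -m, -n, hN, mul_left_cancel₀ hc ?_⟩
  rw [e₁, e₂] at hmn
  push_cast
  linear_combination -hmn

/-- Conversely, a quadratic `τ` gives an algebraic `j τ`. -/
theorem isAlgebraic_jfun_of_quadratic (τ : ℍ) {a b c : ℤ} (ha : a ≠ 0)
    (h : (a : ℂ) * (τ : ℂ) ^ 2 + b * (τ : ℂ) + c = 0) : IsAlgebraic ℚ (jfun τ) := by
  set g := Int.gcd (Int.gcd a b) c with hg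
  have hg0 : 0 < g := Nat.pos_of_ne_zero fun h0 => ha (by
    rw [hg, Int.gcd_eq_zero_iff] at h0
    exact (Int.gcd_eq_zero_iff.1 (by exact_mod_cast h0.1)).1)
  obtain ⟨a', ha'⟩ : (g : ℤ) ∣ a := (Int.gcd_dvd_left _ _).trans (Int.gcd_dvd_left _ _)
  obtain ⟨b', hb'⟩ : (g : ℤ) ∣ b := (Int.gcd_dvd_left _ _).trans (Int.gcd_dvd_right _ _)
  obtain ⟨c', hc'⟩ : (g : ℤ) ∣ c := Int.gcd_dvd_right _ _
  have hgC : ((g : ℤ) : ℂ) ≠ 0 := by exact_mod_cast hg0.ne'
  have h' : (a' : ℂ) * (τ : ℂ) ^ 2 + b' * (τ : ℂ) + c' = 0 := by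
    refine mul_left_cancel₀ hgC ?_
    rw [ha', hb', hc'] at h
    push_cast at h ⊢
    linear_combination h
  have hprim : Int.gcd (Int.gcd a' b') c' = 1 := by
    have h1 : g = g * Int.gcd (Int.gcd a' b') c' := by
      conv_lhs => rw [hg, ha', hb', hc']
      rw [Int.gcd_mul_left, Int.natAbs_natCast, Nat.cast_mul, Int.gcd_mul_left, Int.natAbs_natCast]
    exact (mul_right_eq_self₀.1 h1.symm).resolve_right hg0.ne'
  have hD : b' ^ 2 - 4 * a' * c' < 0 := by
    have hsq : (2 * (a' : ℂ) * τ + b') ^ 2 = ((b' ^ 2 - 4 * a' * c' : ℤ) : ℂ) := by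
      push_cast
      linear_combination 4 * (a' : ℂ) * h'
    have ha'0 : a' ≠ 0 := fun e => ha (by rw [ha', e, mul_zero])
    have hre := congrArg Complex.re hsq
    have him := congrArg Complex.im hsq
    simp [sq] at hre him
    have hτ : τ.im ≠ 0 := τ.im_pos.ne'
    have h3 : (2 * (a' : ℝ) * τ.re + b') * (2 * a' * τ.im) = 0 := by linarith
    have h4 : 2 * (a' : ℝ) * τ.re + b' = 0 := (mul_eq_zero.1 h3).resolve_right
      (mul_ne_zero (mul_ne_zero two_ne_zero (Int.cast_ne_zero.2 ha'0)) hτ)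
    have h5 : ((b' ^ 2 - 4 * a' * c' : ℤ) : ℝ) < 0 := by
      push_cast
      rw [h4] at hre
      nlinarith [mul_self_pos.2 (mul_ne_zero (mul_ne_zero (two_ne_zero (α := ℝ))
        (Int.cast_ne_zero.2 ha'0)) hτ)]
    exact_mod_cast h5
  exact (FA.Singular.isAlgebraic_natDegree_le hprim hD h').1

end FA.SchneiderLang

end
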