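import Mathlib.Analysis.SpecialFunctions.Elliptic.Weierstrass
import Mathlib.NumberTheory.ModularForms.JacobiTheta.OneVariable

/-!
# A multiplier for the Weierstrass function

The square of a Jacobi theta function with zeros on the lattice turns `℘` into an entire
function; both are of order at most two, being quasi-periodic.
-/

set_option autoImplicit false

noncomputable section

namespace FA.SchneiderLang

open Complex Filter
open scoped Topology Real PeriodPair

/-- Half of `1 + τ` is a zero of the theta function. -/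
theorem jacobiTheta₂_half_eq_zero (τ : ℂ) : jacobiTheta₂ ((1 + τ) / 2) τ = 0 := by
  have h1 : jacobiTheta₂ ((1 - τ) / 2) τ = jacobiTheta₂ ((1 + τ) / 2) τ := by
    rw [show (1 - τ) / 2 = -((1 + τ) / 2) + 1 by ring, jacobiTheta₂_add_left,
      jacobiTheta₂_neg_left]
  have h2 := jacobiTheta₂_add_left' ((1 - τ) / 2) τ
  rw [show (1 - τ) / 2 + τ = (1 + τ) / 2 by ring,
    show -π * I * (τ + 2 * ((1 - τ) / 2)) = -(π * I) by ring, Complex.exp_neg, exp_pi_mul_I,
    h1] at h2
  linear_combination h2 / 2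

/-- The zeros of the theta function contain a translate of the lattice. -/
theorem jacobiTheta₂_eq_zero_of_lattice (τ : ℂ) (m n : ℤ) :
    jacobiTheta₂ ((1 + τ) / 2 + m + n * τ) τ = 0 := by
  have hper : Function.Periodic (fun x => jacobiTheta₂ x τ) 1 := fun x =>
    jacobiTheta₂_add_left x τ
  induction n using Int.induction_on with
  | zero =>
    have := hper.int_mul m ((1 + τ) / 2)
    simp only [mul_one] at this
    simpa [this] using jacobiTheta₂_half_eq_zero τ
  | succ k ih =>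
    rw [show (1 + τ) / 2 + m + ((k + 1 : ℤ) : ℂ) * τ =
      (1 + τ) / 2 + m + ((k : ℤ) : ℂ) * τ + τ by push_cast; ring, jacobiTheta₂_add_left', ih,
      mul_zero]
  | pred k ih =>
    have h := jacobiTheta₂_add_left' ((1 + τ) / 2 + m + ((-(k : ℤ) - 1 : ℤ) : ℂ) * τ) τ
    rw [show (1 + τ) / 2 + m + ((-(k : ℤ) - 1 : ℤ) : ℂ) * τ + τ =
      (1 + τ) / 2 + m + ((-(k : ℤ) : ℤ) : ℂ) * τ by push_cast; ring, ih, eq_comm,
      mul_eq_zero] at h
    exact h.resolve_left (Complex.exp_ne_zero _)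

/-- The theta function is not identically zero: its mean over the `M`-th division points
tends to one. -/
theorem exists_jacobiTheta₂_ne_zero {τ : ℂ} (hτ : 0 < τ.im) : ∃ x, jacobiTheta₂ x τ ≠ 0 := by
  by_contra hall
  push Not at hall
  obtain ⟨M, hM0, hM⟩ : ∃ M : ℕ, 0 < M ∧ Real.exp (-π * ((M : ℝ) ^ 2 * τ.im)) < 1 / 3 := by
    have hlim : Tendsto (fun M : ℕ => Real.exp (-π * ((M : ℝ) ^ 2 * τ.im))) atTop (𝓝 0) := by
      refine Real.tendsto_exp_atBot.comp (Tendsto.const_mul_atTop_of_neg (by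
        linarith [Real.pi_pos]) ?_)
      exact Tendsto.atTop_mul_const hτ
        ((tendsto_pow_atTop two_ne_zero).comp tendsto_natCast_atTop_atTop)
    exact ((eventually_gt_atTop 0).and (hlim.eventually (gt_mem_nhds (by norm_num)))).exists
  have hM' : (M : ℂ) ≠ 0 := Nat.cast_ne_zero.2 hM0.ne'
  -- the mean is the series over the multiples of `M`
  have hsum : HasSum (fun n : ℤ => ∑ j ∈ Finset.range M, jacobiTheta₂_term n ((j : ℂ) / M) τ)
      0 := by
    have h := hasSum_sum (s := Finset.range M)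
      fun j _ => hasSum_jacobiTheta₂_term ((j : ℂ) / M) hτ
    simpa [hall] using h
  have hinner : ∀ n : ℤ, (∑ j ∈ Finset.range M, jacobiTheta₂_term n ((j : ℂ) / M) τ) =
      if (M : ℤ) ∣ n then (M : ℂ) * cexp (π * I * n ^ 2 * τ) else 0 := by
    intro n
    have hterm : ∀ j : ℕ, jacobiTheta₂_term n ((j : ℂ) / M) τ =
        cexp (π * I * n ^ 2 * τ) * cexp (2 * π * I * n / M) ^ j := fun j => by
      rw [jacobiTheta₂_term, Complex.exp_add, ← Complex.exp_nat_mul, mul_comm]
      congr 2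
      ring
    simp only [hterm]
    rw [← Finset.mul_sum]
    split_ifs with hdvd
    · obtain ⟨k, rfl⟩ := hdvd
      have hone : cexp (2 * π * I * ((M : ℤ) * k : ℤ) / M) = 1 := by
        rw [← Complex.exp_int_mul_two_pi_mul_I k]
        congr 1
        push_cast
        field_simp
      rw [hone]
      simp [mul_comm]
    · have hne : cexp (2 * π * I * n / M) ≠ 1 := fun h => by
        obtain ⟨k, hk⟩ := Complex.exp_eq_one_iff.1 h
        refine hdvd ⟨k, ?_⟩
        rw [div_eq_iff hM'] at hk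
        have : (n : ℂ) = (M : ℂ) * k := by
          refine mul_left_cancel₀ Complex.two_pi_I_ne_zero ?_
          linear_combination hk
        exact_mod_cast this
      rw [geom_sum_eq hne, show cexp (2 * π * I * n / M) ^ M = 1 by
        rw [← Complex.exp_nat_mul, ← Complex.exp_int_mul_two_pi_mul_I n]
        congr 1
        field_simp, sub_self, zero_div, mul_zero]
  have hinj : Function.Injective fun k : ℤ => (M : ℤ) * k :=
    mul_right_injective₀ (by exact_mod_cast hM0.ne')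
  simp only [hinner] at hsum
  rw [← hinj.hasSum_iff (fun n hn => if_neg fun ⟨k, hk⟩ => hn ⟨k, hk.symm⟩)] at hsum
  have hτM : 0 < ((M : ℂ) ^ 2 * τ).im := by
    rw [show ((M : ℂ) ^ 2 * τ) = (((M : ℝ) ^ 2 : ℝ) : ℂ) * τ by push_cast; ring, im_ofReal_mul]
    positivity
  have hzero : jacobiTheta₂ 0 ((M : ℂ) ^ 2 * τ) = 0 := by
    refine mul_left_cancel₀ hM' ?_
    rw [mul_zero]
    refine (((hasSum_jacobiTheta₂_term 0 hτM).mul_left (M : ℂ)).congr_fun ?_).unique hsum
    intro k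
    simp only [Function.comp_apply, if_pos (dvd_mul_right (M : ℤ) k), jacobiTheta₂_term]
    push_cast
    ring_nf
  have h := norm_jacobiTheta_sub_one_le hτM
  rw [jacobiTheta_eq_jacobiTheta₂, hzero, zero_sub, norm_neg, norm_one,
    show -π * ((M : ℂ) ^ 2 * τ).im = -π * ((M : ℝ) ^ 2 * τ.im) by
      rw [show ((M : ℂ) ^ 2 * τ) = (((M : ℝ) ^ 2 : ℝ) : ℂ) * τ by push_cast; ring,
        im_ofReal_mul]] at h
  have hpos : 0 < 1 - Real.exp (-π * ((M : ℝ) ^ 2 * τ.im)) := by linarith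
  rw [div_mul_eq_mul_div, le_div_iff₀ hpos] at h
  linarith

/-- A continuous quasi-periodic function is bounded by the exponential of a quadratic. -/
theorem exists_bound_of_quasiPeriodic {ω τ : ℂ} (hω : ω ≠ 0) (hτ : 0 < τ.im) (k : ℝ)
    {G : ℂ → ℂ} (hG : Continuous G) (h1 : ∀ z, G (z + ω) = G z)
    (h2 : ∀ z, ‖G (z + τ * ω)‖ = Real.exp (k * (2 * (z / ω).im + 2 * τ.im)) * ‖G z‖) :
    ∃ C : ℝ, ∀ z, ‖G z‖ ≤ Real.exp (C * (‖z‖ + 1) ^ 2) := by
  set T := τ.im with hT
  set w : ℂ → ℝ := fun z => k * ((z / ω).im + T / 2) ^ 2 / T with hw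
  set N : ℂ → ℝ := fun z => ‖G z‖ * Real.exp (-w z) with hN
  have hN1 : Function.Periodic N ω := fun z => by
    simp only [hN, hw, h1, add_div, div_self hω, Complex.add_im, Complex.one_im, add_zero]
  have hN2 : Function.Periodic N (τ * ω) := fun z => by
    simp only [hN, h2, hw, add_div, mul_div_cancel_right₀ _ hω, Complex.add_im, ← hT]
    rw [mul_comm _ ‖G z‖, mul_assoc, ← Real.exp_add]
    congr 2
    field_simp
    ring
  have hNc : Continuous N := by simp only [hN, hw]; fun_prop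
  obtain ⟨B, hB⟩ := (isCompact_closedBall (0 : ℂ) (‖ω‖ * (1 + ‖τ‖))).bddAbove_image
    hNc.continuousOn
  have hNB : ∀ z, N z ≤ B := fun z => by
    set x := z / ω with hx
    set b : ℝ := x.im / T with hb
    set a : ℝ := x.re - b * τ.re with ha
    have hxab : x = a + b * τ := by
      apply Complex.ext
      · simp [ha]
      · simp [hb, ← hT, div_mul_cancel₀ _ hτ.ne']
    have hz' : z = ((Int.fract a : ℝ) + (Int.fract b : ℝ) * τ) * ω + (⌊a⌋ : ℂ) * ω +
        (⌊b⌋ : ℂ) * (τ * ω) := by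
      rw [Int.fract, Int.fract]
      push_cast
      have : z = x * ω := (div_mul_cancel₀ z hω).symm
      rw [this, hxab]
      ring
    rw [hz', hN2.int_mul ⌊b⌋ _, hN1.int_mul ⌊a⌋ _]
    refine hB ⟨_, ?_, rfl⟩
    rw [mem_closedBall_zero_iff, norm_mul, mul_comm]
    refine mul_le_mul_of_nonneg_left ((norm_add_le _ _).trans (add_le_add ?_ ?_)) (norm_nonneg ω)
    · rw [Complex.norm_real, Real.norm_of_nonneg (Int.fract_nonneg a)]
      exact (Int.fract_lt_one a).le
    · rw [norm_mul, Complex.norm_real, Real.norm_of_nonneg (Int.fract_nonneg b)]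
      exact mul_le_of_le_one_left (norm_nonneg τ) (Int.fract_lt_one b).le
  refine ⟨|B| + |k| / T * (1 / ‖ω‖ + T) ^ 2, fun z => ?_⟩
  have hsq : (1 : ℝ) ≤ (‖z‖ + 1) ^ 2 := one_le_pow₀ (by linarith [norm_nonneg z])
  have hy : |(z / ω).im + T / 2| ≤ (1 / ‖ω‖ + T) * (‖z‖ + 1) := by
    have h3 := abs_add_le (z / ω).im (T / 2)
    have h4 : |(z / ω).im| ≤ ‖z‖ / ‖ω‖ := (Complex.abs_im_le_norm _).trans_eq (norm_div _ _)
    rw [abs_of_nonneg (show 0 ≤ T / 2 by linarith)] at h3
    have h5 : 0 ≤ 1 / ‖ω‖ := by positivity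
    have h6 : ‖z‖ / ‖ω‖ = 1 / ‖ω‖ * ‖z‖ := by ring
    nlinarith [mul_nonneg hτ.le (norm_nonneg z)]
  have hw' : w z ≤ |k| / T * (1 / ‖ω‖ + T) ^ 2 * (‖z‖ + 1) ^ 2 := by
    rw [show w z = k / T * ((z / ω).im + T / 2) ^ 2 by simp only [hw]; ring, mul_assoc,
      ← mul_pow]
    refine (mul_le_mul_of_nonneg_right (div_le_div_of_nonneg_right (le_abs_self k) hτ.le)
      (sq_nonneg _)).trans (mul_le_mul_of_nonneg_left ?_ (by positivity))
    rw [← sq_abs]
    exact pow_le_pow_left₀ (abs_nonneg _) hy 2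
  have hG' : ‖G z‖ ≤ |B| * Real.exp (w z) := by
    have h3 := (hNB z).trans (le_abs_self B)
    simp only [hN, Real.exp_neg, ← div_eq_mul_inv, div_le_iff₀ (Real.exp_pos _)] at h3
    exact h3
  calc ‖G z‖ ≤ |B| * Real.exp (w z) := hG'
    _ ≤ Real.exp |B| * Real.exp (w z) := by
        refine mul_le_mul_of_nonneg_right ?_ (Real.exp_pos _).le
        linarith [Real.add_one_le_exp |B|]
    _ ≤ Real.exp ((|B| + |k| / T * (1 / ‖ω‖ + T) ^ 2) * (‖z‖ + 1) ^ 2) := by
        rw [← Real.exp_add, add_mul]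
        exact Real.exp_le_exp.2 (add_le_add (le_mul_of_one_le_right (abs_nonneg B) hsq) hw')

variable (L : PeriodPair)

/-- A basis of the lattice with ratio in the upper half-plane. -/
theorem exists_tau : ∃ τ : ℂ, 0 < τ.im ∧
    ∀ x, x ∈ L.lattice ↔ ∃ m n : ℤ, ((m : ℂ) + n * τ) * L.ω₁ = x := by
  have hω : L.ω₁ ≠ 0 := by simpa using L.indep.ne_zero 0
  have him : (L.ω₂ / L.ω₁).im ≠ 0 := fun h => by
    have h2 : L.ω₂ / L.ω₁ = (((L.ω₂ / L.ω₁).re : ℝ) : ℂ) := Complex.ext (by simp) (by simp [h])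
    have := (LinearIndependent.pair_iff.1 L.indep (L.ω₂ / L.ω₁).re (-1) (by
      rw [Complex.real_smul, Complex.real_smul, ← h2, div_mul_cancel₀ _ hω]
      simp)).2
    norm_num at this
  rcases lt_or_gt_of_ne him with h | h
  · refine ⟨-(L.ω₂ / L.ω₁), by simpa using h, fun x => PeriodPair.mem_lattice.trans ⟨?_, ?_⟩⟩
    · rintro ⟨m, n, rfl⟩
      exact ⟨m, -n, by push_cast; field_simp⟩
    · rintro ⟨m, n, rfl⟩
      exact ⟨m, -n, by push_cast; field_simp⟩
  · refine ⟨L.ω₂ / L.ω₁, h, fun x => PeriodPair.mem_lattice.trans ⟨?_, ?_⟩⟩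
    · rintro ⟨m, n, rfl⟩
      exact ⟨m, n, by field_simp⟩
    · rintro ⟨m, n, rfl⟩
      exact ⟨m, n, by field_simp⟩

/-- **A multiplier.** An entire `θ ≠ 0` with `θ ℘` entire, both of order at most two. -/
theorem exists_multiplier : ∃ θ g : ℂ → ℂ, Differentiable ℂ θ ∧ θ ≠ 0 ∧ Differentiable ℂ g ∧
    (∀ z ∉ L.lattice, g z = θ z * ℘[L] z) ∧
    ∃ C : ℝ, 0 ≤ C ∧ ∀ z, ‖θ z‖ ≤ Real.exp (C * (‖z‖ + 1) ^ 2) ∧
      ‖g z‖ ≤ Real.exp (C * (‖z‖ + 1) ^ 2) := by
  classical
  obtain ⟨τ, hτ, hmem⟩ := exists_tau L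
  set ω := L.ω₁ with hωdef
  have hω : ω ≠ 0 := by simpa [hωdef] using L.indep.ne_zero 0
  set Θ : ℂ → ℂ := fun z => jacobiTheta₂ (z / ω + (1 + τ) / 2) τ with hΘ
  have hΘd : Differentiable ℂ Θ := fun z =>
    DifferentiableAt.comp (f := fun z : ℂ => z / ω + (1 + τ) / 2)
      (g := fun x => jacobiTheta₂ x τ) z (differentiableAt_jacobiTheta₂_fst _ hτ) (by fun_prop)
  have hΘ0 : ∀ l ∈ L.lattice, Θ l = 0 := fun l hl => by
    obtain ⟨m, n, rfl⟩ := (hmem l).1 hl
    simp only [hΘ, mul_div_cancel_right₀ _ hω]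
    rw [show (m : ℂ) + n * τ + (1 + τ) / 2 = (1 + τ) / 2 + m + n * τ by ring]
    exact jacobiTheta₂_eq_zero_of_lattice τ m n
  have hΘω : ∀ z, Θ (z + ω) = Θ z := fun z => by
    simp only [hΘ, add_div, div_self hω]
    rw [← jacobiTheta₂_add_left (z / ω + (1 / 2 + τ / 2)) τ]
    congr 1; ring
  have hΘτ : ∀ z, ∃ e : ℂ, ‖e‖ = Real.exp (π * (2 * (z / ω).im + 2 * τ.im)) ∧
      Θ (z + τ * ω) = e * Θ z := fun z => by
    refine ⟨cexp (-π * I * (τ + 2 * (z / ω + (1 + τ) / 2))), ?_, ?_⟩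
    · rw [Complex.norm_exp]
      congr 1
      simp [Complex.add_re, Complex.add_im]
      ring
    · simp only [hΘ, ← jacobiTheta₂_add_left', add_div, mul_div_cancel_right₀ _ hω]
      congr 1; ring
  -- the product with `℘`
  set g : ℂ → ℂ := fun z => if z ∈ L.lattice then deriv Θ z ^ 2 else Θ z ^ 2 * ℘[L] z with hg
  have hgoff : ∀ z ∉ L.lattice, g z = Θ z ^ 2 * ℘[L] z := fun z hz => if_neg hz
  have hgd : Differentiable ℂ g := fun z => by
    by_cases hz : z ∈ L.lattice
    · have hd : AnalyticAt ℂ (dslope Θ z) z :=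
        ((Complex.differentiableOn_dslope univ_mem).2 hΘd.differentiableOn).analyticAt univ_mem
      have hE : AnalyticAt ℂ ℘[L - z] z := L.analyticAt_weierstrassPExcept z
      have hR : DifferentiableAt ℂ (fun y => dslope Θ z y ^ 2 *
          ((y - z) ^ 2 * ℘[L - z] y + 1 - (y - z) ^ 2 * (z ^ 2)⁻¹)) z := by fun_prop
      refine hR.congr_of_eventuallyEq ?_
      filter_upwards [L.compl_lattice_sdiff_singleton_mem_nhds z] with y hy
      rw [← div_eq_mul_inv, ← L.ite_eq_one_sub_sq_mul_weierstrassP z hz y]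
      by_cases hyz : y = z
      · subst hyz
        rw [if_pos rfl, mul_one, dslope_same, hg]
        exact if_pos hz
      · rw [if_neg hyz, hgoff y fun h => hy ⟨h, hyz⟩, dslope_of_ne _ hyz, slope_def_field,
          hΘ0 z hz, sub_zero, div_pow, ← mul_assoc,
          div_mul_cancel₀ _ (pow_ne_zero _ (sub_ne_zero.2 hyz))]
    · refine DifferentiableAt.congr_of_eventuallyEq ?_
        (Filter.Eventually.mono
          (show ∀ᶠ y in 𝓝 z, y ∉ L.lattice from L.isClosed_lattice.isOpen_compl.mem_nhds hz) hgoff)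
      exact ((hΘd z).pow 2).mul (L.analyticOnNhd_weierstrassP z hz).differentiableAt
  have hdense : ∀ {u v : ℂ → ℂ}, Continuous u → Continuous v →
      (∀ z ∉ L.lattice, u z = v z) → ∀ z, u z = v z := fun hu hv h z =>
    tendsto_nhds_unique_of_eventuallyEq (l := 𝓝[≠] z) hu.continuousAt.continuousWithinAt.tendsto
      hv.continuousAt.continuousWithinAt.tendsto (by
        filter_upwards [mem_nhdsWithin_of_mem_nhds (L.compl_lattice_sdiff_singleton_mem_nhds z),
          self_mem_nhdsWithin] with y hy hne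
        exact h y fun hm => hy ⟨hm, hne⟩)
  have hωL : ω ∈ L.lattice := L.ω₁_mem_lattice
  have hτL : τ * ω ∈ L.lattice := (hmem _).2 ⟨0, 1, by simp⟩
  have hgω : ∀ z, g (z + ω) = g z := by
    refine hdense (hgd.continuous.comp (by fun_prop)) hgd.continuous fun z hz => ?_
    have hz' : z + ω ∉ L.lattice := fun h => hz (by simpa using sub_mem h hωL)
    rw [hgoff z hz, hgoff _ hz', hΘω, L.weierstrassP_add_coe z ⟨ω, hωL⟩]
  have hgτ : ∀ z, g (z + τ * ω) =
      cexp (-π * I * (τ + 2 * (z / ω + (1 + τ) / 2))) ^ 2 * g z := by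
    refine hdense (hgd.continuous.comp (by fun_prop))
      ((by fun_prop : Continuous fun z : ℂ =>
        cexp (-π * I * (τ + 2 * (z / ω + (1 + τ) / 2))) ^ 2).mul hgd.continuous) fun z hz => ?_
    have hz' : z + τ * ω ∉ L.lattice := fun h => hz (by simpa using sub_mem h hτL)
    have e : Θ (z + τ * ω) = cexp (-π * I * (τ + 2 * (z / ω + (1 + τ) / 2))) * Θ z := by
      simp only [hΘ, ← jacobiTheta₂_add_left', add_div, mul_div_cancel_right₀ _ hω]
      congr 1; ring
    rw [hgoff z hz, hgoff _ hz', L.weierstrassP_add_coe z ⟨τ * ω, hτL⟩, e]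
    ring
  have hnorm : ∀ z, ‖cexp (-π * I * (τ + 2 * (z / ω + (1 + τ) / 2))) ^ 2‖ =
      Real.exp ((2 * π) * (2 * (z / ω).im + 2 * τ.im)) := fun z => by
    rw [norm_pow, Complex.norm_exp, ← Real.exp_nat_mul]
    congr 1
    simp [Complex.add_re, Complex.add_im]
    ring
  obtain ⟨C₁, hC₁⟩ := exists_bound_of_quasiPeriodic hω hτ (2 * π) hgd.continuous hgω fun z => by
    rw [hgτ, norm_mul, hnorm]
  obtain ⟨C₂, hC₂⟩ := exists_bound_of_quasiPeriodic hω hτ (2 * π) (G := fun z => Θ z ^ 2)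
    (hΘd.continuous.pow 2) (fun z => by simp only [hΘω]) fun z => by
      obtain ⟨e, he, heq⟩ := hΘτ z
      simp only [heq, mul_pow, norm_mul, norm_pow, he, ← Real.exp_nat_mul]
      congr 2; push_cast; ring
  refine ⟨fun z => Θ z ^ 2, g, hΘd.pow 2, fun h => ?_, hgd, hgoff, max 0 (max C₁ C₂),
    le_max_left _ _, fun z => ⟨(hC₂ z).trans ?_, (hC₁ z).trans ?_⟩⟩
  · obtain ⟨x, hx⟩ := exists_jacobiTheta₂_ne_zero hτ
    have h0 := congrFun h ((x - (1 + τ) / 2) * ω)
    simp only [hΘ, mul_div_cancel_right₀ _ hω, sub_add_cancel, Pi.zero_apply,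
      pow_eq_zero_iff two_ne_zero] at h0
    exact hx h0
  · exact Real.exp_le_exp.2 (mul_le_mul_of_nonneg_right
      ((le_max_right _ _).trans (le_max_right _ _)) (by positivity))
  · exact Real.exp_le_exp.2 (mul_le_mul_of_nonneg_right
      ((le_max_left _ _).trans (le_max_right _ _)) (by positivity))

end FA.SchneiderLang

end
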