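import Fermat.Agent.Transcendence.Baker
import Fermat.Agent.ThetaOne.LValueOne

/-!
# Periodic Dirichlet series at `1`

If `∑ Φ = 0` over a period `N`, then `∑ Φ n / n = -N⁻¹ ∑ C j log (1 - e (j / N))`, `C` being the
Fourier coefficients. For algebraic `Φ` Baker's theorem makes this `0` or transcendental; for
rational `Φ` the relations it gives are stable under `ℚ (ζ_N)`, so a vanishing series has all
its conjugates `Φ (b •)` vanishing as well.
-/

set_option autoImplicit false

noncomputable section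

namespace FA.PeriodicValue

open Filter Topology Finset
open scoped Real

variable {N : ℕ} [NeZero N]

/-- The Fourier coefficients. -/
def coeff (Φ : ZMod N → ℂ) (j : ZMod N) : ℂ := ∑ x, ZMod.stdAddChar (-(x * j)) * Φ x

/-- The value of `∑ Φ n / n`. -/
def logValue (Φ : ZMod N → ℂ) : ℂ :=
  -(N : ℂ)⁻¹ * ∑ j, coeff Φ j * Complex.log (1 - ZMod.stdAddChar j)

theorem coeff_zero (Φ : ZMod N → ℂ) : coeff Φ 0 = ∑ x, Φ x := by
  simp [coeff]

theorem sum_coeff_mul (Φ : ZMod N → ℂ) (n : ZMod N) :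
    (N : ℂ)⁻¹ * ∑ j, coeff Φ j * ZMod.stdAddChar (j * n) = Φ n := by
  have h : ∀ x, ∑ j : ZMod N, ZMod.stdAddChar (-(x * j)) * Φ x * ZMod.stdAddChar (j * n) =
      Φ x * if n - x = 0 then (N : ℂ) else 0 := fun x => by
    have hs := AddChar.sum_mulShift (R' := ℂ) (n - x) (ZMod.isPrimitive_stdAddChar N)
    rw [ZMod.card] at hs
    simp only [Nat.cast_ite, Nat.cast_zero] at hs
    rw [← hs, Finset.mul_sum]
    refine Finset.sum_congr rfl fun j _ => ?_
    rw [show j * (n - x) = -(x * j) + j * n by ring, AddChar.map_add_eq_mul]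
    ring
  simp only [coeff, Finset.sum_mul]
  rw [Finset.sum_comm]
  simp only [h, sub_eq_zero, mul_ite, mul_zero, Finset.sum_ite_eq, Finset.mem_univ, if_true]
  field_simp [NeZero.ne N]

/-- The series of `zⁿ / n` on the unit circle. -/
theorem tendsto_log_series {j : ZMod N} (hj : j ≠ 0) :
    Tendsto (fun M => ∑ n ∈ range M, (ZMod.stdAddChar (j * (n : ZMod N)) : ℂ) / (n : ℂ)) atTop
      (𝓝 (-Complex.log (1 - ZMod.stdAddChar j))) := by
  obtain ⟨x, hxdef⟩ : ∃ x : ℝ, x = (j.val : ℝ) / N := ⟨_, rfl⟩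
  have hx : x ∈ Set.Ioo (0 : ℝ) 1 := hxdef ▸ OrderTheta.val_div_mem_Ioo hj
  set z : ℂ := OrderTheta.circlePoint x with hzdef
  have hzj : z = ZMod.stdAddChar j := by rw [hzdef, hxdef, OrderTheta.circlePoint_val]
  have hn : ‖z‖ = 1 := OrderTheta.norm_circlePoint _
  have hz : z ≠ 1 := OrderTheta.circlePoint_ne_one hx
  have h1 : ∀ n : ℕ, (ZMod.stdAddChar (j * (n : ZMod N)) : ℂ) = z ^ n := fun n => by
    rw [hzj, ← AddChar.map_nsmul_eq_pow, nsmul_eq_mul, mul_comm]
  simp only [h1, ← hzj]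
  set L := ∑' i, OrderTheta.partsTerm z 1 i
  have hsum : Tendsto (fun M => ∑ n ∈ range M, z ^ n / (n : ℂ)) atTop (𝓝 L) := by
    refine (tendsto_add_atTop_iff_nat 1).mp ((OrderTheta.tendsto_weighted hz hn
      (Set.left_mem_Icc.mpr one_le_two)).congr fun M => ?_)
    rw [sum_range_succ', Nat.cast_zero, div_zero, add_zero]
    refine sum_congr rfl fun i _ => ?_
    rw [OrderTheta.powWeight_one]
    push_cast
    rw [div_eq_mul_inv]
  suffices h : L = -Complex.log (1 - z) by rw [← h]; exact hsum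
  refine tendsto_nhds_unique (Complex.tendsto_tsum_powerSeries_nhdsWithin_lt hsum) ?_
  rw [tendsto_map'_iff]
  have hmem : 1 - z ∈ Complex.slitPlane := by
    rw [Complex.mem_slitPlane_iff_arg]
    refine ⟨?_, sub_ne_zero.mpr hz.symm⟩
    rw [← Complex.log_im, OrderTheta.log_one_sub_circlePoint hx]
    simp
    nlinarith [Real.pi_pos, hx.1, hx.2]
  have hc : ContinuousAt (fun r : ℝ => -Complex.log (1 - (r : ℂ) * z)) 1 := by
    refine (ContinuousAt.clog (by fun_prop) ?_).neg
    simpa using hmem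
  have ht := hc.tendsto
  simp only [Complex.ofReal_one, one_mul] at ht
  refine (tendsto_nhdsWithin_of_tendsto_nhds ht).congr' ?_
  filter_upwards [Ioo_mem_nhdsLT (show (0 : ℝ) < 1 by norm_num)] with r hr
  simp only [Function.comp_apply]
  rw [← (Complex.hasSum_taylorSeries_neg_log (z := (r : ℂ) * z) (by
    rw [norm_mul, hn, mul_one, Complex.norm_real, Real.norm_of_nonneg hr.1.le]
    exact hr.2)).tsum_eq]
  exact tsum_congr fun n => by rw [mul_pow]; ring

theorem tendsto_series {Φ : ZMod N → ℂ} (hΦ : ∑ x, Φ x = 0) :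
    Tendsto (fun M => ∑ n ∈ range M, Φ n / (n : ℂ)) atTop (𝓝 (logValue Φ)) := by
  have h : ∀ j, Tendsto (fun M => coeff Φ j * ∑ n ∈ range M,
      (ZMod.stdAddChar (j * (n : ZMod N)) : ℂ) / (n : ℂ)) atTop
      (𝓝 (coeff Φ j * -Complex.log (1 - ZMod.stdAddChar j))) := fun j => by
    rcases eq_or_ne j 0 with rfl | hj
    · simp only [coeff_zero, hΦ, zero_mul]
      exact tendsto_const_nhds
    · exact (tendsto_log_series hj).const_mul _
  have hs := (tendsto_finsetSum Finset.univ fun j _ => h j).const_mul (N : ℂ)⁻¹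
  rw [show (N : ℂ)⁻¹ * ∑ j, coeff Φ j * -Complex.log (1 - ZMod.stdAddChar j) = logValue Φ by
    simp only [logValue, mul_neg, Finset.sum_neg_distrib, neg_mul]] at hs
  refine hs.congr fun M => ?_
  simp only [Finset.mul_sum]
  rw [Finset.sum_comm]
  refine Finset.sum_congr rfl fun n _ => ?_
  conv_rhs => rw [← sum_coeff_mul Φ (n : ZMod N)]
  rw [Finset.mul_sum, Finset.sum_div]
  exact Finset.sum_congr rfl fun j _ => by ring

theorem zmod_lFunction_one {Φ : ZMod N → ℂ} (hΦ : ∑ x, Φ x = 0) :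
    ZMod.LFunction Φ 1 = logValue Φ := by
  have h : ∀ j : ZMod N, coeff Φ j * ZMod.LFunction (fun k => ZMod.stdAddChar (j * k)) 1 =
      coeff Φ j * -Complex.log (1 - ZMod.stdAddChar j) := fun j => by
    rcases eq_or_ne j 0 with rfl | hj
    · rw [coeff_zero, hΦ, zero_mul, zero_mul]
    · rw [ZMod.LFunction_stdAddChar_eq_expZeta j 1 (Or.inl hj), OrderTheta.expZeta_one_val hj]
  conv_lhs => rw [show Φ = fun n => (N : ℂ)⁻¹ * ∑ j, coeff Φ j * ZMod.stdAddChar (j * n) from
    funext fun n => (sum_coeff_mul Φ n).symm]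
  rw [show logValue Φ = (N : ℂ)⁻¹ * ∑ j, coeff Φ j * -Complex.log (1 - ZMod.stdAddChar j) by
    simp only [logValue, mul_neg, Finset.sum_neg_distrib, neg_mul]]
  simp only [← h, ZMod.LFunction, Finset.mul_sum, Finset.sum_mul]
  rw [Finset.sum_comm]
  exact Finset.sum_congr rfl fun j _ => Finset.sum_congr rfl fun k _ => by ring

theorem isAlgebraic_stdAddChar (j : ZMod N) : IsAlgebraic ℚ (ZMod.stdAddChar j : ℂ) := by
  refine IsAlgebraic.of_pow (NeZero.pos N) ?_
  rw [← AddChar.map_nsmul_eq_pow, nsmul_eq_mul, ZMod.natCast_self, zero_mul,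
    AddChar.map_zero_eq_one]
  exact isAlgebraic_one

theorem isAlgebraic_exp_log (j : ZMod N) :
    IsAlgebraic ℚ (Complex.exp (Complex.log (1 - ZMod.stdAddChar j))) := by
  rcases eq_or_ne (1 - ZMod.stdAddChar j : ℂ) 0 with h | h
  · rw [h, Complex.log_zero, Complex.exp_zero]
    exact isAlgebraic_one
  · rw [Complex.exp_log h]
    exact (isAlgebraic_one (R := ℚ)).sub (isAlgebraic_stdAddChar j)

theorem isAlgebraic_coeff {Φ : ZMod N → ℂ} (hΦ : ∀ x, IsAlgebraic ℚ (Φ x)) (j : ZMod N) :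
    IsAlgebraic ℚ (coeff Φ j) :=
  IsIntegral.isAlgebraic
    (IsIntegral.sum _ fun x _ => ((isAlgebraic_stdAddChar _).isIntegral.mul (hΦ x).isIntegral))

/-- An algebraic value is zero. -/
theorem logValue_eq_zero_of_isAlgebraic {Φ : ZMod N → ℂ} (hΦ : ∀ x, IsAlgebraic ℚ (Φ x))
    (h : IsAlgebraic ℚ (logValue Φ)) : logValue Φ = 0 := by
  set β : ℂ := ∑ j, coeff Φ j * Complex.log (1 - ZMod.stdAddChar j)
  have hN : -(N : ℂ)⁻¹ ≠ 0 := by simp [NeZero.ne N]
  have hβ : IsAlgebraic ℚ β := by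
    have e : β = -(N : ℂ) * logValue Φ := by
      simp only [logValue, β]
      field_simp [NeZero.ne N]
    rw [e]
    exact (isAlgebraic_natCast_rat N).neg.mul h
  have h0 := (BakerTheorem.exists_relation_coeffs (fun j : ZMod N =>
    Complex.log (1 - ZMod.stdAddChar j)) isAlgebraic_exp_log (coeff Φ) (isAlgebraic_coeff hΦ) β hβ
    rfl).1
  rw [logValue]
  show _ * β = 0
  rw [h0, mul_zero]
where
  isAlgebraic_natCast_rat (n : ℕ) : IsAlgebraic ℚ (n : ℂ) := by
    simpa using isAlgebraic_algebraMap (R := ℚ) (A := ℂ) (n : ℚ)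

/-- A rational relation between roots of unity of order `N` has all its conjugates. -/
theorem root_relation {κ : Type*} (S : Finset κ) (a : κ → ℚ) (k : κ → ZMod N)
    (h : ∑ i ∈ S, (a i : ℂ) * ZMod.stdAddChar (k i) = 0) (u : (ZMod N)ˣ) :
    ∑ i ∈ S, (a i : ℂ) * ZMod.stdAddChar ((u : ZMod N) * k i) = 0 := by
  set ζ : ℂ := ZMod.stdAddChar (1 : ZMod N)
  have hζ : IsPrimitiveRoot ζ N := by
    have e : ζ = Complex.exp (2 * π * Complex.I / N) := by
      simp only [ζ, ← Nat.cast_one (R := ZMod N)]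
      rw [← Int.cast_natCast, ZMod.stdAddChar_coe]
      push_cast
      ring_nf
    rw [e]
    exact Complex.isPrimitiveRoot_exp N (NeZero.ne N)
  have hpow : ∀ x : ZMod N, (ZMod.stdAddChar x : ℂ) = ζ ^ x.val := fun x => by
    simp only [ζ]
    rw [← AddChar.map_nsmul_eq_pow, nsmul_eq_mul, mul_one, ZMod.natCast_zmod_val]
  set Q : Polynomial ℚ := ∑ i ∈ S, Polynomial.C (a i) * Polynomial.X ^ (k i).val
  have hQ : ∀ z : ℂ, Polynomial.aeval z Q = ∑ i ∈ S, (a i : ℂ) * z ^ (k i).val := fun z => by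
    simp [Q]
  have hu : IsPrimitiveRoot (ζ ^ (u : ZMod N).val) N :=
    hζ.pow_of_coprime _ (ZMod.val_coe_unit_coprime u)
  have hdvd : minpoly ℚ ζ ∣ Q := minpoly.dvd _ _ (by
    rw [hQ, ← h]
    exact Finset.sum_congr rfl fun i _ => by rw [← hpow])
  rw [← Polynomial.cyclotomic_eq_minpoly_rat hζ (NeZero.pos N),
    Polynomial.cyclotomic_eq_minpoly_rat hu (NeZero.pos N)] at hdvd
  obtain ⟨R, hR⟩ := hdvd
  have h0 : Polynomial.aeval (ζ ^ (u : ZMod N).val) Q = 0 := by
    rw [hR, map_mul, minpoly.aeval, zero_mul]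
  rw [← h0, hQ]
  refine Finset.sum_congr rfl fun i _ => ?_
  rw [← hpow, ← AddChar.map_nsmul_eq_pow, nsmul_eq_mul, ZMod.natCast_zmod_val, mul_comm (k i)]

/-- A vanishing rational series has vanishing conjugates. -/
theorem logValue_conj {f : ZMod N → ℚ} (h0 : logValue (fun x => (f x : ℂ)) = 0)
    (b : (ZMod N)ˣ) : logValue (fun x => (f ((b : ZMod N) * x) : ℂ)) = 0 := by
  set Φ : ZMod N → ℂ := fun x => (f x : ℂ)
  set ℓ : ZMod N → ℂ := fun j => Complex.log (1 - ZMod.stdAddChar j)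
  have hrel : ∑ j, coeff Φ j * ℓ j = 0 :=
    (mul_eq_zero.mp h0).resolve_left (by simp [NeZero.ne N])
  obtain ⟨-, κ, hκ, a, c, hc, hz⟩ := BakerTheorem.exists_relation_coeffs ℓ isAlgebraic_exp_log
    (coeff Φ) (isAlgebraic_coeff fun x => by
      simpa using isAlgebraic_algebraMap (R := ℚ) (A := ℂ) (f x)) 0 isAlgebraic_zero hrel
  have hconj : ∀ k, ∑ j, coeff (fun x => (f ((b : ZMod N) * x) : ℂ)) j * (c j k : ℂ) = 0 :=
      fun k => by
    have h := root_relation (Finset.univ : Finset (ZMod N × ZMod N))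
      (fun p => f p.2 * c p.1 k) (fun p => -(p.2 * p.1)) (by
        rw [← hz k, Fintype.sum_prod_type]
        refine Finset.sum_congr rfl fun j _ => ?_
        rw [coeff, Finset.sum_mul]
        exact Finset.sum_congr rfl fun x _ => by simp only [Φ]; push_cast; ring) b⁻¹
    rw [← h, Fintype.sum_prod_type]
    refine Finset.sum_congr rfl fun j _ => ?_
    rw [coeff, Finset.sum_mul]
    refine Fintype.sum_equiv (Units.mulLeft b) _ _ fun x => ?_
    rw [Units.mulLeft_apply]
    push_cast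
    rw [show ((b⁻¹ : (ZMod N)ˣ) : ZMod N) * -((b : ZMod N) * x * j) = -(x * j) by
      rw [mul_neg, mul_assoc (b : ZMod N), Units.inv_mul_cancel_left]]
    ring
  rw [logValue]
  refine mul_eq_zero_of_right _ ?_
  calc ∑ j, coeff (fun x => (f ((b : ZMod N) * x) : ℂ)) j * Complex.log (1 - ZMod.stdAddChar j)
      = ∑ j, ∑ k, coeff (fun x => (f ((b : ZMod N) * x) : ℂ)) j * (c j k : ℂ) * ℓ (a k) :=
        Finset.sum_congr rfl fun j _ => by
          show _ * ℓ j = _
          rw [hc j, Finset.mul_sum]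
          exact Finset.sum_congr rfl fun k _ => (mul_assoc _ _ _).symm
    _ = 0 := by
        rw [Finset.sum_comm]
        exact Finset.sum_eq_zero fun k _ => by rw [← Finset.sum_mul, hconj k, zero_mul]

theorem logValue_sum {κ : Type*} (S : Finset κ) (w : κ → ℂ) (Φ : κ → ZMod N → ℂ) :
    logValue (fun x => ∑ i ∈ S, w i * Φ i x) = ∑ i ∈ S, w i * logValue (Φ i) := by
  simp only [logValue, coeff, Finset.mul_sum, Finset.sum_mul]
  rw [Finset.sum_comm (s := S)]
  refine Finset.sum_congr rfl fun j _ => ?_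
  rw [Finset.sum_comm]
  exact Finset.sum_congr rfl fun i _ => Finset.sum_congr rfl fun x _ => by ring

theorem character_value {χ : DirichletCharacter ℂ N} (hχ : χ ≠ 1) :
    DirichletCharacter.LFunction χ 1 = logValue (χ : ZMod N → ℂ) :=
  zmod_lFunction_one (MulChar.sum_eq_zero_of_ne_one hχ)

theorem isAlgebraic_character (χ : DirichletCharacter ℂ N) (x : ZMod N) :
    IsAlgebraic ℚ (χ x) := by
  by_cases hx : IsUnit x
  · obtain ⟨u, rfl⟩ := hx
    refine IsAlgebraic.of_pow (Fintype.card_pos (α := (ZMod N)ˣ)) ?_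
    rw [← map_pow, ← Units.val_pow_eq_pow_val, pow_card_eq_one, Units.val_one, map_one]
    exact isAlgebraic_one
  · rw [χ.map_nonunit hx]
    exact isAlgebraic_zero

/-- **Baker, Birch and Wirsing.** -/
theorem eq_zero_of_logValue {f : ZMod N → ℚ} (hf : ∀ x, ¬IsUnit x → f x = 0)
    (hsum : ∑ x, f x = 0) (h0 : logValue (fun x => (f x : ℂ)) = 0) : f = 0 := by
  classical
  have hall : ∀ χ : DirichletCharacter ℂ N, ∑ x, (f x : ℂ) * χ x = 0 := fun χ => by
    rcases eq_or_ne χ 1 with rfl | hχ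
    · rw [show (0 : ℂ) = ((∑ x, f x : ℚ) : ℂ) by rw [hsum, Rat.cast_zero], Rat.cast_sum]
      refine Finset.sum_congr rfl fun x _ => ?_
      by_cases hx : IsUnit x
      · rw [MulChar.one_apply hx, mul_one]
      · rw [hf x hx, Rat.cast_zero, zero_mul]
    have hinv : χ⁻¹ ≠ 1 := inv_ne_one.mpr hχ
    set A := ∑ x, (f x : ℂ) * χ x
    have hfun : (fun x => ∑ b, χ b * (f (b * x) : ℂ)) = fun x => A * χ⁻¹ x := funext fun x => by
      by_cases hx : IsUnit x
      · obtain ⟨u, rfl⟩ := hx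
        simp only [A, Finset.sum_mul]
        refine Fintype.sum_equiv (Units.mulRight u) _ _ fun b => ?_
        rw [Units.mulRight_apply, map_mul]
        have e : χ (u : ZMod N) * χ⁻¹ (u : ZMod N) = 1 := by
          rw [← MulChar.mul_apply, mul_inv_cancel, MulChar.one_apply u.isUnit]
        linear_combination -(χ b * (f (b * u) : ℂ)) * e
      · rw [χ⁻¹.map_nonunit hx, mul_zero]
        exact Finset.sum_eq_zero fun b _ => by
          rw [hf _ (fun h => hx (isUnit_of_mul_isUnit_right h)), Rat.cast_zero, mul_zero]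
    have hv : ∑ b, χ b * logValue (fun x => (f (b * x) : ℂ)) = 0 :=
      Finset.sum_eq_zero fun b _ => by
        by_cases hb : IsUnit b
        · obtain ⟨u, rfl⟩ := hb
          rw [logValue_conj h0 u, mul_zero]
        · rw [χ.map_nonunit hb, zero_mul]
    rw [← logValue_sum, hfun] at hv
    have he : logValue (fun x => A * χ⁻¹ x) = A * logValue (χ⁻¹ : DirichletCharacter ℂ N) := by
      simpa using logValue_sum (Finset.univ : Finset Unit) (fun _ => A)
        fun _ => ((χ⁻¹ : DirichletCharacter ℂ N) : ZMod N → ℂ)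
    rw [he] at hv
    exact (mul_eq_zero.mp hv).resolve_right
      (character_value hinv ▸ DirichletCharacter.LFunction_apply_one_ne_zero hinv)
  funext b
  by_cases hb : IsUnit b
  · have h1 : ∑ χ : DirichletCharacter ℂ N, χ b⁻¹ * ∑ a, (f a : ℂ) * χ a =
        (N.totient : ℂ) * (f b : ℂ) := by
      simp only [Finset.mul_sum]
      rw [Finset.sum_comm]
      simp only [mul_left_comm _ ((f _ : ℚ) : ℂ), ← Finset.mul_sum,
        DirichletCharacter.sum_char_inv_mul_char_eq ℂ hb]
      simp [mul_comm]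
    simp only [hall, mul_zero, Finset.sum_const_zero] at h1
    have h2 := (mul_eq_zero.mp h1.symm).resolve_left
      (by exact_mod_cast (Nat.totient_pos.mpr (NeZero.pos N)).ne')
    exact_mod_cast h2
  · exact hf b hb

/-- A periodic series converges only if the mean is zero. -/
theorem sum_eq_zero_of_tendsto {Φ : ZMod N → ℂ} {l : ℂ}
    (h : Tendsto (fun M => ∑ n ∈ range M, Φ n / (n : ℂ)) atTop (𝓝 l)) : ∑ x, Φ x = 0 := by
  set μ := (N : ℂ)⁻¹ * ∑ x, Φ x with hμ
  have hsum : ∑ x, (Φ x - μ) = 0 := by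
    rw [Finset.sum_sub_distrib, Finset.sum_const, Finset.card_univ, ZMod.card, nsmul_eq_mul, hμ,
      ← mul_assoc, mul_inv_cancel₀ (Nat.cast_ne_zero.mpr (NeZero.ne N)), one_mul, sub_self]
  have h2 := h.sub (tendsto_series hsum)
  have h3 : Tendsto (fun M => μ * ((∑ n ∈ range M, (1 / n : ℝ)) : ℝ)) atTop
      (𝓝 (l - logValue fun x => Φ x - μ)) := by
    refine h2.congr fun M => ?_
    rw [← Finset.sum_sub_distrib, Complex.ofReal_sum, Finset.mul_sum]
    refine Finset.sum_congr rfl fun n _ => ?_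
    push_cast
    ring
  suffices hμ0 : μ = 0 by
    exact (mul_eq_zero.mp (hμ.symm.trans hμ0)).resolve_left (by simp [NeZero.ne N])
  by_contra hne
  have hH : Tendsto (fun M => ∑ n ∈ range M, (1 / n : ℝ)) atTop atTop :=
    (not_summable_iff_tendsto_nat_atTop_of_nonneg fun n => by positivity).mp
      Real.not_summable_one_div_natCast
  have h4 := (((h3.const_mul μ⁻¹).norm).congr fun M => by
    rw [← mul_assoc, inv_mul_cancel₀ hne, one_mul, Complex.norm_real])
  exact not_tendsto_nhds_of_tendsto_atTop (tendsto_abs_atTop_atTop.comp hH) _ h4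

end FA.PeriodicValue

end
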