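import Fermat.Agent.Transcendence.GelfondSchneider

/-!
# The six exponentials theorem

If the six numbers `exp (x i * y j)` lie in a number field, a small combination `F` of the
`exp ((a x₀ + b x₁) z)` vanishes on a box of points `k₀ y₀ + k₁ y₁ + k₂ y₂`; by the product
formula and the lemma of Schwarz it then vanishes on every larger box, so it is zero.
-/

set_option autoImplicit false
set_option linter.style.haveILetI false

noncomputable section

namespace FA.SixExponentials

open NumberField Module Matrix Metric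
open scoped Nat

/-- The lemma of Schwarz. -/
theorem norm_le_of_zeros {F : ℂ → ℂ} (hF : Differentiable ℂ F) (s : Finset ℂ) {R B B₀ : ℝ}
    (hs : ∀ a ∈ s, ‖a‖ ≤ B₀) (hR : 2 * B₀ ≤ R) (hR0 : 0 < R) (hzero : ∀ a ∈ s, F a = 0)
    (hB : ∀ z : ℂ, ‖z‖ = R → ‖F z‖ ≤ B) {z₀ : ℂ} (hz₀ : ‖z₀‖ ≤ B₀) :
    ‖F z₀‖ ≤ (2 * B₀) ^ s.card * (B * (2 / R) ^ s.card) := by
  classical
  obtain ⟨G, hG, hfac⟩ := GelfondSchneider.exists_factor s hF (r := 1) fun a ha => by
    rw [Nat.cast_one, Order.one_le_iff_ne_zero]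
    exact (hF.analyticAt a).analyticOrderAt_ne_zero.2 (hzero a ha)
  have hGb : ‖G z₀‖ ≤ B * (2 / R) ^ s.card := by
    refine Complex.norm_le_of_forall_mem_frontier_norm_le (U := ball (0 : ℂ) R) isBounded_ball
      hG.diffContOnCl (fun w hw => ?_) ?_
    · rw [frontier_ball _ hR0.ne', mem_sphere_zero_iff_norm] at hw
      have hP : (R / 2) ^ s.card ≤ ‖∏ a ∈ s, (w - a) ^ 1‖ := by
        rw [norm_prod, ← Finset.prod_const]
        refine Finset.prod_le_prod (fun a _ => by positivity) fun a ha => ?_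
        rw [pow_one]
        have := norm_sub_norm_le w a
        rw [hw] at this
        linarith [hs a ha]
      have hFw := hB w hw
      rw [hfac w, norm_mul] at hFw
      have h2 : (R / 2) ^ s.card * ‖G w‖ ≤ B :=
        (mul_le_mul_of_nonneg_right hP (norm_nonneg _)).trans hFw
      rw [show (2 / R) ^ s.card = ((R / 2) ^ s.card)⁻¹ by rw [← inv_pow, inv_div],
        ← div_eq_mul_inv, le_div_iff₀ (by positivity)]
      linarith
    · rw [closure_ball _ hR0.ne', mem_closedBall_zero_iff]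
      linarith [norm_nonneg z₀]
  rw [hfac z₀, norm_mul]
  refine mul_le_mul ?_ hGb (norm_nonneg _)
    (pow_nonneg (by linarith [norm_nonneg z₀]) _)
  rw [norm_prod, ← Finset.prod_const]
  refine Finset.prod_le_prod (fun a _ => norm_nonneg _) fun a ha => ?_
  rw [pow_one]
  linarith [norm_sub_le z₀ a, hs a ha]

variable {K : Type*} [Field K] [NumberField K]

/-- The entry of the linear system, with exponents `l`, `k` and the denominator to the power
`T`. -/
def entry (D : ℤ) (A : Fin 2 × Fin 3 → 𝓞 K) (T : ℕ) (l : Fin 2 → ℕ) (k : Fin 3 → ℕ) : 𝓞 K :=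
  (∏ ij, A ij ^ (l ij.1 * k ij.2)) * (D : 𝓞 K) ^ (T - ∑ ij : Fin 2 × Fin 3, l ij.1 * k ij.2)

theorem house_entry_le {D : ℤ} {A : Fin 2 × Fin 3 → 𝓞 K} {M : ℝ} (hM : 1 ≤ M)
    (hD : |(D : ℝ)| ≤ M) (hA : ∀ ij, house (A ij : K) ≤ M) {T : ℕ} {l : Fin 2 → ℕ}
    {k : Fin 3 → ℕ} (hT : ∑ ij : Fin 2 × Fin 3, l ij.1 * k ij.2 ≤ T) :
    house (entry D A T l k : K) ≤ M ^ T := by
  have hone : house (1 : K) ≤ 1 := by
    rw [show (1 : K) = ((1 : ℤ) : K) by simp, house_intCast]; simp
  have hpow : ∀ (z : K) (k : ℕ), house z ≤ M → house (z ^ k) ≤ M ^ k := fun z k hz =>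
    (house_pow_le _ _).trans (pow_le_pow_left₀ (house_nonneg _) hz k)
  have hprod : ∀ t : Finset (Fin 2 × Fin 3), house (∏ ij ∈ t, (A ij : K) ^ (l ij.1 * k ij.2)) ≤
      M ^ ∑ ij ∈ t, l ij.1 * k ij.2 := by
    intro t
    induction t using Finset.induction with
    | empty => simpa using hone
    | @insert a t ha ih =>
      rw [Finset.prod_insert ha, Finset.sum_insert ha, pow_add]
      exact (house_mul_le _ _).trans (mul_le_mul (hpow _ _ (hA a)) ih (house_nonneg _)
        (by positivity))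
  have hDh : house (D : K) ≤ M := by rw [house_intCast, Int.cast_abs]; exact hD
  rw [entry]
  push_cast
  refine (house_mul_le _ _).trans ?_
  calc house (∏ ij, (A ij : K) ^ (l ij.1 * k ij.2)) *
        house ((D : K) ^ (T - ∑ ij : Fin 2 × Fin 3, l ij.1 * k ij.2))
      ≤ M ^ (∑ ij : Fin 2 × Fin 3, l ij.1 * k ij.2) *
          M ^ (T - ∑ ij : Fin 2 × Fin 3, l ij.1 * k ij.2) :=
        mul_le_mul (hprod _) (hpow _ _ hDh) (house_nonneg _) (by positivity)
    _ = M ^ T := by rw [← pow_add, Nat.add_sub_cancel' hT]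

omit [NumberField K] in
/-- The value of an entry. -/
theorem map_entry (ψ : K →+* ℂ) {D : ℤ} {A : Fin 2 × Fin 3 → 𝓞 K} {x : Fin 2 → ℂ}
    {y : Fin 3 → ℂ} (hA : ∀ ij, ψ (A ij : K) = (D : ℂ) * Complex.exp (x ij.1 * y ij.2))
    {T : ℕ} {l : Fin 2 → ℕ} {k : Fin 3 → ℕ}
    (hT : ∑ ij : Fin 2 × Fin 3, l ij.1 * k ij.2 ≤ T) :
    ψ (entry D A T l k : K) =
      (D : ℂ) ^ T * Complex.exp ((∑ i, (l i : ℂ) * x i) * ∑ j, (k j : ℂ) * y j) := by
  rw [entry]
  push_cast
  simp only [map_mul, map_prod, map_pow, map_intCast, hA, mul_pow, Finset.prod_mul_distrib,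
    ← Complex.exp_nat_mul, ← Complex.exp_sum, Finset.prod_pow_eq_pow_sum]
  rw [mul_right_comm, ← pow_add, Nat.add_sub_cancel' hT, Finset.sum_mul_sum,
    Fintype.sum_prod_type]
  congr 2
  exact Finset.sum_congr rfl fun i _ => Finset.sum_congr rfl fun j _ => by push_cast; ring

/-- The sum of the exponents of an entry. -/
theorem sum_exponent_le {l : Fin 2 → ℕ} {k : Fin 3 → ℕ} {L R : ℕ} (hl : ∀ i, l i ≤ L)
    (hk : ∀ j, k j ≤ R) : ∑ ij : Fin 2 × Fin 3, l ij.1 * k ij.2 ≤ 6 * L * R :=
  (Finset.sum_le_card_nsmul _ _ (L * R) fun ij _ => Nat.mul_le_mul (hl _) (hk _)).trans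
    (le_of_eq (by simp [mul_assoc]))

set_option maxHeartbeats 1000000 in
/-- **Lang's argument.** -/
theorem false_of_data (ψ : K →+* ℂ) {D : ℤ} (hD : D ≠ 0) {x : Fin 2 → ℂ} {y : Fin 3 → ℂ}
    (hx : LinearIndependent ℚ x) (hy : LinearIndependent ℚ y) (A : Fin 2 × Fin 3 → 𝓞 K)
    (hA : ∀ ij, ψ (A ij : K) = (D : ℂ) * Complex.exp (x ij.1 * y ij.2)) : False := by
  classical
  obtain ⟨C₁, hsiegel⟩ := GelfondSchneider.exists_siegel K
  set h := finrank ℚ K with hh
  set M₀ : ℝ := 1 + |(D : ℝ)| + ∑ ij, house (A ij : K) with hM₀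
  have hsum0 : 0 ≤ ∑ ij, house (A ij : K) := Finset.sum_nonneg fun _ _ => house_nonneg _
  have hM1 : 1 ≤ M₀ := by linarith [abs_nonneg (D : ℝ)]
  have hDM : |(D : ℝ)| ≤ M₀ := by linarith
  have hAM : ∀ ij, house (A ij : K) ≤ M₀ := fun ij => by
    linarith [Finset.single_le_sum (f := fun ij => house (A ij : K)) (fun _ _ => house_nonneg _)
      (Finset.mem_univ ij), abs_nonneg (D : ℝ)]
  set X : ℝ := ∑ i, ‖x i‖ with hX
  set Y : ℝ := ∑ j, ‖y j‖ with hY
  have hY0 : 0 < Y := by
    refine (norm_pos_iff.2 (hy.ne_zero 0)).trans_le ?_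
    exact Finset.single_le_sum (f := fun j => ‖y j‖) (fun _ _ => norm_nonneg _) (Finset.mem_univ 0)
  have hX0 : 0 ≤ X := Finset.sum_nonneg fun _ _ => norm_nonneg _
  set E : ℝ := Real.exp (8 * X * Y) with hE
  set Kη : ℝ := (max 1 |C₁|) ^ 2 * 4 * M₀ ^ 6 with hKη
  set Kc : ℝ := M₀ ^ 6 * 4 * Kη * E * (4 * Kη * M₀ ^ 6) ^ (h - 1) with hKc
  have hM00 : 0 ≤ M₀ := zero_le_one.trans hM1
  have hE0 : 0 ≤ E := (Real.exp_pos _).le
  have hKη0 : 0 ≤ Kη := by positivity
  have hKc0 : 0 ≤ Kc := by positivity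
  clear_value Kc Kη E Y X M₀
  obtain ⟨b, hb⟩ := pow_unbounded_of_one_lt Kc (show (1 : ℝ) < 2 by norm_num)
  set M := 2 * b + 1 with hM
  set N := 2 * M ^ 2 with hN
  set L := 4 * M ^ 3 with hL
  have hN0 : 0 < N := by positivity
  have hL0 : 0 < L := by positivity
  have hLN : L ^ 2 = 2 * N ^ 3 := by rw [hL, hN]; ring
  clear_value L N M
  -- the linear system
  let idx := Fin 2 → Fin L
  let Mat : Matrix (Fin 3 → Fin N) idx (𝓞 K) := fun k l =>
    entry D A (6 * L * N) (fun i => l i) (fun j => k j)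
  have hMat0 : Mat ≠ 0 := fun h0 => by
    have h1 := congrFun (congrFun h0 (fun _ => ⟨0, hN0⟩)) (fun _ => ⟨0, hL0⟩)
    simp [Mat, entry, hD] at h1
  obtain ⟨η, hη0, hηM, hηb⟩ := hsiegel (Fin 3 → Fin N) idx Mat (N ^ 3) (L ^ 2)
    (M₀ ^ (6 * L * N)) hMat0 (by positivity)
    (by rw [hLN]; have : 0 < N ^ 3 := (by positivity); omega) (by simp) (by simp [idx])
    fun k l => house_entry_le hM1 hDM hAM
      (sum_exponent_le (fun i => (l i).isLt.le) fun j => (k j).isLt.le)
  have hexp1 : (((N ^ 3 : ℕ) : ℝ) / (((L ^ 2 : ℕ) : ℝ) - ((N ^ 3 : ℕ) : ℝ))) = 1 := by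
    rw [hLN]; push_cast
    rw [show 2 * (N : ℝ) ^ 3 - (N : ℝ) ^ 3 = (N : ℝ) ^ 3 by ring, div_self (by positivity)]
  rw [hexp1] at hηb
  simp only [Real.rpow_one] at hηb
  let w : idx → ℂ := fun l => ∑ i, ((l i).val : ℂ) * x i
  let pt : (Fin 3 → ℕ) → ℂ := fun k => ∑ j, (k j : ℂ) * y j
  let F : ℂ → ℂ := fun z => ∑ l, ψ (η l : K) * Complex.exp (w l * z)
  let S : ℕ → (Fin 3 → ℕ) → 𝓞 K := fun R k =>
    ∑ l, η l * entry D A (6 * L * R) (fun i => l i) k
  have hS : ∀ R k, (∀ j, k j ≤ R) → ψ (S R k : K) = (D : ℂ) ^ (6 * L * R) * F (pt k) := by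
    intro R k hk
    simp only [S, F, Finset.mul_sum]
    push_cast
    rw [map_sum]
    refine Finset.sum_congr rfl fun l _ => ?_
    rw [map_mul, map_entry ψ hA (sum_exponent_le (fun i => (l i).isLt.le) hk)]
    ring
  have hDC : (D : ℂ) ≠ 0 := Int.cast_ne_zero.2 hD
  have hcardL : Fintype.card idx = L ^ 2 := by simp [idx]
  have hL4 : ∀ R : ℕ, 1 ≤ R → ((L ^ 2 : ℕ) : ℝ) ≤ 4 ^ (L * R) := fun R hR => by
    calc ((L ^ 2 : ℕ) : ℝ) ≤ (((2 ^ L) ^ 2 : ℕ) : ℝ) := by
          exact_mod_cast Nat.pow_le_pow_left Nat.lt_two_pow_self.le 2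
      _ = 4 ^ L := by push_cast; rw [← pow_mul, mul_comm, pow_mul]; norm_num
      _ ≤ 4 ^ (L * R) := pow_le_pow_right₀ (by norm_num) (Nat.le_mul_of_pos_right L hR)
  have hη : ∀ R, N ≤ R → ∀ l, house (η l : K) ≤ Kη ^ (L * R) := fun R hR l => by
    refine ((hηb l).trans (le_abs_self _)).trans ?_
    rw [abs_mul, abs_mul, abs_mul, abs_of_nonneg (Nat.cast_nonneg (α := ℝ) (L ^ 2)),
      abs_of_nonneg (pow_nonneg (zero_le_one.trans hM1) _)]
    have hC1 : |C₁| * |C₁| ≤ ((max 1 |C₁|) ^ 2) ^ (L * R) := by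
      refine le_trans ?_ (le_self_pow₀ (one_le_pow₀ (le_max_left _ _))
        (Nat.mul_ne_zero hL0.ne' (by omega)))
      rw [sq]
      exact mul_le_mul (le_max_right _ _) (le_max_right _ _) (abs_nonneg _) (by positivity)
    calc |C₁| * (|C₁| * ((L ^ 2 : ℕ) : ℝ) * M₀ ^ (6 * L * N))
        = (|C₁| * |C₁|) * ((L ^ 2 : ℕ) : ℝ) * M₀ ^ (6 * L * N) := by ring
      _ ≤ ((max 1 |C₁|) ^ 2) ^ (L * R) * 4 ^ (L * R) * (M₀ ^ 6) ^ (L * R) := by
        rw [← pow_mul M₀, ← mul_assoc 6 L R]
        refine mul_le_mul (mul_le_mul hC1 (hL4 R (by omega)) (by positivity) (by positivity))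
          (pow_le_pow_right₀ hM1 (Nat.mul_le_mul_left _ hR)) (by positivity) (by positivity)
      _ = Kη ^ (L * R) := by rw [hKη]; simp only [mul_pow]
  -- extrapolation
  have hinj : Function.Injective pt := fun k k' e => by
    have h0 : ∑ j, ((k j : ℚ) - k' j) • y j = 0 := by
      have e' : ∑ j, (k j : ℂ) * y j = ∑ j, (k' j : ℂ) * y j := e
      simp only [Rat.smul_def]
      push_cast
      simp only [sub_mul, Finset.sum_sub_distrib, e', sub_self]
    funext j
    exact_mod_cast sub_eq_zero.1 (Fintype.linearIndependent_iff.1 hy _ h0 j)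
  have hFd : Differentiable ℂ F := Differentiable.fun_sum fun l _ => by fun_prop
  have key : ∀ R, N ≤ R → ∀ k : Fin 3 → ℕ, (∀ j, k j < R) → F (pt k) = 0 := by
    intro R hR
    induction R, hR using Nat.le_induction with
    | base =>
      intro k hk
      have h3 := congrFun hηM fun j => ⟨k j, hk j⟩
      simp only [Matrix.mulVec, dotProduct, Pi.zero_apply, Mat] at h3
      have h4 : S N k = 0 := (Finset.sum_congr rfl fun l _ => mul_comm _ _).trans h3
      have h5 := hS N k fun j => (hk j).le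
      rw [h4, show ((0 : 𝓞 K) : K) = 0 from map_zero _, map_zero, eq_comm, mul_eq_zero] at h5
      exact h5.resolve_left (pow_ne_zero _ hDC)
    | succ R hR ih =>
      intro k hk
      by_contra hF
      have hS0 : S (R + 1) k ≠ 0 := fun e => by
        have h5 := hS (R + 1) k fun j => (hk j).le
        rw [e, show ((0 : 𝓞 K) : K) = 0 from map_zero _, map_zero, eq_comm, mul_eq_zero] at h5
        exact hF (h5.resolve_left (pow_ne_zero _ hDC))
      have hR1 : 1 ≤ R := by omega
      let P : Finset ℂ := (Finset.univ : Finset (Fin 3 → Fin R)).image fun k => pt fun j => k j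
      have hPc : P.card = R ^ 3 := by
        rw [Finset.card_image_of_injective]
        · simp
        · intro a c e
          funext j
          exact Fin.ext (congrFun (hinj e) j)
      set B₀ : ℝ := Y * (R + 1 : ℕ) with hB₀
      have hptb : ∀ k : Fin 3 → ℕ, (∀ j, k j ≤ R + 1) → ‖pt k‖ ≤ B₀ := fun k hk => by
        refine (norm_sum_le _ _).trans ?_
        rw [hB₀, hY, Finset.sum_mul]
        refine Finset.sum_le_sum fun j _ => ?_
        rw [norm_mul, Complex.norm_natCast, mul_comm]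
        exact mul_le_mul_of_nonneg_left (by exact_mod_cast hk j) (norm_nonneg _)
      have hB₀0 : 0 < B₀ := by positivity
      set T := L * (R + 1) with hT
      have hsw : ∀ z : ℂ, ‖z‖ = 8 * B₀ → ‖F z‖ ≤ (4 * Kη * E) ^ T := fun z hz => by
        refine (norm_sum_le _ _).trans ?_
        refine (Finset.sum_le_card_nsmul _ _ (Kη ^ T * E ^ T) fun l _ => ?_).trans ?_
        · rw [norm_mul]
          refine mul_le_mul ((norm_embedding_le_house _ ψ).trans (hη (R + 1) (by omega) l)) ?_
            (norm_nonneg _) (by positivity)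
          rw [hE, ← Real.exp_nat_mul, Complex.norm_exp]
          refine Real.exp_le_exp.2 ((Complex.re_le_norm _).trans ?_)
          rw [norm_mul, hz]
          have hw : ‖w l‖ ≤ L * X := by
            refine (norm_sum_le _ _).trans ?_
            rw [hX, Finset.mul_sum]
            refine Finset.sum_le_sum fun i _ => ?_
            rw [norm_mul, Complex.norm_natCast]
            exact mul_le_mul_of_nonneg_right (by exact_mod_cast (l i).isLt.le) (norm_nonneg _)
          refine (mul_le_mul_of_nonneg_right hw (by positivity)).trans (le_of_eq ?_)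
          rw [hT, hB₀]; push_cast; ring
        · rw [Finset.card_univ, hcardL, nsmul_eq_mul]
          refine (mul_le_mul_of_nonneg_right (hL4 (R + 1) (by omega)) (by positivity)).trans
            (le_of_eq ?_)
          simp only [mul_pow]; ring
      have hFk := norm_le_of_zeros hFd P (R := 8 * B₀) (B₀ := B₀)
        (fun a ha => by
          obtain ⟨c, -, rfl⟩ := Finset.mem_image.1 ha
          exact hptb _ fun j => by have := (c j).isLt; omega)
        (by linarith) (by linarith)
        (fun a ha => by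
          obtain ⟨c, -, rfl⟩ := Finset.mem_image.1 ha
          exact ih _ fun j => (c j).isLt)
        hsw (z₀ := pt k) (hptb k fun j => (hk j).le)
      rw [hPc, ← mul_assoc, mul_comm ((2 * B₀) ^ R ^ 3), mul_assoc, ← mul_pow,
        show 2 * B₀ * (2 / (8 * B₀)) = (2 : ℝ)⁻¹ by field_simp; ring, inv_pow,
        ← div_eq_mul_inv, le_div_iff₀ (by positivity)] at hFk
      have hψ : ‖ψ (S (R + 1) k : K)‖ * 2 ^ R ^ 3 ≤ (M₀ ^ 6) ^ T * (4 * Kη * E) ^ T := by
        rw [hS (R + 1) k fun j => (hk j).le, norm_mul, norm_pow, Complex.norm_intCast, mul_assoc]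
        refine mul_le_mul ?_ hFk (by positivity) (by positivity)
        rw [← pow_mul, hT, ← mul_assoc 6 L (R + 1)]
        exact pow_le_pow_left₀ (abs_nonneg _) hDM _
      have hSh : house (S (R + 1) k : K) ≤ (4 * Kη * M₀ ^ 6) ^ T := by
        simp only [S]
        push_cast
        refine (house_sum_le_sum_house _ _).trans ?_
        refine (Finset.sum_le_card_nsmul _ _ (Kη ^ T * (M₀ ^ 6) ^ T) fun l _ => ?_).trans ?_
        · refine (house_mul_le _ _).trans (mul_le_mul (hη (R + 1) (by omega) l) ?_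
            (house_nonneg _) (by positivity))
          rw [← pow_mul, hT, ← mul_assoc 6 L (R + 1)]
          exact house_entry_le hM1 hDM hAM
            (sum_exponent_le (fun i => (l i).isLt.le) fun j => (hk j).le)
        · rw [Finset.card_univ, hcardL, nsmul_eq_mul]
          refine (mul_le_mul_of_nonneg_right (hL4 (R + 1) (by omega)) (by positivity)).trans
            (le_of_eq ?_)
          simp only [mul_pow]; ring
      have hfinal : (2 : ℝ) ^ R ^ 3 ≤ 2 ^ (b * T) := by
        calc (2 : ℝ) ^ R ^ 3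
            ≤ ‖ψ (S (R + 1) k : K)‖ * house (S (R + 1) k : K) ^ (h - 1) * 2 ^ R ^ 3 :=
              le_mul_of_one_le_left (by positivity)
                (GelfondSchneider.one_le_norm_mul_house_pow hS0 ψ)
          _ = ‖ψ (S (R + 1) k : K)‖ * 2 ^ R ^ 3 * house (S (R + 1) k : K) ^ (h - 1) := by ring
          _ ≤ (M₀ ^ 6) ^ T * (4 * Kη * E) ^ T * ((4 * Kη * M₀ ^ 6) ^ T) ^ (h - 1) :=
              mul_le_mul hψ (pow_le_pow_left₀ (house_nonneg _) hSh _)
                (pow_nonneg (house_nonneg _) _) (by positivity)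
          _ = Kc ^ T := by
              rw [hKc, pow_right_comm (4 * Kη * M₀ ^ 6) T (h - 1)]
              simp only [← mul_pow]
              ring
          _ ≤ 2 ^ (b * T) := by
              rw [pow_mul (2 : ℝ)]
              exact pow_le_pow_left₀ (by positivity) hb.le T
      have h1 : R ^ 3 ≤ b * (L * (R + 1)) := (pow_le_pow_iff_right₀ (by norm_num)).1 hfinal
      have h2 : R * (R * R) ≤ R * (2 * b * L) := by
        calc R * (R * R) = R ^ 3 := by ring
          _ ≤ b * (L * (R + 1)) := h1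
          _ ≤ b * (L * (2 * R)) := by gcongr; omega
          _ = R * (2 * b * L) := by ring
      have h3 : M * L ≤ R * R :=
        le_trans (le_of_eq (by rw [hN, hL]; ring)) (Nat.mul_le_mul hR hR)
      have h4 := Nat.le_of_mul_le_mul_left h2 (by omega)
      have h5 := Nat.le_of_mul_le_mul_right (h3.trans h4) hL0
      omega
  -- the auxiliary function is zero
  have hwinj : Function.Injective w := fun l l' e => by
    have h0 : ∑ i, (((l i).val : ℚ) - (l' i).val) • x i = 0 := by
      have e' : ∑ i, ((l i).val : ℂ) * x i = ∑ i, ((l' i).val : ℂ) * x i := e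
      simp only [Rat.smul_def]
      push_cast
      simp only [sub_mul, Finset.sum_sub_distrib, e', sub_self]
    funext i
    exact Fin.ext (by exact_mod_cast sub_eq_zero.1 (Fintype.linearIndependent_iff.1 hx _ h0 i))
  let χ : idx → (Multiplicative (Fin 3 → ℕ) →* ℂ) := fun l =>
    { toFun := fun k => Complex.exp (w l * pt k.toAdd)
      map_one' := by simp [pt]
      map_mul' := fun k k' => by
        rw [← Complex.exp_add, ← mul_add]
        simp [pt, add_mul, Finset.sum_add_distrib] }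
  have hχ : Function.Injective χ := fun l l' e => by
    by_contra hne
    have hd : w l - w l' ≠ 0 := sub_ne_zero.2 (hwinj.ne hne)
    have hm : ∀ j, ∃ m : ℤ, (w l - w l') * y j = (m : ℂ) * (2 * Real.pi * Complex.I) := fun j => by
      have he : Complex.exp (w l * pt (Pi.single j 1)) = Complex.exp (w l' * pt (Pi.single j 1)) :=
        congrArg (fun f : Multiplicative (Fin 3 → ℕ) →* ℂ =>
          f (Multiplicative.ofAdd (Pi.single j 1))) e
      have hp : pt (Pi.single j 1) = y j := by simp [pt, Pi.single_apply]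
      obtain ⟨m, hm⟩ := Complex.exp_eq_exp_iff_exists_int.1 he
      rw [hp] at hm
      exact ⟨m, by linear_combination hm⟩
    obtain ⟨m₀, h₀⟩ := hm 0
    obtain ⟨m₁, h₁⟩ := hm 1
    have h0 : ∑ j, (![(m₁ : ℚ), -m₀, 0] j) • y j = 0 := by
      simp [Fin.sum_univ_three, Rat.smul_def]
      refine mul_left_cancel₀ hd ?_
      linear_combination (m₁ : ℂ) * h₀ - (m₀ : ℂ) * h₁
    have hz := Fintype.linearIndependent_iff.1 hy _ h0 1
    have hm0 : m₀ = 0 := by simpa using hz
    rw [hm0, Int.cast_zero, zero_mul] at h₀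
    exact hy.ne_zero 0 ((mul_eq_zero.1 h₀).resolve_left hd)
  have hsum : ∑ l, ψ (η l : K) • ((χ l : Multiplicative (Fin 3 → ℕ) → ℂ)) = 0 := by
    funext k
    have := key (N + ∑ j, (k.toAdd j + 1)) (by omega) k.toAdd fun j => by
      have := Finset.single_le_sum (f := fun j => k.toAdd j + 1) (fun _ _ => Nat.zero_le _)
        (Finset.mem_univ j)
      omega
    simpa [Finset.sum_apply, χ, F] using this
  have hli := (linearIndependent_monoidHom (Multiplicative (Fin 3 → ℕ)) ℂ).comp χ hχ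
  have hz := Fintype.linearIndependent_iff.1 hli _ hsum
  refine hη0 (funext fun l => RingOfIntegers.ext (ψ.injective ?_))
  simpa using hz l

/-- **The six exponentials theorem.** -/
theorem exists_transcendental {x : Fin 2 → ℂ} {y : Fin 3 → ℂ} (hx : LinearIndependent ℚ x)
    (hy : LinearIndependent ℚ y) : ∃ i j, Transcendental ℚ (Complex.exp (x i * y j)) := by
  classical
  by_contra hall
  push Not at hall
  have halg : ∀ i j, IsAlgebraic ℚ (Complex.exp (x i * y j)) := fun i j => not_not.1 (hall i j)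
  set T : Set ℂ := Set.range fun ij : Fin 2 × Fin 3 => Complex.exp (x ij.1 * y ij.2)
  haveI : FiniteDimensional ℚ (IntermediateField.adjoin ℚ T) :=
    IntermediateField.finiteDimensional_adjoin fun z hz => by
      obtain ⟨ij, rfl⟩ := hz
      exact (halg _ _).isIntegral
  haveI : NumberField (IntermediateField.adjoin ℚ T) := { }
  set K := IntermediateField.adjoin ℚ T
  haveI : Algebra.IsAlgebraic ℤ K :=
    (IsFractionRing.comap_isAlgebraic_iff (A := ℤ) (K := ℚ) (C := K)).2 inferInstance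
  let a : Fin 2 × Fin 3 → K := fun ij =>
    ⟨_, IntermediateField.subset_adjoin ℚ T ⟨ij, rfl⟩⟩
  obtain ⟨D, hD, hint⟩ := Algebra.IsAlgebraic.exists_integral_multiples ℤ
    ((Finset.univ : Finset (Fin 2 × Fin 3)).image a)
  have hex : ∀ ij, ∃ z : 𝓞 K, (z : K) = (D : K) * a ij := fun ij =>
    ⟨⟨(D : K) * a ij, by
      simpa [mem_integralClosure_iff, zsmul_eq_mul] using hint (a ij) (by simp)⟩, rfl⟩
  choose A hA using hex
  refine false_of_data K.val.toRingHom hD hx hy A fun ij => ?_
  rw [hA, map_mul, map_intCast]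
  rfl

end FA.SixExponentials

end
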