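import Fermat.Agent.Transcendence.BakerCriterion
import Mathlib.FieldTheory.Fixed
import Mathlib.RingTheory.Trace.Basic

/-!
# Baker's theorem

A relation `∑ β i ℓ i = β₀` with algebraic coefficients between `ℚ`-linearly independent logarithms
of algebraic numbers gives, over the conjugates `σ` of the field of the coefficients, the numbers
`u σ = ∑ σ (β i) ℓ i`. For a basis `γ` of that field the points `(σ (γ k) u σ)` turn the linear
forms `(σ (γ i))` into rational combinations of logarithms, and those `σ` with `u σ = 0` lower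
the number of variables: this is the situation of the criterion.
-/

set_option autoImplicit false
set_option linter.style.haveILetI false

noncomputable section

namespace FA.BakerTheorem

open NumberField Module

theorem isAlgebraic_exp_smul {z : ℂ} (h : IsAlgebraic ℚ (Complex.exp z)) (c : ℚ) :
    IsAlgebraic ℚ (Complex.exp ((c : ℂ) * z)) := by
  refine IsAlgebraic.of_pow c.pos ?_
  rw [← Complex.exp_nat_mul,
    show (c.den : ℂ) * ((c : ℂ) * z) = (c.num : ℂ) * z by
      rw [← mul_assoc]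
      congr 1
      rw [Rat.cast_def]
      field_simp, Complex.exp_int_mul]
  obtain ⟨k, hk | hk⟩ := Int.eq_nat_or_neg c.num <;> rw [hk]
  · rw [zpow_natCast]
    exact h.pow k
  · rw [zpow_neg, zpow_natCast]
    exact (h.pow k).inv

theorem isAlgebraic_exp_sum {κ : Type*} (S : Finset κ) (z : κ → ℂ) (c : κ → ℚ)
    (h : ∀ j, IsAlgebraic ℚ (Complex.exp (z j))) :
    IsAlgebraic ℚ (Complex.exp (∑ j ∈ S, (c j : ℂ) * z j)) := by
  classical
  induction S using Finset.induction with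
  | empty => simpa using (isAlgebraic_one : IsAlgebraic ℚ (1 : ℂ))
  | insert j S hj ih =>
    rw [Finset.sum_insert hj, Complex.exp_add]
    exact (isAlgebraic_exp_smul (h j) (c j)).mul ih

variable {K : Type} [Field K] [NumberField K]

/-- Rows of the matrix of embeddings that form a basis on a set of them. -/
theorem exists_linearIndependent_rows {ι κ : Type} [Fintype ι] [Finite κ] (emb : ι → (K →ₐ[ℚ] ℂ))
    (hemb : Function.Injective emb) (γ : Basis κ ℚ K) :
    ∃ k : ι → κ, LinearIndependent ℂ fun t => (fun σ => emb σ (γ (k t)) : ι → ℂ) := by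
  classical
  set v : κ → ι → ℂ := fun j σ => emb σ (γ j)
  have hspan : Submodule.span ℂ (Set.range v) = ⊤ := by
    by_contra hne
    obtain ⟨f, hf, hle⟩ := Submodule.exists_le_ker_of_lt_top _ (lt_top_iff_ne_top.mpr hne)
    refine hf (LinearMap.pi_ext' fun σ => LinearMap.ext_ring ?_)
    have hli := (linearIndependent_toLinearMap ℚ K ℂ).comp emb hemb
    rw [Fintype.linearIndependent_iff] at hli
    refine hli (fun σ => f (Pi.single σ 1)) (γ.ext fun j => ?_) σ
    have h0 : f (v j) = 0 := hle (Submodule.subset_span ⟨j, rfl⟩)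
    rw [pi_eq_sum_univ' (v j), map_sum] at h0
    simp only [map_smul, smul_eq_mul] at h0
    simpa [mul_comm] using h0
  obtain ⟨b, k, hk, hb, hli⟩ := exists_linearIndependent' ℂ v
  haveI : Finite b := Finite.of_injective k hk
  haveI : Fintype b := Fintype.ofFinite b
  rw [hspan] at hb
  have hcard : Fintype.card b = Fintype.card ι := by
    rw [← finrank_eq_card_basis (Basis.mk hli hb.ge), Module.finrank_fintype_fun_eq_card]
  refine ⟨k ∘ (Fintype.equivOfCardEq hcard).symm, ?_⟩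
  exact hli.comp _ (Fintype.equivOfCardEq hcard).symm.injective

/-- The trace in `ℂ`. -/
theorem cast_trace (x : K) : ((Algebra.trace ℚ K x : ℚ) : ℂ) = ∑ σ : K →ₐ[ℚ] ℂ, σ x := by
  rw [← trace_eq_sum_embeddings (K := ℚ) (E := ℂ), eq_ratCast]

/-- **A relation with algebraic coefficients between logarithms is impossible.** -/
theorem false_of_coeffs {κ₀ : Type} [Fintype κ₀] (σ₀ : K →ₐ[ℚ] ℂ) (ℓ : κ₀ → ℂ)
    (hexp : ∀ i, IsAlgebraic ℚ (Complex.exp (ℓ i))) (hind : LinearIndependent ℚ ℓ)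
    (b : κ₀ → K) (hb : b ≠ 0) (b₀ : K) (hrel : ∑ i, σ₀ (b i) * ℓ i = σ₀ b₀) : False := by
  classical
  set u : (K →ₐ[ℚ] ℂ) → ℂ := fun σ => ∑ i, σ (b i) * ℓ i
  have htr : ∀ x : K, ∑ σ : K →ₐ[ℚ] ℂ, σ x * u σ =
      ∑ i, ((Algebra.trace ℚ K (x * b i) : ℚ) : ℂ) * ℓ i := fun x => by
    simp only [u, Finset.mul_sum, cast_trace, map_mul, Finset.sum_mul]
    rw [Finset.sum_comm]
    exact Finset.sum_congr rfl fun i _ => Finset.sum_congr rfl fun σ _ => by ring
  obtain ⟨σ₁, hσ₁⟩ : ∃ σ, u σ ≠ 0 := by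
    by_contra hall
    push Not at hall
    obtain ⟨i, hi⟩ := Function.ne_iff.mp hb
    have h0 := htr (b i)⁻¹
    simp only [hall, mul_zero, Finset.sum_const_zero] at h0
    have := Fintype.linearIndependent_iff.mp hind (fun j => Algebra.trace ℚ K ((b i)⁻¹ * b j)) (by
      rw [h0]
      exact Finset.sum_congr rfl fun j _ => Rat.smul_def _ _) i
    simp only [inv_mul_cancel₀ hi] at this
    rw [← map_one (algebraMap ℚ K), Algebra.trace_algebraMap, nsmul_eq_mul, mul_one] at this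
    exact (finrank_pos (R := ℚ) (M := K)).ne' (by exact_mod_cast this)
  set ι := {σ : K →ₐ[ℚ] ℂ // u σ ≠ 0}
  haveI : Nonempty ι := ⟨⟨σ₁, hσ₁⟩⟩
  set γ := integralBasis K
  obtain ⟨k, hk⟩ := exists_linearIndependent_rows (fun σ : ι => σ.1) Subtype.val_injective γ
  set y : ι → ι → ℂ := fun t σ => σ.1 (γ (k t)) * u σ.1
  have hy : LinearIndependent ℂ y := by
    set Dg : (ι → ℂ) →ₗ[ℂ] (ι → ℂ) := LinearMap.pi fun σ => u σ.1 • LinearMap.proj σ
    have hinj : LinearMap.ker Dg = ⊥ := LinearMap.ker_eq_bot'.mpr fun x hx => funext fun σ => by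
      have := congrFun hx σ
      simp only [Dg, LinearMap.pi_apply, LinearMap.smul_apply, LinearMap.coe_proj, Function.eval,
        smul_eq_mul, Pi.zero_apply, mul_eq_zero] at this
      exact this.resolve_left σ.2
    have e : y = Dg ∘ fun t (σ : ι) => σ.1 (γ (k t)) :=
      funext fun t => funext fun σ => by simp [y, Dg, mul_comm]
    rw [e]
    exact hk.map' Dg hinj
  have hsum : ∀ (a : K) (t : ι), ∑ σ : ι, σ.1 a * y t σ =
      ∑ i, ((Algebra.trace ℚ K (a * γ (k t) * b i) : ℚ) : ℂ) * ℓ i := fun a t => by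
    rw [← htr, ← Finset.sum_subset (Finset.subset_univ (Finset.univ.filter fun σ => u σ ≠ 0))
      (fun σ _ hσ => by simp only [Finset.mem_filter, Finset.mem_univ, true_and, ne_eq,
        not_not] at hσ; rw [hσ, mul_zero])]
    rw [Finset.sum_subtype (Finset.univ.filter fun σ : K →ₐ[ℚ] ℂ => u σ ≠ 0)
      (p := fun σ => u σ ≠ 0) (fun σ => by simp)]
    exact Finset.sum_congr rfl fun σ _ => by simp only [y, map_mul]; ring
  have hcard : Fintype.card (K →ₐ[ℚ] ℂ) = Fintype.card (Free.ChooseBasisIndex ℤ (𝓞 K)) := by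
    rw [AlgHom.card, finrank_eq_card_basis γ]
  set r := Fintype.card ι with hr
  have hrd : r ≤ Fintype.card (K →ₐ[ℚ] ℂ) := Fintype.card_subtype_le _
  have hint : ∀ (σ : K →ₐ[ℚ] ℂ) j, IsIntegral ℤ (σ (γ j)) := fun σ j => by
    simp only [γ, integralBasis_apply]
    exact (RingOfIntegers.isIntegral_coe _).map (σ.restrictScalars ℤ)
  have main : ∀ (g e : ℕ) (δ : ι → ℕ), g + e = r + 1 → e ≤ 1 → (e = 1 → ∃ σ, δ σ ≠ 0) →
      g ≤ Fintype.card (K →ₐ[ℚ] ℂ) →
      (∀ t, IsAlgebraic ℚ (∑ σ, (δ σ : ℂ) * y t σ)) → False := by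
    intro g e δ he he1 hδ hg hη
    obtain ⟨sel⟩ : Nonempty (Fin g ↪ Free.ChooseBasisIndex ℤ (𝓞 K)) :=
      Function.Embedding.nonempty_of_card_le (by rwa [Fintype.card_fin, ← hcard])
    refine criterion (fun i (σ : ι) => σ.1 (γ (sel i))) δ y hy (fun i σ => hint σ.1 _) hη
      (fun i t => ?_) (fun c hc => ?_) he he1 hδ
    · rw [hsum]
      exact isAlgebraic_exp_sum _ _ _ hexp
    · obtain ⟨σ⟩ := (inferInstance : Nonempty ι)
      have h0 : ∑ i, (c i : ℚ) • γ (sel i) = 0 := σ.1.injective <| by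
        rw [map_zero, map_sum]
        refine (Finset.sum_congr rfl fun i _ => ?_).trans (hc σ)
        show σ.1 ((c i : ℚ) • γ (sel i)) = _
        rw [Rat.smul_def, map_mul, Rat.cast_intCast, map_intCast]
      funext i
      exact_mod_cast Fintype.linearIndependent_iff.mp (γ.linearIndependent.comp sel sel.injective)
        (fun i => (c i : ℚ)) h0 i
  have hu₀ : u σ₀ = σ₀ b₀ := hrel
  rcases eq_or_ne b₀ 0 with h | h
  · refine main (r + 1) 0 0 rfl zero_le_one (fun e => absurd e zero_ne_one) ?_ fun t => ?_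
    · exact Fintype.card_subtype_lt (x := σ₀) (by simp [hu₀, h])
    · simpa using (isAlgebraic_zero : IsAlgebraic ℚ (0 : ℂ))
  · have hσ₀ : u σ₀ ≠ 0 := by rw [hu₀]; exact (map_ne_zero σ₀).mpr h
    refine main r 1 (Pi.single ⟨σ₀, hσ₀⟩ 1) rfl le_rfl (fun _ => ⟨⟨σ₀, hσ₀⟩, by simp⟩) hrd
      fun t => ?_
    rw [Finset.sum_eq_single ⟨σ₀, hσ₀⟩ (fun σ _ hne => by simp [hne]) (by simp)]
    simp only [Pi.single_eq_same, Nat.cast_one, one_mul, y, hu₀, ← map_mul]
    exact (Algebra.IsAlgebraic.isAlgebraic _).algHom σ₀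

/-- **Baker's theorem.** -/
theorem false_of_relation {κ₀ : Type} [Fintype κ₀] (ℓ : κ₀ → ℂ)
    (hexp : ∀ i, IsAlgebraic ℚ (Complex.exp (ℓ i))) (hind : LinearIndependent ℚ ℓ) (β : κ₀ → ℂ)
    (hβ : ∀ i, IsAlgebraic ℚ (β i)) (β₀ : ℂ) (hβ₀ : IsAlgebraic ℚ β₀) (hne : β ≠ 0)
    (hrel : ∑ i, β i * ℓ i = β₀) : False := by
  set S : Set ℂ := insert β₀ (Set.range β)
  haveI : Finite S := ((Set.finite_range β).insert β₀).to_subtype
  have hS : ∀ x ∈ S, IsIntegral ℚ x := by
    rintro x (rfl | ⟨i, rfl⟩)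
    · exact hβ₀.isIntegral
    · exact (hβ i).isIntegral
  haveI : FiniteDimensional ℚ (IntermediateField.adjoin ℚ S) :=
    IntermediateField.finiteDimensional_adjoin hS
  haveI : NumberField (IntermediateField.adjoin ℚ S) := ⟨⟩
  refine false_of_coeffs (IntermediateField.adjoin ℚ S).val ℓ hexp hind
    (fun i => ⟨β i, IntermediateField.subset_adjoin _ _ (Or.inr ⟨i, rfl⟩)⟩) (fun h0 => hne ?_)
    ⟨β₀, IntermediateField.subset_adjoin _ _ (Or.inl rfl)⟩ hrel
  funext i
  exact congrArg Subtype.val (congrFun h0 i)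

/-- Logarithms are combinations of independent ones. -/
theorem exists_independent_logs {κ₀ : Type} [Fintype κ₀] (ℓ : κ₀ → ℂ) :
    ∃ (κ : Type) (_ : Fintype κ) (a : κ → κ₀) (c : κ₀ → κ → ℚ),
      LinearIndependent ℚ (ℓ ∘ a) ∧ ∀ i, ℓ i = ∑ j, (c i j : ℂ) * ℓ (a j) := by
  obtain ⟨κ, a, ha, hspan, hli⟩ := exists_linearIndependent' ℚ ℓ
  haveI : Finite κ := Finite.of_injective a ha
  haveI : Fintype κ := Fintype.ofFinite κ
  have h : ∀ i, ∃ c : κ → ℚ, ∑ j, c j • ℓ (a j) = ℓ i := fun i =>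
    (Submodule.mem_span_range_iff_exists_fun ℚ).mp
      (show ℓ i ∈ Submodule.span ℚ (Set.range (ℓ ∘ a)) from
        hspan ▸ Submodule.subset_span ⟨i, rfl⟩)
  choose c hc using h
  exact ⟨κ, inferInstance, a, c, hli, fun i => by
    conv_lhs => rw [← hc i]
    exact Finset.sum_congr rfl fun j _ => Rat.smul_def _ _⟩

/-- A relation on arbitrary logarithms, transported to independent ones. -/
theorem exists_relation_coeffs {κ₀ : Type} [Fintype κ₀] (ℓ : κ₀ → ℂ)
    (hexp : ∀ i, IsAlgebraic ℚ (Complex.exp (ℓ i))) (β : κ₀ → ℂ)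
    (hβ : ∀ i, IsAlgebraic ℚ (β i)) (β₀ : ℂ) (hβ₀ : IsAlgebraic ℚ β₀)
    (hrel : ∑ i, β i * ℓ i = β₀) :
    β₀ = 0 ∧ ∃ (κ : Type) (_ : Fintype κ) (a : κ → κ₀) (c : κ₀ → κ → ℚ),
      (∀ i, ℓ i = ∑ j, (c i j : ℂ) * ℓ (a j)) ∧ ∀ j, ∑ i, β i * (c i j : ℂ) = 0 := by
  obtain ⟨κ, hκ, a, c, hli, hc⟩ := exists_independent_logs ℓ
  set β' : κ → ℂ := fun j => ∑ i, β i * (c i j : ℂ)
  have hrel' : ∑ j, β' j * ℓ (a j) = β₀ := by
    rw [← hrel]
    simp only [β', Finset.sum_mul]
    rw [Finset.sum_comm]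
    refine Finset.sum_congr rfl fun i _ => ?_
    rw [hc i, Finset.mul_sum]
    exact Finset.sum_congr rfl fun j _ => mul_assoc _ _ _
  have hzero : β' = 0 := by
    by_contra hne
    refine false_of_relation (ℓ ∘ a) (fun j => hexp _) hli β' (fun j => ?_) β₀ hβ₀ hne hrel'
    have h : IsIntegral ℚ (β' j) := IsIntegral.sum _ fun i _ =>
      (hβ i).isIntegral.mul (isIntegral_algebraMap (R := ℚ) (x := c i j))
    exact h.isAlgebraic
  refine ⟨?_, κ, hκ, a, c, hc, fun j => congrFun hzero j⟩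
  rw [← hrel']
  simp [hzero]

/-- Coefficients independent over `ℚ` only annihilate vanishing logarithms. -/
theorem eq_zero_of_relation {κ₀ : Type} [Fintype κ₀] (ℓ : κ₀ → ℂ)
    (hexp : ∀ i, IsAlgebraic ℚ (Complex.exp (ℓ i))) (β : κ₀ → ℂ)
    (hβ : ∀ i, IsAlgebraic ℚ (β i)) (hind : LinearIndependent ℚ β)
    (hrel : ∑ i, β i * ℓ i = 0) : ℓ = 0 := by
  obtain ⟨-, κ, hκ, a, c, hc, hz⟩ :=
    exists_relation_coeffs ℓ hexp β hβ 0 isAlgebraic_zero hrel
  funext i
  rw [hc i]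
  refine Finset.sum_eq_zero fun j _ => ?_
  have h := Fintype.linearIndependent_iff.mp hind (fun i => c i j) (by
    rw [← hz j]
    exact Finset.sum_congr rfl fun i _ => (Rat.smul_def _ _).trans (mul_comm _ _)) i
  simp [h]

end FA.BakerTheorem

end
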