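import Mathlib.Analysis.Calculus.IteratedDeriv.Lemmas
import Mathlib.Analysis.Calculus.Deriv.Pow
import Mathlib.Analysis.SpecialFunctions.ExpDeriv

/-!
# Exponential polynomials in several variables

`F_v z = ∑ v (a, e) (δ z) ^ a exp ((∑ e i L i) z)` has the partial derivatives `F_(D σ v)` for
commuting linear operators `D σ` on the coefficients. If the frequencies are distinct, some of
their words sends a non-zero `v` to one with `F (0) ≠ 0`.
-/

set_option autoImplicit false

noncomputable section

namespace FA.BakerTheorem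

/-- The indices: a power of `δ z` and the exponents. -/
abbrev Idx (A g q : ℕ) : Type := Fin A × (Fin g → Fin q)

section Algebra

variable {R : Type*} [CommRing R] {ι : Type*} {g q A : ℕ} (L : Fin g → ι → R) (δ : ι → ℕ)

/-- The frequency of an exponent. -/
def freq (e : Fin g → Fin q) (σ : ι) : R := ∑ i, ((e i : ℕ) : R) * L i σ

/-- The derivative along `σ`, on the coefficients. -/
def stepOp (σ : ι) : Module.End R (Idx A g q → R) where
  toFun v p := freq L p.2 σ * v p +
    if h : (p.1 : ℕ) + 1 < A then ((δ σ * ((p.1 : ℕ) + 1) : ℕ) : R) * v (⟨p.1 + 1, h⟩, p.2) else 0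
  map_add' v w := funext fun p => by
    simp only [Pi.add_apply]
    split_ifs <;> ring
  map_smul' c v := funext fun p => by
    simp only [Pi.smul_apply, smul_eq_mul, RingHom.id_apply]
    split_ifs <;> ring

theorem stepOp_apply (σ : ι) (v : Idx A g q → R) (p : Idx A g q) :
    stepOp L δ σ v p = freq L p.2 σ * v p + if h : (p.1 : ℕ) + 1 < A then
      ((δ σ * ((p.1 : ℕ) + 1) : ℕ) : R) * v (⟨p.1 + 1, h⟩, p.2) else 0 := rfl

theorem stepOp_comm (σ τ : ι) :
    Commute (stepOp (A := A) (q := q) L δ σ) (stepOp (A := A) (q := q) L δ τ) :=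
  LinearMap.ext fun v => funext fun p => by
    simp only [Module.End.mul_apply, stepOp_apply]
    split_ifs <;> push_cast <;> ring

/-- A word of derivatives. -/
def wordOp (w : List ι) : Module.End R (Idx A g q → R) := (w.map (stepOp L δ)).prod

theorem wordOp_nil : wordOp (A := A) (q := q) L δ ([] : List ι) = 1 := rfl

theorem wordOp_cons (σ : ι) (w : List ι) (v : Idx A g q → R) :
    wordOp L δ (σ :: w) v = stepOp L δ σ (wordOp L δ w v) := by
  simp [wordOp]

theorem wordOp_append (w w' : List ι) (v : Idx A g q → R) :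
    wordOp L δ (w ++ w') v = wordOp L δ w (wordOp L δ w' v) := by
  simp [wordOp]

theorem wordOp_perm {w w' : List ι} (h : w.Perm w') :
    wordOp (A := A) (q := q) L δ w = wordOp (A := A) (q := q) L δ w' := by
  refine (h.map (stepOp (A := A) (q := q) L δ)).prod_eq' ?_
  rw [List.pairwise_map]
  exact List.pairwise_iff_getElem.mpr fun _ _ _ _ _ => stepOp_comm L δ _ _

theorem map_stepOp {R' : Type*} [CommRing R'] (f : R →+* R') (σ : ι) (v : Idx A g q → R) :
    f ∘ stepOp L δ σ v = stepOp (fun i τ => f (L i τ)) δ σ (f ∘ v) := funext fun p => by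
  simp only [Function.comp_apply, stepOp_apply, freq, map_add, map_mul, map_sum, map_natCast,
    apply_dite f, map_zero]

theorem map_wordOp {R' : Type*} [CommRing R'] (f : R →+* R') (w : List ι) (v : Idx A g q → R) :
    f ∘ wordOp L δ w v = wordOp (fun i τ => f (L i τ)) δ w (f ∘ v) := by
  induction w with
  | nil => rfl
  | cons σ w ih => rw [wordOp_cons, map_stepOp, ih, wordOp_cons]

end Algebra

section Analysis

variable {ι : Type*} [Fintype ι] {g q A : ℕ} (L : Fin g → ι → ℂ) (δ : ι → ℕ)

/-- The exponential polynomial. -/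
def expPoly (v : Idx A g q → ℂ) (z : ι → ℂ) : ℂ :=
  ∑ p, v p * (∑ σ, (δ σ : ℂ) * z σ) ^ (p.1 : ℕ) * Complex.exp (∑ σ, freq L p.2 σ * z σ)

/-- The derivative along a vector, on the coefficients. -/
def dirOp (u : ι → ℂ) : Module.End ℂ (Idx A g q → ℂ) := ∑ σ, u σ • stepOp L δ σ

theorem expPoly_add (v w : Idx A g q → ℂ) (z : ι → ℂ) :
    expPoly L δ (v + w) z = expPoly L δ v z + expPoly L δ w z := by
  simp [expPoly, add_mul, Finset.sum_add_distrib]

theorem expPoly_smul (c : ℂ) (v : Idx A g q → ℂ) (z : ι → ℂ) :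
    expPoly L δ (c • v) z = c * expPoly L δ v z := by
  simp [expPoly, Finset.mul_sum, mul_assoc]

theorem expPoly_sum {κ : Type*} (s : Finset κ) (v : κ → Idx A g q → ℂ) (z : ι → ℂ) :
    expPoly L δ (∑ k ∈ s, v k) z = ∑ k ∈ s, expPoly L δ (v k) z := by
  classical
  induction s using Finset.induction with
  | empty => simp [expPoly]
  | insert a s ha ih => rw [Finset.sum_insert ha, Finset.sum_insert ha, expPoly_add, ih]

theorem sum_shift (x : Fin A → ℂ) (Z : ℂ) :
    (∑ a : Fin A, if h : (a : ℕ) + 1 < A then (((a : ℕ) + 1 : ℕ) : ℂ) * x ⟨a + 1, h⟩ * Z ^ (a : ℕ)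
      else 0) = ∑ a : Fin A, x a * ((a : ℕ) * Z ^ ((a : ℕ) - 1)) := by
  cases A with
  | zero => simp
  | succ n =>
    rw [Fin.sum_univ_castSucc, Fin.sum_univ_succ (f := fun a : Fin (n + 1) =>
      x a * ((a : ℕ) * Z ^ ((a : ℕ) - 1)))]
    simp only [Fin.val_last, lt_self_iff_false, dite_false, add_zero, Fin.val_zero, Nat.cast_zero,
      zero_mul, mul_zero, zero_add, Fin.val_succ, Nat.add_sub_cancel]
    refine Finset.sum_congr rfl fun a _ => ?_
    rw [dif_pos (by simp)]
    simp only [Fin.val_castSucc]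
    rw [show (⟨(a : ℕ) + 1, by omega⟩ : Fin (n + 1)) = a.succ from rfl]
    ring

theorem hasDerivAt_expPoly (v : Idx A g q → ℂ) (z u : ι → ℂ) (t : ℂ) :
    HasDerivAt (fun t : ℂ => expPoly L δ v (z + t • u))
      (expPoly L δ (dirOp L δ u v) (z + t • u)) t := by
  set c := fun (e : Fin g → Fin q) => ∑ σ, freq L e σ * u σ
  set du := ∑ σ, (δ σ : ℂ) * u σ
  have hZ : ∀ t : ℂ, ∑ σ, (δ σ : ℂ) * (z + t • u) σ = ∑ σ, (δ σ : ℂ) * z σ + t * du := fun t => by
    simp only [du, Pi.add_apply, Pi.smul_apply, smul_eq_mul, Finset.mul_sum,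
      ← Finset.sum_add_distrib]
    exact Finset.sum_congr rfl fun σ _ => by ring
  have hE : ∀ (e : Fin g → Fin q) (t : ℂ), ∑ σ, freq L e σ * (z + t • u) σ =
      ∑ σ, freq L e σ * z σ + t * c e := fun e t => by
    simp only [c, Pi.add_apply, Pi.smul_apply, smul_eq_mul, Finset.mul_sum,
      ← Finset.sum_add_distrib]
    exact Finset.sum_congr rfl fun σ _ => by ring
  simp only [expPoly, hZ, hE]
  set Z := ∑ σ, (δ σ : ℂ) * z σ + t * du
  set X := fun e : Fin g → Fin q => Complex.exp (∑ σ, freq L e σ * z σ + t * c e)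
  have hterm : ∀ p : Idx A g q, HasDerivAt (fun t : ℂ => v p *
      (∑ σ, (δ σ : ℂ) * z σ + t * du) ^ (p.1 : ℕ) *
        Complex.exp (∑ σ, freq L p.2 σ * z σ + t * c p.2))
      (v p * ((p.1 : ℕ) * Z ^ ((p.1 : ℕ) - 1) * du) * X p.2 +
        v p * Z ^ (p.1 : ℕ) * (X p.2 * c p.2)) t := fun p => by
    have h1 : HasDerivAt (fun t : ℂ => ∑ σ, (δ σ : ℂ) * z σ + t * du) du t := by
      simpa using ((hasDerivAt_id t).mul_const du).const_add (∑ σ, (δ σ : ℂ) * z σ)
    have h2 : HasDerivAt (fun t : ℂ => ∑ σ, freq L p.2 σ * z σ + t * c p.2) (c p.2) t := by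
      simpa using ((hasDerivAt_id t).mul_const (c p.2)).const_add (∑ σ, freq L p.2 σ * z σ)
    exact ((h1.fun_pow (p.1 : ℕ)).const_mul (v p)).mul h2.cexp
  refine (HasDerivAt.fun_sum fun p _ => hterm p).congr_deriv ?_
  have hdir : ∀ p : Idx A g q, dirOp L δ u v p = c p.2 * v p +
      du * (if h : (p.1 : ℕ) + 1 < A then (((p.1 : ℕ) + 1 : ℕ) : ℂ) * v (⟨p.1 + 1, h⟩, p.2)
        else 0) := fun p => by
    simp only [dirOp, LinearMap.sum_apply, LinearMap.smul_apply, Finset.sum_apply, Pi.smul_apply,
      smul_eq_mul, stepOp_apply, c, du, Finset.sum_mul, ← Finset.sum_add_distrib]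
    refine Finset.sum_congr rfl fun σ _ => ?_
    split_ifs <;> push_cast <;> ring
  simp only [hdir, add_mul, Finset.sum_add_distrib]
  rw [add_comm]
  congr 1
  · exact Finset.sum_congr rfl fun p _ => by ring
  rw [Fintype.sum_prod_type_right, Fintype.sum_prod_type_right]
  refine Finset.sum_congr rfl fun e _ => ?_
  calc ∑ a : Fin A, v (a, e) * (((a : ℕ) : ℂ) * Z ^ ((a : ℕ) - 1) * du) * X e
      = du * X e * ∑ a : Fin A, v (a, e) * (((a : ℕ) : ℂ) * Z ^ ((a : ℕ) - 1)) := by
        rw [Finset.mul_sum]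
        exact Finset.sum_congr rfl fun a _ => by ring
    _ = _ := by
        rw [← sum_shift (fun a => v (a, e)) Z, Finset.mul_sum]
        refine Finset.sum_congr rfl fun a _ => ?_
        simp only [X]
        split_ifs <;> ring

theorem differentiable_expPoly (v : Idx A g q → ℂ) (z u : ι → ℂ) :
    Differentiable ℂ fun t : ℂ => expPoly L δ v (z + t • u) :=
  fun t => (hasDerivAt_expPoly L δ v z u t).differentiableAt

theorem iteratedDeriv_expPoly (v : Idx A g q → ℂ) (z u : ι → ℂ) (k : ℕ) :
    iteratedDeriv k (fun t : ℂ => expPoly L δ v (z + t • u)) =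
      fun t => expPoly L δ ((dirOp L δ u ^ k) v) (z + t • u) := by
  induction k with
  | zero => rfl
  | succ k ih =>
    rw [iteratedDeriv_succ, ih]
    funext t
    rw [(hasDerivAt_expPoly L δ _ z u t).deriv, pow_succ', Module.End.mul_apply]

/-- The derivatives along `u` are bounded by the partial derivatives. -/
theorem norm_expPoly_dirOp_pow_le (v : Idx A g q → ℂ) (z u : ι → ℂ) {ε : ℝ} : ∀ (k : ℕ)
    (w : List ι),
    (∀ w' : List ι, w'.length = k + w.length → ‖expPoly L δ (wordOp L δ w' v) z‖ ≤ ε) →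
    ‖expPoly L δ ((dirOp L δ u ^ k) (wordOp L δ w v)) z‖ ≤ (∑ σ, ‖u σ‖) ^ k * ε := by
  intro k
  induction k with
  | zero => intro w h; simpa using h w (by simp)
  | succ k ih =>
    intro w h
    rw [pow_succ, Module.End.mul_apply, dirOp, LinearMap.sum_apply, map_sum, expPoly_sum]
    refine (norm_sum_le _ _).trans ?_
    rw [show (∑ σ, ‖u σ‖) ^ (k + 1) * ε = ∑ σ, ‖u σ‖ * ((∑ τ, ‖u τ‖) ^ k * ε) by
      rw [← Finset.sum_mul, pow_succ']; ring]
    refine Finset.sum_le_sum fun σ _ => ?_
    rw [LinearMap.smul_apply, map_smul, expPoly_smul, norm_mul, ← wordOp_cons]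
    exact mul_le_mul_of_nonneg_left
      (ih (σ :: w) fun w' hw => h w' (by simp at hw; omega)) (norm_nonneg _)

/-- **A word that does not annihilate `v` at `0`.** -/
theorem exists_word_ne_zero (hinj : Function.Injective fun e : Fin g → Fin q => freq L e)
    (hδ : A ≤ 1 ∨ ∃ σ, δ σ ≠ 0) {v : Idx A g q → ℂ} (hv : v ≠ 0) :
    ∃ w : List ι, expPoly L δ (wordOp L δ w v) 0 ≠ 0 := by
  classical
  by_contra hall
  push Not at hall
  set Z : Set (Idx A g q → ℂ) := {x | ∀ w : List ι, expPoly L δ (wordOp L δ w x) 0 = 0}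
  have hstep : ∀ x ∈ Z, ∀ (σ : ι) (c : ℂ), stepOp L δ σ x - c • x ∈ Z := fun x hx σ c w => by
    have h1 : expPoly L δ (wordOp L δ w (stepOp L δ σ x)) 0 = 0 := by
      have := hx (w ++ [σ])
      rwa [wordOp_append, wordOp_cons, wordOp_nil, Module.End.one_apply] at this
    rw [sub_eq_add_neg, ← neg_smul, map_add, map_smul, expPoly_add, expPoly_smul, h1, hx w,
      mul_zero, add_zero]
  -- one frequency
  have hone : ∀ x ∈ Z, ∀ e, (∀ p : Idx A g q, p.2 ≠ e → x p = 0) → x = 0 := by
    intro x hx e hsupp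
    suffices h : ∀ b : ℕ, ∀ x ∈ Z, (∀ p : Idx A g q, p.2 ≠ e → x p = 0) →
        (∀ a : Fin A, b < a → x (a, e) = 0) → ∀ a : Fin A, (a : ℕ) = b → x (a, e) = 0 by
      have hfull : ∀ j b : ℕ, A ≤ b + j → ∀ a : Fin A, b ≤ a → x (a, e) = 0 := by
        intro j
        induction j with
        | zero => intro b hb a ha; omega
        | succ j ih =>
          intro b hb a ha
          rcases eq_or_lt_of_le ha with he | he
          · exact h b x hx hsupp (fun a' ha' => ih (b + 1) (by omega) a' ha') a he.symm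
          · exact ih (b + 1) (by omega) a he
      funext p
      rcases eq_or_ne p.2 e with he | he
      · rw [show p = (p.1, e) from Prod.ext rfl he]
        exact hfull A 0 (by omega) p.1 (Nat.zero_le _)
      · exact hsupp p he
    intro b
    induction b with
    | zero =>
      intro x hx hs htop a ha
      have h0 := hx []
      rw [wordOp_nil, Module.End.one_apply, expPoly, Finset.sum_eq_single (a, e)
        (fun p _ hp => ?_) (by simp)] at h0
      · simpa [ha] using h0
      · rcases eq_or_ne p.2 e with he | he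
        · have hne : (p.1 : ℕ) ≠ 0 := fun h => hp (Prod.ext (Fin.ext (h.trans ha.symm)) he)
          rw [show p = (p.1, e) from Prod.ext rfl he, htop p.1 (Nat.pos_of_ne_zero hne)]
          simp
        · simp [hs p he]
    | succ b ih =>
      intro x hx hs htop a ha
      obtain ⟨σ, hσ⟩ := hδ.resolve_left (fun h => by omega)
      have hb : b < A := by omega
      have hy := ih _ (hstep x hx σ (freq L e σ)) (fun p hp => ?_) (fun a' ha' => ?_)
        (⟨b, hb⟩ : Fin A) rfl
      · simp only [Pi.sub_apply, Pi.smul_apply, smul_eq_mul, stepOp_apply, add_sub_cancel_left]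
          at hy
        rw [dif_pos (show b + 1 < A by omega), mul_eq_zero] at hy
        rw [show a = (⟨b + 1, by omega⟩ : Fin A) from Fin.ext ha]
        refine hy.resolve_left ?_
        exact_mod_cast mul_ne_zero hσ (Nat.succ_ne_zero b)
      · simp only [Pi.sub_apply, Pi.smul_apply, smul_eq_mul, stepOp_apply, hs p hp, mul_zero,
          zero_add, sub_zero]
        split_ifs with h
        · rw [hs (⟨p.1 + 1, h⟩, p.2) hp, mul_zero]
        · rfl
      · simp only [Pi.sub_apply, Pi.smul_apply, smul_eq_mul, stepOp_apply, add_sub_cancel_left]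
        split_ifs with h
        · rw [htop ⟨a' + 1, h⟩ (by simp; omega), mul_zero]
        · rfl
  -- isolate a frequency
  obtain ⟨⟨a₀, e⟩, hne⟩ := Function.ne_iff.mp hv
  have hiso : ∀ s : Finset (Fin g → Fin q), e ∉ s → ∃ x ∈ Z, (∃ a, x (a, e) ≠ 0) ∧
      ∀ p : Idx A g q, p.2 ∈ s → x p = 0 := by
    intro s
    induction s using Finset.induction with
    | empty => exact fun _ => ⟨v, hall, ⟨a₀, hne⟩, by simp⟩
    | @insert e' s he' ih =>
      intro hes
      simp only [Finset.mem_insert, not_or] at hes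
      obtain ⟨x, hx, hxe, hxs⟩ := ih hes.2
      obtain ⟨σ, hσ⟩ := Function.ne_iff.mp (fun h => hes.1 (hinj h))
      have hiter : ∀ j : ℕ, ∃ y ∈ Z, (∃ a, y (a, e) ≠ 0) ∧
          (∀ p : Idx A g q, p.2 ∈ s → y p = 0) ∧
          ∀ a : Fin A, A ≤ (a : ℕ) + j → y (a, e') = 0 := by
        intro j
        induction j with
        | zero => exact ⟨x, hx, hxe, hxs, fun a ha => absurd a.2 (by omega)⟩
        | succ j ihj =>
          obtain ⟨y, hy, hye, hys, hyt⟩ := ihj
          refine ⟨_, hstep y hy σ (freq L e' σ), ?_, fun p hp => ?_, fun a ha => ?_⟩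
          · obtain ⟨a₁, ha₁⟩ := hye
            set T := Finset.univ.filter fun a : Fin A => y (a, e) ≠ 0
            have hT : T.Nonempty := ⟨a₁, by simp [T, ha₁]⟩
            refine ⟨T.max' hT, fun h => ?_⟩
            have hmax : y (T.max' hT, e) ≠ 0 := (Finset.mem_filter.mp (T.max'_mem hT)).2
            simp only [Pi.sub_apply, Pi.smul_apply, smul_eq_mul, stepOp_apply] at h
            have hz : ∀ h' : (T.max' hT : ℕ) + 1 < A, y (⟨T.max' hT + 1, h'⟩, e) = 0 := fun h' =>
              by_contra fun hc => by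
                have := T.le_max' ⟨T.max' hT + 1, h'⟩ (by simp [T, hc])
                simp [Fin.le_def] at this
            split_ifs at h with h'
            · rw [hz h', mul_zero, add_zero, ← sub_mul] at h
              exact mul_ne_zero (sub_ne_zero.mpr hσ) hmax h
            · rw [add_zero, ← sub_mul] at h
              exact mul_ne_zero (sub_ne_zero.mpr hσ) hmax h
          · simp only [Pi.sub_apply, Pi.smul_apply, smul_eq_mul, stepOp_apply, hys p hp, mul_zero,
              zero_add, sub_zero]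
            split_ifs with h
            · rw [hys (⟨p.1 + 1, h⟩, p.2) hp, mul_zero]
            · rfl
          · simp only [Pi.sub_apply, Pi.smul_apply, smul_eq_mul, stepOp_apply,
              add_sub_cancel_left]
            split_ifs with h
            · rw [hyt ⟨a + 1, h⟩ (by simp; omega), mul_zero]
            · rfl
      obtain ⟨y, hy, hye, hys, hyt⟩ := hiter A
      refine ⟨y, hy, hye, fun p hp => ?_⟩
      rcases Finset.mem_insert.mp hp with h | h
      · rw [show p = (p.1, e') from Prod.ext rfl h]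
        exact hyt p.1 (by omega)
      · exact hys p h
  obtain ⟨x, hx, ⟨a, ha⟩, hxs⟩ := hiso (Finset.univ.erase e) (Finset.notMem_erase e _)
  exact ha (congrFun (hone x hx e fun p hp => hxs p (Finset.mem_erase.mpr ⟨hp, Finset.mem_univ _⟩))
    (a, e))

end Analysis

end FA.BakerTheorem

end
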