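import Fermat.Agent.Transcendence.BakerSchwarz
import Fermat.Agent.Transcendence.BakerOperators
import Fermat.Agent.Transcendence.GelfondSchneider

/-!
# Gelfond's method in several variables

If the coordinate `δ z` and `g` exponentials of linear forms with algebraic coefficients, `r + 1`
independent functions of `r` variables in all, took algebraic values at a basis `y`, Siegel's
lemma gives a combination vanishing to order `n` on the grid of `y`, the Schwarz lemma, applied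
along one vector after the other, makes its first non-zero derivative small, and the norm says it
is not.
-/

set_option autoImplicit false
set_option linter.style.haveILetI false

noncomputable section

namespace FA.BakerTheorem

open NumberField Module Matrix
open scoped Nat

section Arithmetic

variable {ι : Type*} [Fintype ι] {g q A : ℕ}

/-- The cleared monomial at a point of the grid. -/
def gridCoeff {R : Type*} [CommRing R] (η : ι → R) (α : Fin g → ι → R) (D : R) (E : ℕ) (s : ι → ℕ)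
    (p : Idx A g q) : R :=
  (∑ t, (s t : R) * η t) ^ (p.1 : ℕ) * (∏ i, ∏ t, α i t ^ ((p.2 i : ℕ) * s t)) *
    D ^ (E - ((p.1 : ℕ) + ∑ i, ∑ t, (p.2 i : ℕ) * s t))

/-- The cleared value at a point of the grid, as a linear form in the coefficients. -/
def gridValue {R : Type*} [CommRing R] (η : ι → R) (α : Fin g → ι → R) (D : R) (E : ℕ)
    (s : ι → ℕ) : (Idx A g q → R) →ₗ[R] R where
  toFun v := ∑ p, v p * gridCoeff η α D E s p
  map_add' v w := by simp [add_mul, Finset.sum_add_distrib]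
  map_smul' c v := by simp [Finset.mul_sum, mul_assoc]

theorem gridValue_apply {R : Type*} [CommRing R] (η : ι → R) (α : Fin g → ι → R) (D : R) (E : ℕ)
    (s : ι → ℕ) (v : Idx A g q → R) :
    gridValue η α D E s v = ∑ p, v p * gridCoeff η α D E s p := rfl

theorem map_gridValue {R R' : Type*} [CommRing R] [CommRing R'] (f : R →+* R') (η : ι → R)
    (α : Fin g → ι → R) (D : R) (E : ℕ) (s : ι → ℕ) (v : Idx A g q → R) :
    f (gridValue η α D E s v) =
      gridValue (fun t => f (η t)) (fun i t => f (α i t)) (f D) E s (f ∘ v) := by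
  simp only [gridValue_apply, gridCoeff, map_sum, map_mul, map_pow, map_prod, map_natCast,
    Function.comp_apply]

/-- The power that clears the denominators. -/
def gridExp (r g q m : ℕ) : ℕ := q * (1 + g * r * m)

theorem exponent_le (hA : A ≤ q) {m : ℕ} {s : ι → ℕ} (hs : ∀ t, s t < m) (p : Idx A g q) :
    (p.1 : ℕ) + ∑ i, ∑ t, (p.2 i : ℕ) * s t ≤ q * (1 + g * Fintype.card ι * m) := by
  have h : ∑ i, ∑ t, (p.2 i : ℕ) * s t ≤ ∑ _i : Fin g, ∑ _t : ι, q * m :=
    Finset.sum_le_sum fun i _ => Finset.sum_le_sum fun t _ =>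
      Nat.mul_le_mul (p.2 i).isLt.le (hs t).le
  simp only [Finset.sum_const, Finset.card_univ, Fintype.card_fin, smul_eq_mul] at h
  have := p.1.isLt
  nlinarith

theorem gridValue_eq {m : ℕ} (hA : A ≤ q) {L : Fin g → ι → ℂ} {δ : ι → ℕ} {y : ι → ι → ℂ}
    (D : ℂ) {s : ι → ℕ} (hs : ∀ t, s t < m) (v : Idx A g q → ℂ) :
    gridValue (fun t => D * ∑ σ, (δ σ : ℂ) * y t σ)
        (fun i t => D * Complex.exp (∑ σ, L i σ * y t σ)) D
        (gridExp (Fintype.card ι) g q m) s v =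
      D ^ gridExp (Fintype.card ι) g q m * expPoly L δ v (∑ t, (s t : ℂ) • y t) := by
  simp only [gridExp, gridValue_apply]
  rw [expPoly, Finset.mul_sum]
  refine Finset.sum_congr rfl fun p _ => ?_
  have h1 : ∑ t, (s t : ℂ) * (D * ∑ σ, (δ σ : ℂ) * y t σ) =
      D * ∑ σ, (δ σ : ℂ) * (∑ t, (s t : ℂ) • y t) σ := by
    simp only [Finset.sum_apply, Pi.smul_apply, smul_eq_mul, Finset.mul_sum]
    rw [Finset.sum_comm]
    exact Finset.sum_congr rfl fun σ _ => Finset.sum_congr rfl fun t _ => by ring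
  have h2 : ∏ i, ∏ t, (D * Complex.exp (∑ σ, L i σ * y t σ)) ^ ((p.2 i : ℕ) * s t) =
      D ^ (∑ i, ∑ t, (p.2 i : ℕ) * s t) *
        Complex.exp (∑ σ, freq L p.2 σ * (∑ t, (s t : ℂ) • y t) σ) := by
    simp only [mul_pow, Finset.prod_mul_distrib, Finset.prod_pow_eq_pow_sum, ← Complex.exp_nat_mul,
      ← Complex.exp_sum]
    congr 2
    simp only [freq, Finset.sum_apply, Pi.smul_apply, smul_eq_mul, Finset.mul_sum, Finset.sum_mul]
    rw [Finset.sum_comm (f := fun σ t => ∑ i, ((p.2 i : ℕ) : ℂ) * L i σ * ((s t : ℂ) * y t σ))]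
    simp_rw [Finset.sum_comm (s := (Finset.univ : Finset ι)) (t := (Finset.univ : Finset (Fin g)))]
    refine Finset.sum_congr rfl fun i _ => Finset.sum_congr rfl fun t _ =>
      Finset.sum_congr rfl fun σ _ => ?_
    push_cast
    ring
  simp only [gridCoeff]
  rw [h1, h2, mul_pow]
  obtain ⟨k, hk⟩ := Nat.le.dest (exponent_le hA hs p)
  rw [← hk, Nat.add_sub_cancel_left, pow_add, pow_add]
  ring

variable {K : Type*} [Field K] [NumberField K]

theorem house_wordOp_le {L : Fin g → ι → 𝓞 K} {δ : ι → ℕ} {H V : ℝ} (hH : 0 ≤ H) (hV : 0 ≤ V)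
    (hA : A ≤ q) (hL : ∀ i σ, house (L i σ : K) ≤ H) {v : Idx A g q → 𝓞 K}
    (hv : ∀ p, house (v p : K) ≤ V) (w : List ι) (p : Idx A g q) :
    house (wordOp L δ w v p : K) ≤
      ((g * H + ((∑ σ, δ σ : ℕ) : ℝ) + 1) * q) ^ w.length * V := by
  set M := (g * H + ((∑ σ, δ σ : ℕ) : ℝ) + 1) * q
  have hM : 0 ≤ M := by positivity
  induction w generalizing p with
  | nil => simpa [wordOp_nil] using hv p
  | cons σ w ih =>
    set W := M ^ w.length * V
    have hW : 0 ≤ W := by positivity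
    rw [wordOp_cons, stepOp_apply, List.length_cons, pow_succ', mul_assoc]
    push_cast
    refine (house_add_le _ _).trans ?_
    have h1 : house (((freq L p.2 σ : 𝓞 K) : K) * (wordOp L δ w v p : K)) ≤ g * H * q * W := by
      refine (house_mul_le _ _).trans (mul_le_mul ?_ (ih p) (house_nonneg _) (by positivity))
      simp only [freq]
      push_cast
      refine (house_sum_le_sum_house _ _).trans ((Finset.sum_le_card_nsmul _ _ ((q : ℝ) * H)
        fun i _ => ?_).trans_eq ?_)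
      · rw [house_nat_mul]
        exact mul_le_mul (by exact_mod_cast (p.2 i).isLt.le) (hL i σ) (house_nonneg _)
          (Nat.cast_nonneg q)
      · rw [Finset.card_univ, Fintype.card_fin, nsmul_eq_mul]; ring
    refine (add_le_add h1 (?_ : _ ≤ ((∑ σ, δ σ : ℕ) : ℝ) * q * W)).trans ?_
    · split_ifs with h
      · push_cast
        refine (house_mul_le _ _).trans (mul_le_mul ?_ (ih _) (house_nonneg _) (by positivity))
        rw [← Nat.cast_one (R := K), ← Nat.cast_add, ← Nat.cast_mul,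
          show ((δ σ * ((p.1 : ℕ) + 1) : ℕ) : K) =
            ((δ σ * ((p.1 : ℕ) + 1) : ℕ) : K) * 1 from (mul_one _).symm, house_nat_mul]
        have h1 : house (1 : K) = 1 := by
          have := house_intCast (K := K) 1
          simpa using this
        rw [h1, mul_one, ← Nat.cast_sum, ← Nat.cast_mul]
        exact Nat.cast_le.mpr (Nat.mul_le_mul (Finset.single_le_sum (fun _ _ => Nat.zero_le _)
          (Finset.mem_univ σ)) (by omega))
      · rw [show house ((0 : 𝓞 K) : K) = 0 by simp [house]]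
        positivity
    · simp only [M]
      nlinarith [mul_nonneg (Nat.cast_nonneg (α := ℝ) q) hW]

theorem house_prod_pow_le {β : Type*} (S : Finset β) (f : β → K) (k : β → ℕ) {B : ℝ} (hB : 0 ≤ B)
    (h : ∀ b ∈ S, house (f b) ≤ B) : house (∏ b ∈ S, f b ^ k b) ≤ B ^ ∑ b ∈ S, k b := by
  classical
  induction S using Finset.induction with
  | empty => simpa using (house_intCast (K := K) 1).le
  | insert b S hbS ihS =>
    rw [Finset.prod_insert hbS, Finset.sum_insert hbS, pow_add]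
    refine (house_mul_le _ _).trans (mul_le_mul ?_
      (ihS fun c hc => h c (Finset.mem_insert_of_mem hc)) (house_nonneg _) (pow_nonneg hB _))
    exact (house_pow_le _ _).trans
      (pow_le_pow_left₀ (house_nonneg _) (h b (Finset.mem_insert_self b S)) _)

theorem house_gridCoeff_le {η : ι → 𝓞 K} {α : Fin g → ι → 𝓞 K} {D : 𝓞 K} {H : ℝ} {m : ℕ}
    (hH : 1 ≤ H) (hA : A ≤ q) (hη : ∀ t, house (η t : K) ≤ H)
    (hα : ∀ i t, house (α i t : K) ≤ H) (hD : house (D : K) ≤ H) {s : ι → ℕ}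
    (hs : ∀ t, s t < m) (p : Idx A g q) :
    house ((gridCoeff η α D (gridExp (Fintype.card ι) g q m) s p : 𝓞 K) : K) ≤
      (((Fintype.card ι * m + 1 : ℕ) : ℝ) * H) ^ gridExp (Fintype.card ι) g q m := by
  obtain ⟨k, hk⟩ := Nat.le.dest (exponent_le hA hs p)
  simp only [gridExp] at hk ⊢
  set H' : ℝ := ((Fintype.card ι * m + 1 : ℕ) : ℝ) * H
  have hHH : H ≤ H' := le_mul_of_one_le_left (by linarith) (by exact_mod_cast Nat.le_add_left 1 _)
  have h0 : 0 ≤ H' := by linarith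
  have h1 : house ((∑ t, (s t : 𝓞 K) * η t : 𝓞 K) : K) ≤ H' := by
    push_cast
    refine (house_sum_le_sum_house _ _).trans ((Finset.sum_le_card_nsmul _ _ ((m : ℝ) * H)
      fun t _ => ?_).trans ?_)
    · rw [house_nat_mul]
      exact mul_le_mul (by exact_mod_cast (hs t).le) (hη t) (house_nonneg _) (Nat.cast_nonneg m)
    · rw [Finset.card_univ, nsmul_eq_mul]
      simp only [H']
      push_cast
      nlinarith
  have h2 : house ((∏ i, ∏ t, α i t ^ ((p.2 i : ℕ) * s t) : 𝓞 K) : K) ≤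
      H' ^ ∑ i, ∑ t, (p.2 i : ℕ) * s t := by
    push_cast
    rw [← Fintype.prod_prod_type', ← Fintype.sum_prod_type']
    exact house_prod_pow_le (Finset.univ : Finset (Fin g × ι)) (fun x => (α x.1 x.2 : K))
      (fun x => (p.2 x.1 : ℕ) * s x.2) h0 fun x _ => (hα x.1 x.2).trans hHH
  rw [gridCoeff, ← hk, Nat.add_sub_cancel_left, pow_add H', pow_add H']
  push_cast at h1 h2 ⊢
  refine (house_mul_le _ _).trans (mul_le_mul ((house_mul_le _ _).trans (mul_le_mul ?_ h2
    (house_nonneg _) (pow_nonneg h0 _))) ?_ (house_nonneg _)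
    (mul_nonneg (pow_nonneg h0 _) (pow_nonneg h0 _)))
  · exact (house_pow_le _ _).trans (pow_le_pow_left₀ (house_nonneg _) h1 _)
  · exact (house_pow_le _ _).trans (pow_le_pow_left₀ (house_nonneg _) (hD.trans hHH) _)

theorem house_gridWord_le {L : Fin g → ι → 𝓞 K} {δ : ι → ℕ} {η : ι → 𝓞 K}
    {α : Fin g → ι → 𝓞 K} {D : 𝓞 K} {H HL V : ℝ} {m : ℕ} (hH : 1 ≤ H) (hV : 0 ≤ V)
    (hA : A ≤ q) (hHL : 0 ≤ HL)
    (hη : ∀ t, house (η t : K) ≤ H) (hα : ∀ i t, house (α i t : K) ≤ H)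
    (hD : house (D : K) ≤ H) (hL : ∀ i σ, house (L i σ : K) ≤ HL) {s : ι → ℕ}
    (hs : ∀ t, s t < m) {v : Idx A g q → 𝓞 K} (hv : ∀ p, house (v p : K) ≤ V) (w : List ι) :
    house (gridValue η α D (gridExp (Fintype.card ι) g q m) s (wordOp L δ w v) : K) ≤
      (Fintype.card (Idx A g q) : ℝ) *
        ((((g * HL + ((∑ σ, δ σ : ℕ) : ℝ) + 1) * q) ^ w.length * V) *
          (((Fintype.card ι * m + 1 : ℕ) : ℝ) * H) ^ gridExp (Fintype.card ι) g q m) := by
  have hH0 : 0 ≤ H := by linarith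
  rw [gridValue_apply]
  show house (algebraMap (𝓞 K) K (∑ p, _)) ≤ _
  rw [map_sum]
  refine (house_sum_le_sum_house _ _).trans ((Finset.sum_le_card_nsmul _ _
    ((((g * HL + ((∑ σ, δ σ : ℕ) : ℝ) + 1) * q) ^ w.length * V) *
      (((Fintype.card ι * m + 1 : ℕ) : ℝ) * H) ^ gridExp (Fintype.card ι) g q m)
    fun p _ => ?_).trans_eq ?_)
  · rw [map_mul]
    exact (house_mul_le _ _).trans (mul_le_mul (house_wordOp_le hHL hV hA hL hv w p)
      (house_gridCoeff_le hH hA hη hα hD hs p) (house_nonneg _) (by positivity))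
  · rw [Finset.card_univ, nsmul_eq_mul]

end Arithmetic

section Analysis

variable {ι : Type*} [Fintype ι] {g q A : ℕ}

theorem norm_expPoly_le {L : Fin g → ι → ℂ} {δ : ι → ℕ} {H V Z : ℝ} (hH : 0 ≤ H) (hV : 0 ≤ V)
    (hZ : 0 ≤ Z) (hA : A ≤ q) (hL : ∀ i σ, ‖L i σ‖ ≤ H) {v : Idx A g q → ℂ}
    (hv : ∀ p, ‖v p‖ ≤ V) {z : ι → ℂ} (hz : ∀ σ, ‖z σ‖ ≤ Z) :
    ‖expPoly L δ v z‖ ≤ (Fintype.card (Idx A g q) : ℝ) *
      (V * Real.exp (q * (((∑ σ, δ σ : ℕ) : ℝ) * Z + Fintype.card ι * (g * H * Z)))) := by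
  refine (norm_sum_le _ _).trans ((Finset.sum_le_card_nsmul _ _ (V *
    Real.exp (q * (((∑ σ, δ σ : ℕ) : ℝ) * Z + Fintype.card ι * (g * H * Z))))
      fun p _ => ?_).trans_eq ?_)
  · rw [norm_mul, norm_mul, norm_pow, mul_assoc, mul_add, Real.exp_add]
    refine mul_le_mul (hv p) (mul_le_mul ?_ ?_ (norm_nonneg _) (Real.exp_pos _).le)
      (by positivity) hV
    · have h1 : ‖∑ σ, (δ σ : ℂ) * z σ‖ ≤ ((∑ σ, δ σ : ℕ) : ℝ) * Z := by
        refine (norm_sum_le _ _).trans ?_
        rw [Nat.cast_sum, Finset.sum_mul]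
        refine Finset.sum_le_sum fun σ _ => ?_
        rw [norm_mul, Complex.norm_natCast]
        exact mul_le_mul_of_nonneg_left (hz σ) (Nat.cast_nonneg _)
      refine (pow_le_pow_left₀ (norm_nonneg _) (h1.trans ((le_add_of_nonneg_right zero_le_one).trans
        (Real.add_one_le_exp _))) _).trans ?_
      rw [← Real.exp_nat_mul, Real.exp_le_exp]
      exact mul_le_mul_of_nonneg_right (by exact_mod_cast p.1.isLt.le.trans hA) (by positivity)
    · rw [Complex.norm_exp]
      refine Real.exp_le_exp.mpr ((Complex.re_le_norm _).trans ((norm_sum_le _ _).trans ?_))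
      refine (Finset.sum_le_card_nsmul _ _ ((g : ℝ) * (q * H) * Z) fun σ _ => ?_).trans_eq ?_
      · rw [norm_mul]
        refine mul_le_mul ((norm_sum_le _ _).trans ((Finset.sum_le_card_nsmul _ _ ((q : ℝ) * H)
          fun i _ => ?_).trans_eq ?_)) (hz σ) (norm_nonneg _) (by positivity)
        · rw [norm_mul, Complex.norm_natCast]
          exact mul_le_mul (by exact_mod_cast (p.2 i).isLt.le) (hL i σ) (norm_nonneg _)
            (Nat.cast_nonneg q)
        · rw [Finset.card_univ, Fintype.card_fin, nsmul_eq_mul]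
      · rw [Finset.card_univ, nsmul_eq_mul]; ring
  · rw [Finset.card_univ, nsmul_eq_mul]

/-- **The Schwarz lemma along the vectors of the basis.** -/
theorem norm_expPoly_grid_le [DecidableEq ι] (L : Fin g → ι → ℂ) (δ : ι → ℕ)
    {v : Idx A g q → ℂ} (y : ι → ι → ℂ) {m T T' : ℕ} {ρ R B Cs Y : ℝ} (hρ : 0 ≤ ρ) (hT' : 1 ≤ T')
    (hY : 1 ≤ Y) (hys : ∀ t, ∑ σ, ‖y t σ‖ ≤ Y) (hCs : 1 ≤ Cs) (hR : ρ + 2 * m + 1 ≤ R) (hB : 0 ≤ B)
    (hschwarz : ∀ f : ℂ → ℂ, Differentiable ℂ f → ∀ (T : ℕ) (R ε B : ℝ),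
      ρ + 2 * m + 1 ≤ R → 0 ≤ ε →
      (∀ l < m, ∀ k < T, ‖iteratedDeriv k f (l : ℂ)‖ ≤ k ! * ε) →
      (∀ z : ℂ, ‖z‖ ≤ R → ‖f z‖ ≤ B) →
      ∀ x : ℂ, ‖x‖ ≤ ρ → ‖f x‖ ≤ Cs ^ T * (ε * R ^ (2 * T) + B / R ^ (m * T)))
    (hzero : ∀ w : List ι, w.length < T → ∀ s : ι → ℕ, (∀ t, s t < m) →
      expPoly L δ (wordOp L δ w v) (∑ t, (s t : ℂ) • y t) = 0)
    (hbound : ∀ w : List ι, w.length ≤ T → ∀ c : ι → ℂ, (∀ t, ‖c t‖ ≤ R) →
      ‖expPoly L δ (wordOp L δ w v) (∑ t, c t • y t)‖ ≤ B) (J : Finset ι) :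
    ∀ w : List ι, w.length + J.card * T' < T → ∀ c : ι → ℂ, (∀ t ∈ J, ‖c t‖ ≤ ρ) →
      (∀ t ∉ J, ∃ l : ℕ, l < m ∧ c t = l) →
      ‖expPoly L δ (wordOp L δ w v) (∑ t, c t • y t)‖ ≤
        ((2 * Cs * Y) ^ T' * R ^ (2 * T')) ^ J.card * (B / R ^ (m * T')) := by
  have hR1 : 1 ≤ R := by linarith [Nat.cast_nonneg (α := ℝ) m]
  set ε₀ := B / R ^ (m * T') with hε₀
  have hε₀0 : 0 ≤ ε₀ := div_nonneg hB (by positivity)
  set G := (2 * Cs * Y) ^ T' * R ^ (2 * T')
  have hG : 1 ≤ G := one_le_mul_of_one_le_of_one_le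
    (one_le_pow₀ (one_le_mul_of_one_le_of_one_le (by linarith) hY)) (one_le_pow₀ hR1)
  induction J using Finset.induction with
  | empty =>
    intro w hw c _ hc
    choose s hs hcs using fun t => hc t (Finset.notMem_empty t)
    rw [show c = fun t => (s t : ℂ) from funext hcs, hzero w (by simpa using hw) s hs, norm_zero]
    positivity
  | @insert t₀ J ht₀ ih =>
    intro w hw c hcJ hc
    rw [Finset.card_insert_of_notMem ht₀] at hw ⊢
    set z₀ := ∑ t ∈ Finset.univ.erase t₀, c t • y t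
    set v' := wordOp L δ w v
    set f := fun x : ℂ => expPoly L δ v' (z₀ + x • y t₀)
    have hsum : ∀ x : ℂ, z₀ + x • y t₀ = ∑ t, Function.update c t₀ x t • y t := fun x => by
      rw [← Finset.add_sum_erase _ _ (Finset.mem_univ t₀), Function.update_self, add_comm]
      congr 1
      exact Finset.sum_congr rfl fun t ht => by
        rw [Function.update_of_ne (Finset.mem_erase.mp ht).1]
    set ε := G ^ J.card * ε₀
    have hε : 0 ≤ ε := by positivity
    have hsmall : ∀ l < m, ∀ k < T', ‖iteratedDeriv k f (l : ℂ)‖ ≤ k ! * (Y ^ T' * ε) := by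
      intro l hl k hk
      rw [iteratedDeriv_expPoly]
      refine (norm_expPoly_dirOp_pow_le L δ v _ (y t₀) (ε := ε) k w fun w' hw' => ?_).trans ?_
      · rw [hsum]
        refine ih w' (by rw [hw']; nlinarith) _ (fun t ht => ?_) fun t ht => ?_
        · rw [Function.update_of_ne (fun e : t = t₀ => ht₀ (e ▸ ht))]
          exact hcJ t (Finset.mem_insert_of_mem ht)
        · rcases eq_or_ne t t₀ with rfl | hne
          · exact ⟨l, hl, Function.update_self _ _ _⟩
          · rw [Function.update_of_ne hne]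
            exact hc t (by simp [hne, ht])
      · calc (∑ σ, ‖y t₀ σ‖) ^ k * ε ≤ Y ^ T' * ε := by
              refine mul_le_mul_of_nonneg_right ((pow_le_pow_left₀
                (Finset.sum_nonneg fun σ _ => norm_nonneg _) (hys t₀) k).trans
                  (pow_le_pow_right₀ hY hk.le)) hε
          _ ≤ k ! * (Y ^ T' * ε) :=
            le_mul_of_one_le_left (by positivity) (by exact_mod_cast Nat.factorial_pos k)
    have hfb : ∀ x : ℂ, ‖x‖ ≤ R → ‖f x‖ ≤ B := fun x hx => by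
      show ‖expPoly L δ v' _‖ ≤ B
      rw [hsum]
      refine hbound w (by omega) _ fun t => ?_
      rcases eq_or_ne t t₀ with rfl | hne
      · rwa [Function.update_self]
      · rw [Function.update_of_ne hne]
        by_cases ht : t ∈ J
        · linarith [hcJ t (Finset.mem_insert_of_mem ht), Nat.cast_nonneg (α := ℝ) m]
        · obtain ⟨l, hl, e⟩ := hc t (by simp [hne, ht])
          rw [e, Complex.norm_natCast]
          linarith [show (l : ℝ) ≤ m by exact_mod_cast hl.le]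
    have h := hschwarz f (differentiable_expPoly L δ v' z₀ (y t₀)) T' R (Y ^ T' * ε) B hR
      (by positivity) hsmall hfb (c t₀) (hcJ t₀ (Finset.mem_insert_self t₀ J))
    have e : f (c t₀) = expPoly L δ v' (∑ t, c t • y t) := by
      show expPoly L δ v' _ = _
      rw [hsum, Function.update_eq_self]
    rw [e] at h
    refine h.trans ?_
    have hYT : 1 ≤ Y ^ T' := one_le_pow₀ hY
    have hR2 : 1 ≤ R ^ (2 * T') := one_le_pow₀ hR1
    have h2 : (2 : ℝ) ≤ 2 ^ T' := le_self_pow₀ one_le_two (by omega)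
    have he : ε₀ ≤ Y ^ T' * ε * R ^ (2 * T') := by
      calc ε₀ = 1 * (1 * ε₀) * 1 := by ring
        _ ≤ Y ^ T' * ε * R ^ (2 * T') := by
          simp only [ε]; gcongr; exact one_le_pow₀ hG
    calc Cs ^ T' * (Y ^ T' * ε * R ^ (2 * T') + ε₀)
        ≤ Cs ^ T' * (2 * (Y ^ T' * ε * R ^ (2 * T'))) := by gcongr; linarith
      _ = 2 * (Cs ^ T' * Y ^ T' * R ^ (2 * T') * ε) := by ring
      _ ≤ 2 ^ T' * (Cs ^ T' * Y ^ T' * R ^ (2 * T') * ε) := by gcongr
      _ = G ^ (J.card + 1) * ε₀ := by simp only [ε, G, pow_succ, mul_pow]; ring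

/-- **Cauchy's inequality for a word.** -/
theorem norm_expPoly_word_le [DecidableEq ι] (L : Fin g → ι → ℂ) (δ : ι → ℕ)
    {v : Idx A g q → ℂ} {T : ℕ} (hT : 0 < T) (a : ι → ℂ) {ε : ℝ}
    (h : ∀ z : ι → ℂ, (∀ σ, ‖z σ - a σ‖ ≤ 1) → ‖expPoly L δ v z‖ ≤ ε) :
    ∀ w : List ι, w.length ≤ T → ∀ z : ι → ℂ, (∀ σ, ‖z σ - a σ‖ ≤ 1 - (w.length : ℝ) / T) →
      ‖expPoly L δ (wordOp L δ w v) z‖ ≤ (T : ℝ) ^ w.length * ε := by
  intro w
  induction w with
  | nil => intro _ z hz; simpa [wordOp_nil] using h z (fun σ => by simpa using hz σ)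
  | cons σ w ih =>
    intro hw z hz
    rw [List.length_cons] at hw hz ⊢
    have hT' : (0 : ℝ) < T := Nat.cast_pos.mpr hT
    set f := fun x : ℂ => expPoly L δ (wordOp L δ w v) (z + x • Pi.single σ 1)
    have hd : deriv f 0 = expPoly L δ (wordOp L δ (σ :: w) v) z := by
      rw [(hasDerivAt_expPoly L δ _ z (Pi.single σ 1) 0).deriv, zero_smul, add_zero, wordOp_cons,
        dirOp, Finset.sum_eq_single σ (fun τ _ hτ => by simp [hτ]) (by simp)]
      simp
    rw [← hd]
    refine (Complex.norm_deriv_le_of_forall_mem_sphere_norm_le (R := 1 / (T : ℝ))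
      (C := (T : ℝ) ^ w.length * ε) (by positivity)
      (differentiable_expPoly L δ _ z (Pi.single σ 1)).diffContOnCl fun x hx => ?_).trans_eq ?_
    · rw [mem_sphere_iff_norm, sub_zero] at hx
      refine ih (by omega) _ fun τ => ?_
      have hzt := hz τ
      push_cast [add_div] at hzt
      have hx' : ‖x * (Pi.single σ (1 : ℂ) : ι → ℂ) τ‖ ≤ 1 / (T : ℝ) := by
        rcases eq_or_ne τ σ with rfl | hne
        · simp [hx]
        · simp [hne]
      simp only [Pi.add_apply, Pi.smul_apply, smul_eq_mul]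
      rw [add_sub_right_comm]
      exact (norm_add_le _ _).trans (by linarith)
    · rw [pow_succ]
      field_simp

end Analysis

/-- A word with given multiplicities. -/
def multiWord {ι : Type*} [Fintype ι] (κ : ι → ℕ) : List ι :=
  (∑ σ, Multiset.replicate (κ σ) σ).toList

theorem multiWord_perm {ι : Type*} [Fintype ι] [DecidableEq ι] (w : List ι) :
    w.Perm (multiWord fun σ => List.count σ w) := by
  rw [← Multiset.coe_eq_coe, multiWord, Multiset.coe_toList]
  ext σ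
  simp [Multiset.count_sum', Multiset.count_replicate]

theorem length_multiWord {ι : Type*} [Fintype ι] (κ : ι → ℕ) :
    (multiWord κ).length = ∑ σ, κ σ := by
  simp [multiWord]

/-- **Siegel's lemma.** -/
theorem exists_solution (K : Type*) [Field K] [NumberField K] :
    ∃ C : ℝ, 1 ≤ C ∧ ∀ {ι : Type} [Fintype ι] [Nonempty ι] {g q A n m : ℕ}
      {L : Fin g → ι → 𝓞 K} {δ : ι → ℕ} {η : ι → 𝓞 K} {α : Fin g → ι → 𝓞 K} {D : 𝓞 K}
      {H HL : ℝ},
      1 ≤ H → 0 ≤ HL → A ≤ q → (∀ t, house (η t : K) ≤ H) → (∀ i t, house (α i t : K) ≤ H) →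
      house (D : K) ≤ H → (∀ i σ, house (L i σ : K) ≤ HL) → 0 < n → 0 < m → 0 < q →
      2 * (n * m) ^ Fintype.card ι ≤ Fintype.card (Idx A g q) →
      ∃ v : Idx A g q → 𝓞 K, v ≠ 0 ∧
        (∀ p, house (v p : K) ≤ C * (Fintype.card (Idx A g q) : ℝ) ^ 2 *
          (((g * HL + ((∑ σ, δ σ : ℕ) : ℝ) + 1) * q) ^ (Fintype.card ι * n) *
            (((Fintype.card ι * m + 1 : ℕ) : ℝ) * H) ^ gridExp (Fintype.card ι) g q m)) ∧
        ∀ w : List ι, w.length < n → ∀ s : ι → ℕ, (∀ t, s t < m) →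
          gridValue η α D (gridExp (Fintype.card ι) g q m) s (wordOp L δ w v) = 0 := by
  classical
  obtain ⟨C₁, hsiegel⟩ := GelfondSchneider.exists_siegel K
  refine ⟨max 1 |C₁| ^ 2, one_le_pow₀ (le_max_left _ _),
    fun {ι} _ _ {g q A n m L δ η α D H HL} hH hHL hA hη hα hD hL hn hm hq hcard => ?_⟩
  set card : ℝ := (Fintype.card (Idx A g q) : ℝ) with hcd
  set MV := (g * HL + ((∑ σ, δ σ : ℕ) : ℝ) + 1) * q
  set HE := (((Fintype.card ι * m + 1 : ℕ) : ℝ) * H) ^ gridExp (Fintype.card ι) g q m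
  have hMV : 1 ≤ MV := one_le_mul_of_one_le_of_one_le
    (le_add_of_nonneg_left (by positivity)) (by exact_mod_cast hq)
  have hHE : 1 ≤ HE := one_le_pow₀ (one_le_mul_of_one_le_of_one_le
    (by exact_mod_cast Nat.le_add_left 1 _) hH)
  have hp0 : 0 < (n * m) ^ Fintype.card ι := by positivity
  have hc1 : 1 ≤ card := by rw [hcd]; exact_mod_cast (show 1 ≤ Fintype.card (Idx A g q) by omega)
  set M : Matrix ((ι → Fin n) × (ι → Fin m)) (Idx A g q) (𝓞 K) := fun ks p =>
    gridValue η α D (gridExp (Fintype.card ι) g q m) (fun t => ks.2 t)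
      (wordOp L δ (multiWord fun σ => (ks.1 σ : ℕ)) (Pi.single p 1)) with hM
  set Aent := card * (MV ^ (Fintype.card ι * n) * HE) with hAe
  have hAe1 : 1 ≤ Aent :=
    one_le_mul_of_one_le_of_one_le hc1 (one_le_mul_of_one_le_of_one_le (one_le_pow₀ hMV) hHE)
  have hMle : ∀ ks p, house (M ks p : K) ≤ Aent := fun ks p => by
    refine (house_gridWord_le hH zero_le_one hA hHL hη hα hD hL (fun t => (ks.2 t).isLt)
      (v := Pi.single p 1) (fun p' => ?_) _).trans ?_
    · rcases eq_or_ne p' p with rfl | hne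
      · rw [Pi.single_eq_same]
        simpa using (house_intCast (K := K) 1).le
      · rw [Pi.single_eq_of_ne hne]
        simp [house]
    · rw [mul_one, hAe]
      gcongr
      rw [length_multiWord]
      exact (Finset.sum_le_card_nsmul _ _ n fun σ _ => (ks.1 σ).isLt.le).trans_eq (by simp)
  have hMul : ∀ (v : Idx A g q → 𝓞 K) ks, (M *ᵥ v) ks =
      gridValue η α D (gridExp (Fintype.card ι) g q m) (fun t => ks.2 t)
        (wordOp L δ (multiWord fun σ => (ks.1 σ : ℕ)) v) := fun v ks => by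
    conv_rhs => rw [pi_eq_sum_univ' v, map_sum, map_sum]
    refine Finset.sum_congr rfl fun p _ => ?_
    rw [map_smul, map_smul, smul_eq_mul, mul_comm]
  obtain ⟨v, hv0, hvM, hvV⟩ : ∃ v : Idx A g q → 𝓞 K, v ≠ 0 ∧ M *ᵥ v = 0 ∧
      ∀ p, house (v p : K) ≤ max 1 |C₁| ^ 2 * (card * Aent) := by
    have hC : 1 ≤ max 1 |C₁| ^ 2 * (card * Aent) :=
      one_le_mul_of_one_le_of_one_le (one_le_pow₀ (le_max_left _ _))
        (one_le_mul_of_one_le_of_one_le hc1 hAe1)
    by_cases hM0 : M = 0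
    · obtain ⟨p₀⟩ : Nonempty (Idx A g q) := Fintype.card_pos_iff.mp (by omega)
      refine ⟨Pi.single p₀ 1, by simp, by rw [hM0, Matrix.zero_mulVec], fun p => le_trans ?_ hC⟩
      rcases eq_or_ne p p₀ with rfl | hne
      · rw [Pi.single_eq_same]
        simpa using (house_intCast (K := K) 1).le
      · rw [Pi.single_eq_of_ne hne]
        simp [house]
    · obtain ⟨v, hv0, hvM, hv⟩ := hsiegel _ _ M ((n * m) ^ Fintype.card ι)
        (Fintype.card (Idx A g q)) Aent hM0 hp0 (by omega)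
        (by simp [mul_pow]) rfl hMle
      refine ⟨v, hv0, hvM, fun p => (hv p).trans ?_⟩
      rw [← hcd]
      set x : ℝ := (((n * m) ^ Fintype.card ι : ℕ) : ℝ) /
        (card - (((n * m) ^ Fintype.card ι : ℕ) : ℝ))
      have hx1 : x ≤ 1 := by
        refine div_le_one_of_le₀ ?_ ?_ <;>
          linarith [show (2 * ((n * m) ^ Fintype.card ι : ℕ) : ℝ) ≤ card by
            rw [hcd]; exact_mod_cast hcard,
            Nat.cast_nonneg (α := ℝ) ((n * m) ^ Fintype.card ι)]
      have hb : |C₁ * card * Aent| ≤ max 1 |C₁| * (card * Aent) := by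
        rw [mul_assoc, abs_mul, abs_of_nonneg (by positivity : 0 ≤ card * Aent)]
        gcongr
        exact le_max_right _ _
      have hb1 : 1 ≤ max 1 |C₁| * (card * Aent) :=
        one_le_mul_of_one_le_of_one_le (le_max_left _ _)
          (one_le_mul_of_one_le_of_one_le hc1 hAe1)
      calc C₁ * (C₁ * card * Aent) ^ x
          ≤ |C₁| * |(C₁ * card * Aent) ^ x| := (le_abs_self _).trans_eq (abs_mul _ _)
        _ ≤ max 1 |C₁| * (max 1 |C₁| * (card * Aent)) := by
            refine mul_le_mul (le_max_right _ _) ((Real.abs_rpow_le_abs_rpow _ _).trans ?_)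
              (abs_nonneg _) (by positivity)
            have hx0 : 0 ≤ x := div_nonneg (Nat.cast_nonneg _) (by
              rw [hcd, sub_nonneg]; exact_mod_cast (by omega : _ ≤ _))
            exact (Real.rpow_le_rpow (abs_nonneg _) hb hx0).trans
              ((Real.rpow_le_rpow_of_exponent_le hb1 hx1).trans_eq (Real.rpow_one _))
        _ = max 1 |C₁| ^ 2 * (card * Aent) := by ring
  refine ⟨v, hv0, fun p => (hvV p).trans_eq (by rw [hAe]; ring), fun w hw s hs => ?_⟩
  have h := congrFun hvM (fun σ => ⟨List.count σ w, (List.count_le_length).trans_lt hw⟩,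
    fun t => ⟨s t, hs t⟩)
  rw [hMul, ← wordOp_perm L δ (multiWord_perm w)] at h
  exact h

set_option maxHeartbeats 800000 in
/-- **Gelfond's argument in several variables.** -/
theorem false_of_field {K : Type} [Field K] [NumberField K] (ψ : K →+* ℂ) {ι : Type} [Fintype ι]
    [Nonempty ι] {g e : ℕ} (L : Fin g → ι → ℂ) (δ : ι → ℕ) (y : ι → ι → ℂ)
    (hy : LinearIndependent ℂ y)
    (hind : ∀ c : Fin g → ℤ, (∀ σ, ∑ i, (c i : ℂ) * L i σ = 0) → c = 0)
    (he : g + e = Fintype.card ι + 1) (he1 : e ≤ 1) (hδ : e = 1 → ∃ σ, δ σ ≠ 0)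
    (D : ℤ) (hD : D ≠ 0) (η : ι → 𝓞 K) (α : Fin g → ι → 𝓞 K) (LK : Fin g → ι → 𝓞 K)
    (hη : ∀ t, ψ (η t : K) = (D : ℂ) * ∑ σ, (δ σ : ℂ) * y t σ)
    (hα : ∀ i t, ψ (α i t : K) = (D : ℂ) * Complex.exp (∑ σ, L i σ * y t σ))
    (hL : ∀ i σ, ψ (LK i σ : K) = L i σ) : False := by
  classical
  obtain ⟨C, hC, hsolve⟩ := exists_solution K
  set r := Fintype.card ι with hr
  have hr1 : 1 ≤ r := Fintype.card_pos
  -- constants
  set h := finrank ℚ K with hh
  obtain ⟨k₀, hk₀⟩ : ∃ k₀, k₀ = r + 2 + h * (r + 1) := ⟨_, rfl⟩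
  obtain ⟨m, hm⟩ : ∃ m, m = 2 * r + 2 * (r + 1) ^ 2 * (k₀ + 1) := ⟨_, rfl⟩
  have hm1 : 1 ≤ m := by omega
  set H : ℝ := 1 + |(D : ℝ)| + (∑ t, house (η t : K)) + (∑ i, ∑ t, house (α i t : K)) +
    ∑ i, ∑ σ, house (LK i σ : K) with hHdef
  have hsη : 0 ≤ ∑ t, house (η t : K) := Finset.sum_nonneg fun t _ => house_nonneg _
  have hsα : 0 ≤ ∑ i, ∑ t, house (α i t : K) :=
    Finset.sum_nonneg fun i _ => Finset.sum_nonneg fun t _ => house_nonneg _
  have hsL : 0 ≤ ∑ i, ∑ σ, house (LK i σ : K) :=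
    Finset.sum_nonneg fun i _ => Finset.sum_nonneg fun σ _ => house_nonneg _
  have hD0 := abs_nonneg (D : ℝ)
  have hH1 : 1 ≤ H := by linarith
  have hHD : |(D : ℝ)| ≤ H := by linarith
  have hDh : house (((D : 𝓞 K) : K)) ≤ H := by
    show house (algebraMap (𝓞 K) K (D : 𝓞 K)) ≤ H
    rw [map_intCast, house_intCast, Int.cast_abs]; exact hHD
  have hHη : ∀ t, house (η t : K) ≤ H := fun t => by
    have := Finset.single_le_sum (f := fun t => house (η t : K)) (fun t _ => house_nonneg _)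
      (Finset.mem_univ t)
    linarith
  have hdsum : ∀ (F : Fin g → ι → ℝ), (∀ i t, 0 ≤ F i t) → ∀ i t, F i t ≤ ∑ i, ∑ t, F i t :=
    fun F hF i t => (Finset.single_le_sum (fun t _ => hF i t) (Finset.mem_univ t)).trans
      (Finset.single_le_sum (f := fun i => ∑ t, F i t)
        (fun i _ => Finset.sum_nonneg fun t _ => hF i t) (Finset.mem_univ i))
  have hHα : ∀ i t, house (α i t : K) ≤ H := fun i t => by
    have := hdsum (fun i t => house (α i t : K)) (fun i t => house_nonneg _) i t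
    linarith
  have hHL : ∀ i σ, house (LK i σ : K) ≤ H := fun i σ => by
    have := hdsum (fun i t => house (LK i t : K)) (fun i t => house_nonneg _) i σ
    linarith
  set Δ : ℝ := ((∑ σ, δ σ : ℕ) : ℝ) with hΔ
  set H' : ℝ := ((r * m + 1 : ℕ) : ℝ) * H with hH'
  have hHH' : H ≤ H' := by
    rw [hH']
    exact le_mul_of_one_le_left (by linarith) (by exact_mod_cast Nat.le_add_left 1 _)
  set M : ℝ := (g * H + Δ + 1) * (2 * m) with hMdef
  have hm2 : (1 : ℝ) ≤ 2 * (m : ℝ) := by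
    have : (1 : ℝ) ≤ (m : ℝ) := by exact_mod_cast hm1
    linarith
  have hgH : (1 : ℝ) ≤ g * H + Δ + 1 := le_add_of_nonneg_left
    (add_nonneg (mul_nonneg (Nat.cast_nonneg g) (by linarith)) (Nat.cast_nonneg _))
  have hM1 : 1 ≤ M := by
    rw [hMdef]
    exact one_le_mul_of_one_le_of_one_le hgH hm2
  set lH := ((1 + g * r * m : ℕ) : ℝ) * (2 * m) * Real.log H' with hlH
  set lQ := ((r + 1 : ℕ) : ℝ) * (2 * m) with hlQ
  set lM := Real.log M with hlM
  set Cv := Real.log C + 2 * lQ + r * lM + lH with hCv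
  set Cg := lQ + lM + Cv + lH with hCg
  set Y : ℝ := 1 + ∑ t, ∑ σ, ‖y t σ‖ with hYdef
  have hY1 : 1 ≤ Y := by
    rw [hYdef]
    exact le_add_of_nonneg_right
      (Finset.sum_nonneg fun t _ => Finset.sum_nonneg fun σ _ => norm_nonneg _)
  have hys : ∀ t, ∑ σ, ‖y t σ‖ ≤ Y := fun t =>
    (Finset.single_le_sum (f := fun t => ∑ σ, ‖y t σ‖)
      (fun t _ => Finset.sum_nonneg fun σ _ => norm_nonneg _) (Finset.mem_univ t)).trans
      (le_add_of_nonneg_left zero_le_one)
  set Cb := lQ + lM + Cv + 2 * m * (Y * (Δ + r * (g * H))) with hCb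
  set bY : Basis ι ℂ (ι → ℂ) := basisOfLinearIndependentOfCardEqFinrank hy (by simp) with hbY
  set ρ : ℝ := m + ∑ t, ∑ σ, ‖bY.repr (Pi.single σ 1) t‖ with hρdef
  have hρ : 0 ≤ ρ := add_nonneg (Nat.cast_nonneg m)
    (Finset.sum_nonneg fun t _ => Finset.sum_nonneg fun σ _ => norm_nonneg _)
  obtain ⟨Cs, hCs, hschwarz⟩ := exists_schwarz m hρ
  set lK := (r : ℝ) * Real.log (2 * Cs * Y) with hlK
  set Cf := lH + lK + Cb + h * Cg with hCf
  -- parameters
  obtain ⟨N, hN1, hN2, hN3⟩ : ∃ N : ℕ, 2 * (r + 1) ≤ N ∧ ρ + 2 * m + 1 ≤ (N : ℝ) ∧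
      Real.exp Cf + 1 ≤ (N : ℝ) :=
    ⟨2 * (r + 1) + ⌈ρ + 2 * m + 1⌉₊ + ⌈Real.exp Cf + 1⌉₊, by omega,
      (Nat.le_ceil _).trans (by exact_mod_cast (by omega : _ ≤ 2 * (r + 1) + _ + _)),
      (Nat.le_ceil _).trans (by exact_mod_cast (by omega : _ ≤ 2 * (r + 1) + _ + _))⟩
  have hN0 : 0 < N := by omega
  obtain ⟨n, hn⟩ : ∃ n, n = N ^ (r + 1) := ⟨_, rfl⟩
  obtain ⟨q, hq⟩ : ∃ q, q = 2 * m * N ^ r := ⟨_, rfl⟩
  have hn0 : 0 < n := by rw [hn]; positivity
  have hq0 : 0 < q := by rw [hq]; positivity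
  obtain ⟨A, hAdef⟩ : ∃ A, A = q ^ e := ⟨_, rfl⟩
  have hAq : A ≤ q := by
    rcases Nat.le_one_iff_eq_zero_or_eq_one.mp he1 with h' | h' <;> rw [hAdef, h'] <;> simp; omega
  have hcardI : Fintype.card (Idx A g q) = q ^ (r + 1) := by
    simp only [Fintype.card_prod, Fintype.card_fin, Fintype.card_fun, hAdef]
    rw [← pow_add, add_comm, he]
  have hcount : 2 * (n * m) ^ r ≤ Fintype.card (Idx A g q) := by
    calc 2 * (n * m) ^ r = (2 * m ^ r) * (N ^ (r + 1)) ^ r := by rw [mul_pow, hn]; ring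
      _ ≤ (2 * m) ^ (r + 1) * (N ^ (r + 1)) ^ r := by
        refine Nat.mul_le_mul_right _ ?_
        rw [mul_pow]
        exact Nat.mul_le_mul (Nat.le_self_pow (Nat.succ_ne_zero r) 2)
          (Nat.pow_le_pow_right hm1 (Nat.le_succ r))
      _ = Fintype.card (Idx A g q) := by rw [hcardI, hq]; ring
  obtain ⟨v, hv0, hvV, hvn⟩ := hsolve (δ := δ) hH1
    (by linarith : (0 : ℝ) ≤ H) hAq hHη hHα hDh hHL hn0 hm1 hq0 hcount
  set E := gridExp r g q m with hE
  set vC : Idx A g q → ℂ := fun p => ψ (v p : K) with hvC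
  -- the values
  set emb : 𝓞 K →+* ℂ := ψ.comp (algebraMap (𝓞 K) K) with hφ
  have hφL : (fun i σ => emb (LK i σ)) = L := funext fun i => funext fun σ => hL i σ
  have hval : ∀ (w : List ι) (s : ι → ℕ), (∀ t, s t < m) →
      emb (gridValue η α (D : 𝓞 K) E s (wordOp LK δ w v)) = (D : ℂ) ^ E *
        expPoly L δ (wordOp L δ w vC) (∑ t, (s t : ℂ) • y t) := by
    intro w s hs
    rw [map_gridValue, map_wordOp, hφL, map_intCast, hE, hr,
      ← gridValue_eq (L := L) (δ := δ) (y := y) hAq (D : ℂ) hs]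
    simp only [show (fun t => emb (η t)) = fun t => (D : ℂ) * ∑ σ, (δ σ : ℂ) * y t σ from funext hη,
      show (fun i t => emb (α i t)) = fun i t => (D : ℂ) * Complex.exp (∑ σ, L i σ * y t σ) from
        funext fun i => funext fun t => hα i t]
    rfl
  have hDC : (D : ℂ) ≠ 0 := Int.cast_ne_zero.mpr hD
  have hvC0 : vC ≠ 0 := fun h0 => hv0 <| funext fun p =>
    RingOfIntegers.ext (ψ.injective ((congrFun h0 p).trans (map_zero ψ).symm))
  rw [← hΔ, ← hH'] at hvV
  clear_value E Cf lK Cb Cg Cv lM lQ lH M H' Δ H Y ρ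
  -- the first non-zero derivative
  have hex : ∃ T, ∃ w : List ι, w.length = T ∧ ∃ s : ι → ℕ, (∀ t, s t < m) ∧
      expPoly L δ (wordOp L δ w vC) (∑ t, (s t : ℂ) • y t) ≠ 0 := by
    have hinj : Function.Injective fun e : Fin g → Fin q => freq L e := fun e₁ e₂ he => by
      have h0 := hind (fun i => ((e₁ i : ℕ) : ℤ) - (e₂ i : ℕ)) fun σ => by
        have := congrFun he σ
        simp only [freq] at this
        push_cast
        simp only [sub_mul, Finset.sum_sub_distrib, this, sub_self]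
      funext i
      have := congrFun h0 i
      simp only [Pi.zero_apply] at this
      exact Fin.ext (by omega)
    have hδ' : A ≤ 1 ∨ ∃ σ, δ σ ≠ 0 := by
      rcases Nat.le_one_iff_eq_zero_or_eq_one.mp he1 with h' | h'
      · exact Or.inl (by rw [hAdef, h', pow_zero])
      · exact Or.inr (hδ h')
    obtain ⟨w, hw⟩ := exists_word_ne_zero L δ hinj hδ' hvC0
    exact ⟨_, w, rfl, fun _ => 0, fun _ => hm1, by simpa using hw⟩
  obtain ⟨T, ⟨w, hwT, s, hs, hws⟩, hmin⟩ : ∃ T, (∃ w : List ι, w.length = T ∧ ∃ s : ι → ℕ,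
      (∀ t, s t < m) ∧ expPoly L δ (wordOp L δ w vC) (∑ t, (s t : ℂ) • y t) ≠ 0) ∧
      ∀ k < T, ¬∃ w : List ι, w.length = k ∧ ∃ s : ι → ℕ,
        (∀ t, s t < m) ∧ expPoly L δ (wordOp L δ w vC) (∑ t, (s t : ℂ) • y t) ≠ 0 :=
    ⟨Nat.find hex, Nat.find_spec hex, fun _ => Nat.find_min hex⟩
  have hzero : ∀ w : List ι, w.length < T → ∀ s : ι → ℕ, (∀ t, s t < m) →
      expPoly L δ (wordOp L δ w vC) (∑ t, (s t : ℂ) • y t) = 0 := fun w hw s hs => by
    by_contra hne
    exact hmin _ hw ⟨w, rfl, s, hs, hne⟩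
  have hnT : n ≤ T := by
    by_contra hlt
    have := hval w s hs
    rw [hvn w (by omega) s hs, map_zero] at this
    exact mul_ne_zero (pow_ne_zero _ hDC) hws this.symm
  set x := gridValue η α (D : 𝓞 K) E s (wordOp LK δ w v) with hx
  have hx0 : x ≠ 0 := fun h0 => by
    have := hval w s hs
    rw [← hx, h0, map_zero] at this
    exact mul_ne_zero (pow_ne_zero _ hDC) hws this.symm
  -- numerical bounds
  have hNn : N ≤ n := hn ▸ Nat.le_self_pow (Nat.succ_ne_zero r) N
  have hT0 : 0 < T := by omega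
  have hT1 : (1 : ℝ) ≤ T := by exact_mod_cast hT0
  set ℓ := Real.log T with hℓ
  have hℓ0 : 0 ≤ ℓ := Real.log_nonneg hT1
  have hTexp : (T : ℝ) = Real.exp ℓ := (Real.exp_log (by linarith)).symm
  have hqT : (q : ℝ) ≤ 2 * m * T := by
    have : q ≤ 2 * m * T := hq ▸ Nat.mul_le_mul_left _
      ((Nat.pow_le_pow_right hN0 (Nat.le_succ r)).trans (hn ▸ hnT))
    exact_mod_cast this
  have hlM0 : 0 ≤ lM := hlM ▸ Real.log_nonneg hM1
  have hlH' : 0 ≤ Real.log H' := Real.log_nonneg (hH1.trans hHH')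
  have hlQ0 : 0 ≤ lQ := by rw [hlQ]; positivity
  have hlH0 : 0 ≤ lH := by rw [hlH]; positivity
  have hC0 : 0 ≤ Real.log C := Real.log_nonneg hC
  have hlQT : (Fintype.card (Idx A g q) : ℝ) ≤ Real.exp (lQ * T) := by
    rw [hcardI, Nat.cast_pow]
    refine (pow_le_pow_left₀ (Nat.cast_nonneg q) ((le_add_of_nonneg_right zero_le_one).trans
      (Real.add_one_le_exp (q : ℝ))) _).trans ?_
    rw [← Real.exp_nat_mul, Real.exp_le_exp, hlQ, mul_assoc]
    exact mul_le_mul_of_nonneg_left hqT (Nat.cast_nonneg _)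
  have hHE : H' ^ E ≤ Real.exp (lH * T) := by
    rw [← Real.exp_log (show 0 < H' ^ E from pow_pos (by linarith) E), Real.exp_le_exp,
      Real.log_pow, hlH]
    calc (E : ℝ) * Real.log H' = ((1 + g * r * m : ℕ) : ℝ) * q * Real.log H' := by
          rw [hE, gridExp]; push_cast; ring
      _ ≤ ((1 + g * r * m : ℕ) : ℝ) * (2 * m * T) * Real.log H' := by gcongr
      _ = _ := by ring
  have hMpow : ∀ k j : ℕ, k ≤ j * T →
      ((g * H + Δ + 1) * q) ^ k ≤ Real.exp ((j : ℝ) * (lM * T + T * ℓ)) := fun k j hkj => by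
    have hb : (g * H + Δ + 1) * (q : ℝ) ≤ Real.exp (lM + ℓ) := by
      rw [Real.exp_add, hlM, Real.exp_log (by linarith), ← hTexp, hMdef, mul_assoc]
      exact mul_le_mul_of_nonneg_left hqT (by positivity)
    refine (pow_le_pow_left₀ (by positivity) hb _).trans ?_
    rw [← Real.exp_nat_mul, Real.exp_le_exp,
      show (j : ℝ) * (lM * T + T * ℓ) = ((j * T : ℕ) : ℝ) * (lM + ℓ) by push_cast; ring]
    exact mul_le_mul_of_nonneg_right (by exact_mod_cast hkj) (by linarith)
  set V := C * (Fintype.card (Idx A g q) : ℝ) ^ 2 *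
    (((g * H + Δ + 1) * q) ^ (r * n) * H' ^ E) with hV
  clear_value V
  have hV0 : 0 ≤ V := by
    rw [hV]
    exact mul_nonneg (mul_nonneg (by linarith) (sq_nonneg _))
      (mul_nonneg (pow_nonneg (mul_nonneg (by linarith) (Nat.cast_nonneg q)) _)
        (pow_nonneg (by linarith) _))
  have hVle : V ≤ Real.exp (Cv * T + r * (T * ℓ)) := by
    have hCle : C ≤ Real.exp (Real.log C * T) := by
      conv_lhs => rw [← Real.exp_log (show 0 < C by linarith)]
      exact Real.exp_le_exp.mpr (le_mul_of_one_le_right hC0 hT1)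
    calc V ≤ Real.exp (Real.log C * T) * Real.exp (lQ * T) ^ 2 *
          (Real.exp ((r : ℝ) * (lM * T + T * ℓ)) * Real.exp (lH * T)) := by
          rw [hV]
          exact mul_le_mul (mul_le_mul hCle (pow_le_pow_left₀ (Nat.cast_nonneg _) hlQT 2)
            (sq_nonneg _) (Real.exp_pos _).le)
            (mul_le_mul (hMpow _ r (Nat.mul_le_mul_left r hnT)) hHE
              (pow_nonneg (by linarith) _) (Real.exp_pos _).le)
            (mul_nonneg (pow_nonneg (mul_nonneg (by linarith) (Nat.cast_nonneg q)) _)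
              (pow_nonneg (by linarith) _))
            (mul_nonneg (Real.exp_pos _).le (sq_nonneg _))
      _ = _ := by
          simp only [← Real.exp_nat_mul, ← Real.exp_add, hCv]; push_cast; ring_nf
  have hWle : ((g * H + Δ + 1) * q) ^ T * V ≤
      Real.exp ((lM + Cv) * T + (r + 1 : ℕ) * (T * ℓ)) := by
    calc _ ≤ Real.exp (((1 : ℕ) : ℝ) * (lM * T + T * ℓ)) * Real.exp (Cv * T + r * (T * ℓ)) :=
          mul_le_mul (hMpow _ 1 (by omega)) hVle hV0 (Real.exp_pos _).le
      _ = _ := by rw [← Real.exp_add]; push_cast; ring_nf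
  -- above
  have hhouse : house (x : K) ≤ Real.exp (Cg * T + (r + 1 : ℕ) * (T * ℓ)) := by
    have hb := house_gridWord_le (δ := δ) hH1 hV0 hAq (by linarith : (0 : ℝ) ≤ H) hHη hHα
      hDh hHL hs hvV w
    rw [hwT, ← hr, ← hΔ, ← hH', ← hE, ← hx] at hb
    refine hb.trans ?_
    calc (Fintype.card (Idx A g q) : ℝ) * (((g * H + Δ + 1) * q) ^ T * V * H' ^ E)
        ≤ Real.exp (lQ * T) * (Real.exp ((lM + Cv) * T + (r + 1 : ℕ) * (T * ℓ)) *
          Real.exp (lH * T)) :=
          mul_le_mul hlQT (mul_le_mul hWle hHE (pow_nonneg (by linarith) _) (Real.exp_pos _).le)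
            (mul_nonneg (mul_nonneg (pow_nonneg (mul_nonneg (by linarith) (Nat.cast_nonneg q)) _)
              hV0) (pow_nonneg (by linarith) _)) (Real.exp_pos _).le
      _ = _ := by simp only [← Real.exp_add, hCg]; ring_nf
  -- the grid
  set R := Real.exp (ℓ / (r + 1 : ℕ)) with hR
  have hR1 : 1 ≤ R := Real.one_le_exp (by positivity)
  have hRpow : R ^ (r + 1) = T := by
    rw [hR, ← Real.exp_nat_mul, mul_div_cancel₀ _ (by positivity), ← hTexp]
  have hRN : (N : ℝ) ≤ R := by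
    refine le_of_pow_le_pow_left₀ (Nat.succ_ne_zero r) (by positivity) ?_
    rw [hRpow]
    exact_mod_cast hn ▸ hnT
  have hqR : (q : ℝ) * R ≤ 2 * m * T := by
    rw [← hRpow, pow_succ]
    calc (q : ℝ) * R = 2 * m * ((N : ℝ) ^ r * R) := by rw [hq]; push_cast; ring
      _ ≤ 2 * m * (R ^ r * R) := by gcongr
  set B := Real.exp (Cb * T + (r + 1 : ℕ) * (T * ℓ)) with hB
  have hbound : ∀ w : List ι, w.length ≤ T → ∀ c : ι → ℂ, (∀ t, ‖c t‖ ≤ R) →
      ‖expPoly L δ (wordOp L δ w vC) (∑ t, c t • y t)‖ ≤ B := fun w hw c hc => by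
    have hvw : ∀ p, ‖wordOp L δ w vC p‖ ≤ ((g * H + Δ + 1) * q) ^ T * V := fun p => by
      have e : wordOp L δ w vC p = ψ ((wordOp LK δ w v p : 𝓞 K) : K) := by
        have := congrFun (map_wordOp LK δ emb w v) p
        rw [hφL] at this
        exact this.symm
      rw [e]
      have hwp := house_wordOp_le (δ := δ) (by linarith) hV0 hAq hHL hvV w p
      rw [← hΔ] at hwp
      refine (norm_embedding_le_house _ ψ).trans (hwp.trans (mul_le_mul_of_nonneg_right
        (pow_le_pow_right₀ ?_ hw) hV0))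
      exact one_le_mul_of_one_le_of_one_le hgH
        (by exact_mod_cast hq0)
    have hz : ∀ σ, ‖(∑ t, c t • y t) σ‖ ≤ R * Y := fun σ => by
      simp only [Finset.sum_apply, Pi.smul_apply, smul_eq_mul]
      refine (norm_sum_le _ _).trans ?_
      calc ∑ t, ‖c t * y t σ‖ ≤ ∑ t, R * ∑ τ, ‖y t τ‖ := Finset.sum_le_sum fun t _ => by
            rw [norm_mul]
            exact mul_le_mul (hc t) (Finset.single_le_sum (f := fun τ => ‖y t τ‖)
              (fun τ _ => norm_nonneg _) (Finset.mem_univ σ)) (norm_nonneg _) (by linarith)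
        _ ≤ R * Y := by
            rw [← Finset.mul_sum]
            exact mul_le_mul_of_nonneg_left (hYdef ▸ le_add_of_nonneg_left zero_le_one)
              (by linarith)
    have hLn : ∀ i σ, ‖L i σ‖ ≤ H := fun i σ => by
      rw [← hL]; exact (norm_embedding_le_house _ ψ).trans (hHL i σ)
    refine (norm_expPoly_le (by linarith) (by positivity) (by positivity) hAq hLn hvw hz).trans ?_
    rw [← hr, ← hΔ]
    calc (Fintype.card (Idx A g q) : ℝ) * (((g * H + Δ + 1) * q) ^ T * V *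
          Real.exp (q * (Δ * (R * Y) + r * (g * H * (R * Y)))))
        ≤ Real.exp (lQ * T) * (Real.exp ((lM + Cv) * T + (r + 1 : ℕ) * (T * ℓ)) *
          Real.exp (2 * m * T * (Y * (Δ + r * (g * H))))) := by
          refine mul_le_mul hlQT (mul_le_mul hWle (Real.exp_le_exp.mpr ?_) (Real.exp_pos _).le
            (Real.exp_pos _).le) (mul_nonneg (mul_nonneg
              (pow_nonneg (mul_nonneg (by linarith) (Nat.cast_nonneg q)) _) hV0)
              (Real.exp_pos _).le) (Real.exp_pos _).le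
          calc (q : ℝ) * (Δ * (R * Y) + r * (g * H * (R * Y))) =
              q * R * (Y * (Δ + r * (g * H))) := by ring
            _ ≤ _ := mul_le_mul_of_nonneg_right hqR (mul_nonneg (by linarith)
              (add_nonneg (hΔ ▸ Nat.cast_nonneg _) (mul_nonneg (Nat.cast_nonneg r)
                (mul_nonneg (Nat.cast_nonneg g) (by linarith)))))
      _ = B := by simp only [hB, ← Real.exp_add, hCb]; ring_nf
  -- extrapolation
  obtain ⟨T', hT'⟩ : ∃ T', T' = T / (r + 1) := ⟨_, rfl⟩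
  have hT'1 : 1 ≤ T' := hT' ▸ Nat.div_pos (by omega) (Nat.succ_pos r)
  have hT'mul : T' * (r + 1) ≤ T := hT' ▸ Nat.div_mul_le_self T (r + 1)
  have hT'low : T ≤ T' * (r + 1) + r := by
    have h1 := Nat.div_add_mod T (r + 1)
    have h2 := Nat.mod_lt T (Nat.succ_pos r)
    rw [← hT'] at h1
    linarith
  have hρR : ρ + 2 * m + 1 ≤ R := hN2.trans hRN
  have hgrid := norm_expPoly_grid_le L δ y (m := m) (T := T) (T' := T') hρ hT'1 hY1 hys hCs hρR
    (Real.exp_pos _).le hschwarz hzero hbound Finset.univ [] (by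
      simp only [List.length_nil, Finset.card_univ, zero_add, ← hr]
      linarith)
  set ε := ((2 * Cs * Y) ^ T' * R ^ (2 * T')) ^ r * (B / R ^ (m * T')) with hε
  have hball : ∀ z : ι → ℂ, (∀ σ, ‖z σ - (∑ t, (s t : ℂ) • y t) σ‖ ≤ 1) →
      ‖expPoly L δ vC z‖ ≤ ε := fun z hz => by
    set a := ∑ t, (s t : ℂ) • y t with ha
    have hba : ∀ t, bY.repr a t = (s t : ℂ) := fun t => by
      have hby : ∀ t, y t = bY t := fun t => by
        rw [hbY, coe_basisOfLinearIndependentOfCardEqFinrank]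
      simp only [ha, hby]
      rw [Basis.repr_sum_self]
    have hc : ∀ t, ‖bY.repr z t‖ ≤ ρ := fun t => by
      have hd : bY.repr z t = (s t : ℂ) + bY.repr (z - a) t := by
        rw [map_sub, Finsupp.sub_apply, hba]; ring
      rw [hd, hρdef]
      refine (norm_add_le _ _).trans (add_le_add ?_ ?_)
      · rw [Complex.norm_natCast]; exact_mod_cast (hs t).le
      · conv_lhs => rw [pi_eq_sum_univ' (z - a), map_sum, Finsupp.finsetSum_apply]
        refine (norm_sum_le _ _).trans ((Finset.sum_le_sum fun σ _ => ?_).trans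
          (Finset.single_le_sum (f := fun t => ∑ σ, ‖bY.repr (Pi.single σ 1) t‖)
            (fun t _ => Finset.sum_nonneg fun σ _ => norm_nonneg _) (Finset.mem_univ t)))
        rw [map_smul, Finsupp.smul_apply, norm_smul]
        exact mul_le_of_le_one_left (norm_nonneg _) (hz σ)
    have := hgrid (fun t => bY.repr z t) (fun t _ => hc t) (by simp)
    rw [wordOp_nil, Module.End.one_apply, Finset.card_univ, ← hr] at this
    rwa [show ∑ t, bY.repr z t • y t = z by
      conv_rhs => rw [← bY.sum_repr z]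
      rw [hbY, coe_basisOfLinearIndependentOfCardEqFinrank]] at this
  have hword := norm_expPoly_word_le L δ hT0 _ hball w hwT.le (∑ t, (s t : ℂ) • y t)
    fun σ => by rw [sub_self, norm_zero, hwT, div_self (by positivity), sub_self]
  -- the product formula
  have hεle : ε ≤ Real.exp (lK * T + Cb * T + (r + 1 : ℕ) * (T * ℓ) -
      ((k₀ + 1 : ℕ) : ℝ) * (T * ℓ)) := by
    have hKpow : ((2 * Cs * Y) ^ T') ^ r ≤ Real.exp (lK * T) := by
      rw [← pow_mul, ← Real.exp_log (show 0 < (2 * Cs * Y) ^ (T' * r) from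
        pow_pos (mul_pos (by linarith) (by linarith)) _),
        Real.exp_le_exp, Real.log_pow, hlK]
      have : (T' : ℝ) ≤ T := Nat.cast_le.mpr (hT' ▸ Nat.div_le_self T (r + 1))
      have hl : 0 ≤ Real.log (2 * Cs * Y) :=
        Real.log_nonneg (one_le_mul_of_one_le_of_one_le (by linarith) hY1)
      push_cast
      linarith [mul_le_mul_of_nonneg_left this (mul_nonneg (Nat.cast_nonneg (α := ℝ) r) hl)]
    have hsave : ((k₀ + 1 : ℕ) : ℝ) * (T * ℓ) ≤
        ((m * T' : ℕ) : ℝ) * (ℓ / (r + 1 : ℕ)) - ((2 * T' * r : ℕ) : ℝ) * (ℓ / (r + 1 : ℕ)) := by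
      have h2 : (k₀ + 1) * T * (r + 1) + 2 * T' * r ≤ m * T' := by
        have : T ≤ 2 * (r + 1) * T' := by
          linarith [Nat.le_mul_of_pos_left (r + 1) hT'1]
        calc (k₀ + 1) * T * (r + 1) + 2 * T' * r
            ≤ (k₀ + 1) * (2 * (r + 1) * T') * (r + 1) + 2 * T' * r :=
              Nat.add_le_add_right (Nat.mul_le_mul_right _ (Nat.mul_le_mul_left _ this)) _
          _ = m * T' := by rw [hm]; ring
      rw [← sub_mul, ← mul_div_assoc, le_div_iff₀ (by positivity)]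
      have h3 : (((k₀ + 1) * T * (r + 1) + 2 * T' * r : ℕ) : ℝ) ≤ ((m * T' : ℕ) : ℝ) :=
        Nat.cast_le.mpr h2
      push_cast at h3 ⊢
      linarith [mul_le_mul_of_nonneg_right h3 hℓ0]
    calc ε = ((2 * Cs * Y) ^ T') ^ r * (Real.exp (((2 * T' * r : ℕ) : ℝ) * (ℓ / (r + 1 : ℕ))) *
          (B / Real.exp (((m * T' : ℕ) : ℝ) * (ℓ / (r + 1 : ℕ))))) := by
          rw [Real.exp_nat_mul, Real.exp_nat_mul, ← hR, pow_mul, hε, mul_pow, mul_assoc]
      _ ≤ Real.exp (lK * T) * (Real.exp (((2 * T' * r : ℕ) : ℝ) * (ℓ / (r + 1 : ℕ))) *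
          (B / Real.exp (((m * T' : ℕ) : ℝ) * (ℓ / (r + 1 : ℕ))))) :=
          mul_le_mul_of_nonneg_right hKpow (by positivity)
      _ ≤ _ := by
          rw [hB, ← Real.exp_sub, ← Real.exp_add, ← Real.exp_add, Real.exp_le_exp]
          linarith
  have hnorm : ‖ψ (x : K)‖ ≤ Real.exp (lH * T + T * ℓ + (lK * T + Cb * T +
      (r + 1 : ℕ) * (T * ℓ) - ((k₀ + 1 : ℕ) : ℝ) * (T * ℓ))) := by
    rw [show ψ (x : K) = emb x from rfl, hx, hval w s hs, norm_mul, norm_pow, Complex.norm_intCast,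
      Real.exp_add, Real.exp_add, mul_assoc]
    refine mul_le_mul ((pow_le_pow_left₀ (abs_nonneg _) (hHD.trans hHH') E).trans hHE) ?_
      (norm_nonneg _) (Real.exp_pos _).le
    refine hword.trans ?_
    rw [hwT, Real.exp_nat_mul, ← hTexp]
    exact mul_le_mul_of_nonneg_left hεle (pow_nonneg (Nat.cast_nonneg T) _)
  have hfinal := GelfondSchneider.one_le_norm_mul_house_pow hx0 ψ
  rw [← hh] at hfinal
  have hCg0 : 0 ≤ Cg * T + (r + 1 : ℕ) * (T * ℓ) :=
    add_nonneg (mul_nonneg (by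
      rw [hCg, hCv]
      linarith [mul_nonneg (Nat.cast_nonneg (α := ℝ) r) hlM0]) (Nat.cast_nonneg T))
      (mul_nonneg (Nat.cast_nonneg _) (mul_nonneg (Nat.cast_nonneg T) hℓ0))
  have h1 : (1 : ℝ) ≤ Real.exp (Cf * T - T * ℓ) := by
    refine hfinal.trans ((mul_le_mul hnorm ((pow_le_pow_left₀ (house_nonneg _) hhouse _).trans
      (pow_le_pow_right₀ (Real.one_le_exp hCg0) (Nat.sub_le h 1)))
      (pow_nonneg (house_nonneg _) _) (Real.exp_pos _).le).trans_eq ?_)
    rw [← Real.exp_nat_mul, ← Real.exp_add, hCf, hk₀]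
    push_cast
    ring_nf
  have hℓle : ℓ ≤ Cf := by
    rw [Real.one_le_exp_iff] at h1
    refine le_of_mul_le_mul_left ?_ (lt_of_lt_of_le one_pos hT1)
    linarith
  have : (N : ℝ) ≤ Real.exp Cf := by
    refine le_trans ?_ (Real.exp_le_exp.mpr hℓle)
    rw [← hTexp]
    exact Nat.cast_le.mpr (hNn.trans hnT)
  linarith

/-- **The criterion.** -/
theorem criterion {ι : Type} [Fintype ι] [Nonempty ι] {g e : ℕ} (L : Fin g → ι → ℂ) (δ : ι → ℕ)
    (y : ι → ι → ℂ) (hy : LinearIndependent ℂ y) (hL : ∀ i σ, IsIntegral ℤ (L i σ))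
    (hη : ∀ t, IsAlgebraic ℚ (∑ σ, (δ σ : ℂ) * y t σ))
    (hα : ∀ i t, IsAlgebraic ℚ (Complex.exp (∑ σ, L i σ * y t σ)))
    (hind : ∀ c : Fin g → ℤ, (∀ σ, ∑ i, (c i : ℂ) * L i σ = 0) → c = 0)
    (he : g + e = Fintype.card ι + 1) (he1 : e ≤ 1) (hδ : e = 1 → ∃ σ, δ σ ≠ 0) : False := by
  classical
  set η₀ := fun t => ∑ σ, (δ σ : ℂ) * y t σ
  set α₀ := fun i t => Complex.exp (∑ σ, L i σ * y t σ)
  set S : Set ℂ := Set.range (fun p : Fin g × ι => L p.1 p.2) ∪ Set.range η₀ ∪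
    Set.range (fun p : Fin g × ι => α₀ p.1 p.2)
  have hSfin : S.Finite :=
    ((Set.finite_range _).union (Set.finite_range _)).union (Set.finite_range _)
  have hSalg : ∀ x ∈ S, IsIntegral ℚ x := by
    rintro x ((⟨p, rfl⟩ | ⟨t, rfl⟩) | ⟨p, rfl⟩)
    · exact (hL p.1 p.2).tower_top
    · exact (hη t).isIntegral
    · exact (hα p.1 p.2).isIntegral
  haveI : Finite S := hSfin.to_subtype
  set K := IntermediateField.adjoin ℚ S
  haveI : FiniteDimensional ℚ K := IntermediateField.finiteDimensional_adjoin hSalg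
  haveI : NumberField K := ⟨⟩
  haveI : Algebra.IsAlgebraic ℤ K :=
    (IsFractionRing.comap_isAlgebraic_iff (A := ℤ) (K := ℚ) (C := K)).2 inferInstance
  set ψ : K →+* ℂ := algebraMap K ℂ
  set ηK : ι → K := fun t => ⟨η₀ t, IntermediateField.subset_adjoin _ _ (Or.inl (Or.inr ⟨t, rfl⟩))⟩
  set αK : Fin g → ι → K := fun i t =>
    ⟨α₀ i t, IntermediateField.subset_adjoin _ _ (Or.inr ⟨(i, t), rfl⟩)⟩
  obtain ⟨D, hD, hint⟩ := Algebra.IsAlgebraic.exists_integral_multiples ℤ
    (Finset.univ.image ηK ∪ Finset.univ.image fun p : Fin g × ι => αK p.1 p.2)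
  have hint' : ∀ x : K, x ∈ Finset.univ.image ηK ∪
      Finset.univ.image (fun p : Fin g × ι => αK p.1 p.2) → IsIntegral ℤ ((D : K) * x) :=
    fun x hx => by simpa [zsmul_eq_mul] using hint x hx
  refine false_of_field ψ L δ y hy hind he he1 hδ D hD
    (fun t => ⟨(D : K) * ηK t, hint' _ (by simp)⟩)
    (fun i t => ⟨(D : K) * αK i t, hint' _ (by simp)⟩)
    (fun i σ => ⟨⟨L i σ, IntermediateField.subset_adjoin _ _ (Or.inl (Or.inl ⟨(i, σ), rfl⟩))⟩,
      (isIntegral_algHom_iff ψ.toIntAlgHom ψ.injective).mp (hL i σ)⟩)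
    (fun t => ?_) (fun i t => ?_) (fun i σ => rfl)
  · show ψ ((D : K) * ηK t) = _
    rw [map_mul, map_intCast]; rfl
  · show ψ ((D : K) * αK i t) = _
    rw [map_mul, map_intCast]; rfl

end FA.BakerTheorem

end
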