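import Fermat.Agent.Transcendence.SchneiderLangAnalysis

/-!
# An approximate Schwarz lemma

If the first `T` derivatives of an entire function are small at `0, …, m - 1`, it differs from an
explicit interpolant by `∏ (z - l) ^ T` times an entire function, so it is small on a disc, up to
`B / R ^ (m T)`.
-/

set_option autoImplicit false

noncomputable section

namespace FA.BakerTheorem

open Metric
open scoped Nat Topology

/-- The Taylor polynomial of degree `< T` at `c`. -/
def taylorPoly (g : ℂ → ℂ) (c : ℂ) (T : ℕ) (z : ℂ) : ℂ :=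
  ∑ a ∈ Finset.range T, iteratedDeriv a g c / a ! * (z - c) ^ a

theorem differentiable_taylorPoly (g : ℂ → ℂ) (c : ℂ) (T : ℕ) :
    Differentiable ℂ (taylorPoly g c T) := by
  unfold taylorPoly
  fun_prop

theorem iteratedDeriv_taylorPoly (g : ℂ → ℂ) (c : ℂ) {T k : ℕ} (hk : k < T) :
    iteratedDeriv k (taylorPoly g c T) c = iteratedDeriv k g c := by
  unfold taylorPoly
  rw [iteratedDeriv_fun_sum fun a _ => by fun_prop, Finset.sum_eq_single k]
  · rw [iteratedDeriv_const_mul_field, iteratedDeriv_comp_sub_const (f := (· ^ k))]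
    simp only [sub_self, iteratedDeriv_fun_pow_zero, if_pos]
    exact div_mul_cancel₀ _ (Nat.cast_ne_zero.mpr (Nat.factorial_ne_zero k))
  · intro a _ hne
    rw [iteratedDeriv_const_mul_field, iteratedDeriv_comp_sub_const (f := (· ^ a))]
    simp only [sub_self]
    rw [iteratedDeriv_fun_pow_zero, if_neg (Ne.symm hne), Nat.cast_zero, mul_zero]
  · exact fun h => absurd (Finset.mem_range.mpr hk) h

theorem order_sub_taylorPoly {g : ℂ → ℂ} {c : ℂ} (hg : AnalyticAt ℂ g c) (T : ℕ) :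
    (T : ℕ∞) ≤ analyticOrderAt (fun z => g z - taylorPoly g c T z) c := by
  have hp : AnalyticAt ℂ (taylorPoly g c T) c := (differentiable_taylorPoly g c T).analyticAt c
  refine (natCast_le_analyticOrderAt_iff_iteratedDeriv_eq_zero (hg.sub hp)).mpr fun i hi => ?_
  rw [iteratedDeriv_sub hg.contDiffAt hp.contDiffAt, iteratedDeriv_taylorPoly g c hi, sub_self]

theorem norm_taylorPoly_le {g : ℂ → ℂ} {c z : ℂ} {T : ℕ} {ε a S : ℝ} (hε : 0 ≤ ε) (ha : 1 ≤ a)
    (hS : 1 ≤ S) (h : ∀ k < T, ‖iteratedDeriv k g c‖ ≤ k ! * (ε * a ^ k)) (hz : ‖z - c‖ ≤ S) :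
    ‖taylorPoly g c T z‖ ≤ ε * (2 * a * S) ^ T := by
  refine (norm_sum_le _ _).trans ((Finset.sum_le_card_nsmul _ _ (ε * (a * S) ^ T)
    fun k hk => ?_).trans ?_)
  · have hk' := Finset.mem_range.mp hk
    rw [norm_mul, norm_pow, norm_div, Complex.norm_natCast]
    have h1 : ‖iteratedDeriv k g c‖ / k ! ≤ ε * a ^ k := by
      rw [div_le_iff₀ (Nat.cast_pos.mpr k.factorial_pos), mul_comm]
      exact h k hk'
    refine (mul_le_mul h1 (pow_le_pow_left₀ (norm_nonneg _) hz k) (by positivity)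
      (by positivity)).trans ?_
    rw [mul_assoc, ← mul_pow]
    exact mul_le_mul_of_nonneg_left
      (pow_le_pow_right₀ (one_le_mul_of_one_le_of_one_le ha hS) hk'.le) hε
  · rw [Finset.card_range, nsmul_eq_mul, mul_left_comm, mul_assoc 2 a S, mul_pow (2 : ℝ)]
    gcongr
    exact_mod_cast Nat.lt_two_pow_self.le

/-- The other nodes. -/
def nodeProd (m l T : ℕ) (z : ℂ) : ℂ := ∏ x ∈ (Finset.range m).erase l, (z - (x : ℂ)) ^ T

theorem nodeProd_ne_zero {m l T : ℕ} {z : ℂ} (hz : ‖z - l‖ < 1 / 2) : nodeProd m l T z ≠ 0 := by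
  refine Finset.prod_ne_zero_iff.mpr fun x hx => pow_ne_zero _ fun e => ?_
  obtain ⟨hxl, -⟩ := Finset.mem_erase.mp hx
  rw [sub_eq_zero.mp e] at hz
  have h0 : (1 : ℤ) ≤ |(x : ℤ) - l| := Int.one_le_abs (sub_ne_zero.mpr (by exact_mod_cast hxl))
  have h1 : (1 : ℝ) ≤ ‖((x : ℤ) - l : ℤ)‖ := by
    rw [Int.norm_eq_abs, ← Int.cast_abs]
    exact_mod_cast h0
  rw [show (x : ℂ) - l = (((x : ℤ) - l : ℤ) : ℂ) by push_cast; ring, Complex.norm_intCast] at hz
  rw [Int.norm_eq_abs] at h1
  linarith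

theorem norm_inv_nodeProd_le {m l T : ℕ} {z : ℂ} (hz : ‖z - l‖ ≤ 1 / 4) :
    ‖(nodeProd m l T z)⁻¹‖ ≤ 2 ^ (m * T) := by
  rw [norm_inv, nodeProd, norm_prod, ← Finset.prod_inv_distrib, mul_comm, pow_mul]
  refine le_trans ((Finset.prod_le_prod (g := fun _ => (2 : ℝ) ^ T) (fun x _ => by positivity)
    fun x hx => ?_).trans_eq (Finset.prod_const _))
    (pow_le_pow_right₀ (one_le_pow₀ one_le_two)
      ((Finset.card_erase_le).trans (Finset.card_range m).le))
  rw [norm_pow, ← inv_pow]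
  obtain ⟨hxl, -⟩ := Finset.mem_erase.mp hx
  refine pow_le_pow_left₀ (by positivity) ?_ T
  have h1 : (1 : ℝ) ≤ ‖((l : ℂ) - x)‖ := by
    rw [show (l : ℂ) - x = (((l : ℤ) - x : ℤ) : ℂ) by push_cast; ring, Complex.norm_intCast]
    have h0 : (1 : ℤ) ≤ |(l : ℤ) - x| :=
      Int.one_le_abs (sub_ne_zero.mpr (by exact_mod_cast Ne.symm hxl))
    rw [← Int.cast_abs]
    exact_mod_cast h0
  have h2 : (1 / 2 : ℝ) ≤ ‖z - x‖ := by
    have := norm_sub_le_norm_sub_add_norm_sub (l : ℂ) z (x : ℂ)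
    rw [norm_sub_rev (l : ℂ) z] at this
    linarith
  rw [inv_le_comm₀ (by linarith) two_pos]
  linarith

theorem norm_nodeProd_le {m l T : ℕ} {z : ℂ} {S : ℝ} (hz : ‖z‖ + m ≤ S)
    (hl : l < m) : ‖nodeProd m l T z‖ ≤ S ^ ((m - 1) * T) := by
  rw [nodeProd, norm_prod, mul_comm, pow_mul]
  refine ((Finset.prod_le_prod (g := fun _ => S ^ T) (fun x _ => by positivity)
    fun x hx => ?_).trans_eq (Finset.prod_const _)).trans_eq ?_
  · rw [norm_pow]
    refine pow_le_pow_left₀ (norm_nonneg _) ?_ T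
    have hx' : (x : ℝ) ≤ m := by
      exact_mod_cast (Finset.mem_range.mp (Finset.mem_of_mem_erase hx)).le
    refine (norm_sub_le _ _).trans ?_
    rw [Complex.norm_natCast]
    linarith
  · rw [Finset.card_erase_of_mem (Finset.mem_range.mpr hl), Finset.card_range]

/-- The interpolant. -/
def interpolant (f : ℂ → ℂ) (m T : ℕ) (z : ℂ) : ℂ :=
  ∑ l ∈ Finset.range m, nodeProd m l T z *
    (taylorPoly f l T z * taylorPoly (fun w => (nodeProd m l T w)⁻¹) l T z)

theorem differentiable_nodeProd (m l T : ℕ) : Differentiable ℂ (nodeProd m l T) := by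
  unfold nodeProd
  fun_prop

theorem differentiable_interpolant (f : ℂ → ℂ) (m T : ℕ) :
    Differentiable ℂ (interpolant f m T) := by
  have h := fun l => (differentiable_nodeProd m l T).mul
    ((differentiable_taylorPoly f (l : ℂ) T).mul
    (differentiable_taylorPoly (fun w => (nodeProd m l T w)⁻¹) (l : ℂ) T))
  exact Differentiable.fun_sum fun l _ => h l

theorem order_sub_interpolant {f : ℂ → ℂ} (hf : Differentiable ℂ f) {m T l : ℕ} (hl : l < m) :
    (T : ℕ∞) ≤ analyticOrderAt (fun z => f z - interpolant f m T z) (l : ℂ) := by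
  classical
  set P := nodeProd m l T
  set Ef := taylorPoly f (l : ℂ) T
  set G := taylorPoly (fun w => (P w)⁻¹) (l : ℂ) T
  have hP : AnalyticAt ℂ P (l : ℂ) := (differentiable_nodeProd m l T).analyticAt _
  have hP0 : P l ≠ 0 := nodeProd_ne_zero (by simp)
  have hPi : AnalyticAt ℂ (fun w => (P w)⁻¹) (l : ℂ) := hP.inv hP0
  set rest := fun z => ∑ x ∈ (Finset.range m).erase l, nodeProd m x T z *
    (taylorPoly f x T z * taylorPoly (fun w => (nodeProd m x T w)⁻¹) x T z)
  have hrest : (T : ℕ∞) ≤ analyticOrderAt rest (l : ℂ) := by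
    set Q := fun z => ∑ x ∈ (Finset.range m).erase l,
      (∏ y ∈ ((Finset.range m).erase x).erase l, (z - (y : ℂ)) ^ T) *
      (taylorPoly f x T z * taylorPoly (fun w => (nodeProd m x T w)⁻¹) x T z)
    have hQ : Differentiable ℂ Q := Differentiable.fun_sum fun x _ => by
      have h1 := (differentiable_taylorPoly f (x : ℂ) T).mul
        (differentiable_taylorPoly (fun w => (nodeProd m x T w)⁻¹) (x : ℂ) T)
      exact Differentiable.fun_mul (by fun_prop) h1
    refine (natCast_le_analyticOrderAt ?_).mpr ⟨Q, hQ.analyticAt _, Filter.Eventually.of_forall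
      fun z => ?_⟩
    · exact (Differentiable.fun_sum fun x _ => (differentiable_nodeProd m x T).mul
        ((differentiable_taylorPoly f (x : ℂ) T).mul
          (differentiable_taylorPoly (fun w => (nodeProd m x T w)⁻¹) (x : ℂ) T))).analyticAt _
    simp only [rest, Q, smul_eq_mul, Finset.mul_sum]
    refine Finset.sum_congr rfl fun x hx => ?_
    have hlx : l ∈ (Finset.range m).erase x :=
      Finset.mem_erase.mpr ⟨(Finset.mem_erase.mp hx).1.symm, Finset.mem_range.mpr hl⟩
    rw [nodeProd, ← Finset.mul_prod_erase _ _ hlx, mul_assoc]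
  have e : (fun z => f z - interpolant f m T z) =ᶠ[𝓝 (l : ℂ)]
      fun z => ((f z - Ef z) + Ef z * P z * ((P z)⁻¹ - G z)) - rest z := by
    filter_upwards [hP.continuousAt.eventually_ne hP0] with z hz
    have hsplit : interpolant f m T z = P z * (Ef z * G z) + rest z := by
      rw [interpolant, ← Finset.add_sum_erase _ _ (Finset.mem_range.mpr hl)]
    rw [hsplit]
    field_simp
    ring
  rw [analyticOrderAt_congr e]
  have h1 : (T : ℕ∞) ≤ analyticOrderAt (fun z => f z - Ef z) (l : ℂ) :=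
    order_sub_taylorPoly (hf.analyticAt _) T
  have h2 : (T : ℕ∞) ≤ analyticOrderAt (fun z => Ef z * P z * ((P z)⁻¹ - G z)) (l : ℂ) := by
    refine SchneiderLang.le_order_mul ?_ ?_ (order_sub_taylorPoly hPi T)
    · exact ((differentiable_taylorPoly f (l : ℂ) T).mul (differentiable_nodeProd m l T)).analyticAt
        _
    · exact hPi.sub ((differentiable_taylorPoly _ (l : ℂ) T).analyticAt _)
  refine le_trans (le_min ?_ hrest) le_analyticOrderAt_sub
  exact le_trans (le_min h1 h2) le_analyticOrderAt_add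

theorem norm_interpolant_le {f : ℂ → ℂ} {m T : ℕ} {ε S : ℝ} {z : ℂ} (hε : 0 ≤ ε) (hS : 1 ≤ S)
    (hz : ‖z‖ + m ≤ S) (hsmall : ∀ l < m, ∀ k < T, ‖iteratedDeriv k f (l : ℂ)‖ ≤ k ! * ε) :
    ‖interpolant f m T z‖ ≤ ε * (m * (16 * 2 ^ m) ^ T) * S ^ ((m + 1) * T) := by
  refine (norm_sum_le _ _).trans ((Finset.sum_le_card_nsmul _ _
    (ε * (16 * 2 ^ m) ^ T * S ^ ((m + 1) * T)) fun l hl => ?_).trans_eq ?_)
  · have hl' := Finset.mem_range.mp hl
    have hzl : ‖z - l‖ ≤ S := by
      refine (norm_sub_le _ _).trans ?_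
      rw [Complex.norm_natCast]
      linarith [show (l : ℝ) ≤ m by exact_mod_cast hl'.le]
    have h1 := norm_taylorPoly_le (g := f) hε le_rfl hS (T := T)
      (fun k hk => by rw [one_pow, mul_one]; exact hsmall l hl' k hk) hzl
    have h2 := norm_taylorPoly_le (g := fun w => (nodeProd m l T w)⁻¹) (c := (l : ℂ)) (T := T)
      (ε := 2 ^ (m * T)) (a := 4) (by positivity) (by norm_num) hS (fun k _ => ?_) hzl
    · have h0 := norm_nodeProd_le (T := T) hz hl'
      rw [norm_mul, norm_mul]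
      refine (mul_le_mul h0 (mul_le_mul h1 h2 (norm_nonneg _) (by positivity)) (by positivity)
        (by positivity)).trans_eq ?_
      have : (m + 1) * T = (m - 1) * T + T + T := by
        obtain ⟨j, rfl⟩ := Nat.exists_eq_succ_of_ne_zero (show m ≠ 0 by omega)
        rw [Nat.succ_sub_one, Nat.succ_eq_add_one]; ring
      rw [this, pow_add, pow_add, pow_mul]
      simp only [mul_pow, ← pow_mul]
      rw [show (16 : ℝ) ^ T = 2 ^ T * 2 ^ T * 4 ^ T by rw [← mul_pow, ← mul_pow]; norm_num]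
      ring
    · have hd : DiffContOnCl ℂ (fun w => (nodeProd m l T w)⁻¹) (ball (l : ℂ) (1 / 4)) := by
        refine DifferentiableOn.diffContOnCl fun w hw => ?_
        rw [closure_ball _ (by norm_num), mem_closedBall, dist_eq_norm] at hw
        exact ((differentiable_nodeProd m l T w).inv
          (nodeProd_ne_zero (by linarith))).differentiableWithinAt
      refine (Complex.norm_iteratedDeriv_le_of_forall_mem_sphere_norm_le k (by norm_num) hd
        (C := 2 ^ (m * T)) fun w hw => ?_).trans_eq ?_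
      · rw [mem_sphere_iff_norm] at hw
        exact norm_inv_nodeProd_le hw.le
      · rw [one_div_pow, div_div_eq_mul_div, div_one]
        ring
  · rw [Finset.card_range, nsmul_eq_mul]
    ring

/-- **The approximate Schwarz lemma.** -/
theorem exists_schwarz (m : ℕ) {ρ : ℝ} (hρ : 0 ≤ ρ) :
    ∃ C : ℝ, 1 ≤ C ∧ ∀ f : ℂ → ℂ, Differentiable ℂ f → ∀ (T : ℕ) (R ε B : ℝ),
      ρ + 2 * m + 1 ≤ R → 0 ≤ ε →
      (∀ l < m, ∀ k < T, ‖iteratedDeriv k f (l : ℂ)‖ ≤ k ! * ε) →
      (∀ z : ℂ, ‖z‖ ≤ R → ‖f z‖ ≤ B) →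
      ∀ x : ℂ, ‖x‖ ≤ ρ → ‖f x‖ ≤ C ^ T * (ε * R ^ (2 * T) + B / R ^ (m * T)) := by
  classical
  set S₀ := ρ + m + 1
  have hS₀ : 1 ≤ S₀ := by simp only [S₀]; linarith [Nat.cast_nonneg (α := ℝ) m]
  set M := 16 * (2 : ℝ) ^ m * 2 ^ m
  have hM : 1 ≤ M := by
    have h2 : (1 : ℝ) ≤ 2 ^ m := one_le_pow₀ one_le_two
    simp only [M]; exact one_le_mul_of_one_le_of_one_le (by linarith) h2
  refine ⟨3 * M * (2 * S₀) ^ (m + 1) * 2 ^ (m + 1),
    one_le_mul_of_one_le_of_one_le (one_le_mul_of_one_le_of_one_le (by linarith)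
      (one_le_pow₀ (by linarith))) (one_le_pow₀ one_le_two),
    fun f hf T R ε B hR hε hsmall hB x hx => ?_⟩
  have hm0 : (0 : ℝ) ≤ m := Nat.cast_nonneg m
  have hR1 : 1 ≤ R := by linarith
  have hB0 : 0 ≤ B := (norm_nonneg _).trans (hB 0 (by rw [norm_zero]; linarith))
  -- the quotient
  have hg : Differentiable ℂ (fun z => f z - interpolant f m T z) :=
    hf.sub (differentiable_interpolant f m T)
  obtain ⟨G, hG, hfac⟩ := GelfondSchneider.exists_factor
    ((Finset.range m).image (Nat.cast : ℕ → ℂ)) hg (r := T) fun a ha => by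
      obtain ⟨l, hl, rfl⟩ := Finset.mem_image.mp ha
      exact order_sub_interpolant hf (Finset.mem_range.mp hl)
  simp only [Finset.prod_image Nat.cast_injective.injOn] at hfac
  set I := fun S : ℝ => ε * (m * (16 * 2 ^ m) ^ T) * S ^ ((m + 1) * T)
  have hI : ∀ S, 1 ≤ S → 0 ≤ I S := fun S hS => by
    have : 0 ≤ S := by linarith
    positivity
  have hGb : ‖G x‖ ≤ (B + I (2 * R)) * (2 / R) ^ (m * T) := by
    refine Complex.norm_le_of_forall_mem_frontier_norm_le (U := ball (0 : ℂ) R) isBounded_ball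
      hG.diffContOnCl (fun w hw => ?_) ?_
    · rw [frontier_ball _ (by linarith : R ≠ 0), mem_sphere_zero_iff_norm] at hw
      have hP : (R / 2) ^ (m * T) ≤ ‖∏ l ∈ Finset.range m, (w - (l : ℂ)) ^ T‖ := by
        rw [norm_prod, mul_comm m T, pow_mul]
        conv_lhs => rw [← Finset.card_range m, ← Finset.prod_const]
        refine Finset.prod_le_prod (fun l _ => by positivity) fun l hl => ?_
        rw [norm_pow]
        refine pow_le_pow_left₀ (by positivity) ?_ T
        have h1 := norm_sub_norm_le w (l : ℂ)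
        rw [hw, Complex.norm_natCast] at h1
        linarith [show (l : ℝ) ≤ m by exact_mod_cast (Finset.mem_range.mp hl).le]
      have hle : ‖(∏ l ∈ Finset.range m, (w - (l : ℂ)) ^ T) * G w‖ ≤ B + I (2 * R) := by
        rw [← hfac w]
        exact (norm_sub_le _ _).trans (add_le_add (hB w hw.le)
          (norm_interpolant_le hε (by linarith) (by rw [hw]; linarith) hsmall))
      rw [norm_mul] at hle
      rw [show (2 / R) ^ (m * T) = ((R / 2) ^ (m * T))⁻¹ by rw [← inv_pow, inv_div],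
        ← div_eq_mul_inv, le_div_iff₀ (by positivity), mul_comm]
      exact (mul_le_mul_of_nonneg_right hP (norm_nonneg _)).trans hle
    · rw [closure_ball _ (by linarith : R ≠ 0), mem_closedBall_zero_iff]; linarith
  have hPx : ‖∏ l ∈ Finset.range m, (x - (l : ℂ)) ^ T‖ ≤ S₀ ^ (m * T) := by
    rw [norm_prod, mul_comm m T, pow_mul]
    refine ((Finset.prod_le_prod (g := fun _ => S₀ ^ T) (fun l _ => by positivity)
      fun l hl => ?_).trans_eq (Finset.prod_const _)).trans_eq (by rw [Finset.card_range])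
    rw [norm_pow]
    refine pow_le_pow_left₀ (norm_nonneg _) ((norm_sub_le _ _).trans ?_) T
    rw [Complex.norm_natCast]
    simp only [S₀]
    linarith [show (l : ℝ) ≤ m by exact_mod_cast (Finset.mem_range.mp hl).le]
  have hfx : ‖f x‖ ≤ I S₀ + S₀ ^ (m * T) * ((B + I (2 * R)) * (2 / R) ^ (m * T)) := by
    have e : f x = interpolant f m T x + (∏ l ∈ Finset.range m, (x - (l : ℂ)) ^ T) * G x := by
      rw [← hfac x]; ring
    rw [e]
    refine (norm_add_le _ _).trans (add_le_add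
      (norm_interpolant_le hε hS₀ (by simp only [S₀]; linarith) hsmall) ?_)
    rw [norm_mul]
    exact mul_le_mul hPx hGb (norm_nonneg _) (by positivity)
  rcases Nat.eq_zero_or_pos T with rfl | hT
  · simp only [mul_zero, pow_zero, one_mul, div_one, mul_one]
    linarith [hB x (by linarith)]
  refine hfx.trans ?_
  rcases Nat.eq_zero_or_pos m with rfl | hm
  · simp only [I, Nat.cast_zero, zero_mul, mul_zero, zero_add, add_zero, pow_zero, one_mul,
      mul_one, div_one]
    refine le_trans ?_ (le_mul_of_one_le_left (by positivity) (one_le_pow₀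
      (one_le_mul_of_one_le_of_one_le (one_le_mul_of_one_le_of_one_le (by linarith)
        (one_le_pow₀ (by linarith))) (one_le_pow₀ one_le_two))))
    exact le_add_of_nonneg_left (by positivity)
  have hmT : (m : ℝ) ≤ 2 ^ (m * T) := by
    exact_mod_cast (Nat.lt_two_pow_self (n := m)).le.trans
      (Nat.pow_le_pow_right two_pos (Nat.le_mul_of_pos_right m hT))
  have hI1 : I S₀ ≤ M ^ T * S₀ ^ ((m + 1) * T) * ε := by
    calc I S₀ ≤ ε * (2 ^ (m * T) * (16 * 2 ^ m) ^ T) * S₀ ^ ((m + 1) * T) := by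
          simp only [I]; gcongr
      _ = _ := by simp only [M, mul_pow, pow_mul]; ring
  have hI2 : I (2 * R) ≤ M ^ T * (2 * R) ^ ((m + 1) * T) * ε := by
    calc I (2 * R) ≤ ε * (2 ^ (m * T) * (16 * 2 ^ m) ^ T) * (2 * R) ^ ((m + 1) * T) := by
          simp only [I]; gcongr
      _ = _ := by simp only [M, mul_pow, pow_mul]; ring
  set a := M ^ T * (2 * S₀) ^ ((m + 1) * T) * 2 ^ ((m + 1) * T)
  have ha : (3 * M * (2 * S₀) ^ (m + 1) * 2 ^ (m + 1)) ^ T = 3 ^ T * a := by
    simp only [a, mul_pow, ← pow_mul]; ring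
  have h3 : (3 : ℝ) ≤ 3 ^ T := le_self_pow₀ (by norm_num) (by omega)
  have hpow : S₀ ^ (m * T) * 2 ^ (m * T) ≤ (2 * S₀) ^ ((m + 1) * T) := by
    rw [← mul_pow, mul_comm S₀]
    exact pow_le_pow_right₀ (by linarith) (Nat.mul_le_mul_right T (Nat.le_succ m))
  have t1 : I S₀ ≤ a * (ε * R ^ (2 * T)) := by
    refine hI1.trans ?_
    calc M ^ T * S₀ ^ ((m + 1) * T) * ε
        ≤ M ^ T * (2 * S₀) ^ ((m + 1) * T) * ε := by gcongr; linarith
      _ = M ^ T * (2 * S₀) ^ ((m + 1) * T) * 1 * (ε * 1) := by ring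
      _ ≤ a * (ε * R ^ (2 * T)) := by
        simp only [a]; gcongr
        · exact one_le_pow₀ one_le_two
        · exact one_le_pow₀ hR1
  have t2 : S₀ ^ (m * T) * (B * (2 / R) ^ (m * T)) ≤ a * (B / R ^ (m * T)) := by
    calc S₀ ^ (m * T) * (B * (2 / R) ^ (m * T))
        = 1 * (S₀ ^ (m * T) * 2 ^ (m * T)) * 1 * (B / R ^ (m * T)) := by rw [div_pow]; ring
      _ ≤ a * (B / R ^ (m * T)) := by
        simp only [a]; gcongr
        · exact one_le_pow₀ hM
        · exact one_le_pow₀ one_le_two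
  have t3 : S₀ ^ (m * T) * (I (2 * R) * (2 / R) ^ (m * T)) ≤ a * (ε * R ^ (2 * T)) := by
    refine (mul_le_mul_of_nonneg_left (mul_le_mul_of_nonneg_right hI2 (by positivity))
      (by positivity)).trans ?_
    calc S₀ ^ (m * T) * (M ^ T * (2 * R) ^ ((m + 1) * T) * ε * (2 / R) ^ (m * T))
        = M ^ T * (S₀ ^ (m * T) * 2 ^ (m * T)) * 2 ^ ((m + 1) * T) * (ε * R ^ T) := by
          rw [div_pow, mul_pow (2 : ℝ) R, show R ^ ((m + 1) * T) = R ^ (m * T) * R ^ T by ring]
          field_simp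
      _ ≤ a * (ε * R ^ (2 * T)) := by
        simp only [a]; gcongr
        omega
  rw [ha]
  have h0 : 0 ≤ a * (ε * R ^ (2 * T) + B / R ^ (m * T)) := by positivity
  have hpos1 : 0 ≤ a * (ε * R ^ (2 * T)) := by positivity
  have hpos2 : 0 ≤ a * (B / R ^ (m * T)) := by positivity
  have h4 := mul_le_mul_of_nonneg_right h3 h0
  linarith

end FA.BakerTheorem

end
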