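import Fermat.Agent.Transcendence.BrumerOperators
import Fermat.Agent.Transcendence.BakerCriterion

/-!
# Gelfond's method in several variables, `p`-adically

With `P = p ^ k` of size `N` the auxiliary function is built on the grid of `P y`. There the disc
of convergence has radius `> N`, the coefficients are integral, so the function is bounded by `1`,
and as the first non-zero derivative has order at most `q ^ (r + 1)`, a fixed `N` is enough.
-/

set_option autoImplicit false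
set_option linter.unusedSectionVars false
set_option linter.style.haveILetI false

noncomputable section

namespace FA.Brumer

open NumberField Module
open FA.BakerTheorem (Idx freq stepOp stepOp_comm wordOp wordOp_nil wordOp_cons map_wordOp
  gridCoeff gridValue gridValue_apply map_gridValue gridExp exponent_le exists_solution
  house_gridWord_le)
open scoped Nat

section Grid

variable {p : ℕ} [hp : Fact p.Prime] {C : Type*} [NontriviallyNormedField C] [CompleteSpace C]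
  [IsUltrametricDist C] [hC : NormedAlgebra ℚ_[p] C]
  {ι : Type*} [Fintype ι] {g q A : ℕ}

include hp hC in
theorem pGridValue_eq {m : ℕ} (hA : A ≤ q) {L : Fin g → ι → C} (hL : ∀ i σ, ‖L i σ‖ ≤ 1)
    {δ : ι → ℕ} {y : ι → ι → C} (hy : ∀ t σ, Small p (y t σ)) (D : C) {s : ι → ℕ}
    (hs : ∀ t, s t < m) (v : Idx A g q → C) :
    gridValue (fun t => D * ∑ σ, (δ σ : C) * y t σ)
        (fun i t => D * pexp (∑ σ, L i σ * y t σ)) D (gridExp (Fintype.card ι) g q m) s v =
      D ^ gridExp (Fintype.card ι) g q m * pPoly L δ v (∑ t, (s t : C) • y t) := by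
  simp only [gridExp, gridValue_apply]
  rw [pPoly, Finset.mul_sum]
  refine Finset.sum_congr rfl fun x _ => ?_
  have h1 : ∑ t, (s t : C) * (D * ∑ σ, (δ σ : C) * y t σ) =
      D * ∑ σ, (δ σ : C) * (∑ t, (s t : C) • y t) σ := by
    simp only [Finset.sum_apply, Pi.smul_apply, smul_eq_mul, Finset.mul_sum]
    rw [Finset.sum_comm]
    exact Finset.sum_congr rfl fun σ _ => Finset.sum_congr rfl fun t _ => by ring
  have hsmall : ∀ i t, Small p (∑ σ, L i σ * y t σ) := fun i t => small_linear (hL i) (hy t)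
  have hsm' : ∀ i t, Small p ((((x.2 i : ℕ) * s t : ℕ) : C) * ∑ σ, L i σ * y t σ) := fun i t =>
    (hsmall i t).mul (IsUltrametricDist.norm_natCast_le_one C _)
  have h2 : ∏ i, ∏ t, (D * pexp (∑ σ, L i σ * y t σ)) ^ ((x.2 i : ℕ) * s t) =
      D ^ (∑ i, ∑ t, (x.2 i : ℕ) * s t) *
        pexp (∑ σ, freq L x.2 σ * (∑ t, (s t : C) • y t) σ) := by
    have e : ∑ σ, freq L x.2 σ * (∑ t, (s t : C) • y t) σ =
        ∑ i, ∑ t, (((x.2 i : ℕ) * s t : ℕ) : C) * ∑ σ, L i σ * y t σ := by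
      simp only [freq, Finset.sum_apply, Pi.smul_apply, smul_eq_mul, Finset.mul_sum, Finset.sum_mul]
      rw [Finset.sum_comm (f := fun σ t => ∑ i, ((x.2 i : ℕ) : C) * L i σ * ((s t : C) * y t σ))]
      simp_rw [Finset.sum_comm (s := (Finset.univ : Finset ι))
        (t := (Finset.univ : Finset (Fin g)))]
      refine Finset.sum_congr rfl fun i _ => Finset.sum_congr rfl fun t _ =>
        Finset.sum_congr rfl fun σ _ => ?_
      push_cast
      ring
    rw [e, pexp_sum fun i _ => Small.sum fun t _ => hsm' i t,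
      ← Finset.prod_pow_eq_pow_sum, ← Finset.prod_mul_distrib]
    refine Finset.prod_congr rfl fun i _ => ?_
    rw [pexp_sum fun t _ => hsm' i t, ← Finset.prod_pow_eq_pow_sum, ← Finset.prod_mul_distrib]
    refine Finset.prod_congr rfl fun t _ => ?_
    rw [mul_pow, pexp_nat_mul (hsmall i t)]
  simp only [gridCoeff]
  rw [h1, h2, mul_pow]
  obtain ⟨k, hk⟩ := Nat.le.dest (exponent_le hA hs x)
  rw [← hk, Nat.add_sub_cancel_left, pow_add, pow_add]
  ring

variable (L : Fin g → ι → C) (δ : ι → ℕ) (y : ι → ι → C)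

/-- A word of derivatives along the vectors `y t`. -/
def pDirWord (u : List ι) : Module.End C (Idx A g q → C) :=
  (u.map fun t => pDir L δ (y t)).prod

theorem pDirWord_nil : pDirWord (A := A) (q := q) L δ y [] = 1 := rfl

theorem pDirWord_append (u u' : List ι) :
    pDirWord (A := A) (q := q) L δ y (u ++ u') = pDirWord L δ y u * pDirWord L δ y u' := by
  simp [pDirWord]

theorem pDirWord_perm {u u' : List ι} (h : u.Perm u') :
    pDirWord (A := A) (q := q) L δ y u = pDirWord L δ y u' := by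
  refine (h.map fun t => pDir (A := A) (q := q) L δ (y t)).prod_eq' ?_
  rw [List.pairwise_map]
  exact List.pairwise_iff_getElem.mpr fun _ _ _ _ _ => pDir_comm L δ _ _

theorem pDirWord_replicate (t : ι) (k : ℕ) :
    pDirWord (A := A) (q := q) L δ y (List.replicate k t) = pDir L δ (y t) ^ k := by
  simp [pDirWord]

theorem pDirWord_comm (u : List ι) (z : ι → C) :
    Commute (pDirWord (A := A) (q := q) L δ y u) (pDir L δ z) := by
  refine Commute.list_prod_left _ _ fun f hf => ?_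
  obtain ⟨t, _, rfl⟩ := List.mem_map.mp hf
  exact pDir_comm L δ _ _

/-- Derivatives along `z` are combinations of partial derivatives. -/
theorem norm_pPoly_pDir_pow_le (X : Module.End C (Idx A g q → C)) (v : Idx A g q → C) (a z : ι → C)
    {ε : ℝ} (hz : ∀ σ, ‖z σ‖ ≤ 1) (hε : 0 ≤ ε) :
    ∀ (j : ℕ) (w : List ι),
      (∀ w' : List ι, w'.length = j + w.length → ‖pPoly L δ (X (wordOp L δ w' v)) a‖ ≤ ε) →
      ‖pPoly L δ (X ((pDir L δ z ^ j) (wordOp L δ w v))) a‖ ≤ ε := by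
  intro j
  induction j with
  | zero => intro w h; simpa using h w (by simp)
  | succ j ih =>
    intro w h
    rw [pow_succ, Module.End.mul_apply]
    conv_lhs => rw [show pDir L δ z = ∑ σ, z σ • stepOp L δ σ from rfl]
    rw [LinearMap.sum_apply, map_sum, map_sum, pPoly_sum]
    refine IsUltrametricDist.norm_sum_le_of_forall_le_of_nonneg hε fun σ _ => ?_
    rw [LinearMap.smul_apply, map_smul, map_smul, pPoly_smul, norm_mul, ← wordOp_cons]
    exact (mul_le_of_le_one_left (norm_nonneg _) (hz σ)).trans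
      (ih (σ :: w) fun w' hw => h w' (by simp at hw; omega))

theorem norm_wordOp_le_one (hL : ∀ i σ, ‖L i σ‖ ≤ 1) {v : Idx A g q → C} (hv : ∀ x, ‖v x‖ ≤ 1)
    (w : List ι) (x : Idx A g q) : ‖wordOp L δ w v x‖ ≤ 1 := by
  classical
  induction w generalizing x with
  | nil => simpa [wordOp_nil] using hv x
  | cons σ w ih =>
    rw [wordOp_cons]
    have h := norm_pDir_le L δ hL (u := Pi.single σ (1 : C)) zero_le_one zero_le_one
      (fun τ => by rcases eq_or_ne τ σ with rfl | hne <;> simp [*]) ih x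
    rw [one_mul, pDir, Finset.sum_eq_single σ (fun τ _ hτ => by simp [hτ]) (by simp)] at h
    simpa using h

theorem norm_pDirWord_le_one (hL : ∀ i σ, ‖L i σ‖ ≤ 1) (hy : ∀ t σ, ‖y t σ‖ ≤ 1)
    {v : Idx A g q → C} (hv : ∀ x, ‖v x‖ ≤ 1) (u : List ι) (x : Idx A g q) :
    ‖pDirWord L δ y u v x‖ ≤ 1 := by
  induction u generalizing x with
  | nil => simpa [pDirWord_nil] using hv x
  | cons t u ih =>
    have := norm_pDir_le L δ hL zero_le_one zero_le_one (hy t) ih x
    simpa [pDirWord] using this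

include hp hC in
/-- **The Schwarz lemma along the vectors of the basis.** -/
theorem norm_pPoly_grid_le [DecidableEq ι] (hL : ∀ i σ, ‖L i σ‖ ≤ 1) {v : Idx A g q → C}
    (hv : ∀ x, ‖v x‖ ≤ 1) {m T T' : ℕ} {Y R : ℝ} (hm : 1 ≤ m) (hR : 1 < R) (hY0 : 0 ≤ Y)
    (hYR : (p : ℝ) * Y * R ≤ 1) (hys : ∀ t σ, ‖y t σ‖ ≤ Y)
    (hzero : ∀ w : List ι, w.length < T → ∀ s : ι → ℕ, (∀ t, s t < m) →
      pPoly L δ (wordOp L δ w v) (∑ t, (s t : C) • y t) = 0) (J : Finset ι) :
    ∀ w : List ι, w.length + J.card * T' < T → ∀ c : ι → C, (∀ t, ‖c t‖ ≤ 1) →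
      (∀ t ∉ J, ∃ l : ℕ, l < m ∧ c t = l) → ∀ u : List ι, (∀ t ∈ u, t ∈ J) →
      ‖pPoly L δ (pDirWord L δ y u (wordOp L δ w v)) (∑ t, c t • y t)‖ ≤
        (((m : ℝ) ^ (2 * m) * p) ^ T') ^ J.card / R ^ (m * T') := by
  classical
  haveI := charZero_of_padic p (C := C)
  have hp1 := one_lt_prime (p := p)
  have hm1 : (1 : ℝ) ≤ m := Nat.one_le_cast.mpr hm
  have hpY : (p : ℝ) * Y < 1 := by
    rcases (mul_nonneg (le_of_lt (lt_trans one_pos hp1)) hY0).eq_or_lt with h0 | h0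
    · rw [← h0]; exact one_pos
    · exact (lt_mul_of_one_lt_right h0 hR).trans_le hYR
  have hY1 : Y ≤ 1 := (le_mul_of_one_le_left hY0 hp1.le).trans hpY.le
  have hsy : ∀ t σ, Small p (y t σ) := fun t σ =>
    lt_of_le_of_lt (mul_le_mul_of_nonneg_left (hys t σ) (prime_pos p).le) hpY
  have hsz : ∀ c : ι → C, (∀ t, ‖c t‖ ≤ 1) → ∀ σ, Small p ((∑ t, c t • y t) σ) := fun c hc σ => by
    simp only [Finset.sum_apply, Pi.smul_apply, smul_eq_mul]
    exact Small.sum fun t _ => (hsy t σ).mul (hc t)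
  set G := ((m : ℝ) ^ (2 * m) * p) ^ T' with hGdef
  have hG : 1 ≤ G := one_le_pow₀ (one_le_mul_of_one_le_of_one_le (one_le_pow₀ hm1) hp1.le)
  have hRm : (0 : ℝ) < R ^ (m * T') := pow_pos (by linarith) _
  induction J using Finset.induction with
  | empty =>
    intro w hw c _ hc u hu
    choose s hs hcs using fun t => hc t (Finset.notMem_empty t)
    rw [show u = [] from List.eq_nil_iff_forall_not_mem.mpr fun t ht => by simpa using hu t ht,
      pDirWord_nil, Module.End.one_apply, show c = fun t => (s t : C) from funext hcs,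
      hzero w (by simpa using hw) s hs, norm_zero]
    positivity
  | @insert t₀ J ht₀ ih =>
    intro w hw c hc1 hc u hu
    rw [Finset.card_insert_of_notMem ht₀] at hw ⊢
    rw [add_mul, one_mul, ← add_assoc] at hw
    set k := u.count t₀
    set u' := u.filter fun t => !(t == t₀)
    have hperm : u.Perm (List.replicate k t₀ ++ u') := by
      rw [← List.filter_beq]
      exact (List.filter_append_perm _ u).symm
    rw [pDirWord_perm L δ y hperm, pDirWord_append, pDirWord_replicate, Module.End.mul_apply]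
    set X := pDirWord (A := A) (q := q) L δ y u'
    set v' := X (wordOp L δ w v) with hv'
    set z₀ := ∑ t, c t • y t
    have hv'1 : ∀ x, ‖v' x‖ ≤ 1 := norm_pDirWord_le_one L δ y hL
      (fun t σ => (hys t σ).trans hY1) (norm_wordOp_le_one L δ hL hv w) u'
    have hdec : ∀ z : ι → C, (∀ σ, Small p (z σ)) →
        Decays R 1 fun j => PowerSeries.coeff j (lineSeries L δ v' z (y t₀)) := fun z hz j => by
      have hb : ∀ (j : ℕ) (x : Idx A g q), ‖(pDir L δ (y t₀) ^ j) v' x‖ ≤ Y ^ j := by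
        intro j
        induction j with
        | zero => simpa using hv'1
        | succ j ihj =>
          intro x
          rw [pow_succ', Module.End.mul_apply, pow_succ']
          exact norm_pDir_le L δ hL hY0 (pow_nonneg hY0 j) (hys t₀) ihj x
      show ‖PowerSeries.coeff j (lineSeries L δ v' z (y t₀))‖ * R ^ j ≤ 1
      rw [coeff_lineSeries (p := p), norm_mul]
      refine (mul_le_mul_of_nonneg_right (mul_le_mul
        (norm_pPoly_le L δ hL (pow_nonneg hY0 j) (hb j) hz) (norm_inv_factorial_le p j)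
        (norm_nonneg _) (pow_nonneg hY0 j)) (pow_nonneg (by linarith) j)).trans ?_
      rw [← mul_pow, ← mul_pow, mul_comm Y]
      exact pow_le_one₀ (mul_nonneg (mul_nonneg (prime_pos p).le hY0) (by linarith)) hYR
    have heval : ∀ z : ι → C, (∀ σ, Small p (z σ)) → ∀ h : C, ‖h‖ ≤ 1 →
        seqEval (fun j => PowerSeries.coeff j (lineSeries L δ v' z (y t₀))) h =
          pPoly L δ v' (z + h • y t₀) := fun z hz h hh =>
      (hasValue_lineSeries L δ hL v' hz (hsy t₀) hh).2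
    set nodes : Finset C := (Finset.range m).image fun l : ℕ => (l : C) - c t₀
    have hcard : nodes.card = m := by
      rw [Finset.card_image_of_injective _ fun a b e => Nat.cast_injective (sub_left_inj.mp e),
        Finset.card_range]
    set ε := (p : ℝ) ^ T' * (G ^ J.card / R ^ (m * T'))
    have hsmall : ∀ x ∈ nodes, ∀ j < T', ‖seqEval ((seqDiv x)^[j]
        fun i => PowerSeries.coeff i (lineSeries L δ v' z₀ (y t₀))) x‖ ≤ ε := by
      intro x hx j hj
      obtain ⟨l, hl, rfl⟩ := Finset.mem_image.mp hx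
      have hlm := Finset.mem_range.mp hl
      have hx1 : ‖(l : C) - c t₀‖ ≤ 1 :=
        (norm_sub_le_max _ _).trans (max_le (IsUltrametricDist.norm_natCast_le_one C l) (hc1 t₀))
      set c' := Function.update c t₀ (l : C)
      have hz' : z₀ + ((l : C) - c t₀) • y t₀ = ∑ t, c' t • y t := by
        simp only [z₀]
        rw [← Finset.add_sum_erase _ _ (Finset.mem_univ t₀),
          ← Finset.add_sum_erase _ _ (Finset.mem_univ t₀)]
        simp only [c', Function.update_self, sub_smul]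
        rw [Finset.sum_congr rfl fun t ht =>
          show c t • y t = Function.update c t₀ (l : C) t • y t by
          rw [Function.update_of_ne (Finset.mem_erase.mp ht).1]]
        abel
      have hc'1 : ∀ t, ‖c' t‖ ≤ 1 := fun t => by
        rcases eq_or_ne t t₀ with rfl | hne
        · simp only [c', Function.update_self]; exact IsUltrametricDist.norm_natCast_le_one C l
        · simp only [c', Function.update_of_ne hne]; exact hc1 t
      rw [seqEval_iterate_eq hR hx1 j (hdec z₀ (hsz c hc1))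
        (b := fun i => PowerSeries.coeff i (lineSeries L δ v' (∑ t, c' t • y t) (y t₀)))
        (hdec _ (hsz c' hc'1)) fun h hh => ?_]
      · rw [coeff_lineSeries (p := p), norm_mul, mul_comm]
        refine mul_le_mul ((norm_inv_factorial_le p j).trans (pow_le_pow_right₀ hp1.le hj.le)) ?_
          (norm_nonneg _) (pow_nonneg (prime_pos p).le _)
        rw [hv', ← Module.End.mul_apply (pDir L δ (y t₀) ^ j) X,
          ((pDirWord_comm L δ y u' (y t₀)).pow_right j).eq.symm, Module.End.mul_apply]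
        refine norm_pPoly_pDir_pow_le L δ X v _ (y t₀) (fun σ => (hys t₀ σ).trans hY1)
          (by positivity) j w
          fun w' hw' => ih w' (by rw [hw']; omega) c' hc'1 (fun t ht => ?_) u' fun t ht => ?_
        · rcases eq_or_ne t t₀ with rfl | hne
          · exact ⟨l, hlm, Function.update_self _ _ _⟩
          · obtain ⟨l', hl', e⟩ := hc t (by simp [hne, ht])
            exact ⟨l', hl', by rw [← e]; exact Function.update_of_ne hne _ _⟩
        · obtain ⟨h1, h2⟩ := List.mem_filter.mp ht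
          exact Finset.mem_of_mem_insert_of_ne (hu t h1) (by simpa using h2)
      · rw [heval z₀ (hsz c hc1) _ ((IsUltrametricDist.norm_add_le_max _ _).trans (max_le hx1 hh)),
          heval _ (hsz c' hc'1) h hh, ← hz', add_smul, add_assoc]
    have hsep : ∀ x ∈ nodes, ∀ x' ∈ nodes, x ≠ x' → 1 ≤ (m : ℝ) * ‖x - x'‖ := by
      intro x hx x' hx' hne
      obtain ⟨a, ha, rfl⟩ := Finset.mem_image.mp hx
      obtain ⟨b, hb, rfl⟩ := Finset.mem_image.mp hx'
      rw [sub_sub_sub_cancel_right]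
      have hab : a ≠ b := fun e => hne (by rw [e])
      have key : ∀ d : ℕ, d ≠ 0 → d ≤ m → 1 ≤ (m : ℝ) * ‖(d : C)‖ := fun d hd hdm =>
        calc (1 : ℝ) = (d : ℝ) * (d : ℝ)⁻¹ := (mul_inv_cancel₀ (Nat.cast_ne_zero.mpr hd)).symm
          _ ≤ _ := mul_le_mul (Nat.cast_le.mpr hdm) (inv_natCast_le_norm p hd)
              (inv_nonneg.mpr (Nat.cast_nonneg d)) (Nat.cast_nonneg m)
      rw [Finset.mem_range] at ha hb
      rcases lt_or_gt_of_ne hab with h | h
      · rw [norm_sub_rev, ← Nat.cast_sub h.le]; exact key _ (by omega) (by omega)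
      · rw [← Nat.cast_sub h.le]; exact key _ (by omega) (by omega)
    have hsch := schwarz hR hm1 nodes (fun x hx => by
        obtain ⟨l, -, rfl⟩ := Finset.mem_image.mp hx
        exact (norm_sub_le_max _ _).trans
          (max_le (IsUltrametricDist.norm_natCast_le_one C l) (hc1 t₀)))
      hsep (hdec z₀ (hsz c hc1)) (by positivity : 0 ≤ ε) hsmall k
    rw [hcard, coeff_lineSeries (p := p), norm_mul] at hsch
    have hfac : ‖pPoly L δ ((pDir L δ (y t₀) ^ k) v') z₀‖ ≤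
        ‖pPoly L δ ((pDir L δ (y t₀) ^ k) v') z₀‖ * ‖((k ! : ℕ) : C)⁻¹‖ := by
      refine le_mul_of_one_le_right (norm_nonneg _) ?_
      rw [norm_inv]
      exact (one_le_inv₀ (norm_pos_iff.mpr (Nat.cast_ne_zero.mpr k.factorial_ne_zero))).mpr
        (IsUltrametricDist.norm_natCast_le_one C _)
    refine hfac.trans (hsch.trans (max_le ?_ ?_))
    · simp only [ε]
      rw [← mul_assoc, mul_div_assoc']
      refine div_le_div_of_nonneg_right (le_of_eq ?_) hRm.le
      rw [pow_succ' G, ← pow_mul, hGdef, mul_pow, ← pow_mul]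
      ring
    · rw [← pow_mul, mul_comm T' m]
      exact div_le_div_of_nonneg_right (one_le_pow₀ hG) hRm.le

/-- Partial derivatives are combinations of those along the basis. -/
theorem norm_pPoly_wordOp_le [DecidableEq ι] {M : ι → ι → C} {Mx ε : ℝ} (hMx : 0 ≤ Mx)
    (hM : ∀ σ t, ‖M σ t‖ ≤ Mx) (hMy : ∀ σ, ∑ t, M σ t • y t = Pi.single σ 1) (hε : 0 ≤ ε)
    {v : Idx A g q → C} (a : ι → C) (h : ∀ u, ‖pPoly L δ (pDirWord L δ y u v) a‖ ≤ ε) :
    ∀ (w u : List ι), ‖pPoly L δ (pDirWord L δ y u (wordOp L δ w v)) a‖ ≤ Mx ^ w.length * ε := by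
  intro w
  induction w with
  | nil => intro u; simpa [wordOp_nil] using h u
  | cons σ w ih =>
    intro u
    have e : stepOp (A := A) (q := q) L δ σ = ∑ t, M σ t • pDir L δ (y t) := by
      have h1 : pDir (A := A) (q := q) L δ (∑ t, M σ t • y t) =
          ∑ t, M σ t • pDir L δ (y t) := by
        simp only [pDir, Finset.sum_apply, Pi.smul_apply, smul_eq_mul, Finset.sum_smul,
          Finset.smul_sum, smul_smul]
        rw [Finset.sum_comm]
      rw [← h1, hMy, pDir, Finset.sum_eq_single σ (fun τ _ hτ => by simp [hτ]) (by simp)]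
      simp
    rw [wordOp_cons, e, LinearMap.sum_apply, map_sum, pPoly_sum]
    refine IsUltrametricDist.norm_sum_le_of_forall_le_of_nonneg
      (mul_nonneg (pow_nonneg hMx _) hε) fun t _ => ?_
    rw [LinearMap.smul_apply, map_smul, pPoly_smul, norm_mul, List.length_cons, pow_succ',
      mul_assoc]
    refine mul_le_mul (hM σ t) ?_ (norm_nonneg _) hMx
    rw [← Module.End.mul_apply (pDirWord L δ y u),
      show pDirWord L δ y u * pDir L δ (y t) = pDirWord (A := A) (q := q) L δ y (u ++ [t]) by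
        rw [pDirWord_append]; simp [pDirWord]]
    exact ih _

end Grid

set_option maxHeartbeats 800000 in
/-- **Gelfond's argument in several variables, `p`-adically.** -/
theorem false_of_field {p : ℕ} [hp : Fact p.Prime] {C : Type} [NontriviallyNormedField C]
    [CompleteSpace C] [IsUltrametricDist C] [NormedAlgebra ℚ_[p] C] {K : Type} [Field K]
    [NumberField K] (ψ : K →+* C) {ι : Type} [Fintype ι] [Nonempty ι] {g e : ℕ}
    (L : Fin g → ι → C) (δ : ι → ℕ) (y : ι → ι → C) (hy : LinearIndependent C y)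
    (hys : ∀ t σ, ‖y t σ‖ ≤ ((p : ℝ) ^ 2)⁻¹)
    (hind : ∀ c : Fin g → ℤ, (∀ σ, ∑ i, (c i : C) * L i σ = 0) → c = 0)
    (he : g + e = Fintype.card ι + 1) (he1 : e ≤ 1) (hδ : e = 1 → ∃ σ, δ σ ≠ 0)
    (D : ℤ) (hD : D ≠ 0) (η : ι → 𝓞 K) (α : Fin g → ι → 𝓞 K) (LK : Fin g → ι → 𝓞 K)
    (hη : ∀ t, ψ (η t : K) = (D : C) * ∑ σ, (δ σ : C) * y t σ)
    (hα : ∀ i t, ψ (α i t : K) = (D : C) * pexp (∑ σ, L i σ * y t σ))
    (hL : ∀ i σ, ψ (LK i σ : K) = L i σ) : False := by
  classical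
  haveI := charZero_of_padic p (C := C)
  obtain ⟨Cs, hCs, hsolve⟩ := exists_solution K
  obtain ⟨r, hr⟩ : ∃ r, r = Fintype.card ι := ⟨_, rfl⟩
  have hr1 : 1 ≤ r := hr ▸ Fintype.card_pos
  have hp1 := one_lt_prime (p := p)
  -- constants
  obtain ⟨h, hh⟩ : ∃ h, h = finrank ℚ K := ⟨_, rfl⟩
  obtain ⟨k₀, hk₀⟩ : ∃ k₀, k₀ = 2 + h * (r + 1) ^ 3 := ⟨_, rfl⟩
  obtain ⟨m, hm⟩ : ∃ m, m = 2 * (r + 1) * k₀ := ⟨_, rfl⟩
  have hm1 : 1 ≤ m := by rw [hm]; exact Nat.one_le_iff_ne_zero.mpr (by simp [hk₀])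
  obtain ⟨H, hH⟩ : ∃ H : ℝ, H = 2 * (1 + |(D : ℝ)| + (∑ t, house (η t : K)) +
      ∑ i, ∑ t, house (α i t : K)) := ⟨_, rfl⟩
  obtain ⟨HL, hHL⟩ : ∃ HL : ℝ, HL = ∑ i, ∑ σ, house (LK i σ : K) := ⟨_, rfl⟩
  have hsη : 0 ≤ ∑ t, house (η t : K) := Finset.sum_nonneg fun t _ => house_nonneg _
  have hsα : 0 ≤ ∑ i, ∑ t, house (α i t : K) :=
    Finset.sum_nonneg fun i _ => Finset.sum_nonneg fun t _ => house_nonneg _
  have hHL0 : 0 ≤ HL := hHL ▸ Finset.sum_nonneg fun i _ => Finset.sum_nonneg fun σ _ =>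
    house_nonneg _
  have hD1 : (1 : ℝ) ≤ |(D : ℝ)| := by exact_mod_cast Int.one_le_abs hD
  have hH2 : 2 ≤ H := by rw [hH]; linarith
  have hdsum : ∀ (F : Fin g → ι → ℝ), (∀ i t, 0 ≤ F i t) → ∀ i t, F i t ≤ ∑ i, ∑ t, F i t :=
    fun F hF i t => (Finset.single_le_sum (fun t _ => hF i t) (Finset.mem_univ t)).trans
      (Finset.single_le_sum (f := fun i => ∑ t, F i t)
        (fun i _ => Finset.sum_nonneg fun t _ => hF i t) (Finset.mem_univ i))
  have hHLle : ∀ i σ, house (LK i σ : K) ≤ HL := fun i σ =>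
    hHL ▸ hdsum (fun i t => house (LK i t : K)) (fun i t => house_nonneg _) i σ
  obtain ⟨M, hMdef⟩ : ∃ M : ℝ, M = (g * HL + ((∑ σ, δ σ : ℕ) : ℝ) + 1) * (2 * m) := ⟨_, rfl⟩
  have hgH : (1 : ℝ) ≤ g * HL + ((∑ σ, δ σ : ℕ) : ℝ) + 1 := le_add_of_nonneg_left
    (add_nonneg (mul_nonneg (Nat.cast_nonneg g) hHL0) (Nat.cast_nonneg _))
  have hm1' : (1 : ℝ) ≤ m := Nat.one_le_cast.mpr hm1
  have hM1 : 1 ≤ M := hMdef ▸ one_le_mul_of_one_le_of_one_le hgH (by linarith)
  set bY : Basis ι C (ι → C) := basisOfLinearIndependentOfCardEqFinrank hy (by simp) with hbY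
  obtain ⟨Mx, hMx⟩ : ∃ Mx : ℝ, Mx = 1 + ∑ σ, ∑ t, ‖bY.repr (Pi.single σ 1) t‖ := ⟨_, rfl⟩
  have hMx1 : 1 ≤ Mx := hMx ▸ le_add_of_nonneg_right
    (Finset.sum_nonneg fun σ _ => Finset.sum_nonneg fun t _ => norm_nonneg _)
  obtain ⟨lH, hlH⟩ : ∃ x : ℝ, x = ((1 + g * r * m : ℕ) : ℝ) * (2 * m) *
      Real.log (((r * m + 1 : ℕ) : ℝ) * H) := ⟨_, rfl⟩
  obtain ⟨lQ, hlQ⟩ : ∃ x : ℝ, x = ((r + 1 : ℕ) : ℝ) * (2 * m) := ⟨_, rfl⟩
  obtain ⟨Cv, hCv⟩ : ∃ x : ℝ, x = Real.log Cs + 2 * lQ + r * Real.log M + lH := ⟨_, rfl⟩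
  obtain ⟨Cg, hCg⟩ : ∃ x : ℝ, x = lQ + Real.log M + Cv + lH := ⟨_, rfl⟩
  obtain ⟨lG, hlG⟩ : ∃ x : ℝ, x = (r : ℝ) * Real.log ((m : ℝ) ^ (2 * m) * p) := ⟨_, rfl⟩
  obtain ⟨Cf, hCf⟩ : ∃ x : ℝ, x = Real.log Mx + lG + h * Cg := ⟨_, rfl⟩
  -- parameters
  obtain ⟨N, hN1, hN2, hN3⟩ : ∃ N : ℕ, 2 * (r + 1) ≤ N ∧ 2 * m ≤ N ∧
      Real.exp Cf + 1 ≤ (N : ℝ) :=
    ⟨2 * (r + 1) + 2 * m + ⌈Real.exp Cf + 1⌉₊, by omega, by omega,
      (Nat.le_ceil _).trans (by exact_mod_cast (by omega : _ ≤ 2 * (r + 1) + _ + _))⟩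
  have hN0 : 0 < N := by omega
  have hNR : (1 : ℝ) < N := by exact_mod_cast (by omega : 1 < N)
  obtain ⟨k, hk⟩ : ∃ k, k = Nat.log p N := ⟨_, rfl⟩
  obtain ⟨P, hP⟩ : ∃ P, P = p ^ k := ⟨_, rfl⟩
  have hPN : P ≤ N := hP ▸ hk ▸ Nat.pow_log_le_self p hN0.ne'
  have hP1 : 1 ≤ P := hP ▸ Nat.one_le_pow _ _ hp.out.pos
  have hPC : (P : C) ≠ 0 := Nat.cast_ne_zero.mpr (by omega)
  obtain ⟨R, hR⟩ : ∃ R : ℝ, R = (p : ℝ) ^ (k + 1) := ⟨_, rfl⟩
  have hRN : (N : ℝ) ≤ R := by
    rw [hR, hk]; exact_mod_cast (Nat.lt_pow_succ_log_self hp.out.one_lt N).le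
  have hR1 : 1 < R := lt_of_lt_of_le hNR hRN
  obtain ⟨n, hn⟩ : ∃ n, n = N ^ (r + 1) := ⟨_, rfl⟩
  obtain ⟨q, hq⟩ : ∃ q, q = 2 * m * N ^ r := ⟨_, rfl⟩
  have hn0 : 0 < n := by rw [hn]; positivity
  have hq0 : 0 < q := by rw [hq]; positivity
  obtain ⟨A, hAdef⟩ : ∃ A, A = q ^ e := ⟨_, rfl⟩
  have hAq : A ≤ q := by
    rcases Nat.le_one_iff_eq_zero_or_eq_one.mp he1 with h' | h' <;> rw [hAdef, h'] <;> simp; omega
  have hcardI : Fintype.card (Idx A g q) = q ^ (r + 1) := by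
    simp only [Fintype.card_prod, Fintype.card_fin, Fintype.card_fun, hAdef]
    rw [← pow_add, add_comm, he, hr]
  have hcount : 2 * (n * m) ^ Fintype.card ι ≤ Fintype.card (Idx A g q) := by
    rw [← hr]
    calc 2 * (n * m) ^ r = (2 * m ^ r) * (N ^ (r + 1)) ^ r := by rw [mul_pow, hn]; ring
      _ ≤ (2 * m) ^ (r + 1) * (N ^ (r + 1)) ^ r := by
        refine Nat.mul_le_mul_right _ ?_
        rw [mul_pow]
        exact Nat.mul_le_mul (Nat.le_self_pow (Nat.succ_ne_zero r) 2)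
          (Nat.pow_le_pow_right hm1 (Nat.le_succ r))
      _ = Fintype.card (Idx A g q) := by rw [hcardI, hq]; ring
  -- the scaled data
  obtain ⟨η', hη'⟩ : ∃ η' : ι → 𝓞 K, η' = fun t => (D : 𝓞 K) ^ (P - 1) * ((P : 𝓞 K) * η t) :=
    ⟨_, rfl⟩
  obtain ⟨α', hα'⟩ : ∃ α' : Fin g → ι → 𝓞 K, α' = fun i t => α i t ^ P := ⟨_, rfl⟩
  have hHP : (1 : ℝ) ≤ H ^ P := one_le_pow₀ (by linarith)
  have hhD : house ((D : 𝓞 K) : K) = |(D : ℝ)| := by
    show house (algebraMap (𝓞 K) K (D : 𝓞 K)) = _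
    rw [map_intCast, house_intCast, Int.cast_abs]
  have hDh : house (((D : 𝓞 K) ^ P : 𝓞 K) : K) ≤ H ^ P := by
    push_cast
    refine (house_pow_le _ _).trans (pow_le_pow_left₀ (house_nonneg _) ?_ _)
    rw [hhD, hH]; linarith
  have hHη : ∀ t, house (η' t : K) ≤ H ^ P := fun t => by
    have h1 : house (η t : K) ≤ H / 2 := by
      have := Finset.single_le_sum (f := fun t => house (η t : K)) (fun t _ => house_nonneg _)
        (Finset.mem_univ t)
      rw [hH]; linarith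
    have h2 : house ((D : 𝓞 K) : K) ≤ H / 2 := by rw [hhD, hH]; linarith
    simp only [hη']
    push_cast
    refine (house_mul_le _ _).trans ((mul_le_mul ((house_pow_le _ _).trans
      (pow_le_pow_left₀ (house_nonneg _) h2 _)) ?_ (house_nonneg _)
      (pow_nonneg (by linarith) _)).trans (b := (H / 2) ^ (P - 1) * ((2 : ℝ) ^ P * (H / 2))) ?_)
    · rw [house_nat_mul]
      exact mul_le_mul (by exact_mod_cast (Nat.lt_two_pow_self).le) h1 (house_nonneg _)
        (by positivity)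
    · rw [mul_left_comm, ← pow_succ, Nat.sub_add_cancel hP1, ← mul_pow, mul_div_cancel₀ _
        (two_ne_zero' ℝ)]
  have hHα : ∀ i t, house (α' i t : K) ≤ H ^ P := fun i t => by
    simp only [hα']
    push_cast
    refine (house_pow_le _ _).trans (pow_le_pow_left₀ (house_nonneg _) ?_ _)
    have := hdsum (fun i t => house (α i t : K)) (fun i t => house_nonneg _) i t
    rw [hH]; linarith
  obtain ⟨v, hv0, hvV, hvn⟩ := hsolve (δ := δ) hHP hHL0 hAq hHη hHα hDh hHLle hn0 hm1 hq0 hcount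
  -- the values
  set y' : ι → ι → C := fun t => (P : C) • y t with hy'
  obtain ⟨Y, hY⟩ : ∃ Y : ℝ, Y = ((p : ℝ) ^ (k + 2))⁻¹ := ⟨_, rfl⟩
  have hY0 : 0 ≤ Y := hY ▸ inv_nonneg.mpr (pow_nonneg (prime_pos p).le _)
  have hys' : ∀ t σ, ‖y' t σ‖ ≤ Y := fun t σ => by
    simp only [hy', Pi.smul_apply, smul_eq_mul, norm_mul, hP, Nat.cast_pow, norm_pow, norm_prime]
    rw [hY, pow_add, mul_inv, inv_pow]
    exact mul_le_mul_of_nonneg_left (hys t σ) (inv_nonneg.mpr (pow_nonneg (prime_pos p).le _))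
  have hYR : (p : ℝ) * Y * R ≤ 1 := le_of_eq <| by
    rw [hY, hR, pow_succ' (p : ℝ) (k + 1)]
    have := (prime_pos p).ne'
    field_simp
  have hpY : (p : ℝ) * Y < 1 := by
    refine lt_of_lt_of_le ?_ hYR
    exact lt_mul_of_one_lt_right (mul_pos (prime_pos p)
      (hY ▸ inv_pos.mpr (pow_pos (prime_pos p) _))) hR1
  have hsy' : ∀ t σ, Small p (y' t σ) := fun t σ =>
    lt_of_le_of_lt (mul_le_mul_of_nonneg_left (hys' t σ) (prime_pos p).le) hpY
  have hL1 : ∀ i σ, ‖L i σ‖ ≤ 1 := fun i σ => by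
    rw [← hL]; exact norm_le_one_of_integral ((LK i σ).isIntegral_coe.map ψ.toIntAlgHom)
  obtain ⟨E, hE⟩ : ∃ E, E = gridExp (Fintype.card ι) g q m := ⟨_, rfl⟩
  set vC : Idx A g q → C := fun x => ψ (v x : K) with hvC
  have hvC1 : ∀ x, ‖vC x‖ ≤ 1 := fun x =>
    norm_le_one_of_integral ((v x).isIntegral_coe.map ψ.toIntAlgHom)
  set emb : 𝓞 K →+* C := ψ.comp (algebraMap (𝓞 K) K) with hemb
  have hembL : (fun i σ => emb (LK i σ)) = L := funext fun i => funext fun σ => hL i σ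
  have hsy : ∀ t σ, Small p (y t σ) := fun t σ => by
    refine lt_of_le_of_lt (mul_le_mul_of_nonneg_left (hys t σ) (prime_pos p).le) ?_
    rw [pow_two, mul_inv, ← mul_assoc, mul_inv_cancel₀ (prime_pos p).ne', one_mul]
    exact inv_lt_one_of_one_lt₀ hp1
  have hval : ∀ (w : List ι) (s : ι → ℕ), (∀ t, s t < m) →
      emb (gridValue η' α' ((D : 𝓞 K) ^ P) E s (wordOp LK δ w v)) = ((D : C) ^ P) ^ E *
        pPoly L δ (wordOp L δ w vC) (∑ t, (s t : C) • y' t) := by
    intro w s hs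
    rw [map_gridValue, map_wordOp, hembL, map_pow, map_intCast, hE,
      ← pGridValue_eq hAq hL1 hsy' ((D : C) ^ P) hs]
    have e1 : (fun t => emb (η' t)) = fun t => (D : C) ^ P * ∑ σ, (δ σ : C) * y' t σ :=
      funext fun t => by
        have he : emb (η t) = (D : C) * ∑ σ, (δ σ : C) * y t σ := hη t
        simp only [hη', map_mul, map_pow, map_intCast, map_natCast, he, hy', Pi.smul_apply,
          smul_eq_mul, mul_left_comm _ (P : C), ← Finset.mul_sum]
        rw [← mul_assoc ((D : C) ^ (P - 1)), ← pow_succ, Nat.sub_add_cancel hP1]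
    have e2 : (fun i t => emb (α' i t)) =
        fun i t => (D : C) ^ P * pexp (∑ σ, L i σ * y' t σ) := funext fun i => funext fun t => by
      have he : emb (α i t) = (D : C) * pexp (∑ σ, L i σ * y t σ) := hα i t
      simp only [hα', map_pow, he, mul_pow]
      rw [← pexp_nat_mul (small_linear (hL1 i) (hsy t))]
      congr 2
      simp only [hy', Pi.smul_apply, smul_eq_mul, Finset.mul_sum]
      exact Finset.sum_congr rfl fun σ _ => by ring
    rw [e1, e2]
    rfl
  have hDC : ((D : C) ^ P) ^ E ≠ 0 := pow_ne_zero _ (pow_ne_zero _ (Int.cast_ne_zero.mpr hD))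
  have hvC0 : vC ≠ 0 := fun h0 => hv0 <| funext fun x =>
    RingOfIntegers.ext (ψ.injective ((congrFun h0 x).trans (map_zero ψ).symm))
  -- the first non-zero derivative
  have hshort : ∃ w : List ι, w.length ≤ q ^ (r + 1) ∧
      pPoly L δ (wordOp L δ w vC) (∑ t, ((0 : ℕ) : C) • y' t) ≠ 0 := by
    have hinj : Function.Injective fun e : Fin g → Fin q => freq L e := fun e₁ e₂ he => by
      have h0 := hind (fun i => ((e₁ i : ℕ) : ℤ) - (e₂ i : ℕ)) fun σ => by
        have := congrFun he σ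
        simp only [freq] at this
        push_cast
        simp only [sub_mul, Finset.sum_sub_distrib, this, sub_self]
      funext i
      have := congrFun h0 i
      simp only [Pi.zero_apply] at this
      exact Fin.ext (by omega)
    have hδ' : A ≤ 1 ∨ ∃ σ, δ σ ≠ 0 := by
      rcases Nat.le_one_iff_eq_zero_or_eq_one.mp he1 with h' | h'
      · exact Or.inl (by rw [hAdef, h', pow_zero])
      · exact Or.inr (hδ h')
    obtain ⟨w, hwl, hw⟩ := exists_short_word L δ hinj hδ' hvC0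
    refine ⟨w, hwl.trans_eq (by rw [hAdef, ← pow_add, add_comm, he, hr]), ?_⟩
    simpa [pPoly_zero] using hw
  have hex : ∃ T, ∃ w : List ι, w.length = T ∧ ∃ s : ι → ℕ, (∀ t, s t < m) ∧
      pPoly L δ (wordOp L δ w vC) (∑ t, (s t : C) • y' t) ≠ 0 := by
    obtain ⟨w, -, hw⟩ := hshort
    exact ⟨_, w, rfl, fun _ => 0, fun _ => hm1, hw⟩
  obtain ⟨T, ⟨w, hwT, s, hs, hws⟩, hmin⟩ : ∃ T, (∃ w : List ι, w.length = T ∧ ∃ s : ι → ℕ,
      (∀ t, s t < m) ∧ pPoly L δ (wordOp L δ w vC) (∑ t, (s t : C) • y' t) ≠ 0) ∧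
      ∀ k < T, ¬∃ w : List ι, w.length = k ∧ ∃ s : ι → ℕ,
        (∀ t, s t < m) ∧ pPoly L δ (wordOp L δ w vC) (∑ t, (s t : C) • y' t) ≠ 0 :=
    ⟨Nat.find hex, Nat.find_spec hex, fun _ => Nat.find_min hex⟩
  have hzero : ∀ w : List ι, w.length < T → ∀ s : ι → ℕ, (∀ t, s t < m) →
      pPoly L δ (wordOp L δ w vC) (∑ t, (s t : C) • y' t) = 0 := fun w hw s hs => by
    by_contra hne
    exact hmin _ hw ⟨w, rfl, s, hs, hne⟩
  have hTle : T ≤ q ^ (r + 1) := by
    obtain ⟨w', hw'l, hw'⟩ := hshort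
    refine le_trans ?_ hw'l
    by_contra hlt
    exact hw' (hzero w' (by omega) (fun _ => 0) fun _ => hm1)
  have hnT : n ≤ T := by
    by_contra hlt
    have := hval w s hs
    rw [hE, hvn w (by omega) s hs, map_zero, ← hE] at this
    exact mul_ne_zero hDC hws this.symm
  set x := gridValue η' α' ((D : 𝓞 K) ^ P) E s (wordOp LK δ w v) with hx
  have hx0 : x ≠ 0 := fun h0 => by
    have := hval w s hs
    rw [← hx, h0, map_zero] at this
    exact mul_ne_zero hDC hws this.symm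
  -- numerical bounds
  have hNn : N ≤ n := hn ▸ Nat.le_self_pow (Nat.succ_ne_zero r) N
  have hT0 : 0 < T := by omega
  have hT1 : (1 : ℝ) ≤ T := by exact_mod_cast hT0
  obtain ⟨ℓ, hℓ⟩ : ∃ ℓ : ℝ, ℓ = Real.log T := ⟨_, rfl⟩
  obtain ⟨lN, hlN⟩ : ∃ lN : ℝ, lN = Real.log N := ⟨_, rfl⟩
  have hℓ0 : 0 ≤ ℓ := hℓ ▸ Real.log_nonneg hT1
  have hlN0 : 0 ≤ lN := hlN ▸ Real.log_nonneg hNR.le
  have hTexp : (T : ℝ) = Real.exp ℓ := hℓ ▸ (Real.exp_log (by linarith)).symm
  have hqN : q ≤ N ^ (r + 1) := by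
    rw [hq, pow_succ']
    exact Nat.mul_le_mul_right _ hN2
  have hℓle : ℓ ≤ ((r + 1) ^ 2 : ℕ) * lN := by
    rw [hℓ, hlN, ← Real.log_pow]
    refine Real.log_le_log (by linarith) ?_
    have : T ≤ N ^ (r + 1) ^ 2 := hTle.trans ((Nat.pow_le_pow_left hqN _).trans_eq (by
      rw [← pow_mul, pow_two]))
    exact_mod_cast this
  have hqT : (q : ℝ) ≤ 2 * m * T := by
    have : q ≤ 2 * m * T := hq ▸ Nat.mul_le_mul_left _
      ((Nat.pow_le_pow_right hN0 (Nat.le_succ r)).trans (hn ▸ hnT))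
    exact_mod_cast this
  have hlM0 : 0 ≤ Real.log M := Real.log_nonneg hM1
  have hrm1 : (1 : ℝ) ≤ ((r * m + 1 : ℕ) : ℝ) := Nat.one_le_cast.mpr (Nat.le_add_left 1 _)
  have hlH0 : 0 ≤ lH := by
    rw [hlH]
    exact mul_nonneg (mul_nonneg (Nat.cast_nonneg _) (by linarith))
      (Real.log_nonneg (one_le_mul_of_one_le_of_one_le hrm1 (by linarith)))
  have hlQ0 : 0 ≤ lQ := by rw [hlQ]; exact mul_nonneg (Nat.cast_nonneg _) (by linarith)
  have hC0 : 0 ≤ Real.log Cs := Real.log_nonneg hCs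
  have hlQT : (Fintype.card (Idx A g q) : ℝ) ≤ Real.exp (lQ * T) := by
    rw [hcardI, Nat.cast_pow]
    refine (pow_le_pow_left₀ (Nat.cast_nonneg q) ((le_add_of_nonneg_right zero_le_one).trans
      (Real.add_one_le_exp (q : ℝ))) _).trans ?_
    rw [← Real.exp_nat_mul, Real.exp_le_exp, hlQ, mul_assoc]
    exact mul_le_mul_of_nonneg_left hqT (Nat.cast_nonneg _)
  have hqP : (q : ℝ) * P ≤ 2 * m * T := by
    have : q * P ≤ 2 * m * T := by
      refine (Nat.mul_le_mul_left q hPN).trans ?_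
      rw [hq, mul_assoc, ← pow_succ, ← hn]
      exact Nat.mul_le_mul_left _ hnT
    exact_mod_cast this
  have hHE : (((r * m + 1 : ℕ) : ℝ) * H ^ P) ^ E ≤ Real.exp (lH * T) := by
    refine (pow_le_pow_left₀ (mul_nonneg (Nat.cast_nonneg _) (pow_nonneg (by linarith) _))
      (mul_le_mul_of_nonneg_right (le_self_pow₀ hrm1 (by omega : P ≠ 0))
        (pow_nonneg (by linarith) _)) E).trans ?_
    rw [← mul_pow, ← pow_mul, ← Real.exp_log (pow_pos (mul_pos (by linarith) (by linarith)) _),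
      Real.exp_le_exp, Real.log_pow, hlH]
    have hE' : ((P * E : ℕ) : ℝ) ≤ ((1 + g * r * m : ℕ) : ℝ) * (2 * m * T) := by
      calc ((P * E : ℕ) : ℝ) = ((1 + g * r * m : ℕ) : ℝ) * ((q : ℝ) * P) := by
            rw [hE, gridExp, ← hr]; push_cast; ring
        _ ≤ _ := mul_le_mul_of_nonneg_left hqP (Nat.cast_nonneg _)
    exact (mul_le_mul_of_nonneg_right hE' (Real.log_nonneg (one_le_mul_of_one_le_of_one_le hrm1
      (by linarith)))).trans_eq (by ring)
  have hMpow : ∀ k j : ℕ, k ≤ j * T → ((g * HL + ((∑ σ, δ σ : ℕ) : ℝ) + 1) * q) ^ k ≤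
      Real.exp ((j : ℝ) * (Real.log M * T + T * ℓ)) := fun k j hkj => by
    have hb : (g * HL + ((∑ σ, δ σ : ℕ) : ℝ) + 1) * (q : ℝ) ≤ Real.exp (Real.log M + ℓ) := by
      rw [Real.exp_add, Real.exp_log (by linarith), ← hTexp, hMdef, mul_assoc]
      exact mul_le_mul_of_nonneg_left hqT (by linarith)
    refine (pow_le_pow_left₀ (mul_nonneg (by linarith) (Nat.cast_nonneg q)) hb _).trans ?_
    rw [← Real.exp_nat_mul, Real.exp_le_exp,
      show (j : ℝ) * (Real.log M * T + T * ℓ) = ((j * T : ℕ) : ℝ) * (Real.log M + ℓ) by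
        push_cast; ring]
    exact mul_le_mul_of_nonneg_right (Nat.cast_le.mpr hkj) (by linarith)
  rw [← hE, ← hr] at hvV
  obtain ⟨V, hV⟩ : ∃ V : ℝ, V = Cs * (Fintype.card (Idx A g q) : ℝ) ^ 2 *
    (((g * HL + ((∑ σ, δ σ : ℕ) : ℝ) + 1) * q) ^ (r * n) *
      (((r * m + 1 : ℕ) : ℝ) * H ^ P) ^ E) := ⟨_, rfl⟩
  rw [← hV] at hvV
  have hE0 : (0 : ℝ) ≤ (((r * m + 1 : ℕ) : ℝ) * H ^ P) ^ E :=
    pow_nonneg (mul_nonneg (Nat.cast_nonneg _) (by linarith)) _
  have hgq0 : (0 : ℝ) ≤ (g * HL + ((∑ σ, δ σ : ℕ) : ℝ) + 1) * q :=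
    mul_nonneg (by linarith) (Nat.cast_nonneg q)
  have hV0 : 0 ≤ V := by
    rw [hV]
    exact mul_nonneg (mul_nonneg (by linarith) (sq_nonneg _))
      (mul_nonneg (pow_nonneg hgq0 _) hE0)
  have hVle : V ≤ Real.exp (Cv * T + r * (T * ℓ)) := by
    have hCle : Cs ≤ Real.exp (Real.log Cs * T) := by
      conv_lhs => rw [← Real.exp_log (show 0 < Cs by linarith)]
      exact Real.exp_le_exp.mpr (le_mul_of_one_le_right hC0 hT1)
    calc V ≤ Real.exp (Real.log Cs * T) * Real.exp (lQ * T) ^ 2 *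
          (Real.exp ((r : ℝ) * (Real.log M * T + T * ℓ)) * Real.exp (lH * T)) := by
          rw [hV]
          exact mul_le_mul (mul_le_mul hCle (pow_le_pow_left₀ (Nat.cast_nonneg _) hlQT 2)
            (sq_nonneg _) (Real.exp_pos _).le)
            (mul_le_mul (hMpow _ r (Nat.mul_le_mul_left r hnT)) hHE hE0 (Real.exp_pos _).le)
            (mul_nonneg (pow_nonneg hgq0 _) hE0)
            (mul_nonneg (Real.exp_pos _).le (sq_nonneg _))
      _ = _ := by
          simp only [← Real.exp_nat_mul, ← Real.exp_add, hCv]; push_cast; ring_nf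
  have hhouse : house (x : K) ≤ Real.exp (Cg * T + (r + 1 : ℕ) * (T * ℓ)) := by
    have hb := house_gridWord_le (δ := δ) hHP hV0 hAq hHL0 hHη hHα hDh hHLle hs hvV w
    rw [hwT, ← hE, ← hr, ← hx] at hb
    refine hb.trans ?_
    calc (Fintype.card (Idx A g q) : ℝ) * (((g * HL + ((∑ σ, δ σ : ℕ) : ℝ) + 1) * q) ^ T * V *
          (((r * m + 1 : ℕ) : ℝ) * H ^ P) ^ E)
        ≤ Real.exp (lQ * T) * (Real.exp (((1 : ℕ) : ℝ) * (Real.log M * T + T * ℓ)) *
          Real.exp (Cv * T + r * (T * ℓ)) * Real.exp (lH * T)) :=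
          mul_le_mul hlQT (mul_le_mul (mul_le_mul (hMpow _ 1 (by omega)) hVle hV0
            (Real.exp_pos _).le) hHE hE0 (mul_nonneg (Real.exp_pos _).le (Real.exp_pos _).le))
            (mul_nonneg (mul_nonneg (pow_nonneg hgq0 _) hV0) hE0) (Real.exp_pos _).le
      _ = _ := by simp only [← Real.exp_add, hCg]; push_cast; ring_nf
  -- extrapolation
  obtain ⟨T', hT'⟩ : ∃ T', T' = T / (r + 1) := ⟨_, rfl⟩
  have hT'1 : 1 ≤ T' := hT' ▸ Nat.div_pos (by omega) (Nat.succ_pos r)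
  have hT'mul : T' * (r + 1) ≤ T := hT' ▸ Nat.div_mul_le_self T (r + 1)
  have hT'low : T ≤ T' * (r + 1) + r := by
    have h1 := Nat.div_add_mod T (r + 1)
    have h2 := Nat.mod_lt T (Nat.succ_pos r)
    rw [← hT'] at h1
    linarith
  obtain ⟨ε, hε⟩ : ∃ ε : ℝ, ε = (((m : ℝ) ^ (2 * m) * p) ^ T') ^ r / R ^ (m * T') := ⟨_, rfl⟩
  have hε0 : 0 ≤ ε := hε ▸ div_nonneg (pow_nonneg (pow_nonneg (by positivity) _) _)
    (pow_nonneg (by linarith) _)
  have hu : ∀ u, ‖pPoly L δ (pDirWord L δ y' u vC) (∑ t, (s t : C) • y' t)‖ ≤ ε := fun u => by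
    have h := norm_pPoly_grid_le L δ y' hL1 hvC1 (m := m) (T := T) (T' := T') hm1 hR1 hY0 hYR hys'
      hzero Finset.univ [] (by
        simp only [List.length_nil, Finset.card_univ, zero_add, ← hr]
        linarith) (fun t => (s t : C)) (fun t => IsUltrametricDist.norm_natCast_le_one C _)
      (by simp) u (fun t _ => Finset.mem_univ t)
    rw [wordOp_nil, Module.End.one_apply, Finset.card_univ, ← hr, ← hε] at h
    exact h
  have hMxP : ∀ σ t, ‖(P : C)⁻¹ * bY.repr (Pi.single σ 1) t‖ ≤ Mx * N := fun σ t => by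
    rw [norm_mul, norm_inv, hP, Nat.cast_pow, norm_pow, norm_prime, inv_pow, inv_inv, mul_comm]
    refine mul_le_mul ?_ ?_ (pow_nonneg (prime_pos p).le _) (by linarith)
    · rw [hMx]
      exact ((Finset.single_le_sum (f := fun t => ‖bY.repr (Pi.single σ 1) t‖)
        (fun t _ => norm_nonneg _) (Finset.mem_univ t)).trans
        (Finset.single_le_sum (f := fun σ => ∑ t, ‖bY.repr (Pi.single σ 1) t‖)
          (fun σ _ => Finset.sum_nonneg fun t _ => norm_nonneg _) (Finset.mem_univ σ))).trans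
        (le_add_of_nonneg_left zero_le_one)
    · rw [← Nat.cast_pow, ← hP]; exact Nat.cast_le.mpr hPN
  have hMy : ∀ σ, ∑ t, ((P : C)⁻¹ * bY.repr (Pi.single σ 1) t) • y' t = Pi.single σ 1 := fun σ => by
    conv_rhs => rw [← bY.sum_repr (Pi.single σ 1)]
    refine Finset.sum_congr rfl fun t _ => ?_
    rw [hy', smul_smul, hbY, coe_basisOfLinearIndependentOfCardEqFinrank, mul_comm,
      ← mul_assoc, mul_inv_cancel₀ hPC, one_mul]
  have hMxN : (1 : ℝ) ≤ Mx * N := one_le_mul_of_one_le_of_one_le hMx1 hNR.le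
  have hword := norm_pPoly_wordOp_le L δ y' (by linarith : (0 : ℝ) ≤ Mx * N) hMxP hMy hε0
    (∑ t, (s t : C) • y' t) hu w []
  rw [pDirWord_nil, Module.End.one_apply, hwT] at hword
  have hnorm : ‖ψ (x : K)‖ ≤ (Mx * N) ^ T * ε := by
    rw [show ψ (x : K) = emb x from rfl, hx, hval w s hs, norm_mul, norm_pow, norm_pow]
    refine (mul_le_of_le_one_left (norm_nonneg _) (pow_le_one₀ (pow_nonneg (norm_nonneg _) _)
      (pow_le_one₀ (norm_nonneg _) (IsUltrametricDist.norm_intCast_le_one C D)))).trans hword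
  -- the product formula
  have hεle : ε ≤ Real.exp (lG * T - ((k₀ : ℕ) : ℝ) * (T * lN)) := by
    have hG1 : (1 : ℝ) ≤ (m : ℝ) ^ (2 * m) * p :=
      one_le_mul_of_one_le_of_one_le (one_le_pow₀ hm1') hp1.le
    have hpow : (((m : ℝ) ^ (2 * m) * p) ^ T') ^ r ≤ Real.exp (lG * T) := by
      rw [← pow_mul, ← Real.exp_log (pow_pos (lt_of_lt_of_le one_pos hG1) _), Real.exp_le_exp,
        Real.log_pow, hlG]
      have : (T' : ℝ) ≤ T := Nat.cast_le.mpr (hT' ▸ Nat.div_le_self T (r + 1))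
      push_cast
      linarith [mul_le_mul_of_nonneg_left this
        (mul_nonneg (Nat.cast_nonneg (α := ℝ) r) (Real.log_nonneg hG1))]
    have hmT : k₀ * T ≤ m * T' := by
      have : T ≤ 2 * (r + 1) * T' := by
        linarith [Nat.le_mul_of_pos_left (r + 1) hT'1]
      calc k₀ * T ≤ k₀ * (2 * (r + 1) * T') := Nat.mul_le_mul_left _ this
        _ = m * T' := by rw [hm]; ring
    have hden : Real.exp (((k₀ : ℕ) : ℝ) * (T * lN)) ≤ R ^ (m * T') := by
      refine le_trans ?_ (pow_le_pow_left₀ (Nat.cast_nonneg N) hRN _)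
      rw [← Real.exp_log (pow_pos (by linarith) _), Real.exp_le_exp, Real.log_pow, ← hlN,
        ← mul_assoc, ← Nat.cast_mul]
      exact mul_le_mul_of_nonneg_right (Nat.cast_le.mpr hmT) hlN0
    rw [hε, Real.exp_sub]
    exact div_le_div₀ (Real.exp_pos _).le hpow (Real.exp_pos _) hden
  have hlMx : 0 ≤ Real.log Mx := Real.log_nonneg hMx1
  have hMxT : (Mx * N) ^ T = Real.exp (Real.log Mx * T + T * lN) := by
    rw [← Real.exp_log (pow_pos (lt_of_lt_of_le one_pos hMxN) T), Real.log_pow,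
      Real.log_mul (by linarith) (by linarith), hlN]
    ring_nf
  have hfinal := (one_le_norm_mul_house_pow p hx0 ψ).trans (mul_le_mul hnorm
    (pow_le_pow_left₀ (house_nonneg _) hhouse _) (pow_nonneg (house_nonneg _) _)
    (mul_nonneg (pow_nonneg (by linarith) _) hε0))
  rw [← hh] at hfinal
  have h1 : (1 : ℝ) ≤ Real.exp (Cf * T + (((h * (r + 1) : ℕ) : ℝ) * (T * ℓ)) -
      ((k₀ : ℕ) : ℝ) * (T * lN) + T * lN) := by
    refine hfinal.trans ((mul_le_mul_of_nonneg_right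
      (mul_le_mul_of_nonneg_left hεle (pow_nonneg (by linarith) _))
      (pow_nonneg (Real.exp_pos _).le _)).trans_eq ?_)
    rw [hMxT, ← Real.exp_nat_mul, ← Real.exp_add, ← Real.exp_add, hCf]
    push_cast
    ring_nf
  rw [Real.one_le_exp_iff] at h1
  have h2 : ((h * (r + 1) : ℕ) : ℝ) * (T * ℓ) ≤ ((h * (r + 1) ^ 3 : ℕ) : ℝ) * (T * lN) := by
    refine (mul_le_mul_of_nonneg_left (mul_le_mul_of_nonneg_left hℓle (Nat.cast_nonneg T))
      (Nat.cast_nonneg _)).trans_eq ?_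
    push_cast; ring
  have hlNle : lN ≤ Cf := by
    refine le_of_mul_le_mul_left ?_ (lt_of_lt_of_le one_pos hT1)
    rw [hk₀] at h1
    push_cast at h1 h2
    linarith
  have : (N : ℝ) ≤ Real.exp Cf := by
    refine le_trans ?_ (Real.exp_le_exp.mpr hlNle)
    rw [hlN, Real.exp_log (by linarith)]
  linarith

end FA.Brumer

end
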