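import Fermat.Agent.Transcendence.BrumerSeries
import Fermat.Agent.Transcendence.BakerOperators
import Mathlib.RingTheory.PowerSeries.Derivative

/-!
# `p`-adic exponential polynomials

`F v z = ∑ v (a, e) (δ z) ^ a pexp ((∑ e i L i) z)` has along `u` the expansion
`∑ F (D_u ^ k v) z x ^ k / k!`, and, algebraically, a non-zero `v` is not annihilated at `0` by
all words of length at most `A q ^ g`.
-/

set_option autoImplicit false
set_option linter.unusedSectionVars false
set_option linter.style.haveILetI false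

noncomputable section

namespace FA.Brumer

open FA.BakerTheorem (Idx freq stepOp stepOp_apply stepOp_comm wordOp wordOp_nil wordOp_cons
  wordOp_append)
open PowerSeries (coeff constantCoeff)
open scoped Nat

section Algebra

variable {R : Type*} [CommRing R] {ι : Type*} {g q A : ℕ} (L : Fin g → ι → R) (δ : ι → ℕ)

/-- The value at `0`, on the coefficients. -/
def valueAtZero (v : Idx A g q → R) : R := ∑ p, if (p.1 : ℕ) = 0 then v p else 0

theorem valueAtZero_sub_smul (x y : Idx A g q → R) (c : R) :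
    valueAtZero (x - c • y) = valueAtZero x - c * valueAtZero y := by
  simp only [valueAtZero, Finset.mul_sum, ← Finset.sum_sub_distrib]
  exact Finset.sum_congr rfl fun p _ => by split_ifs <;> simp

theorem sum_shift_ring (x : Fin A → R) (Z : R) :
    (∑ a : Fin A, if h : (a : ℕ) + 1 < A then (((a : ℕ) + 1 : ℕ) : R) * x ⟨a + 1, h⟩ * Z ^ (a : ℕ)
      else 0) = ∑ a : Fin A, x a * ((a : ℕ) * Z ^ ((a : ℕ) - 1)) := by
  cases A with
  | zero => simp
  | succ n =>
    rw [Fin.sum_univ_castSucc, Fin.sum_univ_succ (f := fun a : Fin (n + 1) =>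
      x a * ((a : ℕ) * Z ^ ((a : ℕ) - 1)))]
    simp only [Fin.val_last, lt_self_iff_false, dite_false, add_zero, Fin.val_zero, Nat.cast_zero,
      zero_mul, mul_zero, zero_add, Fin.val_succ, Nat.add_sub_cancel]
    refine Finset.sum_congr rfl fun a _ => ?_
    rw [dif_pos (by simp)]
    simp only [Fin.val_castSucc]
    rw [show (⟨(a : ℕ) + 1, by omega⟩ : Fin (n + 1)) = a.succ from rfl]
    ring

variable [IsDomain R] [CharZero R]

/-- **A short word that does not annihilate `v` at `0`.** -/
theorem exists_short_word (hinj : Function.Injective fun e : Fin g → Fin q => freq L e)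
    (hδ : A ≤ 1 ∨ ∃ σ, δ σ ≠ 0) {v : Idx A g q → R} (hv : v ≠ 0) :
    ∃ w : List ι, w.length ≤ A * q ^ g ∧ valueAtZero (wordOp L δ w v) ≠ 0 := by
  classical
  by_contra hall
  push Not at hall
  set Z : ℕ → Set (Idx A g q → R) := fun n =>
    {x | ∀ w : List ι, w.length ≤ n → valueAtZero (wordOp L δ w x) = 0}
  have hstep : ∀ n, ∀ x ∈ Z (n + 1), ∀ (σ : ι) (c : R), stepOp L δ σ x - c • x ∈ Z n := by
    intro n x hx σ c w hw
    rw [map_sub, map_smul, valueAtZero_sub_smul, hx w (by omega), mul_zero, sub_zero]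
    have := hx (w ++ [σ]) (by simp; omega)
    rwa [wordOp_append, wordOp_cons, wordOp_nil, Module.End.one_apply] at this
  -- one frequency
  have hone : ∀ b n : ℕ, b ≤ n → ∀ x ∈ Z n, ∀ e, (∀ p : Idx A g q, p.2 ≠ e → x p = 0) →
      (∀ a : Fin A, b < a → x (a, e) = 0) → ∀ a : Fin A, (a : ℕ) = b → x (a, e) = 0 := by
    intro b
    induction b with
    | zero =>
      intro n _ x hx e hs htop a ha
      have h0 := hx [] (Nat.zero_le n)
      rw [wordOp_nil, Module.End.one_apply, valueAtZero, Finset.sum_eq_single (a, e)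
        (fun p _ hp => ?_) (by simp)] at h0
      · simpa [ha] using h0
      · rcases eq_or_ne p.2 e with he | he
        · split_ifs with h
          · exact absurd (Prod.ext (Fin.ext (h.trans ha.symm)) he) hp
          · rfl
        · simp [hs p he]
    | succ b ih =>
      intro n hn x hx e hs htop a ha
      obtain ⟨σ, hσ⟩ := hδ.resolve_left (fun h => by omega)
      obtain ⟨k, rfl⟩ : ∃ k, n = k + 1 := ⟨n - 1, by omega⟩
      have hy := ih k (by omega) _ (hstep k x hx σ (freq L e σ)) e (fun p hp => ?_)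
        (fun a' ha' => ?_) (⟨b, by omega⟩ : Fin A) rfl
      · simp only [Pi.sub_apply, Pi.smul_apply, smul_eq_mul, stepOp_apply, add_sub_cancel_left]
          at hy
        rw [dif_pos (show b + 1 < A by omega), mul_eq_zero] at hy
        rw [show a = (⟨b + 1, by omega⟩ : Fin A) from Fin.ext ha]
        refine hy.resolve_left ?_
        exact_mod_cast mul_ne_zero hσ (Nat.succ_ne_zero b)
      · simp only [Pi.sub_apply, Pi.smul_apply, smul_eq_mul, stepOp_apply, hs p hp, mul_zero,
          zero_add, sub_zero]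
        split_ifs with h
        · rw [hs (⟨p.1 + 1, h⟩, p.2) hp, mul_zero]
        · rfl
      · simp only [Pi.sub_apply, Pi.smul_apply, smul_eq_mul, stepOp_apply, add_sub_cancel_left]
        split_ifs with h
        · rw [htop ⟨a' + 1, h⟩ (by simp; omega), mul_zero]
        · rfl
  -- isolate a frequency
  obtain ⟨⟨a₀, e⟩, hne⟩ := Function.ne_iff.mp hv
  have hcard : (Finset.univ.erase e).card + 1 = q ^ g := by
    rw [Finset.card_erase_of_mem (Finset.mem_univ e), Finset.card_univ, Fintype.card_fun,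
      Fintype.card_fin, Fintype.card_fin, Nat.sub_add_cancel]
    simpa using Nat.succ_le_of_lt (Fintype.card_pos_iff.mpr (⟨e⟩ : Nonempty (Fin g → Fin q)))
  have hiso : ∀ s : Finset (Fin g → Fin q), e ∉ s → ∀ n, ∀ x ∈ Z (n + s.card * A),
      (∃ a, x (a, e) ≠ 0) → ∃ y ∈ Z n, (∃ a, y (a, e) ≠ 0) ∧
      ∀ p : Idx A g q, p.2 ∈ s → y p = 0 := by
    intro s
    induction s using Finset.induction with
    | empty => exact fun _ n x hx hxe => ⟨x, by simpa using hx, hxe, by simp⟩
    | @insert e' s he' ih =>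
      intro hes n x hx hxe
      simp only [Finset.mem_insert, not_or] at hes
      rw [Finset.card_insert_of_notMem he', add_mul, one_mul, ← add_assoc,
        add_right_comm] at hx
      obtain ⟨x₁, hx₁, hx₁e, hx₁s⟩ := ih hes.2 (n + A) x hx hxe
      obtain ⟨σ, hσ⟩ := Function.ne_iff.mp (fun h => hes.1 (hinj h))
      have hiter : ∀ j : ℕ, j ≤ A → ∃ y ∈ Z (n + (A - j)), (∃ a, y (a, e) ≠ 0) ∧
          (∀ p : Idx A g q, p.2 ∈ s → y p = 0) ∧
          ∀ a : Fin A, A ≤ (a : ℕ) + j → y (a, e') = 0 := by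
        intro j
        induction j with
        | zero => exact fun _ => ⟨x₁, hx₁, hx₁e, hx₁s, fun a ha => absurd a.2 (by omega)⟩
        | succ j ihj =>
          intro hj
          obtain ⟨y, hy, hye, hys, hyt⟩ := ihj (by omega)
          rw [show n + (A - j) = n + (A - (j + 1)) + 1 by omega] at hy
          refine ⟨_, hstep _ y hy σ (freq L e' σ), ?_, fun p hp => ?_, fun a ha => ?_⟩
          · obtain ⟨a₁, ha₁⟩ := hye
            set T := Finset.univ.filter fun a : Fin A => y (a, e) ≠ 0
            have hT : T.Nonempty := ⟨a₁, by simp [T, ha₁]⟩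
            refine ⟨T.max' hT, fun h => ?_⟩
            have hmax : y (T.max' hT, e) ≠ 0 := (Finset.mem_filter.mp (T.max'_mem hT)).2
            simp only [Pi.sub_apply, Pi.smul_apply, smul_eq_mul, stepOp_apply] at h
            have hz : ∀ h' : (T.max' hT : ℕ) + 1 < A, y (⟨T.max' hT + 1, h'⟩, e) = 0 := fun h' =>
              by_contra fun hc => by
                have := T.le_max' ⟨T.max' hT + 1, h'⟩ (by simp [T, hc])
                simp [Fin.le_def] at this
            split_ifs at h with h'
            · rw [hz h', mul_zero, add_zero, ← sub_mul] at h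
              exact mul_ne_zero (sub_ne_zero.mpr hσ) hmax h
            · rw [add_zero, ← sub_mul] at h
              exact mul_ne_zero (sub_ne_zero.mpr hσ) hmax h
          · simp only [Pi.sub_apply, Pi.smul_apply, smul_eq_mul, stepOp_apply, hys p hp, mul_zero,
              zero_add, sub_zero]
            split_ifs with h
            · rw [hys (⟨p.1 + 1, h⟩, p.2) hp, mul_zero]
            · rfl
          · simp only [Pi.sub_apply, Pi.smul_apply, smul_eq_mul, stepOp_apply,
              add_sub_cancel_left]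
            split_ifs with h
            · rw [hyt ⟨a + 1, h⟩ (by simp; omega), mul_zero]
            · rfl
      obtain ⟨y, hy, hye, hys, hyt⟩ := hiter A le_rfl
      rw [Nat.sub_self, add_zero] at hy
      refine ⟨y, hy, hye, fun p hp => ?_⟩
      rcases Finset.mem_insert.mp hp with h | h
      · rw [show p = (p.1, e') from Prod.ext rfl h]
        exact hyt p.1 (by omega)
      · exact hys p h
  obtain ⟨x, hx, ⟨a, ha⟩, hxs⟩ := hiso (Finset.univ.erase e) (Finset.notMem_erase e _) A v
    (fun w hw => hall w (by rw [← hcard]; linarith)) ⟨a₀, hne⟩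
  have hfull : ∀ j b : ℕ, A ≤ b + j → ∀ a : Fin A, b ≤ a → x (a, e) = 0 := by
    intro j
    induction j with
    | zero => intro b hb a ha; omega
    | succ j ih =>
      intro b hb a ha
      rcases eq_or_lt_of_le ha with he | he
      · exact hone b A (by omega) x hx e
          (fun p hp => hxs p (Finset.mem_erase.mpr ⟨hp, Finset.mem_univ _⟩))
          (fun a' ha' => ih (b + 1) (by omega) a' ha') a he.symm
      · exact ih (b + 1) (by omega) a he
  exact ha (hfull A 0 (by omega) a (Nat.zero_le _))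

end Algebra

section Poly

variable {p : ℕ} [hp : Fact p.Prime] {C : Type*} [NontriviallyNormedField C] [CompleteSpace C]
  [IsUltrametricDist C] [hC : NormedAlgebra ℚ_[p] C]
  {ι : Type*} [Fintype ι] {g q A : ℕ} (L : Fin g → ι → C) (δ : ι → ℕ)

/-- The exponential polynomial. -/
def pPoly (v : Idx A g q → C) (z : ι → C) : C :=
  ∑ x, v x * (∑ σ, (δ σ : C) * z σ) ^ (x.1 : ℕ) * pexp (∑ σ, freq L x.2 σ * z σ)

/-- The derivative along a vector. -/
def pDir (u : ι → C) : Module.End C (Idx A g q → C) := ∑ σ, u σ • stepOp L δ σ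

theorem pPoly_zero (v : Idx A g q → C) : pPoly L δ v 0 = valueAtZero v := by
  simp only [pPoly, valueAtZero, Pi.zero_apply, mul_zero, Finset.sum_const_zero, pexp_zero,
    mul_one, zero_pow_eq, mul_ite]

theorem pPoly_add (v w : Idx A g q → C) (z : ι → C) :
    pPoly L δ (v + w) z = pPoly L δ v z + pPoly L δ w z := by
  simp [pPoly, add_mul, Finset.sum_add_distrib]

theorem pPoly_smul (c : C) (v : Idx A g q → C) (z : ι → C) :
    pPoly L δ (c • v) z = c * pPoly L δ v z := by
  simp [pPoly, Finset.mul_sum, mul_assoc]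

theorem pPoly_sum {κ : Type*} (s : Finset κ) (v : κ → Idx A g q → C) (z : ι → C) :
    pPoly L δ (∑ k ∈ s, v k) z = ∑ k ∈ s, pPoly L δ (v k) z := by
  classical
  induction s using Finset.induction with
  | empty => simp [pPoly]
  | insert a s ha ih => rw [Finset.sum_insert ha, Finset.sum_insert ha, pPoly_add, ih]

theorem pDir_comm (u u' : ι → C) :
    Commute (pDir (A := A) (q := q) L δ u) (pDir (A := A) (q := q) L δ u') := by
  refine Commute.sum_left _ _ _ fun σ _ => Commute.sum_right _ _ _ fun τ _ => ?_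
  exact ((stepOp_comm L δ σ τ).smul_left _).smul_right _

theorem freq_le (hL : ∀ i σ, ‖L i σ‖ ≤ 1) (e : Fin g → Fin q) (σ : ι) : ‖freq L e σ‖ ≤ 1 := by
  refine IsUltrametricDist.norm_sum_le_of_forall_le_of_nonneg zero_le_one fun i _ => ?_
  rw [norm_mul]
  exact (mul_le_of_le_one_left (norm_nonneg _) (IsUltrametricDist.norm_natCast_le_one C _)).trans
    (hL i σ)

theorem small_linear {c z : ι → C} (hc : ∀ σ, ‖c σ‖ ≤ 1) (hz : ∀ σ, Small p (z σ)) :
    Small p (∑ σ, c σ * z σ) :=
  Small.sum fun σ _ => (hz σ).mul (hc σ)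

theorem norm_linear_le {c z : ι → C} (hc : ∀ σ, ‖c σ‖ ≤ 1) {M : ℝ} (hM : 0 ≤ M)
    (hz : ∀ σ, ‖z σ‖ ≤ M) : ‖∑ σ, c σ * z σ‖ ≤ M := by
  refine IsUltrametricDist.norm_sum_le_of_forall_le_of_nonneg hM fun σ _ => ?_
  rw [norm_mul]
  exact (mul_le_of_le_one_left (norm_nonneg _) (hc σ)).trans (hz σ)

include hp hC in
theorem norm_pPoly_le (hL : ∀ i σ, ‖L i σ‖ ≤ 1) {v : Idx A g q → C} {V : ℝ} (hV : 0 ≤ V)
    (hv : ∀ x, ‖v x‖ ≤ V) {z : ι → C} (hz : ∀ σ, Small p (z σ)) : ‖pPoly L δ v z‖ ≤ V := by
  refine IsUltrametricDist.norm_sum_le_of_forall_le_of_nonneg hV fun x _ => ?_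
  rw [norm_mul, norm_mul, norm_pow, norm_pexp (small_linear (freq_le L hL x.2) hz), mul_one]
  refine (mul_le_of_le_one_right (norm_nonneg _) (pow_le_one₀ (norm_nonneg _) ?_)).trans (hv x)
  refine norm_linear_le (fun σ => IsUltrametricDist.norm_natCast_le_one C _) zero_le_one fun σ => ?_
  exact ((le_mul_of_one_le_left (norm_nonneg _) (one_lt_prime p).le).trans (hz σ).le)

theorem norm_pDir_le (hL : ∀ i σ, ‖L i σ‖ ≤ 1) {u : ι → C} {Y V : ℝ} (hY : 0 ≤ Y) (hV : 0 ≤ V)
    (hu : ∀ σ, ‖u σ‖ ≤ Y) {v : Idx A g q → C} (hv : ∀ x, ‖v x‖ ≤ V) (x : Idx A g q) :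
    ‖pDir L δ u v x‖ ≤ Y * V := by
  simp only [pDir, LinearMap.sum_apply, LinearMap.smul_apply, Finset.sum_apply, Pi.smul_apply,
    smul_eq_mul, stepOp_apply]
  refine IsUltrametricDist.norm_sum_le_of_forall_le_of_nonneg (mul_nonneg hY hV) fun σ _ => ?_
  rw [norm_mul]
  refine mul_le_mul (hu σ) ((IsUltrametricDist.norm_add_le_max _ _).trans (max_le ?_ ?_))
    (norm_nonneg _) hY
  · rw [norm_mul]
    exact (mul_le_of_le_one_left (norm_nonneg _) (freq_le L hL x.2 σ)).trans (hv x)
  · split_ifs with h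
    · rw [norm_mul]
      exact (mul_le_of_le_one_left (norm_nonneg _)
        (IsUltrametricDist.norm_natCast_le_one C _)).trans (hv _)
    · simpa using hV

/-! ### The expansion along a line -/

/-- `exp (c X)`. -/
def expSeries' (c : C) : PowerSeries C := PowerSeries.mk fun n => c ^ n * ((n ! : ℕ) : C)⁻¹

include hp hC in
theorem derivative_expSeries' (c : C) :
    PowerSeries.derivative C (expSeries' c) = PowerSeries.C c * expSeries' c := by
  haveI := charZero_of_padic p (C := C)
  ext n
  rw [PowerSeries.coeff_derivative, PowerSeries.coeff_C_mul, expSeries', PowerSeries.coeff_mk,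
    PowerSeries.coeff_mk, Nat.factorial_succ]
  push_cast
  have h1 : ((n ! : ℕ) : C) ≠ 0 := Nat.cast_ne_zero.mpr n.factorial_ne_zero
  have h2 : (n : C) + 1 ≠ 0 := Nat.cast_add_one_ne_zero n
  field_simp
  ring

/-- The series of `x ↦ F v (z + x u)`. -/
def lineSeries (v : Idx A g q → C) (z u : ι → C) : PowerSeries C :=
  ∑ x, PowerSeries.C (v x * pexp (∑ σ, freq L x.2 σ * z σ)) *
    (PowerSeries.C (∑ σ, (δ σ : C) * z σ) + PowerSeries.C (∑ σ, (δ σ : C) * u σ) * PowerSeries.X) ^
      (x.1 : ℕ) * expSeries' (∑ σ, freq L x.2 σ * u σ)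

theorem constantCoeff_expSeries' (c : C) : constantCoeff (expSeries' c) = 1 := by
  rw [← PowerSeries.coeff_zero_eq_constantCoeff_apply, expSeries', PowerSeries.coeff_mk]
  simp

theorem constantCoeff_lineSeries (v : Idx A g q → C) (z u : ι → C) :
    constantCoeff (lineSeries L δ v z u) = pPoly L δ v z := by
  simp only [lineSeries, pPoly, map_sum, map_mul, map_pow, map_add, PowerSeries.constantCoeff_C,
    PowerSeries.constantCoeff_X, constantCoeff_expSeries', mul_zero, add_zero, mul_one]
  exact Finset.sum_congr rfl fun x _ => mul_right_comm _ _ _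

include hp hC in
theorem derivative_lineSeries (v : Idx A g q → C) (z u : ι → C) :
    PowerSeries.derivative C (lineSeries L δ v z u) = lineSeries L δ (pDir L δ u v) z u := by
  set c := fun e : Fin g → Fin q => ∑ σ, freq L e σ * u σ
  set du := ∑ σ, (δ σ : C) * u σ
  have hdir : ∀ x : Idx A g q, pDir L δ u v x = c x.2 * v x +
      du * (if h : (x.1 : ℕ) + 1 < A then (((x.1 : ℕ) + 1 : ℕ) : C) * v (⟨x.1 + 1, h⟩, x.2)
        else 0) := fun x => by
    simp only [pDir, LinearMap.sum_apply, LinearMap.smul_apply, Finset.sum_apply, Pi.smul_apply,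
      smul_eq_mul, stepOp_apply, c, du, Finset.sum_mul, ← Finset.sum_add_distrib]
    refine Finset.sum_congr rfl fun σ _ => ?_
    split_ifs <;> push_cast <;> ring
  set Z : PowerSeries C := PowerSeries.C (∑ σ, (δ σ : C) * z σ) + PowerSeries.C du * PowerSeries.X
    with hZ
  have hdZ : PowerSeries.derivative C Z = PowerSeries.C du := by
    simp [hZ]
  set X := fun e : Fin g → Fin q =>
    PowerSeries.C (pexp (∑ σ, freq L e σ * z σ)) * expSeries' (c e)
  have hterm : ∀ x : Idx A g q, PowerSeries.derivative C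
      (PowerSeries.C (v x * pexp (∑ σ, freq L x.2 σ * z σ)) * Z ^ (x.1 : ℕ) *
        expSeries' (c x.2)) =
      PowerSeries.C (c x.2 * v x) * Z ^ (x.1 : ℕ) * X x.2 +
        PowerSeries.C du * (PowerSeries.C (v x) * (((x.1 : ℕ) : PowerSeries C) *
          Z ^ ((x.1 : ℕ) - 1))) * X x.2 := fun x => by
    simp only [Derivation.leibniz, PowerSeries.derivative_pow, hdZ, derivative_expSeries' (p := p),
      PowerSeries.derivative_C, smul_eq_mul, map_mul, X]
    ring
  have hL : ∀ w : Idx A g q → C, lineSeries L δ w z u =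
      ∑ x, PowerSeries.C (w x * pexp (∑ σ, freq L x.2 σ * z σ)) * Z ^ (x.1 : ℕ) *
        expSeries' (c x.2) := fun w => rfl
  rw [hL, hL, map_sum, Finset.sum_congr rfl fun x _ => hterm x, Finset.sum_add_distrib]
  have hR : ∀ x : Idx A g q, PowerSeries.C (pDir L δ u v x * pexp (∑ σ, freq L x.2 σ * z σ)) *
      Z ^ (x.1 : ℕ) * expSeries' (c x.2) = PowerSeries.C (c x.2 * v x) * Z ^ (x.1 : ℕ) * X x.2 +
      PowerSeries.C du * (if h : (x.1 : ℕ) + 1 < A then ((((x.1 : ℕ) + 1 : ℕ)) : PowerSeries C) *
        PowerSeries.C (v (⟨x.1 + 1, h⟩, x.2)) * Z ^ (x.1 : ℕ) else 0) * X x.2 := fun x => by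
    rw [hdir]
    simp only [X]
    split_ifs <;> simp only [map_mul, map_add, map_natCast, map_zero] <;> ring
  rw [Finset.sum_congr rfl fun x _ => hR x, Finset.sum_add_distrib, add_right_inj,
    Fintype.sum_prod_type_right, Fintype.sum_prod_type_right]
  refine Finset.sum_congr rfl fun e _ => ?_
  simp only []
  rw [← Finset.sum_mul, ← Finset.sum_mul, ← Finset.mul_sum, ← Finset.mul_sum,
    ← sum_shift_ring (fun a => PowerSeries.C (v (a, e))) Z]

include hp hC in
theorem coeff_lineSeries : ∀ (k : ℕ) (v : Idx A g q → C) (z u : ι → C),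
    coeff k (lineSeries L δ v z u) = pPoly L δ ((pDir L δ u ^ k) v) z * ((k ! : ℕ) : C)⁻¹
  | 0, v, z, u => by
    rw [PowerSeries.coeff_zero_eq_constantCoeff_apply, constantCoeff_lineSeries]
    simp
  | k + 1, v, z, u => by
    haveI := charZero_of_padic p (C := C)
    have h := coeff_lineSeries k (pDir L δ u v) z u
    rw [← derivative_lineSeries (p := p), PowerSeries.coeff_derivative] at h
    rw [pow_succ, Module.End.mul_apply, Nat.factorial_succ]
    push_cast
    have h2 : (k : C) + 1 ≠ 0 := Nat.cast_add_one_ne_zero k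
    rw [mul_inv, mul_left_comm, ← h]
    field_simp

/-- A series, evaluated. -/
def HasValue (ser : PowerSeries C) (x v : C) : Prop :=
  Summable (fun n => ‖coeff n ser * x ^ n‖) ∧ ∑' n, coeff n ser * x ^ n = v

variable {ser ser' : PowerSeries C} {x v v' : C}

theorem HasValue.add (h : HasValue ser x v) (h' : HasValue ser' x v') :
    HasValue (ser + ser') x (v + v') := by
  refine ⟨Summable.of_nonneg_of_le (fun _ => norm_nonneg _) (fun n => ?_) (h.1.add h'.1), ?_⟩
  · rw [map_add, add_mul]; exact norm_add_le _ _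
  · rw [← h.2, ← h'.2, ← h.1.of_norm.tsum_add h'.1.of_norm]
    exact tsum_congr fun n => by rw [map_add, add_mul]

theorem HasValue.mul (h : HasValue ser x v) (h' : HasValue ser' x v') :
    HasValue (ser * ser') x (v * v') := by
  have e : ∀ n, coeff n (ser * ser') * x ^ n = ∑ kl ∈ Finset.antidiagonal n,
      coeff kl.1 ser * x ^ kl.1 * (coeff kl.2 ser' * x ^ kl.2) := fun n => by
    rw [PowerSeries.coeff_mul, Finset.sum_mul]
    refine Finset.sum_congr rfl fun kl hkl => ?_
    rw [← Finset.mem_antidiagonal.mp hkl, pow_add]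
    ring
  refine ⟨?_, ?_⟩
  · simp only [e]
    exact summable_norm_sum_mul_antidiagonal_of_summable_norm
      (f := fun n => coeff n ser * x ^ n) (g := fun n => coeff n ser' * x ^ n) h.1 h'.1
  · rw [← h.2, ← h'.2, tsum_mul_tsum_eq_tsum_sum_antidiagonal_of_summable_norm h.1 h'.1]
    exact tsum_congr e

theorem hasValue_C (c : C) : HasValue (PowerSeries.C c) x c := by
  have e : ∀ n, n ≠ 0 → coeff n (PowerSeries.C c) * x ^ n = 0 := fun n hn => by
    rw [PowerSeries.coeff_C, if_neg hn, zero_mul]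
  refine ⟨summable_of_ne_finset_zero (s := {0}) fun n hn => by
    rw [e n (by simpa using hn), norm_zero], ?_⟩
  rw [tsum_eq_single 0 e]
  simp

theorem hasValue_X : HasValue (PowerSeries.X : PowerSeries C) x x := by
  have e : ∀ n, n ≠ 1 → coeff n (PowerSeries.X : PowerSeries C) * x ^ n = 0 := fun n hn => by
    rw [PowerSeries.coeff_X, if_neg hn, zero_mul]
  refine ⟨summable_of_ne_finset_zero (s := {1}) fun n hn => by
    rw [e n (by simpa using hn), norm_zero], ?_⟩
  rw [tsum_eq_single 1 e]
  simp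

theorem HasValue.pow (h : HasValue ser x v) : ∀ n : ℕ, HasValue (ser ^ n) x (v ^ n)
  | 0 => by simpa using hasValue_C (x := x) (1 : C)
  | n + 1 => by rw [pow_succ, pow_succ]; exact (HasValue.pow h n).mul h

theorem HasValue.sum {κ : Type*} {S : Finset κ} {f : κ → PowerSeries C} {w : κ → C}
    (h : ∀ i ∈ S, HasValue (f i) x (w i)) : HasValue (∑ i ∈ S, f i) x (∑ i ∈ S, w i) := by
  classical
  induction S using Finset.induction with
  | empty => simpa using hasValue_C (x := x) (0 : C)
  | insert i S hi ih =>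
    rw [Finset.sum_insert hi, Finset.sum_insert hi]
    exact (h i (Finset.mem_insert_self i S)).add (ih fun j hj => h j (Finset.mem_insert_of_mem hj))

include hp hC in
theorem hasValue_expSeries' {c : C} (h : Small p (c * x)) :
    HasValue (expSeries' c) x (pexp (c * x)) := by
  have e : ∀ n, coeff n (expSeries' c) * x ^ n = expTerm (c * x) n := fun n => by
    rw [expSeries', PowerSeries.coeff_mk, expTerm, mul_pow]; ring
  refine ⟨(summable_norm_expTerm h).congr fun n => by rw [e], ?_⟩
  exact tsum_congr e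

include hp hC in
/-- **Taylor's formula.** -/
theorem hasValue_lineSeries (hL : ∀ i σ, ‖L i σ‖ ≤ 1) (w : Idx A g q → C) {z u : ι → C}
    (hz : ∀ σ, Small p (z σ)) (hu : ∀ σ, Small p (u σ)) (hx : ‖x‖ ≤ 1) :
    HasValue (lineSeries L δ w z u) x (pPoly L δ w (z + x • u)) := by
  have hlin : ∀ c : ι → C, ∑ σ, c σ * (z + x • u) σ = ∑ σ, c σ * z σ + (∑ σ, c σ * u σ) * x :=
    fun c => by
    simp only [Pi.add_apply, Pi.smul_apply, smul_eq_mul, Finset.sum_mul,
      ← Finset.sum_add_distrib]
    exact Finset.sum_congr rfl fun σ _ => by ring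
  refine HasValue.sum fun i _ => ?_
  have hc := (freq_le L hL i.2)
  have hsu : Small p ((∑ σ, freq L i.2 σ * u σ) * x) := by
    rw [mul_comm]; exact (small_linear hc hu).mul hx
  rw [hlin, hlin, pexp_add (small_linear hc hz) hsu, ← mul_assoc,
    mul_assoc (w i) _ (pexp (∑ σ, freq L i.2 σ * z σ)), mul_comm (_ ^ (i.1 : ℕ)), ← mul_assoc]
  exact ((hasValue_C _).mul
    (((hasValue_C _).add ((hasValue_C _).mul hasValue_X)).pow _)).mul (hasValue_expSeries' hsu)

end Poly

end FA.Brumer

end
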