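import Mathlib.Analysis.Analytic.Order
import Mathlib.Analysis.Complex.AbsMax
import Mathlib.Analysis.Complex.CauchyIntegral
import Mathlib.Analysis.Complex.Liouville
import Mathlib.Analysis.SpecialFunctions.ExpDeriv

/-!
# Entire functions with many zeros

An entire function vanishing to order `r` at `1, …, m` is the product of `∏ (z - l) ^ r` and an
entire function, so by the maximum principle on a large disc its `r`-th derivative at each of
these points is small.
-/

set_option autoImplicit false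

noncomputable section

namespace FA.GelfondSchneider

open Metric
open scoped Nat Topology

/-- Division by one multiple zero. -/
theorem exists_factor_single {f : ℂ → ℂ} (hf : Differentiable ℂ f) {a : ℂ} {r : ℕ}
    (h : (r : ℕ∞) ≤ analyticOrderAt f a) :
    ∃ G : ℂ → ℂ, Differentiable ℂ G ∧ ∀ z, f z = (z - a) ^ r * G z := by
  classical
  obtain ⟨g, hg, hfg⟩ := (natCast_le_analyticOrderAt (hf.analyticAt a)).1 h
  refine ⟨fun z => if z = a then g a else f z / (z - a) ^ r, fun z => ?_, fun z => ?_⟩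
  · by_cases hz : z = a
    · subst hz
      refine hg.differentiableAt.congr_of_eventuallyEq ?_
      filter_upwards [hfg] with w hw
      by_cases hwa : w = z
      · simp [hwa]
      · rw [if_neg hwa, hw, smul_eq_mul, mul_div_cancel_left₀ _
          (pow_ne_zero _ (sub_ne_zero.2 hwa))]
    · have hd : DifferentiableAt ℂ (fun w => f w / (w - a) ^ r) z :=
        (hf z).div (by fun_prop) (pow_ne_zero _ (sub_ne_zero.2 hz))
      refine hd.congr_of_eventuallyEq ?_
      filter_upwards [isOpen_ne.mem_nhds hz] with w hw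
      exact if_neg hw
  · by_cases hz : z = a
    · subst hz
      simp only [if_pos]
      simpa using hfg.self_of_nhds
    · simp only [if_neg hz]
      rw [mul_div_cancel₀ _ (pow_ne_zero _ (sub_ne_zero.2 hz))]

/-- Division by several multiple zeros. -/
theorem exists_factor (s : Finset ℂ) {r : ℕ} : ∀ {f : ℂ → ℂ}, Differentiable ℂ f →
    (∀ a ∈ s, (r : ℕ∞) ≤ analyticOrderAt f a) →
      ∃ G : ℂ → ℂ, Differentiable ℂ G ∧ ∀ z, f z = (∏ a ∈ s, (z - a) ^ r) * G z := by
  classical
  induction s using Finset.induction with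
  | empty => exact fun {f} hf _ => ⟨f, hf, fun z => by simp⟩
  | @insert a s ha ih =>
    intro f hf h
    obtain ⟨G₁, hG₁, h₁⟩ := exists_factor_single hf (h a (Finset.mem_insert_self a s))
    obtain ⟨G, hG, h₂⟩ := ih hG₁ fun b hb => by
      have hne : b ≠ a := fun e => ha (e ▸ hb)
      have hP : AnalyticAt ℂ (fun z : ℂ => (z - a) ^ r) b := by fun_prop
      have hP0 : analyticOrderAt (fun z : ℂ => (z - a) ^ r) b = 0 :=
        analyticOrderAt_eq_zero.2 (Or.inr (pow_ne_zero _ (sub_ne_zero.2 hne)))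
      have := h b (Finset.mem_insert_of_mem hb)
      rw [show f = (fun z : ℂ => (z - a) ^ r) * G₁ from funext h₁,
        analyticOrderAt_mul hP (hG₁.analyticAt b), hP0, zero_add] at this
      exact this
    exact ⟨G, hG, fun z => by rw [Finset.prod_insert ha, h₁, h₂, mul_assoc]⟩

/-- **The derivative at a zero of high order.** -/
theorem norm_iteratedDeriv_le {F : ℂ → ℂ} (hF : Differentiable ℂ F) {m r : ℕ} {R B : ℝ}
    (hR : 2 * (m : ℝ) ≤ R) (hR1 : 1 ≤ R)
    (hzero : ∀ l ∈ Finset.Icc 1 m, ∀ k < r, iteratedDeriv k F (l : ℂ) = 0)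
    (hB : ∀ z : ℂ, ‖z‖ ≤ R → ‖F z‖ ≤ B) {l₀ : ℕ} (hl₀ : l₀ ∈ Finset.Icc 1 m) :
    ‖iteratedDeriv r F (l₀ : ℂ)‖ ≤
      r ! * 2 ^ r * ((2 * (m : ℝ)) ^ (m * r) * (B * (2 / R) ^ (m * r))) := by
  classical
  obtain ⟨G, hG, hfac⟩ := exists_factor ((Finset.Icc 1 m).image (Nat.cast : ℕ → ℂ)) (r := r) hF
    fun a ha => by
      obtain ⟨l, hl, rfl⟩ := Finset.mem_image.1 ha
      exact (natCast_le_analyticOrderAt_iff_iteratedDeriv_eq_zero (hF.analyticAt _)).2 (hzero l hl)
  have hfac' : ∀ z, F z = (∏ l ∈ Finset.Icc 1 m, (z - (l : ℂ)) ^ r) * G z := fun z => by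
    rw [hfac z, Finset.prod_image Nat.cast_injective.injOn]
  have hcard : (Finset.Icc 1 m).card = m := by simp
  have hGb : ∀ z : ℂ, ‖z‖ ≤ R → ‖G z‖ ≤ B * (2 / R) ^ (m * r) := by
    intro z hz
    refine Complex.norm_le_of_forall_mem_frontier_norm_le (U := ball (0 : ℂ) R) isBounded_ball
      hG.diffContOnCl (fun w hw => ?_) ?_
    · rw [frontier_ball _ (by linarith : R ≠ 0), mem_sphere_zero_iff_norm] at hw
      have hP : (R / 2) ^ (m * r) ≤ ‖∏ l ∈ Finset.Icc 1 m, (w - (l : ℂ)) ^ r‖ := by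
        rw [norm_prod, mul_comm m r, pow_mul]
        conv_lhs => rw [← hcard, ← Finset.prod_const]
        refine Finset.prod_le_prod (fun l _ => by positivity) fun l hl => ?_
        rw [norm_pow]
        refine pow_le_pow_left₀ (by linarith) ?_ r
        have hlm : (l : ℝ) ≤ m := by exact_mod_cast (Finset.mem_Icc.1 hl).2
        have := norm_sub_norm_le w (l : ℂ)
        rw [hw, Complex.norm_natCast] at this
        linarith
      have hFw := hB w hw.le
      rw [hfac' w, norm_mul] at hFw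
      have hB0 : 0 ≤ B := (norm_nonneg _).trans (hB 0 (by rw [norm_zero]; linarith))
      have h2 : (R / 2) ^ (m * r) * ‖G w‖ ≤ B :=
        (mul_le_mul_of_nonneg_right hP (norm_nonneg _)).trans hFw
      rw [show (2 / R) ^ (m * r) = ((R / 2) ^ (m * r))⁻¹ by rw [← inv_pow, inv_div],
        ← div_eq_mul_inv, le_div_iff₀ (by positivity)]
      linarith
    · rw [closure_ball _ (by linarith : R ≠ 0), mem_closedBall_zero_iff]
      exact hz
  have hhalf : (0 : ℝ) < 1 / 2 := by norm_num
  have h := Complex.norm_iteratedDeriv_le_of_forall_mem_sphere_norm_le r hhalf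
    (hF.diffContOnCl (s := ball (l₀ : ℂ) (1 / 2)))
    (C := (2 * (m : ℝ)) ^ (m * r) * (B * (2 / R) ^ (m * r))) fun z hz => by
      rw [mem_sphere_iff_norm] at hz
      have hl : (l₀ : ℝ) ≤ m ∧ (1 : ℝ) ≤ l₀ := by
        obtain ⟨h1, h2⟩ := Finset.mem_Icc.1 hl₀
        exact ⟨by exact_mod_cast h2, by exact_mod_cast h1⟩
      have hzn : ‖z‖ ≤ (m : ℝ) + 1 / 2 := by
        have := norm_le_norm_add_norm_sub' z (l₀ : ℂ)
        rw [hz, Complex.norm_natCast] at this
        linarith
      rw [hfac' z, norm_mul]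
      refine mul_le_mul ?_ (hGb z (by linarith)) (norm_nonneg _) (by positivity)
      rw [norm_prod, mul_comm m r, pow_mul]
      conv_rhs => rw [← hcard, ← Finset.prod_const]
      refine Finset.prod_le_prod (fun l _ => norm_nonneg _) fun l hl' => ?_
      rw [norm_pow, hcard]
      refine pow_le_pow_left₀ (norm_nonneg _) ?_ r
      have h1 : (l : ℝ) ≤ m := by exact_mod_cast (Finset.mem_Icc.1 hl').2
      have h2 : (1 : ℝ) ≤ l := by exact_mod_cast (Finset.mem_Icc.1 hl').1
      have hsplit : z - (l : ℂ) = (z - (l₀ : ℂ)) + (((l₀ : ℝ) - (l : ℝ) : ℝ) : ℂ) := by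
        push_cast; ring
      rw [hsplit]
      refine (norm_add_le _ _).trans ?_
      rw [hz, Complex.norm_real, Real.norm_eq_abs]
      have : |(l₀ : ℝ) - l| ≤ (m : ℝ) - 1 := abs_le.2 ⟨by linarith, by linarith⟩
      linarith
  refine h.trans (le_of_eq ?_)
  rw [show (1 / 2 : ℝ) ^ r = ((2 : ℝ) ^ r)⁻¹ by rw [one_div, inv_pow], div_inv_eq_mul]
  ring

end FA.GelfondSchneider

end
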