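import Fermat.Agent.Transcendence.Brumer
import Fermat.Agent.Transcendence.BrumerLog
import Fermat.Agent.Root.SummaryCyclotomicUnits
import Mathlib.NumberTheory.Cyclotomic.PrimitiveRoots
import Mathlib.NumberTheory.NumberField.Cyclotomic.Basic
import Mathlib.LinearAlgebra.Matrix.ToLinearEquiv
import Mathlib.Algebra.Ring.GeomSum

/-!
# The `p`-adic regulator of the cyclotomic units

`X z x = (1 - z^x)(1 - z^(-x)) / ((1 - z)(1 - z⁻¹))` is a cocycle in `x`. So a relation between
the columns of `(log X (z^b) a)` is killed by all translates of `g ↦ log X z g`, and by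
Brumer's theorem every non-trivial even character is non-zero on that function: the units
`X z a`, `2 ≤ a ≤ q / 2`, are independent and their coefficients `χ a` are non-zero.
-/

set_option autoImplicit false
set_option linter.unusedSectionVars false
set_option linter.style.haveILetI false

noncomputable section

namespace FA.Leopoldt

open Finset FA.Brumer
open scoped Real

variable {q : ℕ} [Fact q.Prime] {R : Type*} [CommRing R]

/-- `z ^ x`, for an exponent modulo `q`. -/
def powZ (z : R) (x : ZMod q) : R := z ^ x.val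

/-- `(1 - z ^ x) (1 - z ^ (-x))`. -/
def cycNorm (z : R) (x : ZMod q) : R := (1 - powZ z x) * (1 - powZ z (-x))

/-- The cyclotomic unit `(1 - z ^ x) (1 - z ^ (-x)) / ((1 - z) (1 - z⁻¹))`. -/
def cycVal (z : R) (x : ZMod q) : R :=
  (∑ i ∈ range x.val, z ^ i) * ∑ i ∈ range x.val, powZ z (-1 : ZMod q) ^ i

variable {z : R}

theorem powZ_natCast (hz : z ^ q = 1) (n : ℕ) : powZ z (n : ZMod q) = z ^ n := by
  rw [powZ, ZMod.val_natCast, ← pow_eq_pow_mod n hz]

theorem powZ_powZ (hz : z ^ q = 1) (b x : ZMod q) : powZ (powZ z b) x = powZ z (b * x) := by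
  rw [powZ, powZ, ← pow_mul, ← powZ_natCast hz, Nat.cast_mul, ZMod.natCast_zmod_val,
    ZMod.natCast_zmod_val]

theorem powZ_one : powZ z (1 : ZMod q) = z := by
  haveI : Fact (1 < q) := ⟨(Fact.out : q.Prime).one_lt⟩
  rw [powZ, ZMod.val_one, pow_one]

theorem cycNorm_powZ (hz : z ^ q = 1) (b x : ZMod q) :
    cycNorm (powZ z b) x = cycNorm z (b * x) := by
  rw [cycNorm, cycNorm, powZ_powZ hz, powZ_powZ hz, mul_neg]

theorem cycNorm_mul_cycVal (hz : z ^ q = 1) (x : ZMod q) :
    cycNorm z (1 : ZMod q) * cycVal z x = cycNorm z x := by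
  have h : powZ z (-1 : ZMod q) ^ x.val = powZ z (-x) := by
    show powZ (powZ z (-1 : ZMod q)) x = _
    rw [powZ_powZ hz, neg_one_mul]
  rw [cycNorm, cycVal, powZ_one, mul_mul_mul_comm, mul_neg_geom_sum, mul_neg_geom_sum, h]
  rfl

theorem map_powZ {S : Type*} [CommRing S] (f : R →+* S) (z : R) (x : ZMod q) :
    f (powZ z x) = powZ (f z) x := map_pow f z _

theorem map_cycVal {S : Type*} [CommRing S] (f : R →+* S) (z : R) (x : ZMod q) :
    f (cycVal z x) = cycVal (f z) x := by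
  simp only [cycVal, map_mul, map_sum, map_pow, map_powZ]

variable [IsDomain R]

theorem cycNorm_ne_zero (hz : IsPrimitiveRoot z q) {x : ZMod q} (hx : x ≠ 0) :
    cycNorm z x ≠ 0 := by
  have h : ∀ y : ZMod q, y ≠ 0 → 1 - powZ z y ≠ 0 := fun y hy =>
    sub_ne_zero.mpr (hz.pow_ne_one_of_pos_of_lt
      ((ZMod.val_ne_zero y).mpr hy) (ZMod.val_lt y)).symm
  exact mul_ne_zero (h x hx) (h (-x) (neg_ne_zero.mpr hx))

theorem isPrimitiveRoot_powZ (hz : IsPrimitiveRoot z q) {b : ZMod q} (hb : b ≠ 0) :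
    IsPrimitiveRoot (powZ z b) q :=
  hz.pow_of_coprime _ (((Fact.out : q.Prime).coprime_iff_not_dvd.mpr fun h =>
    (ZMod.val_ne_zero b).mpr hb (Nat.eq_zero_of_dvd_of_lt h (ZMod.val_lt b))).symm)

theorem cycVal_neg (hz : IsPrimitiveRoot z q) (x : ZMod q) : cycVal z (-x) = cycVal z x := by
  refine mul_left_cancel₀ (cycNorm_ne_zero hz (one_ne_zero (α := ZMod q))) ?_
  rw [cycNorm_mul_cycVal hz.pow_eq_one, cycNorm_mul_cycVal hz.pow_eq_one, cycNorm, cycNorm,
    neg_neg, mul_comm]

theorem cycVal_one (hz : IsPrimitiveRoot z q) : cycVal z (1 : ZMod q) = 1 := by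
  refine mul_left_cancel₀ (cycNorm_ne_zero hz (one_ne_zero (α := ZMod q))) ?_
  rw [cycNorm_mul_cycVal hz.pow_eq_one, mul_one]

/-- The cocycle. -/
theorem cycVal_mul (hz : IsPrimitiveRoot z q) (b x : ZMod q) :
    cycVal z (b * x) = cycVal z b * cycVal (powZ z b) x := by
  refine mul_left_cancel₀ (cycNorm_ne_zero hz (one_ne_zero (α := ZMod q))) ?_
  have hb : powZ z b ^ q = 1 := by rw [powZ, ← pow_mul, mul_comm, pow_mul, hz.pow_eq_one, one_pow]
  have e : cycNorm z b = cycNorm (powZ z b) (1 : ZMod q) := by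
    rw [cycNorm_powZ hz.pow_eq_one, mul_one]
  rw [← mul_assoc, cycNorm_mul_cycVal hz.pow_eq_one, cycNorm_mul_cycVal hz.pow_eq_one, e,
    cycNorm_mul_cycVal hb, cycNorm_powZ hz.pow_eq_one]

theorem isUnit_cycVal (hz : IsPrimitiveRoot z q) {x : ZMod q} (hx : x ≠ 0) :
    IsUnit (cycVal z x) :=
  IsUnit.of_mul_eq_one (cycVal (powZ z x) x⁻¹) (by
    rw [← cycVal_mul hz, mul_inv_cancel₀ hx, cycVal_one hz])

omit [IsDomain R]

/-- A sum of an even function, folded. -/
theorem sum_even (hq : 5 ≤ q) (h : ZMod q → R) (heven : ∀ x, h (-x) = h x) :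
    ∑ x, h x = h 0 + 2 * (h 1 + ∑ a ∈ Icc 2 (q / 2), h (a : ZMod q)) := by
  have hodd : q % 2 = 1 := (Fact.out : q.Prime).eq_two_or_odd.resolve_left (by omega)
  have h0 : ∑ x, h x = ∑ r ∈ range q, h (r : ZMod q) := by
    refine (Finset.sum_nbij (fun r : ℕ => (r : ZMod q)) (fun r _ => mem_univ _) ?_ ?_ ?_).symm
    · intro a ha b hb e
      rw [coe_range, Set.mem_Iio] at ha hb
      have := (ZMod.natCast_eq_natCast_iff' a b q).mp e
      rwa [Nat.mod_eq_of_lt ha, Nat.mod_eq_of_lt hb] at this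
    · exact fun j _ => ⟨j.val, by simpa using ZMod.val_lt j, ZMod.natCast_zmod_val j⟩
    · exact fun r _ => rfl
  have e1 : (range q).filter (fun r => r ≤ q / 2) = insert 0 (insert 1 (Icc 2 (q / 2))) := by
    ext r; simp only [mem_filter, mem_range, mem_insert, mem_Icc]; omega
  have e2 : ∑ r ∈ (range q).filter (fun r => ¬ r ≤ q / 2), h (r : ZMod q) =
      ∑ r ∈ insert 1 (Icc 2 (q / 2)), h (r : ZMod q) := by
    refine Finset.sum_nbij' (fun r => q - r) (fun r => q - r) ?_ ?_ ?_ ?_ ?_ <;>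
      intro r hr <;> simp only [mem_filter, mem_range, mem_insert, mem_Icc] at hr ⊢
    iterate 4 omega
    rw [Nat.cast_sub (by omega), ZMod.natCast_self, zero_sub, heven]
  rw [h0, ← Finset.sum_filter_add_sum_filter_not (range q) (fun r => r ≤ q / 2), e2, e1,
    sum_insert (by simp), sum_insert (by simp), Nat.cast_zero, Nat.cast_one]
  ring

section Padic

instance : IsCyclotomicExtension {q} ℚ (CyclotomicField q ℚ) :=
  haveI : NeZero ((q : ℕ) : ℚ) := ⟨Nat.cast_ne_zero.mpr (Fact.out : q.Prime).ne_zero⟩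
  CyclotomicField.isCyclotomicExtension q ℚ

variable {p : ℕ} [hp : Fact p.Prime] {C : Type} [NontriviallyNormedField C] [CompleteSpace C]
  [IsUltrametricDist C] [hC : NormedAlgebra ℚ_[p] C] [CharZero C] [IsAlgClosed C]

theorem exists_embedding {F : Type*} [Field F] [CharZero F] {z : F} (hz : IsPrimitiveRoot z q) :
    ∃ ψ : CyclotomicField q ℚ →+* F,
      ψ (IsCyclotomicExtension.zeta q ℚ (CyclotomicField q ℚ)) = z := by
  haveI : NeZero q := ⟨(Fact.out : q.Prime).ne_zero⟩
  set hζ := IsCyclotomicExtension.zeta_spec q ℚ (CyclotomicField q ℚ)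
  have hirr := Polynomial.cyclotomic.irreducible_rat (Fact.out : q.Prime).pos
  set E := hζ.embeddingsEquivPrimitiveRoots F hirr
  refine ⟨(E.symm ⟨z, (mem_primitiveRoots (Fact.out : q.Prime).pos).mpr hz⟩).toRingHom, ?_⟩
  have h := congrArg Subtype.val
    (E.apply_symm_apply ⟨z, (mem_primitiveRoots (Fact.out : q.Prime).pos).mpr hz⟩)
  rw [IsPrimitiveRoot.embeddingsEquivPrimitiveRoots_apply_coe] at h
  exact h

variable (q) in
include hp hC in
/-- One exponent for all the cyclotomic units. -/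
theorem exists_exponent : ∃ M : ℕ, 0 < M ∧ ∀ z : C, IsPrimitiveRoot z q → ∀ x : ZMod q, x ≠ 0 →
    ‖cycVal z x ^ M - 1‖ ≤ rad p := by
  haveI : NeZero q := ⟨(Fact.out : q.Prime).ne_zero⟩
  haveI : NumberField (CyclotomicField q ℚ) :=
    IsCyclotomicExtension.numberField {q} ℚ _
  obtain ⟨M, hM0, hM⟩ := exists_power_close (p := p) (C := C) (CyclotomicField q ℚ)
  refine ⟨M, hM0, fun z hz x hx => ?_⟩
  obtain ⟨ψ, hψ⟩ := exists_embedding hz
  have hζ := IsCyclotomicExtension.zeta_spec q ℚ (CyclotomicField q ℚ)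
  obtain ⟨u, hu⟩ := isUnit_cycVal hζ.toInteger_isPrimitiveRoot hx
  have h := hM ψ u
  rw [hu] at h
  have e : ((cycVal hζ.toInteger x : NumberField.RingOfIntegers (CyclotomicField q ℚ)) :
      CyclotomicField q ℚ) = cycVal (IsCyclotomicExtension.zeta q ℚ (CyclotomicField q ℚ)) x :=
    map_cycVal (algebraMap _ _) _ _
  rw [← hψ, ← map_cycVal, ← e]
  exact h

open Classical in
/-- `log` of the unit, `0` at `0`. -/
def logVal (p M : ℕ) (z : C) (x : ZMod q) : C :=
  if x = 0 then 0 else plog p (cycVal z x ^ M)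

variable {M : ℕ} {z : C}

variable (q) in
/-- The units have their `M`-th powers near `1`. -/
def Close (p M : ℕ) (C : Type) [NontriviallyNormedField C] : Prop :=
  ∀ z : C, IsPrimitiveRoot z q → ∀ x : ZMod q, x ≠ 0 → ‖cycVal z x ^ M - 1‖ ≤ rad p

theorem logVal_neg (hz : IsPrimitiveRoot z q) (x : ZMod q) :
    logVal p M z (-x) = logVal p M z x := by
  simp only [logVal, neg_eq_zero, cycVal_neg hz]

include hp hC in
theorem logVal_one (hz : IsPrimitiveRoot z q) : logVal p M z (1 : ZMod q) = 0 := by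
  have h1 : ‖(1 : C) - 1‖ ≤ rad p := by rw [sub_self, norm_zero]; exact (rad_pos (p := p)).le
  rw [logVal, if_neg one_ne_zero, cycVal_one hz, one_pow]
  refine pexp_injOn (p := p) (norm_plog_le _) (by rw [norm_zero]; exact (rad_pos (p := p)).le) ?_
  rw [pexp_plog h1, pexp_zero]

include hp hC in
theorem logVal_mul (hM : Close q p M C) (hz : IsPrimitiveRoot z q) {b x : ZMod q} (hb : b ≠ 0)
    (hx : x ≠ 0) : logVal p M z (b * x) = logVal p M z b + logVal p M (powZ z b) x := by
  rw [logVal, logVal, logVal, if_neg (mul_ne_zero hb hx), if_neg hb, if_neg hx, cycVal_mul hz,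
    mul_pow, plog_mul (hM z hz b hb) (hM _ (isPrimitiveRoot_powZ hz hb) x hx)]

theorem natCast_ne_zero' {a : ℕ} (ha : a ∈ Icc 2 (q / 2)) : (a : ZMod q) ≠ 0 := fun h => by
  rw [mem_Icc] at ha
  have := Nat.eq_zero_of_dvd_of_lt ((ZMod.natCast_eq_zero_iff a q).mp h) (by omega)
  omega

theorem cycVal_stdAddChar {a : ℕ} (ha : a ∈ Icc 2 (q / 2)) :
    cycVal (ZMod.stdAddChar (1 : ZMod q) : ℂ) (a : ZMod q) =
      (((Real.sin (π * ((a : ℝ) / q)) / Real.sin (π * ((1 : ℝ) / q))) ^ 2 : ℝ) : ℂ) := by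
  haveI : Fact (1 < q) := ⟨(Fact.out : q.Prime).one_lt⟩
  have hz : (ZMod.stdAddChar (1 : ZMod q) : ℂ) ^ q = 1 := by
    rw [← AddChar.map_nsmul_eq_pow, nsmul_eq_mul, ZMod.natCast_self, zero_mul,
      AddChar.map_zero_eq_one]
  have hn : ∀ x : ZMod q, x ≠ 0 → cycNorm (ZMod.stdAddChar (1 : ZMod q) : ℂ) x =
      ((4 * Real.sin (π * ((x.val : ℝ) / q)) ^ 2 : ℝ) : ℂ) := fun x hx => by
    have e : ∀ y : ZMod q, powZ (ZMod.stdAddChar (1 : ZMod q) : ℂ) y = ZMod.stdAddChar y :=
      fun y => by rw [powZ, OrderTheta.stdAddChar_mul_val, mul_one]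
    rw [cycNorm, e, e, OrderTheta.pair_one_sub_stdAddChar hx, two_mul (OrderTheta.sineLog q x),
      Real.exp_add, OrderTheta.sineLog,
      Real.exp_log (OrderTheta.sin_pi_mul_pos (OrderTheta.val_div_mem_Ioo hx)), ← pow_two]
  have ha' := mem_Icc.mp ha
  have h1 := hn 1 one_ne_zero
  have h2 := hn (a : ZMod q) (natCast_ne_zero' ha)
  rw [← cycNorm_mul_cycVal hz, h1, ZMod.val_natCast, Nat.mod_eq_of_lt (by omega),
    ZMod.val_one, Nat.cast_one] at h2
  have hs : 0 < Real.sin (π * ((1 : ℝ) / q)) := by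
    have := OrderTheta.sin_pi_mul_pos (OrderTheta.val_div_mem_Ioo (one_ne_zero (α := ZMod q)))
    rwa [ZMod.val_one, Nat.cast_one] at this
  refine mul_left_cancel₀ (Complex.ofReal_ne_zero.mpr
    (mul_pos (by norm_num : (0 : ℝ) < 4) (pow_pos hs 2)).ne') (h2.trans ?_)
  rw [← Complex.ofReal_mul, div_pow]
  congr 1
  rw [mul_assoc, mul_div_cancel₀ _ (pow_ne_zero 2 hs.ne')]

include hp hC in
/-- The logarithms of the cyclotomic units are independent. -/
theorem linearIndependent_logVal (hM0 : 0 < M) (hM : Close q p M C) (hz : IsPrimitiveRoot z q) :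
    LinearIndependent ℚ fun a : Icc 2 (q / 2) => logVal p M z ((a : ℕ) : ZMod q) := by
  classical
  rw [← LinearIndependent.iff_fractionRing ℤ ℚ, Fintype.linearIndependent_iff]
  intro e he
  haveI : NeZero q := ⟨(Fact.out : q.Prime).ne_zero⟩
  haveI : Fact (1 < q) := ⟨(Fact.out : q.Prime).one_lt⟩
  set u : Icc 2 (q / 2) → ℕ := fun a => (e a).toNat
  set v : Icc 2 (q / 2) → ℕ := fun a => (-e a).toNat
  have huv : ∀ a, ((u a : ℤ) - v a) = e a := fun a => by simp only [u, v]; omega
  have hC' : ∏ a : Icc 2 (q / 2), (cycVal z ((a : ℕ) : ZMod q) ^ M) ^ u a =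
      ∏ a : Icc 2 (q / 2), (cycVal z ((a : ℕ) : ZMod q) ^ M) ^ v a := by
    have hsm : ∀ (a : Icc 2 (q / 2)) (n : ℕ), Small p ((n : C) * logVal p M z ((a : ℕ) : ZMod q)) :=
      fun a n => by
      rw [logVal, if_neg (natCast_ne_zero' a.2)]
      exact (small_of_le (p := p) (norm_plog_le _)).mul (IsUltrametricDist.norm_natCast_le_one C n)
    have hw : ∀ w : Icc 2 (q / 2) → ℕ, pexp (∑ a, (w a : C) * logVal p M z ((a : ℕ) : ZMod q)) =
        ∏ a : Icc 2 (q / 2), (cycVal z ((a : ℕ) : ZMod q) ^ M) ^ w a := fun w => by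
      rw [pexp_sum (p := p) fun a _ => hsm a (w a)]
      refine Finset.prod_congr rfl fun a _ => ?_
      rw [logVal, if_neg (natCast_ne_zero' a.2), pexp_nat_mul (small_of_le (p := p)
        (norm_plog_le _)), pexp_plog (hM z hz _ (natCast_ne_zero' a.2))]
    rw [← hw u, ← hw v]
    congr 1
    rw [← sub_eq_zero, ← Finset.sum_sub_distrib, ← he]
    refine Finset.sum_congr rfl fun a _ => ?_
    rw [← sub_mul, zsmul_eq_mul, ← huv]
    push_cast
    ring
  -- to the real numbers
  obtain ⟨ψ, hψ⟩ := exists_embedding hz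
  have hζ1 : IsPrimitiveRoot (ZMod.stdAddChar (1 : ZMod q) : ℂ) q := by
    have hpow : (ZMod.stdAddChar (1 : ZMod q) : ℂ) ^ q = 1 := by
      rw [← AddChar.map_nsmul_eq_pow, nsmul_eq_mul, ZMod.natCast_self, zero_mul,
        AddChar.map_zero_eq_one]
    have hne : (ZMod.stdAddChar (1 : ZMod q) : ℂ) ≠ 1 := fun h =>
      one_ne_zero (ZMod.injective_stdAddChar (h.trans (AddChar.map_zero_eq_one _).symm))
    have ho := IsPrimitiveRoot.orderOf (ZMod.stdAddChar (1 : ZMod q) : ℂ)
    rwa [orderOf_eq_prime hpow hne] at ho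
  obtain ⟨φ', hφ⟩ := exists_embedding hζ1
  set ζ := IsCyclotomicExtension.zeta q ℚ (CyclotomicField q ℚ)
  have hK : ∏ a : Icc 2 (q / 2), (cycVal ζ ((a : ℕ) : ZMod q) ^ M) ^ u a =
      ∏ a : Icc 2 (q / 2), (cycVal ζ ((a : ℕ) : ZMod q) ^ M) ^ v a := by
    refine ψ.injective ?_
    simp only [map_prod, map_pow, map_cycVal, hψ]
    exact hC'
  set s : ℕ → ℝ := fun a => Real.sin (π * ((a : ℝ) / q)) / Real.sin (π * ((1 : ℝ) / q))
  have hR : ∏ a : Icc 2 (q / 2), ((s a ^ 2) ^ M) ^ u a =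
      ∏ a : Icc 2 (q / 2), ((s a ^ 2) ^ M) ^ v a := by
    have h := congrArg φ' hK
    simp only [map_prod, map_pow, map_cycVal, hφ] at h
    refine Complex.ofReal_injective ?_
    push_cast
    have e : ∀ (w : Icc 2 (q / 2) → ℕ),
        ∏ a : Icc 2 (q / 2),
          (cycVal (ZMod.stdAddChar (1 : ZMod q) : ℂ) ((a : ℕ) : ZMod q) ^ M) ^ w a =
        ∏ a : Icc 2 (q / 2), ((((s a : ℝ) : ℂ) ^ 2) ^ M) ^ w a := fun w =>
      Finset.prod_congr rfl fun a _ => by rw [cycVal_stdAddChar a.2, Complex.ofReal_pow]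
    rw [← e u, ← e v]
    exact h
  have hs : ∀ a : Icc 2 (q / 2), s a ≠ 0 := fun a => by
    have ha := mem_Icc.mp a.2
    have hq0 : (0 : ℝ) < q := Nat.cast_pos.mpr (Fact.out : q.Prime).pos
    refine div_ne_zero ?_ ?_
    · exact (OrderTheta.sin_pi_mul_pos ⟨div_pos (Nat.cast_pos.mpr (by omega)) hq0,
        (div_lt_one hq0).mpr (Nat.cast_lt.mpr (by omega))⟩).ne'
    · exact (OrderTheta.sin_pi_mul_pos ⟨div_pos one_pos hq0,
        (div_lt_one hq0).mpr (by exact_mod_cast (Fact.out : q.Prime).one_lt)⟩).ne'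
  have hprod : ∏ a ∈ Icc 2 (q / 2), s a ^ (fun a => if h : a ∈ Icc 2 (q / 2) then
      ((2 * M : ℕ) : ℤ) * e ⟨a, h⟩ else 0) a = 1 := by
    rw [← Finset.prod_coe_sort (Icc 2 (q / 2))]
    calc ∏ a : Icc 2 (q / 2), s a ^ (if h : (a : ℕ) ∈ Icc 2 (q / 2) then
          ((2 * M : ℕ) : ℤ) * e ⟨a, h⟩ else 0)
        = ∏ a : Icc 2 (q / 2), ((s a ^ 2) ^ M) ^ u a / ((s a ^ 2) ^ M) ^ v a :=
          Finset.prod_congr rfl fun a _ => by
            rw [dif_pos a.2, zpow_mul, zpow_natCast, ← huv, zpow_sub₀ (pow_ne_zero _ (hs a)),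
              zpow_natCast, zpow_natCast, pow_mul]
      _ = 1 := by
          rw [Finset.prod_div_distrib, hR, div_self]
          exact Finset.prod_ne_zero_iff.mpr fun a _ =>
            pow_ne_zero _ (pow_ne_zero _ (pow_ne_zero _ (hs a)))
  intro a
  have := Summary.cyclotomicUnits_independent q _ hprod a a.2
  simp only [dif_pos a.2] at this
  exact (mul_eq_zero.mp this).resolve_left (by exact_mod_cast (by omega : 2 * M ≠ 0))

include hp hC in
/-- **An even non-trivial character does not annihilate the logarithms.** -/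
theorem sum_char_logVal_ne_zero (hq : 5 ≤ q) (hM0 : 0 < M) (hM : Close q p M C)
    (hz : IsPrimitiveRoot z q) {χ : DirichletCharacter C q} (hχ : χ.Even) :
    ∑ x, χ x * logVal p M z x ≠ 0 := by
  classical
  intro h0
  rw [sum_even hq _ fun x => by rw [hχ.eval_neg, logVal_neg hz], MulChar.map_zero, zero_mul,
    logVal_one hz, mul_zero, zero_add, zero_add, mul_eq_zero, ← Finset.sum_coe_sort] at h0
  have hnz : ∀ a : Icc 2 (q / 2), IsUnit ((a : ℕ) : ZMod q) := fun a =>
    Ne.isUnit (natCast_ne_zero' a.2)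
  have hsmall : ∀ a : Icc 2 (q / 2), ‖logVal p M z ((a : ℕ) : ZMod q)‖ ≤ rad p := fun a => by
    rw [logVal, if_neg (natCast_ne_zero' a.2)]
    exact norm_plog_le _
  refine false_of_relation (p := p) (fun a : Icc 2 (q / 2) => logVal p M z ((a : ℕ) : ZMod q))
    (fun a => small_of_le (hsmall a)) (fun a => ?_) (linearIndependent_logVal hM0 hM hz)
    (fun a => χ ((a : ℕ) : ZMod q)) (fun a => ?_) 0 isAlgebraic_zero ?_
    (h0.resolve_left two_ne_zero)
  · rw [logVal, if_neg (natCast_ne_zero' a.2), pexp_plog (hM z hz _ (natCast_ne_zero' a.2))]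
    have hzalg : IsIntegral ℚ z := (hz.isIntegral (Fact.out : q.Prime).pos).tower_top
    refine IsAlgebraic.pow (IsIntegral.isAlgebraic ?_) M
    exact (IsIntegral.sum _ fun i _ => hzalg.pow i).mul
      (IsIntegral.sum _ fun i _ => (hzalg.pow _).pow i)
  · obtain ⟨w, hw⟩ := hnz a
    refine IsAlgebraic.of_pow (Fintype.card_pos (α := (ZMod q)ˣ)) ?_
    rw [← hw, ← map_pow, ← Units.val_pow_eq_pow_val, pow_card_eq_one, Units.val_one, map_one]
    exact isAlgebraic_one
  · exact fun h => ((hnz ⟨2, mem_Icc.mpr ⟨le_rfl, by omega⟩⟩).map χ).ne_zero (congrFun h _)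

include hp hC in
/-- **The kernel of the regulator matrix is trivial.** -/
theorem kernel_eq_zero (hq : 5 ≤ q) (hM0 : 0 < M) (hM : Close q p M C)
    (hz : IsPrimitiveRoot z q) (c : ℕ → C)
    (h : ∀ b ∈ Icc 2 (q / 2),
      ∑ a ∈ Icc 2 (q / 2), c a * logVal p M (powZ z ((b : ℕ) : ZMod q)) (a : ZMod q) = 0) :
    ∀ a ∈ Icc 2 (q / 2), c a = 0 := by
  classical
  set d : ZMod q → C := fun x =>
    if min x.val (q - x.val) = 1 then -∑ a ∈ Icc 2 (q / 2), c a
    else if min x.val (q - x.val) ∈ Icc 2 (q / 2) then c (min x.val (q - x.val)) else 0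
  have hd0 : d 0 = 0 := by simp [d]
  haveI : Fact (1 < q) := ⟨(Fact.out : q.Prime).one_lt⟩
  have hdev : ∀ x, d (-x) = d x := fun x => by
    by_cases hx : x = 0
    · rw [hx, neg_zero]
    · have e : min (-x).val (q - (-x).val) = min x.val (q - x.val) := by
        rw [ZMod.neg_val, if_neg hx]
        have := ZMod.val_lt x
        omega
      simp only [d, e]
  have hd1 : d 1 = -∑ a ∈ Icc 2 (q / 2), c a := by
    simp only [d, ZMod.val_one]
    rw [if_pos (by omega)]
  have hda : ∀ a ∈ Icc 2 (q / 2), d (a : ZMod q) = c a := fun a ha => by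
    have ha' := mem_Icc.mp ha
    have e : min (a : ZMod q).val (q - (a : ZMod q).val) = a := by
      rw [ZMod.val_natCast, Nat.mod_eq_of_lt (by omega)]; omega
    simp only [d, e]
    rw [if_neg (by omega), if_pos ha]
  have hdsum : ∑ x, d x = 0 := by
    rw [sum_even hq d hdev, hd0, hd1, Finset.sum_congr rfl hda]; ring
  set L : ZMod q → C := logVal p M z
  set F : ZMod q → C := fun b => ∑ x, d x * L (x * b)
  have hFev : ∀ b, F (-b) = F b := fun b => by
    simp only [F, mul_neg, L, logVal_neg hz]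
  have hFS : ∀ b ∈ Icc 2 (q / 2), F (b : ZMod q) = 0 := fun b hb => by
    simp only [F]
    rw [sum_even hq _ fun x => by rw [hdev, neg_mul]; simp only [L, logVal_neg hz],
      hd0, zero_mul, zero_add, hd1, one_mul, mul_eq_zero]
    right
    rw [← h b hb, neg_mul, Finset.sum_mul, ← Finset.sum_neg_distrib, ← Finset.sum_add_distrib]
    refine Finset.sum_congr rfl fun a ha => ?_
    rw [hda a ha, mul_comm (a : ZMod q) (b : ZMod q)]
    simp only [L, logVal_mul hM hz (natCast_ne_zero' hb) (natCast_ne_zero' ha)]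
    ring
  have hF1 : F 1 = 0 := by
    have hsum : ∑ b, F b = 0 := by
      simp only [F]
      rw [Finset.sum_comm]
      have : ∀ x, ∑ b, d x * L (x * b) = d x * ∑ b, L b := fun x => by
        by_cases hx : x = 0
        · simp [hx, hd0]
        · rw [← Finset.mul_sum]
          congr 1
          exact Fintype.sum_equiv (Equiv.mulLeft₀ x hx) _ _ fun b => rfl
      simp only [this, ← Finset.sum_mul, hdsum, zero_mul]
    rw [sum_even hq F hFev, Finset.sum_eq_zero hFS, add_zero,
      show F 0 = 0 by simp [F, L, logVal], zero_add, mul_eq_zero] at hsum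
    exact hsum.resolve_left two_ne_zero
  have hF : ∀ b, F b = 0 := fun b => by
    have hb := ZMod.val_lt b
    have key : ∀ n : ℕ, n ≤ q / 2 → F (n : ZMod q) = 0 := fun n hn => by
      rcases Nat.lt_or_ge n 2 with h2 | h2
      · interval_cases n
        · simp [F, L, logVal]
        · rw [Nat.cast_one]; exact hF1
      · exact hFS n (mem_Icc.mpr ⟨h2, hn⟩)
    rcases le_or_gt b.val (q / 2) with h2 | h2
    · rw [← ZMod.natCast_zmod_val b]; exact key _ h2
    · rw [← hFev, show -b = ((q - b.val : ℕ) : ZMod q) by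
        rw [Nat.cast_sub hb.le, ZMod.natCast_self, zero_sub, ZMod.natCast_zmod_val]]
      exact key _ (by omega)
  have hall : ∀ χ : DirichletCharacter C q, ∑ x, d x * χ x = 0 := fun χ => by
    rcases DirichletCharacter.even_or_odd χ with hev | hod
    swap
    · exact Function.Odd.sum_eq_zero fun x => by rw [hdev, hod.eval_neg, mul_neg]
    have hinv : (χ⁻¹).Even := by
      show χ⁻¹ (-1) = 1
      rw [MulChar.inv_apply', inv_neg_one]
      exact hev
    have key : ∑ b, χ⁻¹ b * F b = (∑ x, d x * χ x) * ∑ b, χ⁻¹ b * L b := by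
      rw [Finset.sum_mul_sum]
      simp only [F, Finset.mul_sum]
      rw [Finset.sum_comm]
      refine Finset.sum_congr rfl fun a _ => ?_
      by_cases ha : a = 0
      · simp [ha, hd0]
      refine Fintype.sum_equiv (Equiv.mulLeft₀ a ha) _ _ fun b => ?_
      rw [Equiv.mulLeft₀_apply, map_mul]
      have e : χ a * χ⁻¹ a = 1 := by
        rw [← MulChar.mul_apply, mul_inv_cancel, MulChar.one_apply (Ne.isUnit ha)]
      linear_combination (-(χ⁻¹ b * d a * L (a * b))) * e
    simp only [hF, mul_zero, Finset.sum_const_zero] at key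
    exact (mul_eq_zero.mp key.symm).resolve_right (sum_char_logVal_ne_zero hq hM0 hM hz hinv)
  intro a ha
  rw [← hda a ha]
  have hu : IsUnit (a : ZMod q) := Ne.isUnit (natCast_ne_zero' ha)
  have h1 : ∑ χ : DirichletCharacter C q, χ (a : ZMod q)⁻¹ * ∑ x, d x * χ x =
      (q.totient : C) * d (a : ZMod q) := by
    simp only [Finset.mul_sum]
    rw [Finset.sum_comm]
    simp only [mul_left_comm _ (d _), ← Finset.mul_sum,
      DirichletCharacter.sum_char_inv_mul_char_eq C hu]
    simp [mul_comm]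
  simp only [hall, mul_zero, Finset.sum_const_zero] at h1
  exact (mul_eq_zero.mp h1.symm).resolve_left
    (Nat.cast_ne_zero.mpr (Nat.totient_pos.mpr (Fact.out : q.Prime).pos).ne')

variable (p q) in
include hp hC in
/-- **Leopoldt's conjecture for the real subfield of `ℚ (ζ_q)`, in regulator form.** -/
theorem regulator_ne_zero {z : C} (hz : IsPrimitiveRoot z q) :
    ∃ M : ℕ, 0 < M ∧ Close q p M C ∧
      (Matrix.of fun a b : Icc 2 (q / 2) =>
        plog p (cycVal (powZ z ((b : ℕ) : ZMod q)) ((a : ℕ) : ZMod q) ^ M)).det ≠ 0 := by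
  classical
  obtain ⟨M, hM0, hM⟩ := exists_exponent q (p := p) (C := C)
  refine ⟨M, hM0, hM, fun hdet => ?_⟩
  rcases Nat.lt_or_ge q 5 with hlt | hq
  · haveI : IsEmpty (Icc 2 (q / 2) : Finset ℕ) := ⟨fun a => by
      have := mem_Icc.mp a.2
      have : q ≠ 4 := fun h => by
        have := (Fact.out : q.Prime)
        rw [h] at this
        exact absurd this (by decide)
      omega⟩
    rw [Matrix.det_isEmpty] at hdet
    exact one_ne_zero hdet
  · obtain ⟨c, hc0, hc⟩ := Matrix.exists_vecMul_eq_zero_iff.mpr hdet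
    refine hc0 (funext fun a => ?_)
    have h := kernel_eq_zero hq hM0 hM hz
      (fun n => if h : n ∈ Icc 2 (q / 2) then c ⟨n, h⟩ else 0) (fun b hb => ?_) a a.2
    · simp only [dif_pos a.2] at h
      exact h
    · have := congrFun hc ⟨b, hb⟩
      simp only [Matrix.vecMul, dotProduct, Matrix.of_apply, Pi.zero_apply] at this
      rw [← this, ← Finset.sum_coe_sort]
      refine Finset.sum_congr rfl fun a _ => ?_
      rw [dif_pos a.2, logVal, if_neg (natCast_ne_zero' a.2)]

end Padic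

end FA.Leopoldt

end
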