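import Fermat.Agent.Transcendence.Brumer
import Fermat.Agent.Transcendence.BrumerLog
import Mathlib.NumberTheory.NumberField.Units.DirichletTheorem
import Mathlib.NumberTheory.NumberField.InfinitePlace.Ramification
import Mathlib.GroupTheory.FiniteAbelian.Duality
import Mathlib.RingTheory.RootsOfUnity.AlgebraicallyClosed

/-!
# Leopoldt's conjecture for an abelian group of automorphisms (Ax, Brumer)

Let a finite abelian group `G` act on the number field `K` transitively on the infinite places.
On the coefficient vectors of the fundamental units the projector of each character has rank at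
most one, by Dirichlet, and algebraic entries. A vector killed by the `p`-adic logarithms would
so give an algebraic one, which Brumer's theorem excludes.
-/

set_option autoImplicit false
set_option linter.unusedSectionVars false
set_option linter.style.haveILetI false

noncomputable section

namespace FA.LeopoldtAbelian

open Finset NumberField NumberField.Units

variable {K : Type} [Field K] [NumberField K]

/-- The exponent of the `j`-th fundamental unit in `x`. -/
def expOf (x : (𝓞 K)ˣ) (j : Fin (rank K)) : ℤ :=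
  (exist_unique_eq_mul_prod K x).choose.2 j

theorem eq_expOf {x ζ : (𝓞 K)ˣ} {f : Fin (rank K) → ℤ} (hζ : ζ ∈ torsion K)
    (h : x = ζ * ∏ i, fundSystem K i ^ f i) : f = expOf x :=
  congrArg Prod.snd ((exist_unique_eq_mul_prod K x).choose_spec.2 (⟨ζ, hζ⟩, f) h)

theorem expOf_one (j : Fin (rank K)) : expOf (1 : (𝓞 K)ˣ) j = 0 :=
  (congrFun (eq_expOf (x := (1 : (𝓞 K)ˣ)) (f := fun _ => 0) (one_mem (torsion K))
    (by simp)) j).symm

theorem expOf_fundSystem (i j : Fin (rank K)) :
    expOf (fundSystem K i) j = if j = i then 1 else 0 := by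
  classical
  refine (congrFun (eq_expOf (x := fundSystem K i) (f := fun j => if j = i then 1 else 0)
    (one_mem (torsion K)) ?_) j).symm
  rw [one_mul, Finset.prod_eq_single i (fun b _ hb => by rw [if_neg hb, zpow_zero]) (by simp),
    if_pos rfl, zpow_one]

/-- An additive map to characteristic zero sees only the exponents. -/
theorem map_eq_sum {C : Type*} [Field C] [CharZero C] (ℓ : Additive (𝓞 K)ˣ →+ C) (x : (𝓞 K)ˣ) :
    ℓ (Additive.ofMul x) = ∑ j, (expOf x j : C) * ℓ (Additive.ofMul (fundSystem K j)) := by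
  obtain ⟨⟨ζ, e⟩, h, -⟩ := exist_unique_eq_mul_prod K x
  have he : e = expOf x := eq_expOf ζ.2 h
  have hζ : ℓ (Additive.ofMul (ζ : (𝓞 K)ˣ)) = 0 := by
    obtain ⟨n, hn, hn1⟩ := (show IsOfFinOrder (ζ : (𝓞 K)ˣ) from ζ.2).exists_pow_eq_one
    have := congrArg (fun y => ℓ (Additive.ofMul y)) hn1
    simp only [ofMul_pow, map_nsmul, ofMul_one, map_zero, smul_eq_zero] at this
    exact this.resolve_left hn.ne'
  conv_lhs => rw [h]
  rw [ofMul_mul, map_add, hζ, zero_add, ofMul_prod, map_sum, he]
  simp only [ofMul_zpow, map_zsmul, zsmul_eq_mul]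

/-- `x ↦ log ‖φ x‖`. -/
def logAbs (φ : K →+* ℂ) : Additive (𝓞 K)ˣ →+ ℂ :=
  AddMonoidHom.mk' (fun x => ((Real.log ‖φ ((x.toMul : 𝓞 K) : K)‖ : ℝ) : ℂ)) fun x y => by
    have hne : ∀ z : Additive (𝓞 K)ˣ, ‖φ ((z.toMul : 𝓞 K) : K)‖ ≠ 0 := fun z => by
      rw [norm_ne_zero_iff, map_ne_zero, RingOfIntegers.coe_ne_zero_iff]
      exact z.toMul.ne_zero
    simp [Real.log_mul (hne x) (hne y)]

theorem logAbs_apply (φ : K →+* ℂ) (x : (𝓞 K)ˣ) :
    logAbs φ (Additive.ofMul x) = ((Real.log (InfinitePlace.mk φ (x : K)) : ℝ) : ℂ) := rfl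

/-- The `ℂ`-linear independence in Dirichlet's theorem. -/
theorem eq_zero_of_logAbs {c : Fin (rank K) → ℂ}
    (h : ∀ φ : K →+* ℂ, ∑ i, c i * logAbs φ (Additive.ofMul (fundSystem K i)) = 0) : c = 0 := by
  classical
  have hind : LinearIndependent ℝ
      fun i => logEmbedding K (Additive.ofMul (fundSystem K i)) := by
    have := ((basisUnitLattice K).ofZLatticeBasis ℝ (unitLattice K)).linearIndependent
    have e : (fun i => logEmbedding K (Additive.ofMul (fundSystem K i))) =
        ⇑((basisUnitLattice K).ofZLatticeBasis ℝ (unitLattice K)) := funext fun i => by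
      rw [Module.Basis.ofZLatticeBasis_apply, logEmbedding_fundSystem]
    rw [e]
    exact this
  have key : ∀ f : ℂ →+ ℝ, (∀ (z : ℂ) (t : ℝ), f (z * t) = f z * t) → ∀ i, f (c i) = 0 := by
    intro f hf
    refine Fintype.linearIndependent_iff.mp hind (fun i => f (c i)) (funext fun w => ?_)
    have h1 := congrArg f (h w.1.embedding)
    simp only [logAbs_apply, InfinitePlace.mk_embedding, map_sum, hf, map_zero] at h1
    simp only [Finset.sum_apply, Pi.smul_apply, dirichletUnitTheorem.logEmbedding_component,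
      smul_eq_mul,
      Pi.zero_apply, mul_left_comm _ ((w.1.mult : ℕ) : ℝ), ← Finset.mul_sum, h1, mul_zero]
  funext i
  exact Complex.ext (key Complex.reAddGroupHom (fun z t => by simp) i)
    (key Complex.imAddGroupHom (fun z t => by simp) i)

section Group

variable {G : Type*} [CommGroup G] [Fintype G] (act : G →* (K ≃+* K))

/-- The action on units. -/
def actUnit (τ : G) : (𝓞 K)ˣ →* (𝓞 K)ˣ :=
  Units.map (RingOfIntegers.mapRingHom (act τ : K →+* K)).toMonoidHom

theorem coe_actUnit (τ : G) (x : (𝓞 K)ˣ) : ((actUnit act τ x : 𝓞 K) : K) = act τ (x : K) :=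
  rfl

theorem actUnit_mul (σ τ : G) (x : (𝓞 K)ˣ) :
    actUnit act (σ * τ) x = actUnit act σ (actUnit act τ x) :=
  Units.ext (RingOfIntegers.ext (by simp [coe_actUnit, RingAut.mul_apply]))

theorem actUnit_one (x : (𝓞 K)ˣ) : actUnit act 1 x = x :=
  Units.ext (RingOfIntegers.ext (by simp [coe_actUnit]))

/-- The matrix of `σ` on the fundamental units. -/
def unitMat (σ : G) (j i : Fin (rank K)) : ℤ := expOf (actUnit act σ (fundSystem K i)) j

theorem map_actUnit_fundSystem {C : Type*} [Field C] [CharZero C] (ℓ : Additive (𝓞 K)ˣ →+ C)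
    (τ σ : G) (i : Fin (rank K)) :
    ℓ (Additive.ofMul (actUnit act (τ * σ) (fundSystem K i))) =
      ∑ j, (unitMat act σ j i : C) * ℓ (Additive.ofMul (actUnit act τ (fundSystem K j))) := by
  rw [actUnit_mul]
  exact map_eq_sum (ℓ.comp (MonoidHom.toAdditive (actUnit act τ))) _

variable {F : Type*} [Field F]

/-- The (unnormalised) projector of a character, as a matrix. -/
def proj (χ : G →* Fˣ) (j i : Fin (rank K)) : F :=
  ∑ σ, ((χ σ⁻¹ : Fˣ) : F) * (unitMat act σ j i : F)

/-- An additive map sends the columns of the projector to eigenvectors. -/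
theorem sum_proj {C : Type*} [Field C] [CharZero C] (ι : F →+* C) (χ : G →* Fˣ)
    (ℓ : Additive (𝓞 K)ˣ →+ C) (τ : G) (i : Fin (rank K)) :
    ∑ j, ι (proj act χ j i) * ℓ (Additive.ofMul (actUnit act τ (fundSystem K j))) =
      ∑ σ, ι ((χ σ⁻¹ : Fˣ) : F) * ℓ (Additive.ofMul (actUnit act (τ * σ) (fundSystem K i))) := by
  simp only [proj, map_sum, map_mul, map_intCast, map_actUnit_fundSystem, Finset.sum_mul,
    Finset.mul_sum]
  rw [Finset.sum_comm]
  exact Finset.sum_congr rfl fun σ _ => Finset.sum_congr rfl fun j _ => mul_assoc _ _ _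

/-- The projectors sum to `|G|`. -/
theorem sum_proj_characters [CharZero F] [HasEnoughRootsOfUnity F (Monoid.exponent G)]
    [Fintype (G →* Fˣ)] (j i : Fin (rank K)) :
    ∑ χ : G →* Fˣ, proj act χ j i = if j = i then (Fintype.card (G →* Fˣ) : F) else 0 := by
  classical
  have h0 : ∀ σ : G, σ ≠ 1 → ∑ χ : G →* Fˣ, ((χ σ : Fˣ) : F) = 0 := fun σ hσ => by
    obtain ⟨χ₀, hχ₀⟩ := CommGroup.exists_apply_ne_one_of_hasEnoughRootsOfUnity G F hσ
    have e : ∑ χ : G →* Fˣ, ((χ σ : Fˣ) : F) = ∑ χ : G →* Fˣ, (((χ₀ * χ) σ : Fˣ) : F) :=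
      (Fintype.sum_equiv (Equiv.mulLeft χ₀) _ _ fun χ => rfl).symm
    simp only [MonoidHom.mul_apply, Units.val_mul, ← Finset.mul_sum] at e
    by_contra hne
    exact hχ₀ (Units.ext (mul_right_cancel₀ hne (by rw [Units.val_one, one_mul]; exact e.symm)))
  simp only [proj]
  rw [Finset.sum_comm, Finset.sum_eq_single_of_mem (1 : G) (mem_univ _) fun σ _ hσ => by
    rw [← Finset.sum_mul, h0 σ⁻¹ (inv_ne_one.mpr hσ), zero_mul]]
  rw [← Finset.sum_mul, inv_one, unitMat, actUnit_one, expOf_fundSystem]
  simp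

/-- **Each projector has rank at most one.** -/
theorem proj_minor [CharZero F] (j : F →+* ℂ) (φ : K →+* ℂ)
    (htrans : ∀ w : InfinitePlace K, ∃ τ, InfinitePlace.mk (φ.comp (act τ : K →+* K)) = w)
    (χ : G →* Fˣ) (a b i i' : Fin (rank K)) :
    proj act χ a i * proj act χ b i' = proj act χ b i * proj act χ a i' := by
  set c : Fin (rank K) → ℂ := fun i =>
    ∑ σ, j ((χ σ⁻¹ : Fˣ) : F) * logAbs φ (Additive.ofMul (actUnit act σ (fundSystem K i)))
  have eig : ∀ ψ : K →+* ℂ, ∃ t : ℂ, ∀ i,
      ∑ a, j (proj act χ a i) * logAbs ψ (Additive.ofMul (fundSystem K a)) = t * c i := fun ψ => by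
    obtain ⟨τ, hτ⟩ := htrans (InfinitePlace.mk ψ)
    have e : ∀ x : (𝓞 K)ˣ, logAbs ψ (Additive.ofMul x) =
        logAbs φ (Additive.ofMul (actUnit act τ x)) := fun x => by
      rw [logAbs_apply, logAbs_apply, ← hτ]
      rfl
    refine ⟨j ((χ τ : Fˣ) : F), fun i => ?_⟩
    simp only [e]
    rw [sum_proj, Finset.mul_sum]
    refine Fintype.sum_equiv (Equiv.mulLeft τ) _ _ fun σ => ?_
    rw [Equiv.coe_mulLeft, ← mul_assoc, ← map_mul, ← Units.val_mul, ← map_mul,
      mul_inv_rev, mul_comm σ⁻¹ τ⁻¹, mul_inv_cancel_left]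
  have hcol : ∀ (ψ : K →+* ℂ) (i i' : Fin (rank K)),
      ∑ a, (c i' * j (proj act χ a i) - c i * j (proj act χ a i')) *
        logAbs ψ (Additive.ofMul (fundSystem K a)) = 0 := fun ψ i i' => by
    obtain ⟨t, ht⟩ := eig ψ
    simp only [sub_mul, mul_assoc, Finset.sum_sub_distrib, ← Finset.mul_sum, ht]
    ring
  refine j.injective ?_
  rw [map_mul, map_mul]
  have hvec : ∀ i i' a, c i' * j (proj act χ a i) = c i * j (proj act χ a i') := fun i i' a =>
    sub_eq_zero.mp (congrFun (eq_zero_of_logAbs fun ψ => hcol ψ i i') a)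
  by_cases hc : ∀ m, c m = 0
  · have hz : ∀ i a, j (proj act χ a i) = 0 := fun i a =>
      congrFun (eq_zero_of_logAbs (c := fun a => j (proj act χ a i)) fun ψ => by
        obtain ⟨t, ht⟩ := eig ψ
        rw [ht, hc, mul_zero]) a
    simp [hz]
  · obtain ⟨m, hm⟩ := not_forall.mp hc
    refine mul_left_cancel₀ (mul_ne_zero hm hm) ?_
    calc c m * c m * (j (proj act χ a i) * j (proj act χ b i'))
        = (c m * j (proj act χ a i)) * (c m * j (proj act χ b i')) := by ring
      _ = (c i * j (proj act χ a m)) * (c i' * j (proj act χ b m)) := by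
          rw [hvec i m a, hvec i' m b]
      _ = (c i * j (proj act χ b m)) * (c i' * j (proj act χ a m)) := by ring
      _ = (c m * j (proj act χ b i)) * (c m * j (proj act χ a i')) := by
          rw [hvec i m b, hvec i' m a]
      _ = c m * c m * (j (proj act χ b i) * j (proj act χ a i')) := by ring

section Padic

variable {p : ℕ} [hp : Fact p.Prime] {C : Type} [NontriviallyNormedField C] [CompleteSpace C]
  [IsUltrametricDist C] [hC : NormedAlgebra ℚ_[p] C] [CharZero C] [IsAlgClosed C]

open FA.Brumer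

variable (M : ℕ) (ψ : K →+* C)

/-- `x ↦ log_p ((ψ x) ^ M)`. -/
def logPad (hM : ∀ u : (𝓞 K)ˣ, ‖ψ ((u : 𝓞 K) : K) ^ M - 1‖ ≤ rad p) :
    Additive (𝓞 K)ˣ →+ C :=
  AddMonoidHom.mk' (fun x => plog p (ψ ((x.toMul : 𝓞 K) : K) ^ M)) fun x y => by
    simp only [toMul_add, Units.val_mul, map_mul, mul_pow]
    exact plog_mul (hM _) (hM _)

include hp hC in
theorem linearIndependent_logPad (hM0 : 0 < M)
    (hM : ∀ u : (𝓞 K)ˣ, ‖ψ ((u : 𝓞 K) : K) ^ M - 1‖ ≤ rad p) :
    LinearIndependent ℚ fun i => logPad M ψ hM (Additive.ofMul (fundSystem K i)) := by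
  rw [← LinearIndependent.iff_fractionRing ℤ ℚ, Fintype.linearIndependent_iff]
  intro e he i
  set x : (𝓞 K)ˣ := ∏ i, fundSystem K i ^ e i
  have h1 : logPad M ψ hM (Additive.ofMul x) = 0 := by
    rw [ofMul_prod, map_sum, ← he]
    simp only [ofMul_zpow, map_zsmul]
  change plog p (ψ ((x : 𝓞 K) : K) ^ M) = 0 at h1
  have h2 := pexp_plog (p := p) (hM x)
  rw [h1, pexp_zero, ← map_pow, ← map_one ψ] at h2
  have h3 : x ^ M = 1 := Units.ext (RingOfIntegers.ext (by simpa using (ψ.injective h2).symm))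
  have h4 := eq_expOf (x := x ^ M) (ζ := 1) (f := fun i => e i * M) (one_mem (torsion K))
    (by simp only [x, ← Finset.prod_pow, one_mul, zpow_mul, zpow_natCast])
  have h5 := congrFun h4 i
  simp only [h3, expOf_one,
    mul_eq_zero, Int.natCast_eq_zero] at h5
  exact h5.resolve_right hM0.ne'

include hp hC in
/-- **Leopoldt's conjecture** for `K`: the vectors of logarithms of the conjugates of the
fundamental units are linearly independent. -/
theorem linearIndependent_conjLog (φ : K →+* ℂ)
    (htrans : ∀ w : InfinitePlace K, ∃ τ, InfinitePlace.mk (φ.comp (act τ : K →+* K)) = w)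
    (hM0 : 0 < M) (hM : ∀ u : (𝓞 K)ˣ, ‖ψ ((u : 𝓞 K) : K) ^ M - 1‖ ≤ rad p) :
    LinearIndependent C fun (i : Fin (rank K)) (τ : G) =>
      plog p (ψ (act τ (fundSystem K i : K)) ^ M) := by
  classical
  rw [Fintype.linearIndependent_iff]
  intro w hw
  haveI : Algebra.IsAlgebraic ℚ (AlgebraicClosure ℚ) := AlgebraicClosure.isAlgebraic ℚ
  haveI : NeZero (Monoid.exponent G) := ⟨Monoid.exponent_ne_zero_of_finite⟩
  haveI : Fintype (G →* (AlgebraicClosure ℚ)ˣ) := Fintype.ofFinite _
  set ι : AlgebraicClosure ℚ →+* C := (IsAlgClosed.lift : AlgebraicClosure ℚ →ₐ[ℚ] C).toRingHom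
  set j : AlgebraicClosure ℚ →+* ℂ := (IsAlgClosed.lift : AlgebraicClosure ℚ →ₐ[ℚ] ℂ).toRingHom
  set ℓ := logPad M ψ hM
  have hker : ∀ τ, ∑ i, w i * ℓ (Additive.ofMul (actUnit act τ (fundSystem K i))) = 0 :=
    fun τ => by
      have := congrFun hw τ
      simpa [ℓ, logPad, coe_actUnit, Finset.sum_apply] using this
  have hall : ∀ (χ : G →* (AlgebraicClosure ℚ)ˣ) (a : Fin (rank K)),
      ∑ k, ι (proj act χ a k) * w k = 0 := by
    intro χ
    set w' : Fin (rank K) → C := fun a => ∑ k, ι (proj act χ a k) * w k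
    have h1 : ∀ τ, ∑ a, w' a * ℓ (Additive.ofMul (actUnit act τ (fundSystem K a))) = 0 :=
      fun τ => by
        simp only [w', Finset.sum_mul]
        rw [Finset.sum_comm]
        simp only [mul_comm _ (w _), mul_assoc, ← Finset.mul_sum, sum_proj]
        simp only [Finset.mul_sum]
        rw [Finset.sum_comm]
        simp only [mul_left_comm (w _), ← Finset.mul_sum, hker, mul_zero, Finset.sum_const_zero]
    by_cases hP : ∀ a k, proj act χ a k = 0
    · intro a; simp [hP]
    · obtain ⟨b, hP⟩ := not_forall.mp hP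
      obtain ⟨m, hm⟩ := not_forall.mp hP
      have hprop : ∀ a, ι (proj act χ b m) * w' a = ι (proj act χ a m) * w' b := fun a => by
        simp only [w', Finset.mul_sum, ← mul_assoc, ← map_mul]
        refine Finset.sum_congr rfl fun k _ => ?_
        rw [mul_comm (proj act χ b m) _, proj_minor act j φ htrans χ a b k m,
          mul_comm (proj act χ b k) _]
      have hb : w' b = 0 := by
        by_contra hb
        have h2 : ∑ a, ι (proj act χ a m) * ℓ (Additive.ofMul (fundSystem K a)) = 0 := by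
          refine (mul_eq_zero.mp ?_).resolve_left hb
          have h3 := congrArg (fun t => ι (proj act χ b m) * t) (h1 1)
          simp only [actUnit_one, mul_zero, Finset.mul_sum, ← mul_assoc, hprop] at h3
          rw [Finset.mul_sum, ← h3]
          exact Finset.sum_congr rfl fun a _ => by ring
        refine false_of_relation (p := p) (fun i => ℓ (Additive.ofMul (fundSystem K i)))
          (fun i => small_of_le (norm_plog_le _)) (fun i => ?_)
          (linearIndependent_logPad M ψ hM0 hM) (fun a => ι (proj act χ a m)) (fun a => ?_)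
          0 isAlgebraic_zero ?_ h2
        · change IsAlgebraic ℚ (pexp (plog p (ψ ((fundSystem K i : 𝓞 K) : K) ^ M)))
          rw [pexp_plog (hM _)]
          exact ((Algebra.IsAlgebraic.isAlgebraic (fundSystem K i : K)).algHom
            ψ.toRatAlgHom).pow M
        · exact (Algebra.IsAlgebraic.isAlgebraic _).algHom ι.toRatAlgHom
        · exact fun h => hm (ι.injective ((congrFun h b).trans (map_zero ι).symm))
      intro a
      have := hprop a
      rw [hb, mul_zero, mul_eq_zero, map_eq_zero] at this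
      exact this.resolve_left hm
  intro a
  have h := Finset.sum_eq_zero fun χ (_ : χ ∈ (univ : Finset (G →* (AlgebraicClosure ℚ)ˣ))) =>
    hall χ a
  rw [Finset.sum_comm] at h
  simp only [← Finset.sum_mul, ← map_sum, sum_proj_characters, apply_ite ι, map_zero, ite_mul,
    zero_mul, Finset.sum_ite_eq, mem_univ, if_true, map_natCast, mul_eq_zero, Nat.cast_eq_zero]
    at h
  exact h.resolve_left Fintype.card_ne_zero

end Padic

end Group

end FA.LeopoldtAbelian

end
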