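import Fermat.Agent.Transcendence.HermiteLindemann

/-!
# The Lindemann–Weierstrass theorem

A relation `∑ c(θ) exp θ = 0` with algebraic `c(θ)` and `θ` is an element of the group ring
`A[A]` of the algebraic numbers `A` killed by `exp`. The product over its finitely many
transforms under automorphisms of the coefficients has rational coefficients, and the product of
that over its transforms under automorphisms of the exponents is invariant, so it vanishes.
-/

set_option autoImplicit false
set_option linter.style.haveILetI false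

noncomputable section

namespace FA.LindemannW

open Polynomial FA.HermiteLindemann

/-- `x ↦ exp x` on `A[A]`. -/
def expHomA : AddMonoidAlgebra Alg Alg →ₐ[Alg] ℂ :=
  AddMonoidAlgebra.lift Alg ℂ Alg
    { toFun := fun x => Complex.exp (x.toAdd : Alg)
      map_one' := by simp
      map_mul' := fun x y => by simp [Complex.exp_add] }

theorem expHomA_single (x r : Alg) :
    expHomA (AddMonoidAlgebra.single x r) = (r : ℂ) * Complex.exp (x : ℂ) := by
  rw [expHomA, AddMonoidAlgebra.lift_single, Algebra.smul_def]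
  rfl

/-- The action on coefficients. -/
def actC (τ : Alg ≃ₐ[ℚ] Alg) : AddMonoidAlgebra Alg Alg ≃+* AddMonoidAlgebra Alg Alg :=
  AddMonoidAlgebra.mapRingEquiv Alg τ.toRingEquiv

theorem coeff_actC (τ : Alg ≃ₐ[ℚ] Alg) (G : AddMonoidAlgebra Alg Alg) (x : Alg) :
    (actC τ G).coeff x = τ (G.coeff x) :=
  AddMonoidAlgebra.coeff_mapRingEquiv _ _ _

theorem actC_trans (σ τ : Alg ≃ₐ[ℚ] Alg) (G : AddMonoidAlgebra Alg Alg) :
    actC τ (actC σ G) = actC (σ.trans τ) G := by
  apply AddMonoidAlgebra.coeff_injective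
  ext x
  simp only [coeff_actC, AlgEquiv.trans_apply]

theorem act_trans (σ τ : Alg ≃ₐ[ℚ] Alg) (G : AddMonoidAlgebra ℤ Alg) :
    act τ (act σ G) = act (σ.trans τ) G := by
  apply AddMonoidAlgebra.coeff_injective
  ext y
  obtain ⟨x, rfl⟩ := (σ.trans τ).surjective y
  rw [coeff_act, AlgEquiv.trans_apply, coeff_act, coeff_act]

/-- The orbit of an element under coefficient automorphisms is finite. -/
theorem finite_orbitC (G : AddMonoidAlgebra Alg Alg) :
    (Set.range fun τ : Alg ≃ₐ[ℚ] Alg => actC τ G).Finite := by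
  classical
  let R : G.coeff.support → Finset Alg := fun x => ((minpoly ℚ (G.coeff x.1)).aroots Alg).toFinset
  refine (Set.finite_range fun c : ∀ x, {y : Alg // y ∈ R x} =>
    ∑ x, AddMonoidAlgebra.single x.1 (c x).1).subset ?_
  rintro _ ⟨τ, rfl⟩
  refine ⟨fun x => ⟨τ (G.coeff x.1), ?_⟩, ?_⟩
  · rw [Multiset.mem_toFinset, mem_aroots]
    refine ⟨minpoly.ne_zero (Algebra.IsIntegral.isIntegral _), ?_⟩
    rw [show τ (G.coeff x.1) = τ.toAlgHom (G.coeff x.1) from rfl, aeval_algHom_apply,
      minpoly.aeval, map_zero]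
  · show ∑ x : G.coeff.support, AddMonoidAlgebra.single x.1 (τ (G.coeff x.1)) = actC τ G
    rw [Finset.sum_coe_sort G.coeff.support fun x => AddMonoidAlgebra.single x (τ (G.coeff x))]
    conv_rhs => rw [← AddMonoidAlgebra.sum_coeff_single G, Finsupp.sum, map_sum]
    refine Finset.sum_congr rfl fun x _ =>
      AddMonoidAlgebra.coeff_injective (Finsupp.ext fun y => ?_)
    rw [coeff_actC, AddMonoidAlgebra.coeff_single, AddMonoidAlgebra.coeff_single,
      Finsupp.single_apply, Finsupp.single_apply]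
    split_ifs <;> simp

/-- The orbit of an element under exponent automorphisms is finite. -/
theorem finite_orbit (G : AddMonoidAlgebra ℤ Alg) :
    (Set.range fun τ : Alg ≃ₐ[ℚ] Alg => act τ G).Finite := by
  classical
  let R : G.coeff.support → Finset Alg := fun x => ((minpoly ℚ x.1).aroots Alg).toFinset
  refine (Set.finite_range fun c : ∀ x, {y : Alg // y ∈ R x} =>
    ∑ x, AddMonoidAlgebra.single (c x).1 (G.coeff x.1)).subset ?_
  rintro _ ⟨τ, rfl⟩
  refine ⟨fun x => ⟨τ x.1, ?_⟩, ?_⟩
  · rw [Multiset.mem_toFinset, mem_aroots]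
    refine ⟨minpoly.ne_zero (Algebra.IsIntegral.isIntegral _), ?_⟩
    rw [show τ x.1 = τ.toAlgHom x.1 from rfl, aeval_algHom_apply, minpoly.aeval, map_zero]
  · show ∑ x : G.coeff.support, AddMonoidAlgebra.single (τ x.1) (G.coeff x.1) = act τ G
    rw [Finset.sum_coe_sort G.coeff.support fun x => AddMonoidAlgebra.single (τ x) (G.coeff x)]
    conv_rhs => rw [← AddMonoidAlgebra.sum_coeff_single G, Finsupp.sum, map_sum]
    exact Finset.sum_congr rfl fun x _ => (act_single τ x _).symm

/-- **No element of `A[A]` other than zero is killed by `exp`.** -/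
theorem expHomA_ne_zero {G : AddMonoidAlgebra Alg Alg} (hG : G ≠ 0) : expHomA G ≠ 0 := by
  classical
  intro hzero
  set T := (finite_orbitC G).toFinset with hT
  have hmemT : ∀ F, F ∈ T ↔ ∃ τ, actC τ G = F := fun F => by
    rw [hT, Set.Finite.mem_toFinset, Set.mem_range]
  have hid : G ∈ T := (hmemT G).2 ⟨AlgEquiv.refl, AddMonoidAlgebra.coeff_injective (Finsupp.ext
    fun x => by rw [coeff_actC, AlgEquiv.coe_refl, id_eq])⟩
  set G₁ := ∏ F ∈ T, F with hG₁
  have hG₁0 : G₁ ≠ 0 := Finset.prod_ne_zero_iff.2 fun F hF => by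
    obtain ⟨τ, rfl⟩ := (hmemT F).1 hF
    exact fun h => hG ((actC τ).injective (by rw [h, map_zero]))
  have hz₁ : expHomA G₁ = 0 := by
    rw [hG₁, map_prod]; exact Finset.prod_eq_zero hid hzero
  have hinv₁ : ∀ τ, actC τ G₁ = G₁ := fun τ => by
    have himg : T.image (actC τ) = T := by
      refine Finset.eq_of_subset_of_card_le (fun F hF => ?_)
        (Finset.card_image_of_injective _ (actC τ).injective).ge
      obtain ⟨F', hF', rfl⟩ := Finset.mem_image.1 hF
      obtain ⟨σ, rfl⟩ := (hmemT F').1 hF'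
      exact (hmemT _).2 ⟨σ.trans τ, (actC_trans σ τ G).symm⟩
    rw [hG₁, map_prod]
    conv_rhs => rw [← himg, Finset.prod_image (actC τ).injective.injOn]
  have hrat : ∀ x, ∃ q : ℚ, G₁.coeff x = algebraMap ℚ Alg q := fun x =>
    rational_of_fixed fun τ => by rw [← coeff_actC, hinv₁]
  choose q hq using hrat
  obtain ⟨⟨N, hN⟩, hNint⟩ := IsLocalization.exist_integer_multiples_of_finset
    (nonZeroDivisors ℤ) (G₁.coeff.support.image q)
  have hz : ∀ x ∈ G₁.coeff.support, ∃ z : ℤ, (z : ℚ) = (N : ℚ) * q x := fun x hx => by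
    obtain ⟨z, hz⟩ := hNint (q x) (Finset.mem_image_of_mem q hx)
    exact ⟨z, by simpa using hz⟩
  choose! z hz using hz
  set G₂ : AddMonoidAlgebra ℤ Alg :=
    ∑ x ∈ G₁.coeff.support, AddMonoidAlgebra.single x (z x) with hG₂
  have hN0 : N ≠ 0 := nonZeroDivisors.ne_zero hN
  have hz₂ : expHom G₂ = 0 := by
    have h1 : expHomA G₁ =
        ∑ x ∈ G₁.coeff.support, (G₁.coeff x : ℂ) * Complex.exp (x : ℂ) := by
      conv_lhs => rw [← AddMonoidAlgebra.sum_coeff_single G₁, Finsupp.sum, map_sum]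
      exact Finset.sum_congr rfl fun x _ => expHomA_single x _
    rw [hG₂, map_sum]
    rw [Finset.sum_congr rfl fun x hx => (show expHom (AddMonoidAlgebra.single x (z x)) =
        (N : ℂ) * ((G₁.coeff x : ℂ) * Complex.exp (x : ℂ)) by
      rw [expHom_single, ← mul_assoc, hq]
      congr 1
      have := congrArg (fun r : ℚ => (r : ℂ)) (hz x hx)
      push_cast at this
      rw [this]
      simp), ← Finset.mul_sum, ← h1, hz₁, mul_zero]
  have hG₂0 : G₂ ≠ 0 := fun h => by
    obtain ⟨x₀, hx₀⟩ : G₁.coeff.support.Nonempty := by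
      rw [Finsupp.support_nonempty_iff]
      exact fun h => hG₁0 (AddMonoidAlgebra.coeff_injective h)
    have h2 := congrArg (fun F : AddMonoidAlgebra ℤ Alg => F.coeff x₀) h
    simp only [hG₂, AddMonoidAlgebra.coeff_sum, Finset.sum_apply', AddMonoidAlgebra.coeff_single,
      Finsupp.single_apply, Finset.sum_ite_eq', hx₀, if_true, AddMonoidAlgebra.coeff_zero,
      Finsupp.coe_zero, Pi.zero_apply] at h2
    have h3 := hz x₀ hx₀
    rw [h2, Int.cast_zero, eq_comm, mul_eq_zero] at h3
    exact Finsupp.mem_support_iff.1 hx₀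
      (by rw [hq, h3.resolve_left (Int.cast_ne_zero.2 hN0), map_zero])
  set U := (finite_orbit G₂).toFinset with hU
  have hmemU : ∀ F, F ∈ U ↔ ∃ τ, act τ G₂ = F := fun F => by
    rw [hU, Set.Finite.mem_toFinset, Set.mem_range]
  set G₃ := ∏ F ∈ U, F with hG₃
  refine expHom_ne_zero (G := G₃) (Finset.prod_ne_zero_iff.2 fun F hF => ?_) (fun τ => ?_) ?_
  · obtain ⟨τ, rfl⟩ := (hmemU F).1 hF
    exact fun h => hG₂0 ((act τ).injective (by rw [h, map_zero]))
  · have himg : U.image (act τ) = U := by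
      refine Finset.eq_of_subset_of_card_le (fun F hF => ?_)
        (Finset.card_image_of_injective _ (act τ).injective).ge
      obtain ⟨F', hF', rfl⟩ := Finset.mem_image.1 hF
      obtain ⟨σ, rfl⟩ := (hmemU F').1 hF'
      exact (hmemU _).2 ⟨σ.trans τ, (act_trans σ τ G₂).symm⟩
    rw [hG₃, map_prod]
    conv_rhs => rw [← himg, Finset.prod_image (act τ).injective.injOn]
  · rw [hG₃, map_prod]
    refine Finset.prod_eq_zero ((hmemU G₂).2 ⟨AlgEquiv.refl,
      AddMonoidAlgebra.coeff_injective (Finsupp.ext fun x => ?_)⟩) hz₂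
    exact coeff_act AlgEquiv.refl G₂ x

/-- **Lindemann–Weierstrass.** -/
theorem linearCombination_exp_ne_zero {ι : Type*} (s : Finset ι) (a c : ι → ℂ)
    (ha : ∀ i ∈ s, IsAlgebraic ℚ (a i)) (hc : ∀ i ∈ s, IsAlgebraic ℚ (c i))
    (hinj : Set.InjOn a s) (h : ∑ i ∈ s, c i * Complex.exp (a i) = 0) : ∀ i ∈ s, c i = 0 := by
  classical
  intro j hj
  set A : ι → Alg := fun i =>
    if hi : i ∈ s then ⟨a i, mem_algebraicClosure_iff.2 (ha i hi)⟩ else 0 with hA
  set C : ι → Alg := fun i =>
    if hi : i ∈ s then ⟨c i, mem_algebraicClosure_iff.2 (hc i hi)⟩ else 0 with hC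
  have hAv : ∀ i ∈ s, (A i : ℂ) = a i := fun i hi => by simp [hA, hi]
  have hCv : ∀ i ∈ s, (C i : ℂ) = c i := fun i hi => by simp [hC, hi]
  set G : AddMonoidAlgebra Alg Alg := ∑ i ∈ s, AddMonoidAlgebra.single (A i) (C i) with hG
  have hE : expHomA G = 0 := by
    rw [hG, map_sum, ← h]
    exact Finset.sum_congr rfl fun i hi => by rw [expHomA_single, hAv i hi, hCv i hi]
  have hG0 : G = 0 := by
    by_contra hne
    exact expHomA_ne_zero hne hE
  have h2 := congrArg (fun F : AddMonoidAlgebra Alg Alg => F.coeff (A j)) hG0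
  simp only [hG, AddMonoidAlgebra.coeff_sum, Finset.sum_apply', AddMonoidAlgebra.coeff_single,
    Finsupp.single_apply, AddMonoidAlgebra.coeff_zero, Finsupp.coe_zero, Pi.zero_apply] at h2
  rw [Finset.sum_eq_single_of_mem j hj fun i hi hij => if_neg fun e => hij (hinj hi hj
    (by rw [← hAv i hi, ← hAv j hj, e])), if_pos rfl] at h2
  rw [← hCv j hj, h2]
  rfl

end FA.LindemannW

end
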