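import Fermat.Agent.Transcendence.MahlerThueMorse
import Mathlib.Algebra.Polynomial.Degree.Lemmas
import Mathlib.Analysis.SpecificLimits.Normed
import Mathlib.NumberTheory.Fermat
import Mathlib.NumberTheory.Padics.PadicVal.Basic
import Mathlib.Topology.Algebra.InfiniteSum.NatInt

/-!
# Mahler's method: `∑ z ^ 2 ^ k` and `∑ z ^ 2 ^ k / (1 + z ^ 2 ^ k)`

Both satisfy `u f (z ^ 2) = u f z - w` with `u, w` polynomials. A relation of least degree `m`
gives, with `A / B` the ratio of its two leading coefficients,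
`u (A (z ^ 2) B z - A z B (z ^ 2)) = m w B z B (z ^ 2)`, impossible for these `u, w` by degrees.
-/

set_option autoImplicit false

noncomputable section

namespace FA.Mahler

open Polynomial Finset Filter
open scoped Topology

/-- `u (A (z ^ 2) B z - A z B (z ^ 2)) ≠ m w B z B (z ^ 2)`. -/
def Admissible (u w : ℂ[X]) : Prop :=
  ∀ A B : ℂ[X], B ≠ 0 → ∀ m : ℕ, 0 < m →
    u * (A.comp (X ^ 2) * B - A * B.comp (X ^ 2)) ≠ C (m : ℂ) * w * (B * B.comp (X ^ 2))

theorem comp_sq_ne_zero {B : ℂ[X]} (hB : B ≠ 0) : B.comp (X ^ 2) ≠ 0 := fun h => by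
  rcases comp_eq_zero_iff.1 h with h | ⟨-, h⟩
  · exact hB h
  · simpa using congrArg (fun p => coeff p 2) h

theorem natDegree_comp_sq (B : ℂ[X]) : (B.comp (X ^ 2)).natDegree = 2 * B.natDegree := by
  rw [natDegree_comp, natDegree_X_pow, mul_comm]

/-- The degree of the left side against that of `B z B (z ^ 2)`. -/
theorem degree_cases {A B : ℂ[X]} (hB : B ≠ 0)
    (hL : A.comp (X ^ 2) * B - A * B.comp (X ^ 2) ≠ 0) :
    (A.comp (X ^ 2) * B - A * B.comp (X ^ 2)).natDegree < 3 * B.natDegree ∨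
      B.natDegree < A.natDegree ∧ (A.comp (X ^ 2) * B - A * B.comp (X ^ 2)).natDegree =
        2 * A.natDegree + B.natDegree := by
  have hB2 := comp_sq_ne_zero hB
  rcases eq_or_ne A 0 with rfl | hA
  · simp at hL
  have hA2 := comp_sq_ne_zero hA
  have d1 : (A.comp (X ^ 2) * B).natDegree = 2 * A.natDegree + B.natDegree := by
    rw [natDegree_mul hA2 hB, natDegree_comp_sq]
  have d2 : (A * B.comp (X ^ 2)).natDegree = A.natDegree + 2 * B.natDegree := by
    rw [natDegree_mul hA hB2, natDegree_comp_sq]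
  rcases lt_trichotomy A.natDegree B.natDegree with h | h | h
  · left
    have := natDegree_sub_le (A.comp (X ^ 2) * B) (A * B.comp (X ^ 2))
    rw [d1, d2] at this
    omega
  · left
    refine lt_of_le_of_ne ((natDegree_sub_le _ _).trans (by omega)) fun he => ?_
    refine hL (leadingCoeff_eq_zero.1 ?_)
    have e1 : (A.comp (X ^ 2) * B).coeff (3 * B.natDegree) = A.leadingCoeff * B.leadingCoeff := by
      rw [show 3 * B.natDegree = (A.comp (X ^ 2) * B).natDegree by omega, coeff_natDegree,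
        leadingCoeff_mul, leadingCoeff_comp (by simp), leadingCoeff_X_pow, one_pow, mul_one]
    have e2 : (A * B.comp (X ^ 2)).coeff (3 * B.natDegree) = A.leadingCoeff * B.leadingCoeff := by
      rw [show 3 * B.natDegree = (A * B.comp (X ^ 2)).natDegree by omega, coeff_natDegree,
        leadingCoeff_mul, leadingCoeff_comp (by simp), leadingCoeff_X_pow, one_pow, mul_one]
    rw [Polynomial.leadingCoeff, he, coeff_sub, e1, e2, sub_self]
  · exact Or.inr ⟨h, by rw [natDegree_sub_eq_left_of_natDegree_lt (by omega), d1]⟩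

theorem admissible_one_X : Admissible 1 X := by
  intro A B hB m hm h
  rw [one_mul] at h
  have hr : C (m : ℂ) * X * (B * B.comp (X ^ 2)) ≠ 0 := mul_ne_zero
    (mul_ne_zero (C_ne_zero.2 (Nat.cast_ne_zero.2 hm.ne')) X_ne_zero)
    (mul_ne_zero hB (comp_sq_ne_zero hB))
  have hd : (C (m : ℂ) * X * (B * B.comp (X ^ 2))).natDegree = 3 * B.natDegree + 1 := by
    rw [natDegree_mul (mul_ne_zero (C_ne_zero.2 (Nat.cast_ne_zero.2 hm.ne')) X_ne_zero)
      (mul_ne_zero hB (comp_sq_ne_zero hB)), natDegree_C_mul (Nat.cast_ne_zero.2 hm.ne'),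
      natDegree_X, natDegree_mul hB (comp_sq_ne_zero hB), natDegree_comp_sq]
    omega
  have hc := degree_cases hB (h ▸ hr)
  rw [h, hd] at hc
  omega

theorem admissible_one_add_X : Admissible (1 + X) X := by
  intro A B hB m hm h
  have hr : C (m : ℂ) * X * (B * B.comp (X ^ 2)) ≠ 0 := mul_ne_zero
    (mul_ne_zero (C_ne_zero.2 (Nat.cast_ne_zero.2 hm.ne')) X_ne_zero)
    (mul_ne_zero hB (comp_sq_ne_zero hB))
  have hd : (C (m : ℂ) * X * (B * B.comp (X ^ 2))).natDegree = 3 * B.natDegree + 1 := by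
    rw [natDegree_mul (mul_ne_zero (C_ne_zero.2 (Nat.cast_ne_zero.2 hm.ne')) X_ne_zero)
      (mul_ne_zero hB (comp_sq_ne_zero hB)), natDegree_C_mul (Nat.cast_ne_zero.2 hm.ne'),
      natDegree_X, natDegree_mul hB (comp_sq_ne_zero hB), natDegree_comp_sq]
    omega
  have hne := mul_ne_zero_iff.1 (h ▸ hr)
  have hdeg := congrArg natDegree h
  have hu : (1 + X : ℂ[X]).natDegree = 1 := by
    rw [add_comm, ← C_1, natDegree_X_add_C]
  rw [natDegree_mul hne.1 hne.2, hd, hu] at hdeg
  have hc := degree_cases hB hne.2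
  omega

/-- The binomial theorem over a fixed range. -/
theorem sub_pow_range (x y : ℂ) {i m : ℕ} (hi : i ≤ m) :
    (x - y) ^ i = ∑ k ∈ range (m + 1), x ^ k * (-y) ^ (i - k) * (i.choose k : ℂ) := by
  rw [sub_eq_add_neg, add_pow]
  refine sum_subset (range_subset_range.2 (by omega)) fun k _ hk => ?_
  rw [Nat.choose_eq_zero_of_lt (by simpa [Nat.lt_succ_iff] using hk)]
  simp

/-- **No algebraic relation.** -/
theorem noRelation_of_admissible {f : ℂ → ℂ} {u w : ℂ[X]} (hu : u ≠ 0) (hA : Admissible u w)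
    (heq : ∀ z : ℂ, ‖z‖ < 1 → u.eval z * f (z ^ 2) = u.eval z * f z - w.eval z) :
    NoRelation f := by
  intro m
  induction m with
  | zero => intro P _; funext i; exact i.elim0
  | succ m ih =>
    intro P hP
    set p : ℕ → ℂ[X] := fun i => if h : i < m + 1 then P ⟨i, h⟩ else 0 with hp
    have hpP : ∀ i : Fin (m + 1), p i = P i := fun i => by simp only [hp, dif_pos i.isLt, Fin.eta]
    have e1 : ∀ z : ℂ, ‖z‖ < 1 → ∑ i ∈ range (m + 1), (p i).eval z * f z ^ i = 0 := fun z hz => by
      rw [← Fin.sum_univ_eq_sum_range fun i => (p i).eval z * f z ^ i]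
      simpa only [hpP] using hP z hz
    suffices htop : p m = 0 by
      have h0 := ih (fun i => p i) fun z hz => by
        have h := e1 z hz
        rw [sum_range_succ, htop, eval_zero, zero_mul, add_zero] at h
        rw [Fin.sum_univ_eq_sum_range fun i => (p i).eval z * f z ^ i]
        exact h
      funext i
      rw [← hpP]
      refine Fin.lastCases ?_ (fun j => ?_) i
      · simpa using htop
      · simpa using congrFun h0 j
    by_contra htop
    rcases Nat.eq_zero_or_pos m with rfl | hm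
    · exact htop (eq_zero_of_eval_disc fun z hz => by simpa using e1 z hz)
    set Q : ℕ → ℂ[X] := fun k => p m * ∑ i ∈ range (m + 1),
      (p i).comp (X ^ 2) * u ^ (m - i) * u ^ k * (-w) ^ (i - k) * C (i.choose k : ℂ) -
        (p m).comp (X ^ 2) * u ^ m * p k with hQ
    have hQm : Q m = 0 := by
      rw [hQ]
      dsimp only
      rw [sum_range_succ, sum_eq_zero fun i hi => by
        rw [Nat.choose_eq_zero_of_lt (mem_range.1 hi), Nat.cast_zero, C_0, mul_zero], zero_add,
        Nat.sub_self, Nat.choose_self, Nat.cast_one, C_1, pow_zero, pow_zero, mul_one, mul_one,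
        mul_one]
      ring
    have h0 := ih (fun i => Q i) fun z hz => by
      have e2 := e1 (z ^ 2) (by rw [norm_pow]; exact pow_lt_one₀ (norm_nonneg z) hz two_ne_zero)
      rw [Fin.sum_univ_eq_sum_range fun i => (Q i).eval z * f z ^ i]
      have h : ∑ k ∈ range (m + 1), (Q k).eval z * f z ^ k = 0 := by
        simp only [hQ, eval_sub, eval_mul, eval_finsetSum, eval_comp, eval_pow, eval_X, eval_neg,
          eval_C, sub_mul, sum_sub_distrib, mul_assoc, ← mul_sum, e1 z hz, mul_zero, sub_zero,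
          sum_mul]
        rw [sum_comm]
        have hterm : ∀ i ∈ range (m + 1), (∑ k ∈ range (m + 1), (p i).eval (z ^ 2) *
            (u.eval z ^ (m - i) * (u.eval z ^ k * ((-w.eval z) ^ (i - k) *
              ((i.choose k : ℂ) * f z ^ k))))) =
            u.eval z ^ m * ((p i).eval (z ^ 2) * f (z ^ 2) ^ i) := fun i hi => by
          have him := Nat.lt_succ_iff.1 (mem_range.1 hi)
          have hb : (u.eval z * f (z ^ 2)) ^ i = ∑ k ∈ range (m + 1),
              (u.eval z * f z) ^ k * (-w.eval z) ^ (i - k) * (i.choose k : ℂ) := by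
            rw [heq z hz, sub_pow_range _ _ him]
          rw [show u.eval z ^ m * ((p i).eval (z ^ 2) * f (z ^ 2) ^ i) =
              (p i).eval (z ^ 2) * u.eval z ^ (m - i) * (u.eval z * f (z ^ 2)) ^ i by
            conv_lhs => rw [← Nat.sub_add_cancel him, pow_add]
            rw [mul_pow]
            ring, hb, mul_sum]
          exact sum_congr rfl fun k _ => by rw [mul_pow]; ring
        rw [sum_congr rfl hterm, ← mul_sum, e2, mul_zero, mul_zero]
      rw [sum_range_succ, hQm, eval_zero, zero_mul, add_zero] at h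
      exact h
    have h1 : Q (m - 1) = 0 := congrFun h0 ⟨m - 1, by omega⟩
    rw [hQ] at h1
    dsimp only at h1
    obtain ⟨j, rfl⟩ : ∃ j, m = j + 1 := ⟨m - 1, by omega⟩
    simp only [Nat.add_sub_cancel] at h1
    rw [sum_range_succ, sum_range_succ, sum_eq_zero fun i hi => by
      rw [Nat.choose_eq_zero_of_lt (mem_range.1 hi), Nat.cast_zero, C_0, mul_zero],
      Nat.choose_succ_self_right, Nat.choose_self] at h1
    simp only [zero_add, Nat.add_sub_cancel_left, Nat.sub_self, pow_zero, pow_one, Nat.cast_one,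
      C_1, mul_one] at h1
    refine hA (p j) (p (j + 1)) htop (j + 1) j.succ_pos (sub_eq_zero.1 ?_)
    refine (mul_eq_zero.1 (?_ : u ^ j * _ = 0)).resolve_left (pow_ne_zero _ hu)
    rw [← h1]
    ring

/-! ### Fredholm's series -/

open Classical in
/-- The indicator of the powers of two. -/
def powTwoInd (n : ℕ) : ℚ := if n ∈ Set.range (fun k : ℕ => 2 ^ k) then 1 else 0

/-- `∑ z ^ 2 ^ k`. -/
def fredholm (z : ℂ) : ℂ := ∑' k : ℕ, z ^ 2 ^ k

theorem summable_fredholm {z : ℂ} (hz : ‖z‖ < 1) : Summable fun k : ℕ => z ^ 2 ^ k :=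
  Summable.of_norm_bounded (summable_geometric_of_lt_one (norm_nonneg z) hz) fun k => by
    rw [norm_pow]
    exact pow_le_pow_of_le_one (norm_nonneg z) hz.le k.lt_two_pow_self.le

theorem rep_fredholm : Rep (algebraMap ℚ ℂ) (PowerSeries.mk powTwoInd) fredholm := fun z hz => by
  classical
  simp only [PowerSeries.coeff_mk, eq_ratCast]
  refine ⟨Summable.of_nonneg_of_le (fun _ => norm_nonneg _) (fun n => ?_)
    (summable_geometric_of_lt_one (norm_nonneg z) hz), ?_⟩
  · rw [norm_mul, norm_pow]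
    refine mul_le_of_le_one_left (pow_nonneg (norm_nonneg z) n) ?_
    unfold powTwoInd
    split_ifs <;> simp
  · have hinj : Function.Injective fun k : ℕ => 2 ^ k := Nat.pow_right_injective le_rfl
    rw [← hinj.tsum_eq (f := fun n => (powTwoInd n : ℂ) * z ^ n) fun n hn => ?_]
    · exact tsum_congr fun k => by simp [powTwoInd]
    · by_contra h
      simp [powTwoInd] at hn
      exact h hn.1

theorem fredholm_eq {z : ℂ} (hz : ‖z‖ < 1) : fredholm (z ^ 2) = fredholm z - z := by
  rw [fredholm, fredholm, (summable_fredholm hz).tsum_eq_zero_add, pow_zero, pow_one,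
    add_sub_cancel_left]
  exact tsum_congr fun k => by rw [← pow_mul, pow_succ']

/-- **`∑ α ^ 2 ^ k` is transcendental.** -/
theorem transcendental_fredholm {α : ℂ} (hα : IsAlgebraic ℚ α) (hα0 : α ≠ 0) (hα1 : ‖α‖ < 1) :
    Transcendental ℚ (fredholm α) :=
  transcendental_of_equation (algebraMap ℚ ℂ) powTwoInd rep_fredholm le_rfl 1 1 (-X)
    (fun z hz => by simpa [sub_eq_add_neg] using fredholm_eq hz)
    (noRelation_of_admissible one_ne_zero admissible_one_X fun z hz => by
      simpa using fredholm_eq hz)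
    hα hα0 hα1 fun k => by simp

/-! ### Golomb's series -/

/-- The coefficients `1 - v₂ n` of `∑ z ^ 2 ^ k / (1 + z ^ 2 ^ k)`. -/
def golombCoeff (n : ℕ) : ℚ := if n = 0 then 0 else 1 - (padicValNat 2 n : ℚ)

/-- `∑ z ^ 2 ^ k / (1 + z ^ 2 ^ k)` as a power series. -/
def golomb (z : ℂ) : ℂ := ∑' n, (golombCoeff n : ℂ) * z ^ n

theorem golombCoeff_two_mul (n : ℕ) :
    golombCoeff (2 * n) = golombCoeff n - if n = 0 then 0 else 1 := by
  rcases Nat.eq_zero_or_pos n with rfl | hn
  · simp [golombCoeff]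
  · rw [golombCoeff, golombCoeff, if_neg (by omega), if_neg hn.ne', if_neg hn.ne',
      padicValNat.mul two_ne_zero hn.ne', padicValNat.self one_lt_two]
    push_cast
    ring

theorem golombCoeff_odd (n : ℕ) : golombCoeff (2 * n + 1) = 1 := by
  rw [golombCoeff, if_neg (by omega), padicValNat.eq_zero_of_not_dvd (by omega)]
  simp

theorem norm_golombCoeff_le (n : ℕ) : ‖(golombCoeff n : ℂ)‖ ≤ n + 1 := by
  rw [Complex.norm_ratCast]
  unfold golombCoeff
  split_ifs with h
  · simp [h]
  · push_cast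
    have h1 : (padicValNat 2 n : ℝ) ≤ n := by
      exact_mod_cast (padicValNat_le_nat_log n).trans (Nat.log_le_self 2 n)
    rw [abs_le]
    constructor <;> linarith [Nat.cast_nonneg (α := ℝ) (padicValNat 2 n)]

theorem summable_weight {r : ℝ} (hr0 : 0 ≤ r) (hr : r < 1) :
    Summable fun n : ℕ => ((n : ℝ) + 2) * r ^ n := by
  have h1 := summable_pow_mul_geometric_of_norm_lt_one 1
    (show ‖r‖ < 1 by rwa [Real.norm_eq_abs, abs_of_nonneg hr0])
  simp only [pow_one] at h1
  simpa [add_mul] using h1.add ((summable_geometric_of_lt_one hr0 hr).mul_left 2)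

theorem summable_norm_golomb {z : ℂ} (hz : ‖z‖ < 1) :
    Summable fun n => ‖(golombCoeff n : ℂ) * z ^ n‖ :=
  (summable_weight (norm_nonneg z) hz).of_nonneg_of_le (fun _ => norm_nonneg _) fun n => by
    rw [norm_mul, norm_pow]
    exact mul_le_mul_of_nonneg_right ((norm_golombCoeff_le n).trans (by linarith))
      (pow_nonneg (norm_nonneg z) n)

theorem rep_golomb : Rep (algebraMap ℚ ℂ) (PowerSeries.mk golombCoeff) golomb := fun z hz => by
  simp only [PowerSeries.coeff_mk, eq_ratCast]
  exact ⟨summable_norm_golomb hz, rfl⟩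

/-- **The functional equation.** -/
theorem golomb_eq {z : ℂ} (hz : ‖z‖ < 1) : (1 + z) * golomb z = (1 + z) * golomb (z ^ 2) + z := by
  have hz2 := norm_sq_lt hz
  have hg := hasSum_geometric_of_norm_lt_one hz2
  have hpos : HasSum (fun n : ℕ => (if n = 0 then (0 : ℂ) else 1) * (z ^ 2) ^ n)
      ((1 - z ^ 2)⁻¹ - 1) := by
    rw [← hasSum_nat_add_iff' 1]
    simpa using (hasSum_nat_add_iff' 1).2 hg
  have he : HasSum (fun n => (golombCoeff (2 * n) : ℂ) * z ^ (2 * n))
      (golomb (z ^ 2) - ((1 - z ^ 2)⁻¹ - 1)) :=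
    (((summable_norm_golomb hz2).of_norm.hasSum).sub hpos).congr_fun fun n => by
      rw [golombCoeff_two_mul, ← pow_mul, Rat.cast_sub, sub_mul]
      split_ifs <;> simp
  have ho : HasSum (fun n => (golombCoeff (2 * n + 1) : ℂ) * z ^ (2 * n + 1))
      (z * (1 - z ^ 2)⁻¹) :=
    (hg.mul_left z).congr_fun fun n => by
      rw [golombCoeff_odd, Rat.cast_one, one_mul, ← pow_mul, pow_succ']
  have h := (HasSum.even_add_odd (f := fun n => (golombCoeff n : ℂ) * z ^ n) he ho).tsum_eq
  rw [show golomb z = _ from h]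
  have h2 : 1 - z ^ 2 ≠ 0 := sub_ne_zero.2 fun e => by rw [← e, norm_one] at hz2; linarith
  field_simp
  ring

theorem one_add_ne_zero_of_norm_lt {z : ℂ} (hz : ‖z‖ < 1) : 1 + z ≠ 0 := fun h => by
  rw [add_eq_zero_iff_neg_eq] at h
  rw [← h, norm_neg, norm_one] at hz
  linarith

theorem norm_pow_lt_one {z : ℂ} (hz : ‖z‖ < 1) (k : ℕ) : ‖z ^ 2 ^ k‖ < 1 := by
  rw [norm_pow]; exact pow_lt_one₀ (norm_nonneg z) hz (pow_ne_zero _ two_ne_zero)

theorem golomb_eq_sum {z : ℂ} (hz : ‖z‖ < 1) (k : ℕ) :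
    golomb z = (∑ i ∈ range k, z ^ 2 ^ i / (1 + z ^ 2 ^ i)) + golomb (z ^ 2 ^ k) := by
  induction k with
  | zero => simp
  | succ k ih =>
    have hk := norm_pow_lt_one hz k
    rw [ih, sum_range_succ, pow_succ 2 k, pow_mul, add_assoc]
    congr 1
    have := one_add_ne_zero_of_norm_lt hk
    rw [div_add' _ _ _ this, eq_div_iff this]
    linear_combination golomb_eq hk

/-- **The series as Golomb's sum.** -/
theorem hasSum_golomb {z : ℂ} (hz : ‖z‖ < 1) :
    HasSum (fun k : ℕ => z ^ 2 ^ k / (1 + z ^ 2 ^ k)) (golomb z) := by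
  have hs : Summable fun k : ℕ => z ^ 2 ^ k / (1 + z ^ 2 ^ k) := by
    refine Summable.of_norm_bounded
      ((summable_geometric_of_lt_one (norm_nonneg z) hz).div_const (1 - ‖z‖)) fun k => ?_
    have hle : ‖z‖ ^ 2 ^ k ≤ ‖z‖ :=
      pow_le_of_le_one (norm_nonneg z) hz.le (pow_ne_zero _ two_ne_zero)
    have h := norm_sub_norm_le (1 : ℂ) (-z ^ 2 ^ k)
    rw [norm_one, norm_neg, sub_neg_eq_add, norm_pow] at h
    rw [norm_div, norm_pow]
    exact div_le_div₀ (pow_nonneg (norm_nonneg z) k)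
      (pow_le_pow_of_le_one (norm_nonneg z) hz.le k.lt_two_pow_self.le) (by linarith) (by linarith)
  have hlim : Tendsto (fun k : ℕ => golomb (z ^ 2 ^ k)) atTop (𝓝 0) := by
    have h0 : Tendsto (fun k : ℕ => ‖z‖ ^ 2 ^ k) atTop (𝓝 0) :=
      (tendsto_pow_atTop_nhds_zero_of_lt_one (norm_nonneg z) hz).comp
        (tendsto_pow_atTop_atTop_of_one_lt (by norm_num : 1 < 2))
    set C := ∑' n : ℕ, ((n : ℝ) + 2) * (1 / 2) ^ n
    refine squeeze_zero_norm' ?_ (by simpa using h0.mul_const C)
    filter_upwards [h0.eventually (ge_mem_nhds (by norm_num : (0 : ℝ) < 1 / 2))] with k hk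
    have hsn := summable_norm_golomb (norm_pow_lt_one hz k)
    rw [golomb, hsn.of_norm.tsum_eq_zero_add, show golombCoeff 0 = 0 from rfl, Rat.cast_zero,
      zero_mul, zero_add]
    refine tsum_of_norm_bounded ((summable_weight (by norm_num) (by norm_num)).hasSum.mul_left
      (‖z‖ ^ 2 ^ k)) fun n => ?_
    rw [norm_mul, norm_pow, norm_pow, pow_succ']
    calc ‖(golombCoeff (n + 1) : ℂ)‖ * (‖z‖ ^ 2 ^ k * (‖z‖ ^ 2 ^ k) ^ n)
        ≤ ((n : ℝ) + 2) * (‖z‖ ^ 2 ^ k * (1 / 2) ^ n) := by
          have := norm_golombCoeff_le (n + 1)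
          push_cast at this
          gcongr
          linarith
      _ = _ := by ring
  rw [hs.hasSum_iff_tendsto_nat]
  have h := (tendsto_const_nhds (x := golomb z) (f := atTop (α := ℕ))).sub hlim
  rw [sub_zero] at h
  exact h.congr fun k => sub_eq_of_eq_add (golomb_eq_sum hz k)

/-- **`∑ α ^ 2 ^ k / (1 + α ^ 2 ^ k)` is transcendental.** -/
theorem transcendental_golomb {α : ℂ} (hα : IsAlgebraic ℚ α) (hα0 : α ≠ 0) (hα1 : ‖α‖ < 1) :
    Transcendental ℚ (∑' k : ℕ, α ^ 2 ^ k / (1 + α ^ 2 ^ k)) := by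
  have hu : (1 + X : ℂ[X]) ≠ 0 := fun h => by simpa using congrArg (eval 0) h
  rw [(hasSum_golomb hα1).tsum_eq]
  exact transcendental_of_equation (algebraMap ℚ ℂ) golombCoeff rep_golomb le_rfl (1 + X) (1 + X)
    (-X) (fun z hz => by
      simp only [Polynomial.map_add, Polynomial.map_one, Polynomial.map_X, Polynomial.map_neg,
        eval_add, eval_one, eval_X, eval_neg]
      linear_combination -(golomb_eq hz))
    (noRelation_of_admissible hu admissible_one_add_X fun z hz => by
      simp only [eval_add, eval_one, eval_X]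
      linear_combination -(golomb_eq hz))
    hα hα0 hα1 fun k => by
      simpa using one_add_ne_zero_of_norm_lt (norm_pow_lt_one hα1 k)

/-- **The reciprocals of the Fermat numbers.** -/
theorem transcendental_sum_inv_fermat :
    Transcendental ℚ (∑' k : ℕ, 1 / (Nat.fermatNumber k : ℝ)) := by
  intro halg
  refine transcendental_golomb (α := (2 : ℂ)⁻¹) (isAlgebraic_natCast (R := ℚ) 2).inv
    (by norm_num) (by norm_num) ?_
  have h : IsAlgebraic ℚ (((∑' k : ℕ, 1 / (Nat.fermatNumber k : ℝ)) : ℝ) : ℂ) := halg.algebraMap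
  rw [Complex.ofReal_tsum] at h
  convert h using 1
  refine tsum_congr fun k => ?_
  rw [Nat.fermatNumber, inv_pow]
  push_cast
  have : (2 : ℂ) ^ 2 ^ k ≠ 0 := pow_ne_zero _ two_ne_zero
  field_simp

end FA.Mahler

end
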