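import Fermat.Agent.Transcendence.GelfondSchneider
import Mathlib.RingTheory.Ideal.Norm.AbsNorm
import Mathlib.RingTheory.PowerSeries.Basic
import Mathlib.Analysis.Normed.Ring.InfiniteSum
import Mathlib.FieldTheory.IntermediateField.Adjoin.Basic

/-!
# Mahler's method

If `a₁ (z) f (z ^ d) = a₀ (z) f z + b z`, a polynomial in `z` and `f` of degree `N` in each
vanishing to order `N²` at `0` takes at `α ^ (d ^ k)` non-zero values of absolute value about
`|α| ^ (N² d^k)` and of height `O (N d^k)`, if `α` and `f α` are algebraic.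
-/

set_option autoImplicit false
set_option linter.style.haveILetI false

noncomputable section

namespace FA.Mahler

open NumberField Module Finset

section Size

variable {K : Type*} [Field K] [NumberField K]

/-- `x` has a denominator and a house of size at most `W ^ e`. -/
def Bd (W : ℝ) (e : ℕ) (x : K) : Prop :=
  ∃ n : ℤ, n ≠ 0 ∧ |(n : ℝ)| ≤ W ^ e ∧ IsIntegral ℤ ((n : K) * x) ∧ house x ≤ W ^ e

variable {W : ℝ} {e e' : ℕ} {x y : K}

theorem house_one_le : house (1 : K) ≤ 1 := by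
  rw [show (1 : K) = ((1 : ℤ) : K) by simp, house_intCast]; simp

theorem Bd.mono (hW : 1 ≤ W) (h : e ≤ e') (hx : Bd W e x) : Bd W e' x := by
  obtain ⟨n, h0, h1, h2, h3⟩ := hx
  exact ⟨n, h0, h1.trans (pow_le_pow_right₀ hW h), h2, h3.trans (pow_le_pow_right₀ hW h)⟩

theorem bd_one (hW : 1 ≤ W) (e : ℕ) : Bd W e (1 : K) :=
  ⟨1, one_ne_zero, by simpa using one_le_pow₀ (n := e) hW, by simpa using isIntegral_one,
    house_one_le.trans (one_le_pow₀ hW)⟩

theorem Bd.mul (hW : 1 ≤ W) (hx : Bd W e x) (hy : Bd W e' y) : Bd W (e + e') (x * y) := by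
  obtain ⟨n, n0, n1, n2, n3⟩ := hx
  obtain ⟨m, m0, m1, m2, m3⟩ := hy
  have hW0 : 0 ≤ W ^ e := pow_nonneg (zero_le_one.trans hW) e
  refine ⟨n * m, mul_ne_zero n0 m0, ?_, ?_, ?_⟩
  · rw [Int.cast_mul, abs_mul, pow_add]
    exact mul_le_mul n1 m1 (abs_nonneg _) hW0
  · rw [Int.cast_mul, mul_mul_mul_comm]
    exact n2.mul m2
  · rw [pow_add]
    exact (house_mul_le _ _).trans (mul_le_mul n3 m3 (house_nonneg _) hW0)

theorem Bd.pow (hW : 1 ≤ W) (hx : Bd W e x) : ∀ i : ℕ, Bd W (i * e) (x ^ i)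
  | 0 => by rw [pow_zero]; exact bd_one hW _
  | i + 1 => by rw [pow_succ, add_mul, one_mul]; exact (Bd.pow hW hx i).mul hW hx

theorem Bd.add (hW : 2 ≤ W) (hx : Bd W e x) (hy : Bd W e' y) : Bd W (e + e' + 1) (x + y) := by
  obtain ⟨n, n0, n1, n2, n3⟩ := hx
  obtain ⟨m, m0, m1, m2, m3⟩ := hy
  have hW1 : 1 ≤ W := one_le_two.trans hW
  have hW0 : 0 ≤ W ^ e := pow_nonneg (zero_le_one.trans hW1) e
  refine ⟨n * m, mul_ne_zero n0 m0, ?_, ?_, ?_⟩
  · rw [Int.cast_mul, abs_mul]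
    refine le_trans ?_ (pow_le_pow_right₀ hW1 (Nat.le_succ (e + e')))
    rw [pow_add]
    exact mul_le_mul n1 m1 (abs_nonneg _) hW0
  · rw [Int.cast_mul, show (n : K) * m * (x + y) = (m : K) * (n * x) + (n : K) * (m * y) by ring]
    exact ((isIntegral_algebraMap (R := ℤ) (x := m)).mul n2).add
      ((isIntegral_algebraMap (R := ℤ) (x := n)).mul m2)
  · calc house (x + y) ≤ house x + house y := house_add_le _ _
      _ ≤ W ^ (e + e') + W ^ (e + e') := add_le_add
          (n3.trans (pow_le_pow_right₀ hW1 (Nat.le_add_right _ _)))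
          (m3.trans (pow_le_pow_right₀ hW1 (Nat.le_add_left _ _)))
      _ ≤ W * W ^ (e + e') := by
          rw [← two_mul]; exact mul_le_mul_of_nonneg_right hW (pow_nonneg (zero_le_one.trans hW1) _)
      _ = W ^ (e + e' + 1) := by rw [pow_succ']

theorem Bd.sum (hW : 2 ≤ W) {f : ℕ → K} : ∀ m : ℕ, (∀ i < m, Bd W e (f i)) →
    Bd W (m * (e + 1)) (∑ i ∈ range m, f i)
  | 0, _ => by
    rw [Finset.sum_range_zero]
    exact ⟨1, one_ne_zero, by simp, by simpa using isIntegral_zero, by simp [house]⟩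
  | m + 1, h => by
    rw [Finset.sum_range_succ, add_mul, one_mul, ← add_assoc]
    exact (Bd.sum hW m fun i hi => h i (by omega)).add hW (h m (by omega))

/-- Inverses cost a constant factor in the exponent. -/
theorem Bd.inv (hW : 1 ≤ W) (hx : Bd W e x) (hx0 : x ≠ 0) :
    Bd W ((2 * finrank ℚ K + 1) * e) x⁻¹ := by
  obtain ⟨n, n0, n1, n2, n3⟩ := hx
  set h := finrank ℚ K
  have hh : 0 < h := finrank_pos
  have hW0 : 0 ≤ W ^ e := pow_nonneg (zero_le_one.trans hW) e
  let y : 𝓞 K := ⟨(n : K) * x, n2⟩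
  have hyc : (y : K) = (n : K) * x := rfl
  have hy0 : y ≠ 0 := fun h0 => mul_ne_zero (Int.cast_ne_zero.mpr n0) hx0 (by rw [← hyc, h0]; rfl)
  have hyh : house (y : K) ≤ W ^ (2 * e) := by
    rw [hyc, two_mul, pow_add]
    refine (house_mul_le _ _).trans (mul_le_mul ?_ n3 (house_nonneg _) hW0)
    rw [house_intCast, Int.cast_abs]
    exact n1
  obtain ⟨z, hz⟩ := Ideal.mem_span_singleton.mp (Ideal.absNorm_mem (Ideal.span {y}))
  rw [Ideal.absNorm_span_singleton] at hz
  set Nm := (Algebra.norm ℤ y).natAbs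
  have hNm : 0 < Nm := Int.natAbs_pos.mpr (Algebra.norm_ne_zero_iff.2 hy0)
  have hz' : (Nm : K) = (n : K) * x * (z : K) := by
    rw [← hyc, ← map_natCast (algebraMap (𝓞 K) K), hz, map_mul]
  have hσ : ∀ σ : K →+* ℂ, ‖σ x⁻¹‖ ≤ W ^ e * (W ^ (2 * e)) ^ (h - 1) := fun σ => by
    have h1 := (GelfondSchneider.one_le_norm_mul_house_pow hy0 σ).trans
      (mul_le_mul_of_nonneg_left (pow_le_pow_left₀ (house_nonneg _) hyh (h - 1)) (norm_nonneg _))
    rw [hyc, map_mul, norm_mul, map_intCast, Complex.norm_intCast] at h1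
    rw [map_inv₀, norm_inv, inv_le_iff_one_le_mul₀ (norm_pos_iff.mpr ((map_ne_zero σ).mpr hx0))]
    refine h1.trans ?_
    have hWp : 0 ≤ (W ^ (2 * e)) ^ (h - 1) :=
      pow_nonneg (pow_nonneg (zero_le_one.trans hW) _) _
    nlinarith [mul_le_mul_of_nonneg_right n1 (mul_nonneg (norm_nonneg (σ x)) hWp)]
  refine ⟨(Nm : ℤ), by exact_mod_cast hNm.ne', ?_, ?_, ?_⟩
  · obtain ⟨σ⟩ : Nonempty (K →+* ℂ) := inferInstance
    have h1 := norm_norm_le_norm_mul_house_pow (y : K) σ
    rw [← Algebra.coe_norm_int, Int.norm_cast_rat, Int.norm_eq_abs] at h1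
    rw [Int.cast_natCast, Nat.abs_cast]
    calc (Nm : ℝ) = |((Algebra.norm ℤ y : ℤ) : ℝ)| := by rw [Nat.cast_natAbs, Int.cast_abs]
      _ ≤ house (y : K) * house (y : K) ^ (h - 1) := h1.trans (mul_le_mul_of_nonneg_right
          (norm_embedding_le_house _ σ) (pow_nonneg (house_nonneg _) _))
      _ = house (y : K) ^ h := by rw [← pow_succ', Nat.sub_add_cancel hh]
      _ ≤ (W ^ (2 * e)) ^ h := pow_le_pow_left₀ (house_nonneg _) hyh h
      _ ≤ W ^ ((2 * h + 1) * e) := by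
          rw [← pow_mul]; exact pow_le_pow_right₀ hW (by nlinarith)
  · rw [Int.cast_natCast, hz', show (n : K) * x * (z : K) * x⁻¹ = (n : K) * z by field_simp]
    exact (isIntegral_algebraMap (R := ℤ) (x := n)).mul z.isIntegral_coe
  · have hW0' : 0 ≤ W ^ ((2 * h + 1) * e) := pow_nonneg (zero_le_one.trans hW) _
    rw [house]
    refine (pi_norm_le_iff_of_nonneg hW0').mpr fun σ => ?_
    rw [canonicalEmbedding.apply_at]
    refine (hσ σ).trans ?_
    rw [← pow_mul, ← pow_add]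
    refine pow_le_pow_right₀ hW ?_
    have : 2 * e * (h - 1) ≤ 2 * e * h := Nat.mul_le_mul_left _ (Nat.sub_le h 1)
    nlinarith

/-- Finitely many numbers have a common bound. -/
theorem exists_bd (s : Finset K) : ∃ W : ℝ, 2 ≤ W ∧ ∀ x ∈ s, Bd W 1 x := by
  haveI : Algebra.IsAlgebraic ℤ K :=
    (IsFractionRing.comap_isAlgebraic_iff (A := ℤ) (K := ℚ) (C := K)).2 inferInstance
  obtain ⟨D, hD, hint⟩ := Algebra.IsAlgebraic.exists_integral_multiples ℤ s
  refine ⟨2 + |(D : ℝ)| + ∑ x ∈ s, house x, ?_, fun x hx => ⟨D, hD, ?_, ?_, ?_⟩⟩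
  · have := Finset.sum_nonneg fun x (_ : x ∈ s) => house_nonneg x
    linarith [abs_nonneg (D : ℝ)]
  · have := Finset.sum_nonneg fun x (_ : x ∈ s) => house_nonneg x
    rw [pow_one]; linarith
  · simpa [mem_integralClosure_iff, zsmul_eq_mul] using hint x hx
  · rw [pow_one]
    linarith [Finset.single_le_sum (f := fun x => house x) (fun _ _ => house_nonneg _) hx,
      abs_nonneg (D : ℝ)]

end Size

section Series

variable {K : Type*} [Field K] (ψ : K →+* ℂ)

/-- The series `G` converges absolutely on the unit disc, to `g`. -/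
def Rep (G : PowerSeries K) (g : ℂ → ℂ) : Prop :=
  ∀ z : ℂ, ‖z‖ < 1 → Summable (fun n => ‖ψ (PowerSeries.coeff n G) * z ^ n‖) ∧
    ∑' n, ψ (PowerSeries.coeff n G) * z ^ n = g z

variable {ψ}

theorem Rep.mul {G H : PowerSeries K} {g h : ℂ → ℂ} (hG : Rep ψ G g) (hH : Rep ψ H h) :
    Rep ψ (G * H) fun z => g z * h z := fun z hz => by
  obtain ⟨g1, g2⟩ := hG z hz
  obtain ⟨h1, h2⟩ := hH z hz
  have e : ∀ n, ψ (PowerSeries.coeff n (G * H)) * z ^ n = ∑ ij ∈ antidiagonal n,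
      (ψ (PowerSeries.coeff ij.1 G) * z ^ ij.1) * (ψ (PowerSeries.coeff ij.2 H) * z ^ ij.2) :=
    fun n => by
    rw [PowerSeries.coeff_mul, map_sum, Finset.sum_mul]
    refine Finset.sum_congr rfl fun ij hij => ?_
    rw [map_mul, ← mem_antidiagonal.mp hij, pow_add]
    ring
  refine ⟨?_, ?_⟩
  · refine Summable.congr
      (summable_norm_sum_mul_antidiagonal_of_summable_norm g1 h1) fun n => ?_
    rw [e n]
  · rw [tsum_congr e]
    exact (tsum_mul_tsum_eq_tsum_sum_antidiagonal_of_summable_norm g1 h1).symm.trans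
      (by rw [g2, h2])

theorem Rep.add {G H : PowerSeries K} {g h : ℂ → ℂ} (hG : Rep ψ G g) (hH : Rep ψ H h) :
    Rep ψ (G + H) fun z => g z + h z := fun z hz => by
  obtain ⟨g1, g2⟩ := hG z hz
  obtain ⟨h1, h2⟩ := hH z hz
  simp only [map_add, add_mul]
  refine ⟨(g1.add h1).of_nonneg_of_le (fun _ => norm_nonneg _) fun n => norm_add_le _ _, ?_⟩
  rw [g1.of_norm.tsum_add h1.of_norm, g2, h2]

theorem rep_monomial (j : ℕ) (c : K) :
    Rep ψ (PowerSeries.monomial j c) fun z => ψ c * z ^ j := fun z _ => by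
  classical
  have e : ∀ n, ψ (PowerSeries.coeff n (PowerSeries.monomial j c)) * z ^ n =
      if n = j then ψ c * z ^ j else 0 := fun n => by
    rw [PowerSeries.coeff_monomial]
    split_ifs with h
    · rw [h]
    · rw [map_zero, zero_mul]
  simp only [e]
  exact ⟨summable_of_ne_finset_zero (s := {j}) fun n hn => by simp_all, tsum_ite_eq j _⟩

theorem Rep.pow {G : PowerSeries K} {g : ℂ → ℂ} (hG : Rep ψ G g) :
    ∀ i : ℕ, Rep ψ (G ^ i) fun z => g z ^ i
  | 0 => fun z hz => by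
    simpa [PowerSeries.monomial_zero_eq_C] using rep_monomial (ψ := ψ) 0 (1 : K) z hz
  | i + 1 => by simpa [pow_succ] using (Rep.pow hG i).mul hG

theorem Rep.sum {ι : Type*} (s : Finset ι) {G : ι → PowerSeries K} {g : ι → ℂ → ℂ}
    (h : ∀ i ∈ s, Rep ψ (G i) (g i)) : Rep ψ (∑ i ∈ s, G i) fun z => ∑ i ∈ s, g i z := by
  classical
  induction s using Finset.induction with
  | empty =>
    intro z hz
    simp
  | insert i s hi ih =>
    simp only [Finset.sum_insert hi]
    exact (h i (Finset.mem_insert_self i s)).add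
      (ih fun j hj => h j (Finset.mem_insert_of_mem hj))

/-- Near `0` a series is of the size of its leading term, and not zero. -/
theorem Rep.near_zero {G : PowerSeries K} {g : ℂ → ℂ} (hG : Rep ψ G g) {s : ℕ}
    (hlow : ∀ m < s, PowerSeries.coeff m G = 0) (hs : PowerSeries.coeff s G ≠ 0) :
    ∃ δ B : ℝ, 0 < δ ∧ ∀ z : ℂ, z ≠ 0 → ‖z‖ < δ → g z ≠ 0 ∧ ‖g z‖ ≤ B * ‖z‖ ^ s := by
  set c : ℕ → ℂ := fun m => ψ (PowerSeries.coeff m G)
  have hc : c s ≠ 0 := (map_ne_zero ψ).mpr hs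
  have hh : ‖((1 / 2 : ℝ) : ℂ)‖ < 1 := by simp; norm_num
  have h0 : Summable fun n => ‖c (n + (s + 1))‖ * (1 / 2 : ℝ) ^ n := by
    refine (((hG _ hh).1.comp_injective (add_left_injective (s + 1))).mul_left
      ((2 : ℝ) ^ (s + 1))).congr fun n => ?_
    simp only [Function.comp, c, norm_mul, norm_pow, Complex.norm_real, Real.norm_eq_abs,
      abs_of_nonneg (by norm_num : (0 : ℝ) ≤ 1 / 2)]
    rw [pow_add (1 / 2 : ℝ), show ∀ A B C D : ℝ, A * (B * (C * D)) = B * C * (A * D) from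
      fun A B C D => by ring, ← mul_pow, show (2 : ℝ) * (1 / 2) = 1 by norm_num, one_pow,
      mul_one]
  set S := ∑' n, ‖c (n + (s + 1))‖ * (1 / 2 : ℝ) ^ n
  have hS : 0 ≤ S := tsum_nonneg fun n => by positivity
  refine ⟨min (1 / 2) (‖c s‖ / (S + 1)), ‖c s‖ + S, lt_min (by norm_num) (by positivity),
    fun z hz0 hz => ?_⟩
  have hz2 : ‖z‖ ≤ 1 / 2 := hz.le.trans (min_le_left _ _)
  have hterm : ∀ n, ‖c (n + (s + 1)) * z ^ n‖ ≤ ‖c (n + (s + 1))‖ * (1 / 2 : ℝ) ^ n := fun n => by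
    rw [norm_mul, norm_pow]
    exact mul_le_mul_of_nonneg_left (pow_le_pow_left₀ (norm_nonneg _) hz2 n) (norm_nonneg _)
  set t := ∑' n, c (n + (s + 1)) * z ^ n
  have hn : Summable fun n => ‖c (n + (s + 1)) * z ^ n‖ :=
    h0.of_nonneg_of_le (fun _ => norm_nonneg _) hterm
  have ht : ‖t‖ ≤ S := (norm_tsum_le_tsum_norm hn).trans (hn.tsum_le_tsum hterm h0)
  obtain ⟨g1, g2⟩ := hG z (lt_of_le_of_lt hz2 (by norm_num))
  have hg : g z = z ^ s * (c s + z * t) := by
    rw [← g2, ← g1.of_norm.sum_add_tsum_nat_add (s + 1), Finset.sum_range_succ,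
      Finset.sum_eq_zero fun m hm => by rw [hlow m (mem_range.mp hm), map_zero, zero_mul],
      zero_add, mul_add, ← mul_assoc, ← pow_succ, ← tsum_mul_left, mul_comm (z ^ s)]
    refine congrArg₂ _ rfl (tsum_congr fun n => ?_)
    rw [pow_add]
    ring
  have h3 : ‖z * t‖ < ‖c s‖ := by
    rw [norm_mul]
    have hdiv := lt_of_lt_of_le hz (min_le_right _ _)
    rw [lt_div_iff₀ (by linarith)] at hdiv
    nlinarith [norm_nonneg z]
  constructor
  · rw [hg]
    refine mul_ne_zero (pow_ne_zero s hz0) fun h => ?_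
    rw [eq_neg_of_add_eq_zero_left h, norm_neg] at h3
    exact lt_irrefl _ h3
  · rw [hg, norm_mul, norm_pow, mul_comm]
    refine mul_le_mul_of_nonneg_right ((norm_add_le _ _).trans ?_) (pow_nonneg (norm_nonneg z) s)
    refine add_le_add le_rfl ?_
    rw [norm_mul]
    exact (mul_le_of_le_one_left (norm_nonneg _) (hz2.trans (by norm_num))).trans ht

end Series

variable {K : Type*} [Field K] [NumberField K]

/-- `f` satisfies no polynomial equation on the unit disc. -/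
def NoRelation (f : ℂ → ℂ) : Prop :=
  ∀ (m : ℕ) (P : Fin m → Polynomial ℂ),
    (∀ z : ℂ, ‖z‖ < 1 → ∑ i, (P i).eval z * f z ^ (i : ℕ) = 0) → P = 0

set_option maxHeartbeats 1000000 in
/-- **Mahler's argument.** -/
theorem false_of_data (ψ : K →+* ℂ) (c : ℕ → K) {f : ℂ → ℂ} (hf : Rep ψ (PowerSeries.mk c) f)
    {d : ℕ} (hd : 2 ≤ d) (a₁ a₀ b : Polynomial K)
    (heq : ∀ z : ℂ, ‖z‖ < 1 → (a₁.map ψ).eval z * f (z ^ d) =
      (a₀.map ψ).eval z * f z + (b.map ψ).eval z)
    (hno : NoRelation f) (α β : K) (hα0 : α ≠ 0) (hα1 : ‖ψ α‖ < 1)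
    (ha₁ : ∀ k : ℕ, a₁.eval (α ^ d ^ k) ≠ 0) (hβ : ψ β = f (ψ α)) : False := by
  classical
  set g := max a₁.natDegree (max a₀.natDegree b.natDegree)
  obtain ⟨W, hW2, hbd⟩ := exists_bd (insert α (insert β ((range (g + 1)).image a₁.coeff ∪
    (range (g + 1)).image a₀.coeff ∪ (range (g + 1)).image b.coeff)))
  have hW : 1 ≤ W := one_le_two.trans hW2
  have hu : ∀ k, Bd W (d ^ k) (α ^ d ^ k) := fun k => by
    simpa using (hbd α (mem_insert_self _ _)).pow hW (d ^ k)
  have hev : ∀ P : Polynomial K, P.natDegree ≤ g → (∀ j ≤ g, Bd W 1 (P.coeff j)) →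
      ∀ k, Bd W ((g + 1) * ((g + 2) * d ^ k)) (P.eval (α ^ d ^ k)) := fun P hP hc k => by
    rw [Polynomial.eval_eq_sum_range' (Nat.lt_succ_of_le hP)]
    refine (Bd.sum hW2 (e := 1 + g * d ^ k) (g + 1) fun j hj => ?_).mono hW ?_
    · exact ((hc j (by omega)).mul hW ((hu k).pow hW j)).mono hW
        (Nat.add_le_add_left (Nat.mul_le_mul_right _ (by omega)) _)
    · have : 1 ≤ d ^ k := Nat.one_le_pow _ _ (by omega)
      exact Nat.mul_le_mul_left _ (by nlinarith)
  set G := (g + 1) * (g + 2)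
  have hmem : ∀ j ≤ g, Bd W 1 (a₁.coeff j) ∧ Bd W 1 (a₀.coeff j) ∧ Bd W 1 (b.coeff j) :=
    fun j hj => by
      refine ⟨hbd _ ?_, hbd _ ?_, hbd _ ?_⟩ <;>
        simp only [mem_insert, mem_union, mem_image, mem_range] <;>
        refine Or.inr (Or.inr ?_)
      exacts [Or.inl (Or.inl ⟨j, by omega, rfl⟩), Or.inl (Or.inr ⟨j, by omega, rfl⟩),
        Or.inr ⟨j, by omega, rfl⟩]
  -- the values of `f`
  let v : ℕ → K := fun k => Nat.rec β (fun k y =>
    (a₀.eval (α ^ d ^ k) * y + b.eval (α ^ d ^ k)) * (a₁.eval (α ^ d ^ k))⁻¹) k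
  have hv : ∀ k, ψ (v k) = f (ψ α ^ d ^ k) := fun k => by
    induction k with
    | zero => simpa [v] using hβ
    | succ k ih =>
      have hz : ‖ψ α ^ d ^ k‖ < 1 := by
        rw [norm_pow]; exact pow_lt_one₀ (norm_nonneg _) hα1 (pow_ne_zero _ (by omega))
      have h1 := heq _ hz
      simp only [← map_pow, Polynomial.eval_map, Polynomial.eval₂_hom] at h1 ih
      rw [← ih, ← map_mul, ← map_add] at h1
      have hne : ψ (a₁.eval (α ^ d ^ k)) ≠ 0 := (map_ne_zero ψ).mpr (ha₁ k)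
      rw [pow_succ, pow_mul]
      show ψ ((_ + _) * _) = _
      rw [map_mul ψ, map_inv₀, ← h1, ← map_pow]
      field_simp
      simp only [map_pow]
  set J := (2 * finrank ℚ K + 1) * G + (G + 1)
  have hvb : ∀ k, Bd W (1 + 2 * J * d ^ k) (v k) := fun k => by
    induction k with
    | zero => exact (hbd β (by simp)).mono hW (Nat.le_add_right 1 _)
    | succ k ih =>
      have h1 := fun P hP hc => hev P hP hc k
      have e : ∀ n, (g + 1) * ((g + 2) * n) = G * n := fun n => by simp only [G]; ring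
      simp only [e] at h1
      refine Bd.mono hW ?_ ((((h1 a₀ (le_max_of_le_right (le_max_left _ _))
        fun j hj => (hmem j hj).2.1).mul hW ih).add hW2
        (h1 b (le_max_of_le_right (le_max_right _ _)) fun j hj => (hmem j hj).2.2)).mul hW
        ((h1 a₁ (le_max_left _ _) fun j hj => (hmem j hj).1).inv hW (ha₁ k)))
      have hk : 1 ≤ d ^ k := Nat.one_le_pow _ _ (by omega)
      have hJ : 2 * J * (2 * d ^ k) ≤ 2 * J * d ^ (k + 1) := by
        rw [pow_succ']; exact Nat.mul_le_mul_left _ (Nat.mul_le_mul_right _ hd)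
      simp only [J] at hJ ⊢
      nlinarith [Nat.zero_le (G * d ^ k), Nat.zero_le (finrank ℚ K * G * d ^ k)]
  set E₂ := 1 + (1 + 2 * J) with hE₂
  have hv' : ∀ k, Bd W ((1 + 2 * J) * d ^ k) (v k) := fun k => (hvb k).mono hW (by
    have : 1 ≤ d ^ k := Nat.one_le_pow _ _ (by omega)
    nlinarith)
  -- the parameter
  set r := ‖ψ α‖
  have hr0 : 0 < r := norm_pos_iff.mpr ((map_ne_zero ψ).mpr hα0)
  set h := finrank ℚ K
  obtain ⟨N₀, hN₀⟩ := exists_pow_lt_of_lt_one
    (show 0 < 1 / (2 * W ^ (2 * h * E₂)) by positivity) hα1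
  set N := N₀ + 1
  have hN : r ^ N * W ^ (2 * h * E₂) ≤ 1 / 2 := by
    have h1 : r ^ N ≤ r ^ N₀ := pow_le_pow_of_le_one hr0.le hα1.le (Nat.le_succ _)
    calc r ^ N * W ^ (2 * h * E₂) ≤ 1 / (2 * W ^ (2 * h * E₂)) * W ^ (2 * h * E₂) :=
          mul_le_mul_of_nonneg_right (h1.trans hN₀.le) (by positivity)
      _ = 1 / 2 := by field_simp
  -- the auxiliary polynomial
  let idx := Fin (N + 1) × Fin (N + 1)
  let term : idx → PowerSeries K := fun t =>
    PowerSeries.monomial t.2.val 1 * PowerSeries.mk c ^ t.1.val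
  let Φ : (idx → K) →ₗ[K] (Fin (N ^ 2) → K) :=
    LinearMap.pi fun m => ∑ t, PowerSeries.coeff m.val (term t) • LinearMap.proj t
  obtain ⟨e₀, he₀, he₀0⟩ : ∃ e : idx → K, Φ e = 0 ∧ e ≠ 0 := by
    by_contra hc'
    push Not at hc'
    have hinj : Function.Injective Φ := LinearMap.ker_eq_bot.mp
      ((Submodule.eq_bot_iff _).mpr fun e he => hc' e he)
    have := LinearMap.finrank_le_finrank_of_injective hinj
    simp [idx, Fintype.card_prod] at this
    nlinarith
  haveI : Algebra.IsAlgebraic ℤ K :=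
    (IsFractionRing.comap_isAlgebraic_iff (A := ℤ) (K := ℚ) (C := K)).2 inferInstance
  obtain ⟨D, hD, hDint⟩ := Algebra.IsAlgebraic.exists_integral_multiples ℤ
    ((Finset.univ : Finset idx).image e₀)
  set η : idx → K := fun t => (D : K) * e₀ t
  have hηi : ∀ t, IsIntegral ℤ (η t) := fun t => by
    simpa [η, mem_integralClosure_iff, zsmul_eq_mul] using hDint (e₀ t) (by simp)
  set E : PowerSeries K := ∑ t, PowerSeries.C (η t) * term t
  set Ef : ℂ → ℂ := fun z => ∑ t : idx, ψ (η t) * (z ^ t.2.val * f z ^ t.1.val)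
  have hRep : Rep ψ E Ef := Rep.sum (ψ := ψ) _ fun t _ z hz => by
    have := ((rep_monomial (ψ := ψ) 0 (η t)).mul
      ((rep_monomial (ψ := ψ) t.2.val (1 : K)).mul (hf.pow t.1.val))) z hz
    simpa [term, PowerSeries.monomial_zero_eq_C] using this
  have hlow : ∀ m < N ^ 2, PowerSeries.coeff m E = 0 := fun m hm => by
    have h1 := congrFun he₀ ⟨m, hm⟩
    simp only [Φ, LinearMap.pi_apply, LinearMap.sum_apply, LinearMap.smul_apply,
      LinearMap.proj_apply, smul_eq_mul, Pi.zero_apply] at h1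
    simp only [E, map_sum, PowerSeries.coeff_C_mul, η, mul_assoc, ← Finset.mul_sum,
      mul_comm (e₀ _), h1, mul_zero]
  have hE0 : E ≠ 0 := fun hE => by
    refine he₀0 (funext fun t => ?_)
    have hP := hno (N + 1)
      (fun i => ∑ j : Fin (N + 1), Polynomial.C (ψ (η (i, j))) * Polynomial.X ^ j.val)
      fun z hz => by
        obtain ⟨-, h2⟩ := hRep z hz
        simp only [hE, map_zero, zero_mul, tsum_zero] at h2
        simp only [Ef] at h2
        rw [h2, ← Finset.univ_product_univ, Finset.sum_product]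
        refine Finset.sum_congr rfl fun i _ => ?_
        simp only [Polynomial.eval_finsetSum, Finset.sum_mul, Polynomial.eval_mul,
          Polynomial.eval_C, Polynomial.eval_pow, Polynomial.eval_X, mul_assoc]
    have h1 := congrArg (fun P => Polynomial.coeff P t.2.val) (congrFun hP t.1)
    simp only [Pi.zero_apply, Polynomial.finsetSum_coeff, Polynomial.coeff_C_mul,
      Polynomial.coeff_X_pow, Fin.val_inj, mul_ite, mul_one, mul_zero, Finset.sum_ite_eq,
      Finset.mem_univ, if_true, Polynomial.coeff_zero] at h1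
    simpa [η, hD] using h1
  obtain ⟨s₀, hs₀⟩ : ∃ s, PowerSeries.coeff s E ≠ 0 := by
    by_contra hc'
    push Not at hc'
    exact hE0 (PowerSeries.ext fun n => by simp [hc' n])
  set hex : ∃ s, PowerSeries.coeff s E ≠ 0 := ⟨s₀, hs₀⟩
  set s := Nat.find hex
  have hsN : N ^ 2 ≤ s := not_lt.mp fun hlt => Nat.find_spec hex (hlow s hlt)
  obtain ⟨δ, B, hδ, hnear⟩ := hRep.near_zero (s := s)
    (fun m hm => not_not.mp (Nat.find_min hex hm)) (Nat.find_spec hex)
  -- the house of the coefficients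
  obtain ⟨E₀, hE₀⟩ := pow_unbounded_of_one_lt (∑ t, house (η t)) (show 1 < W by linarith)
  -- large `k`
  have hlim : Filter.Tendsto (fun k : ℕ => (1 / 2 : ℝ) ^ d ^ k) Filter.atTop (nhds 0) :=
    (tendsto_pow_atTop_nhds_zero_of_lt_one (by norm_num) (by norm_num)).comp
      (tendsto_pow_atTop_atTop_of_one_lt (by omega : 1 < d))
  have hlim' : Filter.Tendsto (fun k : ℕ => r ^ d ^ k) Filter.atTop (nhds 0) :=
    (tendsto_pow_atTop_nhds_zero_of_lt_one hr0.le hα1).comp
      (tendsto_pow_atTop_atTop_of_one_lt (by omega : 1 < d))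
  have hlimB : Filter.Tendsto
      (fun k : ℕ => |B| * W ^ (2 * h * (E₀ + (N + 1) ^ 2)) * (1 / 2 : ℝ) ^ d ^ k)
      Filter.atTop (nhds 0) := by simpa using hlim.const_mul _
  obtain ⟨k, hk1, hk2⟩ := ((hlimB.eventually (gt_mem_nhds one_pos)).and
    (hlim'.eventually (gt_mem_nhds hδ))).exists
  set u := α ^ d ^ k
  have hz : ‖ψ u‖ = r ^ d ^ k := by rw [map_pow, norm_pow]
  obtain ⟨hne, hle⟩ := hnear (ψ u) ((map_ne_zero ψ).mpr (pow_ne_zero _ hα0)) (by rwa [hz])
  -- the algebraic value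
  set Y : K := ∑ t : idx, η t * (u ^ t.2.val * v k ^ t.1.val)
  have hY : ψ Y = Ef (ψ u) := by
    simp only [Y, Ef, map_sum, map_mul, map_pow, hv, u]
  obtain ⟨nu, nu0, nu1, nu2, nu3⟩ := hu k
  obtain ⟨nv, nv0, nv1, nv2, nv3⟩ := hv' k
  set X : K := (nu : K) ^ N * (nv : K) ^ N * Y
  have hXi : IsIntegral ℤ X := by
    simp only [X, Y, Finset.mul_sum]
    refine IsIntegral.sum _ fun t _ => ?_
    have h1 : t.1.val ≤ N := Nat.lt_succ_iff.mp t.1.isLt
    have h2 : t.2.val ≤ N := Nat.lt_succ_iff.mp t.2.isLt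
    have eu : (nu : K) ^ N = (nu : K) ^ (N - t.2.val) * (nu : K) ^ t.2.val := by
      rw [← pow_add, Nat.sub_add_cancel h2]
    have ev : (nv : K) ^ N = (nv : K) ^ (N - t.1.val) * (nv : K) ^ t.1.val := by
      rw [← pow_add, Nat.sub_add_cancel h1]
    rw [eu, ev,
      show (nu : K) ^ (N - t.2.val) * (nu : K) ^ t.2.val *
        ((nv : K) ^ (N - t.1.val) * (nv : K) ^ t.1.val) *
          (η t * (u ^ t.2.val * v k ^ t.1.val)) =
        η t * ((nu : K) ^ (N - t.2.val) * (nv : K) ^ (N - t.1.val)) *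
          (((nu : K) * u) ^ t.2.val * ((nv : K) * v k) ^ t.1.val) by rw [mul_pow, mul_pow]; ring]
    exact ((hηi t).mul (((isIntegral_algebraMap (R := ℤ) (x := nu)).pow _).mul
      ((isIntegral_algebraMap (R := ℤ) (x := nv)).pow _))).mul ((nu2.pow _).mul (nv2.pow _))
  have hX0 : (⟨X, hXi⟩ : 𝓞 K) ≠ 0 := fun h0 => by
    have h1 : X = 0 := congrArg Subtype.val h0
    refine hne ?_
    rw [← hY, (mul_eq_zero.mp h1).resolve_left (mul_ne_zero
      (pow_ne_zero N (Int.cast_ne_zero.mpr nu0)) (pow_ne_zero N (Int.cast_ne_zero.mpr nv0))),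
      map_zero]
  set P := W ^ (N * E₂ * d ^ k) with hP
  have hP0 : 0 ≤ P := by positivity
  have hP' : (W ^ d ^ k) ^ N * (W ^ ((1 + 2 * J) * d ^ k)) ^ N = P := by
    rw [← pow_mul, ← pow_mul, ← pow_add, hP, hE₂]
    congr 1
    ring
  have hnuv : |((nu : ℝ)) ^ N * (nv : ℝ) ^ N| ≤ P := by
    rw [abs_mul, abs_pow, abs_pow, ← hP']
    exact mul_le_mul (pow_le_pow_left₀ (abs_nonneg _) nu1 _)
      (pow_le_pow_left₀ (abs_nonneg _) nv1 _) (by positivity) (by positivity)
  have hYh : house Y ≤ W ^ (E₀ + (N + 1) ^ 2) * P := by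
    refine (house_sum_le_sum_house _ _).trans ?_
    have hone : ∀ t : idx, house (η t * (u ^ t.2.val * v k ^ t.1.val)) ≤ house (η t) * P :=
        fun t => by
      refine (house_mul_le _ _).trans (mul_le_mul_of_nonneg_left ?_ (house_nonneg _))
      rw [← hP']
      refine (house_mul_le _ _).trans (mul_le_mul ?_ ?_ (house_nonneg _) (by positivity))
      · exact (house_pow_le _ _).trans ((pow_le_pow_left₀ (house_nonneg _) nu3 _).trans
          (pow_le_pow_right₀ (one_le_pow₀ hW) (Nat.lt_succ_iff.mp t.2.isLt)))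
      · exact (house_pow_le _ _).trans ((pow_le_pow_left₀ (house_nonneg _) nv3 _).trans
          (pow_le_pow_right₀ (one_le_pow₀ hW) (Nat.lt_succ_iff.mp t.1.isLt)))
    refine (Finset.sum_le_sum fun t _ => hone t).trans ?_
    rw [← Finset.sum_mul]
    exact mul_le_mul_of_nonneg_right (hE₀.le.trans (pow_le_pow_right₀ hW (Nat.le_add_right _ _)))
      hP0
  set Q := W ^ (E₀ + (N + 1) ^ 2) with hQ
  have hQ1 : 1 ≤ Q := one_le_pow₀ hW
  have hXψ : ‖ψ X‖ ≤ P * (|B| * (r ^ d ^ k) ^ N ^ 2) := by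
    simp only [X, map_mul, map_pow, map_intCast, norm_mul]
    refine mul_le_mul ?_ ?_ (norm_nonneg _) hP0
    · simpa [abs_mul, norm_pow, Complex.norm_intCast] using hnuv
    · rw [hY]
      refine hle.trans ((mul_le_mul_of_nonneg_right (le_abs_self B) (by positivity)).trans ?_)
      rw [hz]
      exact mul_le_mul_of_nonneg_left (pow_le_pow_of_le_one (by positivity)
        (pow_le_one₀ hr0.le hα1.le) hsN) (abs_nonneg _)
  have hXh : house X ≤ P * (Q * P) := by
    refine (house_mul_le _ _).trans (mul_le_mul ?_ hYh (house_nonneg _) hP0)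
    rw [← Int.cast_pow, ← Int.cast_pow, ← Int.cast_mul, house_intCast, Int.cast_abs,
      Int.cast_mul, Int.cast_pow, Int.cast_pow]
    exact hnuv
  have hh : 0 < h := finrank_pos
  have hmain := (GelfondSchneider.one_le_norm_mul_house_pow hX0 ψ).trans (mul_le_mul hXψ
    (pow_le_pow_left₀ (house_nonneg _) hXh (h - 1)) (pow_nonneg (house_nonneg _) _) (by positivity))
  have hP2 : P * (P * (Q * P)) ^ (h - 1) ≤ P ^ (2 * h) * Q ^ (2 * h) := by
    have hP1 : 1 ≤ P := one_le_pow₀ hW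
    rw [show P * (Q * P) = P ^ 2 * Q by ring, mul_pow, ← pow_mul, ← mul_assoc, ← pow_succ']
    exact mul_le_mul (pow_le_pow_right₀ hP1 (by omega)) (pow_le_pow_right₀ hQ1 (by omega))
      (by positivity) (by positivity)
  have hfinal : (r ^ d ^ k) ^ N ^ 2 * P ^ (2 * h) ≤ (1 / 2 : ℝ) ^ d ^ k := by
    rw [hP, ← pow_mul, ← pow_mul,
      show d ^ k * N ^ 2 = N * (N * d ^ k) by ring,
      show N * E₂ * d ^ k * (2 * h) = 2 * h * E₂ * (N * d ^ k) by ring, pow_mul r, pow_mul W,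
      ← mul_pow]
    exact (pow_le_pow_left₀ (by positivity) hN _).trans (pow_le_pow_of_le_one (by norm_num)
      (by norm_num) (Nat.le_mul_of_pos_left _ (Nat.succ_pos N₀)))
  have hQ2 : Q ^ (2 * h) = W ^ (2 * h * (E₀ + (N + 1) ^ 2)) := by rw [hQ, ← pow_mul, mul_comm]
  rw [← hQ2] at hk1
  have : (1 : ℝ) ≤ |B| * Q ^ (2 * h) * (1 / 2 : ℝ) ^ d ^ k := by
    refine hmain.trans ?_
    rw [show P * (|B| * (r ^ d ^ k) ^ N ^ 2) * (P * (Q * P)) ^ (h - 1) =
      |B| * ((r ^ d ^ k) ^ N ^ 2 * (P * (P * (Q * P)) ^ (h - 1))) by ring, mul_assoc]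
    refine mul_le_mul_of_nonneg_left ?_ (abs_nonneg _)
    refine (mul_le_mul_of_nonneg_left hP2 (by positivity)).trans ?_
    rw [← mul_assoc, mul_comm (Q ^ (2 * h))]
    exact mul_le_mul_of_nonneg_right hfinal (by positivity)
  linarith

/-- **Mahler's theorem.** -/
theorem transcendental_of_equation (ψ : K →+* ℂ) (c : ℕ → K) {f : ℂ → ℂ}
    (hf : Rep ψ (PowerSeries.mk c) f) {d : ℕ} (hd : 2 ≤ d) (a₁ a₀ b : Polynomial K)
    (heq : ∀ z : ℂ, ‖z‖ < 1 → (a₁.map ψ).eval z * f (z ^ d) =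
      (a₀.map ψ).eval z * f z + (b.map ψ).eval z)
    (hno : NoRelation f) {α : ℂ} (hα : IsAlgebraic ℚ α) (hα0 : α ≠ 0) (hα1 : ‖α‖ < 1)
    (ha₁ : ∀ k : ℕ, (a₁.map ψ).eval (α ^ d ^ k) ≠ 0) : Transcendental ℚ (f α) := by
  intro hfα
  set F := ψ.toRatAlgHom.fieldRange ⊔ IntermediateField.adjoin ℚ ({α, f α} : Set ℂ)
  haveI : FiniteDimensional ℚ ψ.toRatAlgHom.fieldRange :=
    ψ.toRatAlgHom.toLinearMap.finiteDimensional_range
  haveI : FiniteDimensional ℚ (IntermediateField.adjoin ℚ ({α, f α} : Set ℂ)) :=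
    IntermediateField.finiteDimensional_adjoin fun z hz => by
      rcases hz with rfl | rfl
      exacts [hα.isIntegral, hfα.isIntegral]
  haveI : FiniteDimensional ℚ F := IntermediateField.finiteDimensional_sup _ _
  haveI : NumberField F := { }
  let ι : K →+* F := (ψ.toRatAlgHom.codRestrict F.toSubalgebra fun x =>
    le_sup_left (a := ψ.toRatAlgHom.fieldRange) ⟨x, rfl⟩).toRingHom
  have hι : (F.val.toRingHom).comp ι = ψ := rfl
  have hαF : α ∈ F := le_sup_right (a := ψ.toRatAlgHom.fieldRange)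
    (IntermediateField.subset_adjoin ℚ _ (Set.mem_insert _ _))
  have hfF : f α ∈ F := le_sup_right (a := ψ.toRatAlgHom.fieldRange)
    (IntermediateField.subset_adjoin ℚ _ (Set.mem_insert_of_mem _ rfl))
  refine false_of_data F.val.toRingHom (fun n => ι (c n)) (f := f) ?_ hd (a₁.map ι) (a₀.map ι)
    (b.map ι) ?_ hno ⟨α, hαF⟩ ⟨f α, hfF⟩ (fun h => hα0 (congrArg Subtype.val h)) hα1
    (fun k h => ha₁ k ?_) rfl
  · intro z hz
    simp only [PowerSeries.coeff_mk]
    have := hf z hz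
    simp only [PowerSeries.coeff_mk] at this
    exact this
  · intro z hz
    simp only [Polynomial.map_map, hι]
    exact heq z hz
  · have e := congrArg F.val.toRingHom h
    rw [map_zero, ← Polynomial.eval_map_apply, Polynomial.map_map, hι] at e
    exact e

end FA.Mahler

end
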