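import Fermat.Agent.Transcendence.MahlerFermat
import Mathlib.Analysis.SpecificLimits.Fibonacci
import Mathlib.RingTheory.PrincipalIdealDomain
import Mathlib.RingTheory.UniqueFactorizationDomain.Basic

/-!
# Mahler's method: the paperfolding series and the Lucas numbers at the powers of two

The series `∑ z ^ 2 ^ k / (1 + z ^ 2 ^ (k + 1))` has the paperfolding sequence as coefficients and
satisfies `(1 + z ^ 2) f (z ^ 2) = (1 + z ^ 2) f z - z`. At `φ ^ (-2)` its value is the sum of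
`1 / L (2 ^ (k + 1))`; in contrast the sum of `1 / F (2 ^ k)` is quadratic (Millin).
-/

set_option autoImplicit false

noncomputable section

namespace FA.Mahler

open Polynomial Finset Filter
open scoped Topology goldenRatio

/-! ### Admissibility -/

theorem admissible_of_coprime {A B : ℂ[X]} (hAB : IsCoprime A B) (hB : B ≠ 0) {m : ℕ}
    (hm : 0 < m) :
    (1 + X ^ 2) * (A.comp (X ^ 2) * B - A * B.comp (X ^ 2)) ≠
      C (m : ℂ) * X * (B * B.comp (X ^ 2)) := by
  intro h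
  have hm' : (m : ℂ) ≠ 0 := Nat.cast_ne_zero.2 hm.ne'
  have hu0 : (1 + X ^ 2 : ℂ[X]) ≠ 0 := fun e => by simpa using congrArg (eval 0) e
  have hu2 : (1 + X ^ 2 : ℂ[X]).natDegree = 2 := by compute_degree!
  have hb : B.natDegree ≤ 2 := by
    have hc : IsCoprime (A.comp (X ^ 2)) (B.comp (X ^ 2)) := hAB.map (compRingHom (X ^ 2))
    have hd : B.comp (X ^ 2) ∣ (1 + X ^ 2) * B := by
      refine hc.symm.dvd_of_dvd_mul_right ⟨C (m : ℂ) * X * B + (1 + X ^ 2) * A, ?_⟩
      linear_combination h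
    have h' := natDegree_le_of_dvd hd (mul_ne_zero hu0 hB)
    rw [natDegree_comp_sq, natDegree_mul hu0 hB, hu2] at h'
    omega
  have ha : A.natDegree ≤ 2 := by
    by_contra ha
    have hA : A ≠ 0 := fun e => by rw [e, natDegree_zero] at ha; omega
    have hB2 := comp_sq_ne_zero hB
    have hL : (A.comp (X ^ 2) * B - A * B.comp (X ^ 2)).natDegree =
        2 * A.natDegree + B.natDegree := by
      rw [natDegree_sub_eq_left_of_natDegree_lt, natDegree_mul (comp_sq_ne_zero hA) hB,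
        natDegree_comp_sq]
      rw [natDegree_mul (comp_sq_ne_zero hA) hB, natDegree_mul hA hB2, natDegree_comp_sq,
        natDegree_comp_sq]
      omega
    have hcX : C (m : ℂ) * X ≠ 0 := mul_ne_zero (C_ne_zero.2 hm') X_ne_zero
    have hne := mul_ne_zero_iff.1 (h ▸ mul_ne_zero hcX (mul_ne_zero hB hB2))
    have hdeg := congrArg natDegree h
    rw [natDegree_mul hne.1 hne.2, hL, hu2, natDegree_mul hcX (mul_ne_zero hB hB2),
      natDegree_C_mul hm', natDegree_X, natDegree_mul hB hB2, natDegree_comp_sq] at hdeg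
    omega
  have eA := A.as_sum_range_C_mul_X_pow' (show A.natDegree < 3 by omega)
  have eB := B.as_sum_range_C_mul_X_pow' (show B.natDegree < 3 by omega)
  simp only [sum_range_succ, sum_range_zero, zero_add, pow_zero, mul_one, pow_one] at eA eB
  generalize A.coeff 0 = a₀, A.coeff 1 = a₁, A.coeff 2 = a₂ at eA
  generalize B.coeff 0 = b₀, B.coeff 1 = b₁, B.coeff 2 = b₂ at eB
  rw [eA, eB] at h
  simp only [add_comp, mul_comp, C_comp, X_comp, pow_comp] at h
  set p := a₀ * b₁ - a₁ * b₀ with hp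
  set q := a₀ * b₂ - a₂ * b₀ with hq
  set r := a₁ * b₂ - a₂ * b₁ with hr
  have key : C (p - m * b₀ ^ 2) * X + C (q - p - m * (b₀ * b₁)) * X ^ 2 +
      C (p - m * (b₀ * b₂ + b₁ * b₀)) * X ^ 3 + C (r - p - m * b₁ ^ 2) * X ^ 4 +
      C (-r - m * (b₁ * b₂ + b₂ * b₀)) * X ^ 5 + C (r - q - m * (b₁ * b₂)) * X ^ 6 +
      C (-r - m * b₂ ^ 2) * X ^ 7 = 0 := by
    simp only [hp, hq, hr, map_sub, map_mul, map_add, map_neg, map_pow]
    linear_combination h
  have e (n : ℕ) := congrArg (fun P : ℂ[X] => P.coeff n) key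
  have e1 := e 1
  have e2 := e 2
  have e3 := e 3
  have e4 := e 4
  have e5 := e 5
  have e6 := e 6
  have e7 := e 7
  simp only [coeff_add, coeff_C_mul_X_pow, coeff_C_mul_X, coeff_zero] at e1 e2 e3 e4 e5 e6 e7
  norm_num at e1 e2 e3 e4 e5 e6 e7
  have h1 : b₀ * (b₁ + b₂ - b₀) = 0 :=
    mul_left_cancel₀ hm' (by linear_combination e1 - e3)
  have h2 : b₁ * (b₀ + b₂ - b₁) = 0 :=
    mul_left_cancel₀ hm' (by linear_combination e4 - e2 - e6)
  have h3 : b₂ * (b₀ + b₁ - b₂) = 0 :=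
    mul_left_cancel₀ hm' (by linear_combination e7 - e5)
  have h4 : b₀ ^ 2 + b₁ ^ 2 + b₂ ^ 2 = 0 :=
    mul_left_cancel₀ hm' (by linear_combination -e1 - e4 - e7)
  refine hB ?_
  rw [eB]
  obtain ⟨rfl, rfl, rfl⟩ : b₀ = 0 ∧ b₁ = 0 ∧ b₂ = 0 := by
    have t : b₀ * b₁ + b₀ * b₂ + b₁ * b₂ = 0 := by
      linear_combination (h1 + h2 + h3 + h4) / 2
    have P1 : b₁ * b₂ + b₀ ^ 2 = 0 := by linear_combination t - h1
    have P2 : b₀ * b₂ + b₁ ^ 2 = 0 := by linear_combination t - h2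
    have P3 : b₀ * b₁ + b₂ ^ 2 = 0 := by linear_combination t - h3
    have z0 : b₀ = 0 := pow_eq_zero_iff (n := 4) four_ne_zero |>.1 (by
      linear_combination (b₂ ^ 2 * P2 - b₀ * b₂ * P3 + b₀ ^ 2 * P1 -
        (b₁ * b₂ - b₀ ^ 2) * P1) / 2)
    subst z0
    simp only [zero_mul, zero_add] at P2 P3
    exact ⟨rfl, pow_eq_zero_iff two_ne_zero |>.1 P2, pow_eq_zero_iff two_ne_zero |>.1 P3⟩
  simp

theorem admissible_one_add_X_sq : Admissible (1 + X ^ 2) X := by
  intro A B hB m hm h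
  obtain ⟨A', B', G, hrel, rfl, rfl⟩ := UniqueFactorizationMonoid.exists_reduced_factors' A B hB
  obtain ⟨hG, hB'⟩ := mul_ne_zero_iff.1 hB
  refine admissible_of_coprime hrel.isCoprime hB' hm
    (mul_left_cancel₀ (mul_ne_zero hG (comp_sq_ne_zero hG)) ?_)
  simp only [mul_comp] at h
  linear_combination h

/-! ### The paperfolding series -/

/-- The regular paperfolding sequence: `(-1) ^ j` at `2 ^ k * (2 j + 1)`. -/
def paperCoeff (n : ℕ) : ℚ := if n = 0 then 0 else (-1) ^ (n / 2 ^ padicValNat 2 n / 2)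

/-- The series of the paperfolding sequence. -/
def paperSeries (z : ℂ) : ℂ := ∑' n, (paperCoeff n : ℂ) * z ^ n

theorem paperCoeff_two_mul (n : ℕ) : paperCoeff (2 * n) = paperCoeff n := by
  rcases Nat.eq_zero_or_pos n with rfl | hn
  · simp
  · rw [paperCoeff, paperCoeff, if_neg (by omega), if_neg hn.ne',
      padicValNat.mul two_ne_zero hn.ne', padicValNat.self one_lt_two, add_comm 1, pow_succ',
      Nat.mul_div_mul_left _ _ two_pos]

theorem paperCoeff_odd (n : ℕ) : paperCoeff (2 * n + 1) = (-1) ^ n := by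
  rw [paperCoeff, if_neg (by omega), padicValNat.eq_zero_of_not_dvd (by omega), pow_zero,
    Nat.div_one, show (2 * n + 1) / 2 = n by omega]

theorem norm_paperCoeff_le (n : ℕ) : ‖(paperCoeff n : ℂ)‖ ≤ 1 := by
  unfold paperCoeff
  split_ifs <;> simp

theorem summable_norm_paper {z : ℂ} (hz : ‖z‖ < 1) :
    Summable fun n => ‖(paperCoeff n : ℂ) * z ^ n‖ :=
  (summable_geometric_of_lt_one (norm_nonneg z) hz).of_nonneg_of_le (fun _ => norm_nonneg _)
    fun n => by
      rw [norm_mul, norm_pow]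
      exact mul_le_of_le_one_left (pow_nonneg (norm_nonneg z) n) (norm_paperCoeff_le n)

theorem rep_paperSeries : Rep (algebraMap ℚ ℂ) (PowerSeries.mk paperCoeff) paperSeries :=
  fun z hz => by
    simp only [PowerSeries.coeff_mk, eq_ratCast]
    exact ⟨summable_norm_paper hz, rfl⟩

theorem one_add_sq_ne_zero {z : ℂ} (hz : ‖z‖ < 1) : 1 + z ^ 2 ≠ 0 :=
  one_add_ne_zero_of_norm_lt (norm_sq_lt hz)

/-- **The functional equation.** -/
theorem paperSeries_eq {z : ℂ} (hz : ‖z‖ < 1) :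
    paperSeries z = paperSeries (z ^ 2) + z / (1 + z ^ 2) := by
  have hz2 := norm_sq_lt hz
  have he : HasSum (fun n => (paperCoeff (2 * n) : ℂ) * z ^ (2 * n)) (paperSeries (z ^ 2)) :=
    (summable_norm_paper hz2).of_norm.hasSum.congr_fun fun n => by
      rw [paperCoeff_two_mul, pow_mul]
  have ho : HasSum (fun n => (paperCoeff (2 * n + 1) : ℂ) * z ^ (2 * n + 1))
      (z * (1 - -z ^ 2)⁻¹) :=
    ((hasSum_geometric_of_norm_lt_one (show ‖-z ^ 2‖ < 1 by rwa [norm_neg])).mul_left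
      z).congr_fun fun n => by
      rw [paperCoeff_odd, pow_succ' z, pow_mul, neg_pow (z ^ 2)]
      push_cast
      ring
  have h := (HasSum.even_add_odd (f := fun n => (paperCoeff n : ℂ) * z ^ n) he ho).tsum_eq
  rw [show paperSeries z = _ from h, sub_neg_eq_add, ← div_eq_mul_inv]

theorem norm_paperSeries_le {z : ℂ} (hz : ‖z‖ < 1) : ‖paperSeries z‖ ≤ ‖z‖ * (1 - ‖z‖)⁻¹ := by
  rw [paperSeries, (summable_norm_paper hz).of_norm.tsum_eq_zero_add,
    show paperCoeff 0 = 0 from rfl, Rat.cast_zero, zero_mul, zero_add]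
  refine tsum_of_norm_bounded ((hasSum_geometric_of_lt_one (norm_nonneg z) hz).mul_left ‖z‖)
    fun n => ?_
  rw [norm_mul, norm_pow, pow_succ']
  exact mul_le_of_le_one_left (by positivity) (norm_paperCoeff_le _)

theorem paperSeries_eq_sum {z : ℂ} (hz : ‖z‖ < 1) : ∀ k : ℕ,
    paperSeries z =
      (∑ i ∈ range k, z ^ 2 ^ i / (1 + z ^ 2 ^ (i + 1))) + paperSeries (z ^ 2 ^ k)
  | 0 => by simp
  | k + 1 => by
    rw [paperSeries_eq_sum hz k, paperSeries_eq (norm_pow_lt_one hz k), sum_range_succ,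
      pow_succ 2 k, pow_mul]
    ring

/-- **The series over the powers of two.** -/
theorem hasSum_paperSeries {z : ℂ} (hz : ‖z‖ < 1) :
    HasSum (fun k : ℕ => z ^ 2 ^ k / (1 + z ^ 2 ^ (k + 1))) (paperSeries z) := by
  have hs : Summable fun k : ℕ => z ^ 2 ^ k / (1 + z ^ 2 ^ (k + 1)) := by
    refine Summable.of_norm_bounded
      ((summable_geometric_of_lt_one (norm_nonneg z) hz).div_const (1 - ‖z‖)) fun k => ?_
    have hle : ‖z‖ ^ 2 ^ (k + 1) ≤ ‖z‖ :=
      pow_le_of_le_one (norm_nonneg z) hz.le (pow_ne_zero _ two_ne_zero)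
    have h := norm_sub_norm_le (1 : ℂ) (-z ^ 2 ^ (k + 1))
    rw [norm_one, norm_neg, sub_neg_eq_add, norm_pow] at h
    rw [norm_div, norm_pow]
    exact div_le_div₀ (pow_nonneg (norm_nonneg z) k)
      (pow_le_pow_of_le_one (norm_nonneg z) hz.le k.lt_two_pow_self.le) (by linarith) (by linarith)
  have h0 : Tendsto (fun k : ℕ => ‖z‖ ^ 2 ^ k) atTop (𝓝 0) :=
    (tendsto_pow_atTop_nhds_zero_of_lt_one (norm_nonneg z) hz).comp
      (tendsto_pow_atTop_atTop_of_one_lt (by norm_num : 1 < 2))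
  have hlim : Tendsto (fun k : ℕ => paperSeries (z ^ 2 ^ k)) atTop (𝓝 0) := by
    refine squeeze_zero_norm (fun k => ?_)
      (by simpa using h0.mul (((tendsto_const_nhds (x := (1 : ℝ))).sub h0).inv₀ (by norm_num)))
    simpa [norm_pow] using norm_paperSeries_le (norm_pow_lt_one hz k)
  rw [hs.hasSum_iff_tendsto_nat]
  have h := (tendsto_const_nhds (x := paperSeries z) (f := atTop (α := ℕ))).sub hlim
  rw [sub_zero] at h
  exact h.congr fun k => sub_eq_of_eq_add (paperSeries_eq_sum hz k)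

/-- **The values are transcendental.** -/
theorem transcendental_paperSeries {α : ℂ} (hα : IsAlgebraic ℚ α) (hα0 : α ≠ 0) (hα1 : ‖α‖ < 1) :
    Transcendental ℚ (paperSeries α) := by
  have hu : (1 + X ^ 2 : ℂ[X]) ≠ 0 := fun e => by simpa using congrArg (eval 0) e
  have heq {z : ℂ} (hz : ‖z‖ < 1) :
      (1 + z ^ 2) * paperSeries z = (1 + z ^ 2) * paperSeries (z ^ 2) + z := by
    rw [paperSeries_eq hz, mul_add, mul_div_cancel₀ _ (one_add_sq_ne_zero hz)]
  exact transcendental_of_equation (algebraMap ℚ ℂ) paperCoeff rep_paperSeries le_rfl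
    (1 + X ^ 2) (1 + X ^ 2) (-X) (fun z hz => by
      simp only [Polynomial.map_add, Polynomial.map_one, Polynomial.map_pow, Polynomial.map_X,
        Polynomial.map_neg, eval_add, eval_one, eval_pow, eval_X, eval_neg]
      linear_combination -(heq hz))
    (noRelation_of_admissible hu admissible_one_add_X_sq fun z hz => by
      simp only [eval_add, eval_one, eval_pow, eval_X]
      linear_combination -(heq hz))
    hα hα0 hα1 fun k => by
      simpa using one_add_sq_ne_zero (norm_pow_lt_one hα1 k)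

/-- **Paperfolding numbers.** -/
theorem transcendental_paperfolding {t : ℕ → ℤ} (he : ∀ n, 0 < n → t (2 * n) = t n)
    (ho : ∀ n, t (2 * n + 1) = (-1) ^ n) {b : ℕ} (hb : 2 ≤ b) :
    Transcendental ℚ (∑' n, (t (n + 1) : ℝ) / (b : ℝ) ^ (n + 1)) := by
  have ht : ∀ n, 0 < n → (t n : ℂ) = paperCoeff n := fun n => by
    induction n using Nat.strong_induction_on with
    | _ n ih =>
      intro hn
      obtain ⟨m, rfl | rfl⟩ := n.even_or_odd'
      · rw [he m (by omega), paperCoeff_two_mul]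
        exact ih m (by omega) (by omega)
      · rw [ho, paperCoeff_odd]
        push_cast
        rfl
  intro halg
  have hb1 : ‖((b : ℂ))⁻¹‖ < 1 := by
    rw [norm_inv, Complex.norm_natCast]
    exact inv_lt_one_of_one_lt₀ (by exact_mod_cast (by omega : 1 < b))
  refine transcendental_paperSeries (α := (b : ℂ)⁻¹) (isAlgebraic_natCast (R := ℚ) b).inv
    (inv_ne_zero (Nat.cast_ne_zero.2 (by omega))) hb1 ?_
  have h := halg.algebraMap (A := ℂ)
  rw [Complex.coe_algebraMap, Complex.ofReal_tsum] at h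
  rw [paperSeries, (summable_norm_paper hb1).of_norm.tsum_eq_zero_add,
    show paperCoeff 0 = 0 from rfl, Rat.cast_zero, zero_mul, zero_add]
  convert h using 1
  refine tsum_congr fun n => ?_
  push_cast
  rw [ht _ n.succ_pos, inv_pow, div_eq_mul_inv]

/-- **Paperfolding digits.** -/
theorem transcendental_paperfolding_digits {d : ℕ → ℕ} (he : ∀ n, 0 < n → d (2 * n) = d n)
    (h1 : ∀ n, d (4 * n + 1) = 1) (h3 : ∀ n, d (4 * n + 3) = 0) {b : ℕ} (hb : 2 ≤ b) :
    Transcendental ℚ (∑' n, (d (n + 1) : ℝ) / (b : ℝ) ^ (n + 1)) := by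
  intro halg
  have hd : ∀ n, 0 < n → d n ≤ 1 := fun n => by
    induction n using Nat.strong_induction_on with
    | _ n ih =>
      intro hn
      obtain ⟨m, rfl | rfl⟩ := n.even_or_odd'
      · rw [he m (by omega)]
        exact ih m (by omega) (by omega)
      · obtain ⟨i, rfl | rfl⟩ := m.even_or_odd'
        · rw [show 2 * (2 * i) + 1 = 4 * i + 1 by ring, h1]
        · rw [show 2 * (2 * i + 1) + 1 = 4 * i + 3 by ring, h3]
          exact zero_le_one
  have hbR : (1 : ℝ) < b := by exact_mod_cast (by omega : 1 < b)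
  have hgeo : HasSum (fun n : ℕ => ((b : ℝ) ^ (n + 1))⁻¹) ((b : ℝ) - 1)⁻¹ := by
    have h := (hasSum_geometric_of_lt_one (inv_nonneg.2 (by positivity))
      (inv_lt_one_of_one_lt₀ hbR)).mul_left (b : ℝ)⁻¹
    rw [← mul_inv, mul_sub, mul_inv_cancel₀ (by positivity), mul_one] at h
    exact h.congr_fun fun n => by rw [pow_succ', mul_inv, inv_pow]
  have hs : Summable fun n => (d (n + 1) : ℝ) / (b : ℝ) ^ (n + 1) :=
    hgeo.summable.of_nonneg_of_le (fun n => by positivity) fun n => by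
      rw [div_eq_mul_inv]
      exact mul_le_of_le_one_left (by positivity) (by exact_mod_cast hd _ n.succ_pos)
  refine transcendental_paperfolding (t := fun n => 2 * (d n : ℤ) - 1)
    (fun n hn => by rw [he n hn]) (fun n => ?_) hb ?_
  · obtain ⟨i, rfl | rfl⟩ := n.even_or_odd'
    · rw [show 2 * (2 * i) + 1 = 4 * i + 1 by ring, h1, (even_two_mul i).neg_one_pow]
      norm_num
    · rw [show 2 * (2 * i + 1) + 1 = 4 * i + 3 by ring, h3, (odd_two_mul_add_one i).neg_one_pow]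
      norm_num
  · have e : ∑' n, ((2 * (d (n + 1) : ℤ) - 1 : ℤ) : ℝ) / (b : ℝ) ^ (n + 1) =
        2 * (∑' n, (d (n + 1) : ℝ) / (b : ℝ) ^ (n + 1)) - ((b : ℝ) - 1)⁻¹ := by
      rw [← hs.tsum_mul_left, ← hgeo.tsum_eq, ← (hs.mul_left 2).tsum_sub hgeo.summable]
      refine tsum_congr fun n => ?_
      push_cast
      ring
    rw [e]
    exact ((isAlgebraic_natCast (R := ℚ) 2).mul halg).sub
      (((isAlgebraic_natCast (R := ℚ) b).sub isAlgebraic_one).inv)

theorem exists_paperfolding_digits : ∃ d : ℕ → ℕ, (∀ n, 0 < n → d (2 * n) = d n) ∧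
    (∀ n, d (4 * n + 1) = 1) ∧ ∀ n, d (4 * n + 3) = 0 :=
  ⟨fun n => if paperCoeff n = 1 then 1 else 0, fun n _ => by simp only [paperCoeff_two_mul],
    fun n => if_pos (by rw [show 4 * n + 1 = 2 * (2 * n) + 1 by ring, paperCoeff_odd,
      (even_two_mul n).neg_one_pow]),
    fun n => if_neg (by rw [show 4 * n + 3 = 2 * (2 * n + 1) + 1 by ring, paperCoeff_odd,
      (odd_two_mul_add_one n).neg_one_pow]; norm_num)⟩

/-! ### Lucas and Fibonacci numbers at the powers of two -/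

theorem lucas_eq {n : ℕ} (hn : 0 < n) :
    ((Nat.fib (n + 1) + Nat.fib (n - 1) : ℕ) : ℝ) = φ ^ n + ψ ^ n := by
  obtain ⟨j, rfl⟩ := Nat.exists_eq_add_of_le' hn
  rw [Nat.add_sub_cancel, Nat.cast_add, Real.coe_fib_eq, Real.coe_fib_eq, ← add_div,
    div_eq_iff (Real.sqrt_ne_zero'.2 (by norm_num)), ← Real.goldenRatio_sub_goldenConj]
  simp only [pow_succ]
  linear_combination (φ ^ j - ψ ^ j) * Real.goldenRatio_mul_goldenConj

theorem isAlgebraic_goldenRatio : IsAlgebraic ℚ φ :=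
  ⟨Polynomial.X ^ 2 - Polynomial.X - 1, fun e => by simpa using congrArg (eval 0) e, by
    simp [Real.goldenRatio_sq]⟩

/-- **`∑ 1 / L (2 ^ k)` is transcendental.** -/
theorem transcendental_sum_inv_lucas :
    Transcendental ℚ
      (∑' k : ℕ, 1 / ((Nat.fib (2 ^ k + 1) + Nat.fib (2 ^ k - 1) : ℕ) : ℝ)) := by
  intro halg
  set x : ℝ := (φ ^ 2)⁻¹ with hx
  have hx0 : 0 < x := by positivity
  have hx1 : ‖(x : ℂ)‖ < 1 := by
    rw [Complex.norm_real, Real.norm_eq_abs, abs_of_pos hx0]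
    exact inv_lt_one_of_one_lt₀ (one_lt_pow₀ Real.one_lt_goldenRatio two_ne_zero)
  have hterm : ∀ k : ℕ, 1 / ((Nat.fib (2 ^ (k + 1) + 1) + Nat.fib (2 ^ (k + 1) - 1) : ℕ) : ℝ) =
      x ^ 2 ^ k / (1 + x ^ 2 ^ (k + 1)) := fun k => by
    have hψ : ψ ^ 2 ^ (k + 1) = x ^ 2 ^ k := by
      rw [show ψ = -φ⁻¹ by rw [Real.inv_goldenRatio, neg_neg], pow_succ', pow_mul, neg_sq, hx,
        inv_pow]
    have hφ : φ ^ 2 ^ (k + 1) = (x ^ 2 ^ k)⁻¹ := by
      rw [pow_succ' 2 k, pow_mul, hx, inv_pow, inv_inv]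
    rw [lucas_eq (Nat.two_pow_pos _), hψ, hφ, pow_succ 2 k, pow_mul]
    have : 0 < x ^ 2 ^ k := by positivity
    field_simp
  have hs : HasSum (fun k : ℕ => ((x ^ 2 ^ k / (1 + x ^ 2 ^ (k + 1)) : ℝ) : ℂ))
      (paperSeries x) :=
    (hasSum_paperSeries hx1).congr_fun fun k => by push_cast; rfl
  have hsr : Summable fun k : ℕ => x ^ 2 ^ k / (1 + x ^ 2 ^ (k + 1)) :=
    Complex.summable_ofReal.1 hs.summable
  refine transcendental_paperSeries (α := (x : ℂ))
    (IsAlgebraic.algebraMap (R := ℚ) (S := ℝ) (A := ℂ) (a := x)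
      ((isAlgebraic_goldenRatio.pow 2).inv))
    (Complex.ofReal_ne_zero.2 hx0.ne') hx1 ?_
  rw [← hs.tsum_eq, ← Complex.ofReal_tsum]
  refine IsAlgebraic.algebraMap (R := ℚ) (S := ℝ) (A := ℂ) ?_
  rw [tsum_eq_zero_add' (hsr.congr fun k => (hterm k).symm)] at halg
  have h := halg.sub (isAlgebraic_one (R := ℚ))
  rw [tsum_congr hterm] at h
  norm_num at h
  exact h

theorem millin_step {j : ℕ} (hj : Odd j) :
    (Nat.fib (2 * j + 1) : ℝ) / Nat.fib (2 * (j + 1)) =
      (Nat.fib j : ℝ) / Nat.fib (j + 1) - 1 / Nat.fib (2 * (j + 1)) := by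
  have hb : (Nat.fib (j + 1) : ℝ) ≠ 0 := by
    exact_mod_cast (Nat.fib_pos.2 j.succ_pos).ne'
  have h2 : (Nat.fib (2 * j + 2) : ℝ) ≠ 0 := by
    exact_mod_cast (Nat.fib_pos.2 (show 0 < 2 * j + 2 by omega)).ne'
  have hc : (Nat.fib j : ℝ) ^ 2 + Nat.fib j * Nat.fib (j + 1) - Nat.fib (j + 1) ^ 2 = 1 := by
    have e1 := Real.coe_fib_eq j
    have e2 := Real.coe_fib_eq (j + 1)
    have h5 : √5 ^ 2 = 5 := Real.sq_sqrt (by norm_num)
    rw [e1, e2, pow_succ, pow_succ]
    have hprod : φ ^ j * ψ ^ j = -1 := by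
      rw [← mul_pow, Real.goldenRatio_mul_goldenConj, hj.neg_one_pow]
    field_simp
    rw [h5]
    linear_combination (φ ^ j) ^ 2 * (-Real.goldenRatio_sq) +
      (ψ ^ j) ^ 2 * (-Real.goldenConj_sq) +
      (2 * φ * ψ - φ - ψ - 2) * hprod + (-2) * Real.goldenRatio_mul_goldenConj +
      Real.goldenRatio_add_goldenConj
  rw [show 2 * (j + 1) = 2 * j + 2 by ring, eq_sub_iff_add_eq, ← add_div,
    div_eq_div_iff h2 hb, Nat.fib_two_mul_add_two, Nat.fib_two_mul_add_one]
  push_cast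
  linear_combination -(Nat.fib (j + 1) : ℝ) * hc

/-- **Millin's series.** -/
theorem hasSum_inv_fib_two_pow :
    HasSum (fun k : ℕ => 1 / (Nat.fib (2 ^ k) : ℝ)) ((7 - √5) / 2) := by
  have hpart : ∀ n : ℕ, ∑ k ∈ range (n + 2), 1 / (Nat.fib (2 ^ k) : ℝ) =
      3 - (Nat.fib (2 ^ (n + 1) - 1) : ℝ) / Nat.fib (2 ^ (n + 1) - 1 + 1) := by
    intro n
    induction n with
    | zero =>
      rw [sum_range_succ, sum_range_one]
      norm_num [Nat.fib_two, Nat.fib_one]
    | succ n ih =>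
      obtain ⟨j, hj⟩ : ∃ j, 2 ^ (n + 1) = j + 1 := ⟨_, (Nat.succ_pred_eq_of_pos
        (Nat.two_pow_pos _)).symm⟩
      have hodd : Odd j := by
        have h2 : Even (j + 1) := hj ▸ (Nat.even_pow.2 ⟨even_two, n.succ_ne_zero⟩)
        exact Nat.not_even_iff_odd.1 (Nat.even_add_one.1 h2)
      rw [sum_range_succ, ih, show n + 1 + 1 = n + 2 from rfl, pow_succ' 2 (n + 1), hj,
        show 2 * (j + 1) - 1 = 2 * j + 1 by omega, Nat.add_sub_cancel,
        show 2 * j + 1 + 1 = 2 * (j + 1) by ring, millin_step hodd]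
      ring
  have hlim : Tendsto (fun n : ℕ => ∑ k ∈ range (n + 2), 1 / (Nat.fib (2 ^ k) : ℝ)) atTop
      (𝓝 ((7 - √5) / 2)) := by
    have e : (7 - √5) / 2 = 3 - -ψ := by rw [Real.goldenConj]; ring
    rw [e]
    refine (tendsto_const_nhds.sub (tendsto_fib_div_fib_succ_atTop.comp
      (tendsto_atTop_mono (fun n => ?_) tendsto_id))).congr fun n => (hpart n).symm
    have := (n + 1).lt_two_pow_self
    simp only [id]
    omega
  rw [hasSum_iff_tendsto_nat_of_nonneg (fun k => by positivity)]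
  exact (tendsto_add_atTop_iff_nat 2).1 hlim

end FA.Mahler

end
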