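import Fermat.Agent.Transcendence.StephanoisAuxiliary
import Mathlib.NumberTheory.Padics.MahlerBasis
import Mathlib.Topology.MetricSpace.Contracting

/-!
# Integral series on the open unit disc of `ℚ_p`

Evaluation is a ring homomorphism, a zero splits off a linear factor without enlarging the
coefficients, and identities between `j z` and `j (N z)` with integral coefficients hold for the
`p`-adic `J`, so the modular equation does.
-/

set_option autoImplicit false

noncomputable section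

namespace FA.SaintEtienne

open PowerSeries (coeff)
open Filter FA.ModField FA.JBound FA.Stephanois
open scoped Topology Polynomial

variable {p : ℕ} [Fact p.Prime]

/-- The value of a series. -/
def peval (c : ℕ → ℚ_[p]) (z : ℚ_[p]) : ℚ_[p] := ∑' n, c n * z ^ n

theorem summable_norm {c : ℕ → ℚ_[p]} {z : ℚ_[p]} (hc : ∀ n, ‖c n‖ ≤ 1) (hz : ‖z‖ < 1) :
    Summable fun n => ‖c n * z ^ n‖ :=
  Summable.of_nonneg_of_le (fun _ => norm_nonneg _)
    (fun n => by
      rw [norm_mul, norm_pow]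
      exact mul_le_of_le_one_left (pow_nonneg (norm_nonneg z) n) (hc n))
    (summable_geometric_of_lt_one (norm_nonneg z) hz)

theorem summable_series {c : ℕ → ℚ_[p]} {z : ℚ_[p]} (hc : ∀ n, ‖c n‖ ≤ 1) (hz : ‖z‖ < 1) :
    Summable fun n => c n * z ^ n :=
  (summable_norm hc hz).of_norm

theorem norm_peval_le {c : ℕ → ℚ_[p]} {z : ℚ_[p]} (hc : ∀ n, ‖c n‖ ≤ 1) (hz : ‖z‖ < 1) :
    ‖peval c z‖ ≤ 1 :=
  (IsUltrametricDist.norm_tsum_le _).trans (ciSup_le fun n => by
    rw [norm_mul, norm_pow]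
    exact mul_le_one₀ (hc n) (pow_nonneg (norm_nonneg z) n) (pow_le_one₀ (norm_nonneg z) hz.le))

theorem peval_eq_add {c : ℕ → ℚ_[p]} {z : ℚ_[p]} (hc : ∀ n, ‖c n‖ ≤ 1) (hz : ‖z‖ < 1) :
    peval c z = c 0 + z * peval (fun n => c (n + 1)) z := by
  rw [peval, (summable_series hc hz).tsum_eq_zero_add, pow_zero, mul_one, peval, ← tsum_mul_left]
  congr 1
  exact tsum_congr fun n => by ring

/-- **A zero splits off.** -/
theorem exists_factor {c : ℕ → ℚ_[p]} {a : ℚ_[p]} (hc : ∀ n, ‖c n‖ ≤ 1) (ha : ‖a‖ < 1)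
    (h0 : peval c a = 0) :
    ∃ h : ℕ → ℚ_[p], (∀ n, ‖h n‖ ≤ 1) ∧ c 0 = -a * h 0 ∧
      ∀ z, ‖z‖ < 1 → peval c z = (z - a) * peval h z := by
  set h : ℕ → ℚ_[p] := fun n => peval (fun k => c (n + 1 + k)) a with hdef
  have hh : ∀ n, ‖h n‖ ≤ 1 := fun n => norm_peval_le (fun k => hc _) ha
  have hrec : ∀ n, h n = c (n + 1) + a * h (n + 1) := fun n => by
    simp only [hdef]
    rw [peval_eq_add (fun k => hc _) ha]
    simp only [add_zero, show ∀ k, n + 1 + 1 + k = n + 1 + (k + 1) from fun k => by omega]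
  have hc0 : c 0 = -a * h 0 := by
    have e := peval_eq_add hc ha
    rw [h0] at e
    have e2 : h 0 = peval (fun n => c (n + 1)) a := by
      simp only [hdef, zero_add, Nat.add_comm 1]
    rw [e2]
    linear_combination -e
  refine ⟨h, hh, hc0, fun z hz => ?_⟩
  have hsum : peval (fun n => c (n + 1)) z = peval h z - a * peval (fun n => h (n + 1)) z := by
    rw [peval, peval, peval, ← tsum_mul_left, ← (summable_series hh hz).tsum_sub
      ((summable_series (fun n => hh (n + 1)) hz).mul_left a)]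
    refine tsum_congr fun n => ?_
    rw [hrec n]
    ring
  rw [peval_eq_add hc hz, hsum, hc0, peval_eq_add hh hz]
  ring

/-- **The Schwarz lemma.** -/
theorem norm_zero_le (s : Finset ℚ_[p]) : ∀ {c : ℕ → ℚ_[p]}, (∀ n, ‖c n‖ ≤ 1) →
    (∀ a ∈ s, ‖a‖ < 1) → (∀ a ∈ s, peval c a = 0) → ‖c 0‖ ≤ ∏ a ∈ s, ‖a‖ := by
  classical
  induction s using Finset.induction with
  | empty => exact fun {c} hc _ _ => by simpa using hc 0
  | @insert a s ha ih =>
    intro c hc h1 hz
    obtain ⟨h, hh, hc0, hfac⟩ :=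
      exists_factor hc (h1 a (Finset.mem_insert_self a s)) (hz a (Finset.mem_insert_self a s))
    rw [Finset.prod_insert ha, hc0, norm_mul, norm_neg]
    refine mul_le_mul_of_nonneg_left (ih hh (fun b hb => h1 b (Finset.mem_insert_of_mem hb))
      fun b hb => ?_) (norm_nonneg a)
    have := hz b (Finset.mem_insert_of_mem hb)
    rw [hfac b (h1 b (Finset.mem_insert_of_mem hb)), mul_eq_zero] at this
    exact this.resolve_left (sub_ne_zero.mpr fun e : b = a => ha (e ▸ hb))

/-- **The series are `1`-Lipschitz.** -/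
theorem norm_peval_sub_le {c : ℕ → ℚ_[p]} (hc : ∀ n, ‖c n‖ ≤ 1) {z w : ℚ_[p]} (hz : ‖z‖ < 1)
    (hw : ‖w‖ < 1) : ‖peval c z - peval c w‖ ≤ ‖z - w‖ := by
  classical
  set c' := Function.update c 0 (c 0 - peval c w)
  have hc' : ∀ n, ‖c' n‖ ≤ 1 := fun n => by
    rcases eq_or_ne n 0 with rfl | hn
    · rw [show c' 0 = c 0 - peval c w from Function.update_self _ _ _, sub_eq_add_neg]
      refine (IsUltrametricDist.norm_add_le_max _ _).trans (max_le (hc 0) ?_)
      rw [norm_neg]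
      exact norm_peval_le hc hw
    · rw [show c' n = c n from Function.update_of_ne hn _ _]
      exact hc n
  have he : ∀ u, ‖u‖ < 1 → peval c' u = peval c u - peval c w := fun u hu => by
    rw [peval_eq_add hc' hu, peval_eq_add hc hu]
    simp only [c', Function.update_self, Function.update_of_ne (Nat.succ_ne_zero _)]
    ring
  obtain ⟨h, hh, -, hfac⟩ := exists_factor hc' hw (by rw [he w hw, sub_self])
  rw [← he z hz, hfac z hz, norm_mul]
  exact mul_le_of_le_one_right (norm_nonneg _) (norm_peval_le hh hz)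

/-- The coefficients in `ℚ_p`. -/
def pcoeff (p : ℕ) [Fact p.Prime] (φ : PowerSeries ℤ) (n : ℕ) : ℚ_[p] := ((coeff n φ : ℤ) : ℚ_[p])

theorem norm_pcoeff_le (φ : PowerSeries ℤ) (n : ℕ) : ‖pcoeff p φ n‖ ≤ 1 :=
  Padic.norm_int_le_one _

/-- Evaluation as a ring homomorphism. -/
def evalHom (z : ℚ_[p]) (hz : ‖z‖ < 1) : PowerSeries ℤ →+* ℚ_[p] where
  toFun φ := peval (pcoeff p φ) z
  map_zero' := by simp [peval, pcoeff]
  map_one' := by
    rw [peval, tsum_eq_single 0 fun n hn => by simp [pcoeff, PowerSeries.coeff_one, hn]]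
    simp [pcoeff]
  map_add' φ ψ := by
    rw [peval, peval, peval, ← (summable_series (norm_pcoeff_le φ) hz).tsum_add
      (summable_series (norm_pcoeff_le ψ) hz)]
    exact tsum_congr fun n => by simp only [pcoeff, map_add, Int.cast_add, add_mul]
  map_mul' φ ψ := by
    rw [peval, peval, peval, tsum_mul_tsum_eq_tsum_sum_range_of_summable_norm
      (summable_norm (norm_pcoeff_le φ) hz) (summable_norm (norm_pcoeff_le ψ) hz)]
    refine tsum_congr fun n => ?_
    simp only [pcoeff]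
    rw [PowerSeries.coeff_mul, Finset.Nat.sum_antidiagonal_eq_sum_range_succ
      (fun i j => coeff i φ * coeff j ψ), Int.cast_sum, Finset.sum_mul]
    refine Finset.sum_congr rfl fun k hk => ?_
    push_cast
    rw [mul_mul_mul_comm, ← pow_add, Nat.add_sub_cancel' (Finset.mem_range_succ_iff.mp hk)]

theorem evalHom_apply (z : ℚ_[p]) (hz : ‖z‖ < 1) (φ : PowerSeries ℤ) :
    evalHom z hz φ = peval (pcoeff p φ) z := rfl

theorem evalHom_X (z : ℚ_[p]) (hz : ‖z‖ < 1) : evalHom z hz PowerSeries.X = z := by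
  rw [evalHom_apply, peval, tsum_eq_single 1 fun n hn => by simp [pcoeff, PowerSeries.coeff_X, hn]]
  simp [pcoeff]

theorem evalHom_tail {z : ℚ_[p]} (hz : ‖z‖ < 1) {φ : PowerSeries ℤ} {M : ℕ}
    (hlow : ∀ n < M, coeff n φ = 0) :
    evalHom z hz φ = z ^ M * peval (fun n => pcoeff p φ (n + M)) z := by
  rw [evalHom_apply, peval, ← (summable_series (norm_pcoeff_le φ) hz).sum_add_tsum_nat_add M,
    Finset.sum_eq_zero fun n hn => by simp [pcoeff, hlow n (Finset.mem_range.mp hn)], zero_add,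
    peval, ← tsum_mul_left]
  exact tsum_congr fun n => by rw [pow_add]; ring

/-- `φ (X ^ N)`. -/
def stretch (N : ℕ) (φ : PowerSeries ℤ) : PowerSeries ℤ :=
  PowerSeries.mk fun n => if N ∣ n then coeff (n / N) φ else 0

theorem coeff_stretch_mul {N : ℕ} [NeZero N] (φ : PowerSeries ℤ) (n : ℕ) :
    coeff (N * n) (stretch N φ) = coeff n φ := by
  rw [stretch, PowerSeries.coeff_mk, if_pos (dvd_mul_right N n),
    Nat.mul_div_cancel_left n (NeZero.pos N)]

theorem coeff_stretch_eq_zero {N : ℕ} (φ : PowerSeries ℤ) {n : ℕ}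
    (hn : n ∉ Set.range fun m => N * m) : coeff n (stretch N φ) = 0 := by
  rw [stretch, PowerSeries.coeff_mk, if_neg]
  rintro ⟨m, rfl⟩
  exact hn ⟨m, rfl⟩

theorem evalHom_stretch {z : ℚ_[p]} (hz : ‖z‖ < 1) {N : ℕ} [NeZero N] (φ : PowerSeries ℤ)
    (hzN : ‖z ^ N‖ < 1) : evalHom z hz (stretch N φ) = evalHom (z ^ N) hzN φ := by
  rw [evalHom_apply, evalHom_apply, peval, peval,
    ← Function.Injective.tsum_eq (mul_right_injective₀ (NeZero.ne N))
      (f := fun n => pcoeff p (stretch N φ) n * z ^ n)]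
  · exact tsum_congr fun n => by simp only [pcoeff, coeff_stretch_mul, pow_mul]
  · intro n hn
    by_contra h
    exact hn (by simp [pcoeff, coeff_stretch_eq_zero φ h])

theorem represents_stretch {N : ℕ} [NeZero N] {φ : PowerSeries ℤ} {f : ℂ → ℂ}
    (hf : Represents φ f) : Represents (stretch N φ) fun z => f (z ^ N) := fun z hz => by
  rw [← Function.Injective.hasSum_iff (g := fun n => N * n) (mul_right_injective₀ (NeZero.ne N))
    fun n hn => by simp [coeff_stretch_eq_zero φ hn]]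
  refine (hf (z ^ N) (by rw [norm_pow]; exact pow_lt_one₀ (norm_nonneg z) hz (NeZero.ne N))
    ).congr_fun fun n => ?_
  simp only [Function.comp_apply, coeff_stretch_mul, pow_mul]

/-- A series representing zero is zero. -/
theorem eq_zero_of_represents {φ : PowerSeries ℤ} {f : ℂ → ℂ} (hf : Represents φ f)
    (h0 : ∀ z : ℂ, z ≠ 0 → ‖z‖ < 1 → f z = 0) : φ = 0 := by
  classical
  by_contra hne
  have hex : ∃ n, coeff n φ ≠ 0 := by
    by_contra h
    exact hne (PowerSeries.ext fun n => by rw [map_zero]; exact not_not.mp fun hn => h ⟨n, hn⟩)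
  obtain ⟨G, hG, hG0, hfG⟩ := Stephanois.exists_tail hf (M := Nat.find hex)
    fun n hn => not_not.mp (Nat.find_min hex hn)
  have hG00 : G 0 ≠ 0 := by rw [hG0]; exact_mod_cast Nat.find_spec hex
  have hev := ((hG.differentiableAt (Metric.isOpen_ball.mem_nhds
    (Metric.mem_ball_self one_pos))).continuousAt.eventually_ne hG00).and
    (eventually_norm_sub_lt (0 : ℂ) one_pos)
  obtain ⟨z, ⟨hz1, hz2⟩, hz3⟩ :=
    ((hev.filter_mono nhdsWithin_le_nhds).and (self_mem_nhdsWithin (s := {(0 : ℂ)}ᶜ))).exists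
  rw [sub_zero] at hz2
  have := hfG z hz2
  rw [h0 z hz3 hz2] at this
  exact hz1 ((mul_eq_zero.mp this.symm).resolve_left (pow_ne_zero _ hz3))

/-- A cleared relation. -/
theorem cleared_eq {K : Type*} [Field K] (Φ : ℤ[X][X]) {N D : ℕ}
    (hD : ∀ b, b ≤ Φ.natDegree → (Φ.coeff b).natDegree ≤ D) {z u v j j' : K} (hu : u = z * j)
    (hv : v = z ^ N * j') :
    ∑ b ∈ Finset.range (Φ.natDegree + 1), ∑ a ∈ Finset.range (D + 1),
      (((Φ.coeff b).coeff a : ℤ) : K) * (z ^ (D + N * Φ.natDegree - (a + N * b)) * u ^ a * v ^ b) =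
      z ^ (D + N * Φ.natDegree) * Φ.eval₂ (Polynomial.aeval (R := ℤ) j).toRingHom j' := by
  rw [Polynomial.eval₂_eq_sum_range, Finset.mul_sum]
  refine Finset.sum_congr rfl fun b hb => ?_
  have hb' := Finset.mem_range_succ_iff.mp hb
  rw [AlgHom.toRingHom_eq_coe, RingHom.coe_coe, Polynomial.aeval_eq_sum_range'
    (Nat.lt_succ_of_le (hD b hb')), Finset.sum_mul, Finset.mul_sum]
  refine Finset.sum_congr rfl fun a ha => ?_
  have hle : a + N * b ≤ D + N * Φ.natDegree :=
    Nat.add_le_add (Finset.mem_range_succ_iff.mp ha) (Nat.mul_le_mul_left N hb')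
  conv_rhs => rw [← Nat.sub_add_cancel hle, pow_add, pow_add]
  rw [hu, hv, mul_pow, mul_pow, ← pow_mul, zsmul_eq_mul]
  ring

/-- `J q = q⁻¹ + 744 + ⋯`. -/
def padicJ (q : ℚ_[p]) : ℚ_[p] := q⁻¹ * peval (pcoeff p ModularCurve.jNum) q

theorem mul_padicJ {q : ℚ_[p]} (hq0 : q ≠ 0) (hq : ‖q‖ < 1) :
    q * padicJ q = evalHom q hq ModularCurve.jNum := by
  rw [padicJ, mul_inv_cancel_left₀ hq0, evalHom_apply]

/-- **The modular equation holds `p`-adically.** -/
theorem eval_padicJ_eq_zero {Φ : ℤ[X][X]} {N : ℕ} [NeZero N]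
    (h : ∀ τ : UpperHalfPlane,
      Φ.eval₂ (Polynomial.aeval (R := ℤ) (jfun τ)).toRingHom (jfun (scaleH N τ)) = 0)
    {q : ℚ_[p]} (hq0 : q ≠ 0) (hq : ‖q‖ < 1) :
    Φ.eval₂ (Polynomial.aeval (R := ℤ) (padicJ q)).toRingHom (padicJ (q ^ N)) = 0 := by
  classical
  set D := (Finset.range (Φ.natDegree + 1)).sup fun b => (Φ.coeff b).natDegree
  have hD : ∀ b, b ≤ Φ.natDegree → (Φ.coeff b).natDegree ≤ D := fun b hb =>
    Finset.le_sup (f := fun b => (Φ.coeff b).natDegree) (Finset.mem_range_succ_iff.mpr hb)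
  set B := D + N * Φ.natDegree
  set T : PowerSeries ℤ := ∑ ba ∈ Finset.range (Φ.natDegree + 1) ×ˢ Finset.range (D + 1),
    (Φ.coeff ba.1).coeff ba.2 • (PowerSeries.X ^ (B - (ba.2 + N * ba.1)) *
      ModularCurve.jNum ^ ba.2 * stretch N ModularCurve.jNum ^ ba.1) with hT
  have hR := Represents.sum (Finset.range (Φ.natDegree + 1) ×ˢ Finset.range (D + 1))
    (fun ba => (Φ.coeff ba.1).coeff ba.2) fun ba _ =>
      ((represents_X.pow (B - (ba.2 + N * ba.1))).mul (represents_jNum.pow ba.2)).mul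
        ((represents_stretch (N := N) represents_jNum).pow ba.1)
  have hT0 : T = 0 := eq_zero_of_represents hR fun z hz0 hz => by
    obtain ⟨τ, rfl⟩ := exists_qp hz0 hz
    have hqN : qp 1 (scaleH N τ) = qp 1 τ ^ N := by
      rw [qp_eq, qp_eq, ← Complex.exp_nat_mul, coe_scaleH]; ring_nf
    have hc := cleared_eq Φ (N := N) hD (z := qp 1 τ) (j := jfun τ) (j' := jfun (scaleH N τ))
      (jTilde_qp τ) (v := jTilde (qp 1 τ ^ N)) (by rw [← hqN, jTilde_qp])
    rw [h τ, mul_zero] at hc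
    rw [Finset.sum_product]
    simpa using hc
  have hqN : ‖q ^ N‖ < 1 := by
    rw [norm_pow]; exact pow_lt_one₀ (norm_nonneg q) hq (NeZero.ne N)
  have hc := cleared_eq Φ (N := N) hD (z := q) (mul_padicJ hq0 hq).symm
    (mul_padicJ (pow_ne_zero N hq0) hqN).symm
  have he := congrArg (evalHom q hq) hT0
  simp only [hT, B, map_sum, map_intCast, map_mul, map_pow, evalHom_X, map_zero,
    evalHom_stretch hq _ hqN, zsmul_eq_mul, Finset.sum_product] at he
  rw [he] at hc
  exact (mul_eq_zero.mp hc.symm).resolve_left (pow_ne_zero _ hq0)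

theorem norm_peval_jNum {q : ℚ_[p]} (hq : ‖q‖ < 1) :
    ‖peval (pcoeff p ModularCurve.jNum) q‖ = 1 := by
  rw [peval_eq_add (norm_pcoeff_le _) hq, show pcoeff p ModularCurve.jNum 0 = 1 by
    rw [pcoeff, low_jNum.1, Int.cast_one]]
  have h : ‖q * peval (fun n => pcoeff p ModularCurve.jNum (n + 1)) q‖ < 1 := by
    rw [norm_mul]
    exact lt_of_le_of_lt (mul_le_of_le_one_right (norm_nonneg q)
      (norm_peval_le (fun n => norm_pcoeff_le _ _) hq)) hq
  rw [Padic.add_eq_max_of_ne (by rw [norm_one]; exact h.ne'), norm_one, max_eq_left h.le]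

theorem norm_padicJ {q : ℚ_[p]} (hq : ‖q‖ < 1) : ‖padicJ q‖ = ‖q‖⁻¹ := by
  rw [padicJ, norm_mul, norm_inv, norm_peval_jNum hq, mul_one]

/-- **The Tate parameter.** -/
theorem existsUnique_padicJ {j : ℚ_[p]} (hj : 1 < ‖j‖) :
    ∃! q : ℚ_[p], (q ≠ 0 ∧ ‖q‖ < 1) ∧ padicJ q = j := by
  have hj0 : j ≠ 0 := norm_pos_iff.mp (one_pos.trans hj)
  set T : ℚ_[p] → ℚ_[p] := fun q => peval (pcoeff p ModularCurve.jNum) q / j
  set r := ‖j‖⁻¹ with hr
  have hr1 : r < 1 := inv_lt_one_of_one_lt₀ hj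
  have hr0 : 0 < r := inv_pos.mpr (one_pos.trans hj)
  have hmem : ∀ q, q ∈ Metric.closedBall (0 : ℚ_[p]) r → ‖q‖ < 1 := fun q hq =>
    (mem_closedBall_zero_iff.mp hq).trans_lt hr1
  have hmaps : Set.MapsTo T (Metric.closedBall 0 r) (Metric.closedBall 0 r) := fun q hq => by
    rw [mem_closedBall_zero_iff, norm_div, norm_peval_jNum (hmem q hq), one_div]
  have hlip : ∀ q ∈ Metric.closedBall (0 : ℚ_[p]) r, ∀ q' ∈ Metric.closedBall (0 : ℚ_[p]) r,
      ‖T q - T q'‖ ≤ r * ‖q - q'‖ := fun q hq q' hq' => by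
    rw [show T q - T q' = (peval (pcoeff p ModularCurve.jNum) q -
      peval (pcoeff p ModularCurve.jNum) q') * j⁻¹ by simp only [T]; ring, norm_mul, norm_inv,
      ← hr, mul_comm]
    exact mul_le_mul_of_nonneg_left
      (norm_peval_sub_le (norm_pcoeff_le _) (hmem q hq) (hmem q' hq')) hr0.le
  have hC : ContractingWith ⟨r, hr0.le⟩ (hmaps.restrict T _ _) := by
    refine ⟨by exact_mod_cast hr1, LipschitzWith.of_dist_le_mul fun x y => ?_⟩
    rw [Subtype.dist_eq, Subtype.dist_eq, dist_eq_norm, dist_eq_norm]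
    exact hlip x x.2 y y.2
  obtain ⟨q, hq, hfix, -⟩ := hC.exists_fixedPoint' Metric.isClosed_closedBall.isComplete hmaps
    (x := 0) (Metric.mem_closedBall_self hr0.le) (edist_ne_top _ _)
  have hq1 := hmem q hq
  have hfix' : peval (pcoeff p ModularCurve.jNum) q = q * j := by
    conv_rhs => rw [← hfix.eq]
    exact (div_mul_cancel₀ _ hj0).symm
  have hq0 : q ≠ 0 := fun h => by
    have := norm_peval_jNum hq1
    rw [hfix', h, zero_mul, norm_zero] at this
    exact zero_ne_one this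
  refine ⟨q, ⟨⟨hq0, hq1⟩, by rw [padicJ, hfix', inv_mul_cancel_left₀ hq0]⟩, ?_⟩
  rintro q' ⟨⟨hq0', hq1'⟩, he⟩
  have hfix'' : T q' = q' := by
    show _ / j = q'
    rw [div_eq_iff hj0, ← he, padicJ, mul_inv_cancel_left₀ hq0']
  have hq' : q' ∈ Metric.closedBall (0 : ℚ_[p]) r := by
    rw [mem_closedBall_zero_iff, hr, ← he, norm_padicJ hq1', inv_inv]
  have h := hlip q' hq' q hq
  rw [hfix'', hfix.eq] at h
  rw [← sub_eq_zero, ← norm_le_zero_iff]
  nlinarith [norm_nonneg (q' - q)]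

end FA.SaintEtienne

end
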