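import Fermat.Agent.Transcendence.Stephanois
import Fermat.Agent.Transcendence.SaintEtienneSeries

/-!
# The theorem of Saint-Étienne over `ℚ_p`

The auxiliary series of Stéphanois is now evaluated `p`-adically: its first coefficient `a_M` is
an integer with `|a_M|_p ≥ 1 / |a_M|`, so it has few zeros among the powers of `q`, and the norm
of the algebraic integer `a ^ D F (q ^ S)` is divisible by a high power of `p`, hence too large.
-/

set_option autoImplicit false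
set_option linter.style.haveILetI false

noncomputable section

namespace FA.SaintEtienne

open NumberField FA.ModField FA.Stephanois
open PowerSeries (coeff)
open scoped Real Polynomial IntermediateField

variable {p : ℕ} [Fact p.Prime]

/-- `|n| |n|_p ≥ 1`. -/
theorem one_le_abs_mul_norm {n : ℤ} (hn : n ≠ 0) : 1 ≤ |(n : ℝ)| * ‖(n : ℚ_[p])‖ := by
  rw [show (n : ℚ_[p]) = ((n : ℚ) : ℚ_[p]) by norm_cast, Padic.eq_padicNorm,
    padicNorm.eq_zpow_of_nonzero (Int.cast_ne_zero.mpr hn), padicValRat.of_int, zpow_neg,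
    zpow_natCast]
  push_cast
  have hp : (0 : ℝ) < (p : ℝ) ^ padicValInt p n :=
    pow_pos (by exact_mod_cast (Fact.out : p.Prime).pos) _
  rw [← div_eq_mul_inv, one_le_div hp]
  have h := Int.le_of_dvd (abs_pos.mpr hn) ((dvd_abs _ _).mpr (padicValInt_dvd (p := p) n))
  exact_mod_cast h

/-- Algebraic integers of `ℚ_p` are in `ℤ_p`. -/
theorem norm_le_one_of_integral {y : ℚ_[p]} (hy : IsIntegral ℤ y) : ‖y‖ ≤ 1 := by
  obtain ⟨f, hf, hroot⟩ := hy
  refine not_lt.mp fun h => ?_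
  have hf0 : 0 < f.natDegree := Nat.pos_of_ne_zero fun h0 => by
    rw [hf.natDegree_eq_zero.mp h0, Polynomial.eval₂_one] at hroot
    exact one_ne_zero hroot
  rw [Polynomial.eval₂_eq_sum_range, Finset.sum_range_succ, hf.coeff_natDegree, map_one, one_mul,
    add_eq_zero_iff_eq_neg'] at hroot
  have h2 := congrArg norm hroot
  rw [norm_pow, norm_neg] at h2
  have h3 : ‖∑ x ∈ Finset.range f.natDegree, algebraMap ℤ ℚ_[p] (f.coeff x) * y ^ x‖ ≤
      ‖y‖ ^ (f.natDegree - 1) := by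
    refine IsUltrametricDist.norm_sum_le_of_forall_le_of_nonneg (by positivity) fun i hi => ?_
    rw [norm_mul, norm_pow, eq_intCast]
    exact (mul_le_of_le_one_left (pow_nonneg (norm_nonneg y) _) (Padic.norm_int_le_one _)).trans
      (pow_le_pow_right₀ h.le (by have := Finset.mem_range.mp hi; omega))
  rw [← h2] at h3
  exact absurd h3 (not_le.mpr (pow_lt_pow_right₀ h (by omega)))

/-- **The auxiliary data.** -/
theorem exists_padic_data {q : ℚ_[p]} (hq0 : q ≠ 0) (hq1 : ‖q‖ < 1) :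
    ∃ C : ℝ, 1 ≤ C ∧ ∃ k₀ : ℕ, 4 ≤ k₀ ∧ ∀ k : ℕ, k₀ ≤ k →
      ∃ (A : Box (k ^ 2) → ℤ) (s : ℝ) (M S : ℕ), s ^ 2 = M ∧ (k : ℝ) ^ 2 ≤ 2 * s ∧ 1 ≤ S ∧
        (∀ x, |(A x : ℝ)| ≤ Real.exp (C * (k : ℝ) ^ 3)) ∧
        peval (pcoeff p (auxSeries A)) (q ^ S) ≠ 0 ∧ (S : ℝ) ^ 2 ≤ C * (k * s) ∧
        ‖peval (pcoeff p (auxSeries A)) (q ^ S)‖ ≤ ‖q‖ ^ (S * M) := by
  classical
  obtain ⟨C, hC1, hC⟩ := exists_jMajor_le
  set x := ‖q‖
  have hx0 : 0 < x := norm_pos_iff.mpr hq0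
  set lam := -Real.log x with hlam
  have hlam0 : 0 < lam := neg_pos.mpr (Real.log_neg hx0 hq1)
  set C₂ := 2 * (C + 12) + C + 10
  have hC₂ : 1 ≤ C₂ := by simp only [C₂]; linarith
  set C₃ := max C₂ (4 * C₂ / lam + 1)
  refine ⟨max (C + 12) C₃, le_max_of_le_left (by linarith), 4, le_rfl, fun k hk => ?_⟩
  obtain ⟨A, hA0, hlow, hA⟩ := exists_aux hC1 hC (show 2 ≤ k by omega)
  have hne : ∃ n, coeff n (auxSeries A) ≠ 0 := by
    by_contra h
    exact auxSeries_ne_zero hA0 (PowerSeries.ext fun n => by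
      rw [map_zero]; exact not_not.mp fun hn => h ⟨n, hn⟩)
  set M := Nat.find hne
  have hM0 : k ^ 4 ≤ 2 * M + 1 := by
    by_contra hlt
    exact Nat.find_spec hne (hlow M (by omega))
  have haM : coeff M (auxSeries A) ≠ 0 := Nat.find_spec hne
  set s := Real.sqrt M
  have hsM : s ^ 2 = M := Real.sq_sqrt (Nat.cast_nonneg M)
  have hk' : (4 : ℝ) ≤ k := by exact_mod_cast hk
  have hks : (k : ℝ) ^ 2 ≤ 2 * s := by
    have h1 : ((k : ℝ) ^ 2) ^ 2 ≤ 2 * (M : ℝ) + 1 := by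
      rw [← pow_mul]; exact_mod_cast hM0
    refine (abs_le_of_sq_le_sq' ?_ (by positivity)).2
    rw [mul_pow, hsM]
    nlinarith [pow_le_pow_left₀ (by norm_num) hk' 4, show ((k : ℝ) ^ 2) ^ 2 = (k : ℝ) ^ 4 by ring]
  have hs : 8 ≤ s := by nlinarith
  set ε := (k : ℝ) / s with hε
  have hε0 : 0 < ε := div_pos (by linarith) (by linarith)
  have hεh : ε ≤ 1 / 2 := by rw [hε, div_le_iff₀ (by linarith)]; nlinarith
  set r := 1 - ε with hr
  have hr0 : 0 < r := by linarith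
  have hks0 : 32 ≤ (k : ℝ) * s := by nlinarith
  -- the first coefficient
  have habs : |((coeff M (auxSeries A) : ℤ) : ℝ)| ≤ Real.exp (C₂ * (k * s)) := by
    have hterm : ∀ i : Box (k ^ 2),
        |(((A i • coeff M (PowerSeries.X ^ (i.1 : ℕ) * ModularCurve.jNum ^ (i.2 : ℕ))) : ℤ) : ℝ)| *
          r ^ M ≤ Real.exp ((C + 12) * (k : ℝ) ^ 3) * Real.exp (C * (k * s)) := fun i => by
      rw [smul_eq_mul, Int.cast_mul, abs_mul, mul_assoc]
      refine mul_le_mul (hA i) ((abs_coeff_monomial_le hC _ _ M hr0.le (by linarith)).trans ?_)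
        (by positivity) (Real.exp_pos _).le
      rw [Real.exp_le_exp]
      have hp : ((i.2 : ℕ) : ℝ) ≤ ((k ^ 2 : ℕ) : ℝ) := Nat.cast_le.mpr i.2.is_le
      push_cast at hp
      rw [hr, sub_sub_cancel, hε, div_div_eq_mul_div]
      refine (mul_le_mul_of_nonneg_right hp (by positivity)).trans_eq ?_
      field_simp
    have hsum : |((coeff M (auxSeries A) : ℤ) : ℝ)| * r ^ M ≤
        Real.exp ((2 * (C + 12) + C + 8) * (k * s)) := by
      rw [auxSeries, map_sum, Int.cast_sum]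
      refine (mul_le_mul_of_nonneg_right (Finset.abs_sum_le_sum_abs _ _) (by positivity)).trans ?_
      rw [Finset.sum_mul]
      refine (Finset.sum_le_card_nsmul _ _ _ fun i _ => by rw [map_zsmul]; exact hterm i).trans ?_
      rw [nsmul_eq_mul, Finset.card_univ, Fintype.card_prod, Fintype.card_fin]
      push_cast
      have h2 : (k : ℝ) ^ 2 + 1 ≤ Real.exp ((k : ℝ) ^ 2) := Real.add_one_le_exp _
      refine (mul_le_mul_of_nonneg_right (mul_le_mul h2 h2 (by positivity) (Real.exp_pos _).le)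
        (by positivity)).trans ?_
      rw [← Real.exp_add, ← Real.exp_add, ← Real.exp_add, Real.exp_le_exp]
      nlinarith [mul_le_mul_of_nonneg_left hks (show (0 : ℝ) ≤ k by linarith),
        mul_le_mul_of_nonneg_right (show (1 : ℝ) ≤ k by linarith) (show (0 : ℝ) ≤ s by linarith)]
    rw [← le_div_iff₀ (by positivity)] at hsum
    refine hsum.trans ?_
    rw [← Real.exp_log hr0, ← Real.exp_nat_mul, ← Real.exp_sub, Real.exp_le_exp]
    have h1 : -Real.log r ≤ 2 * ε := by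
      have h1 := Real.one_sub_inv_le_log_of_pos hr0
      have h2 : r⁻¹ ≤ 1 + 2 * ε := by rw [inv_le_iff_one_le_mul₀ hr0, hr]; nlinarith
      linarith
    have h2 : (M : ℝ) * -Real.log r ≤ 2 * (k * s) :=
      (mul_le_mul_of_nonneg_left h1 (Nat.cast_nonneg M)).trans_eq (by
        rw [← hsM, hε]; field_simp)
    simp only [C₂]
    nlinarith
  set c : ℕ → ℚ_[p] := fun n => pcoeff p (auxSeries A) (n + M)
  have hc : ∀ n, ‖c n‖ ≤ 1 := fun n => norm_pcoeff_le _ _
  have hc0 : c 0 ≠ 0 := by simpa [c, pcoeff] using haM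
  have hqi : ∀ i, 1 ≤ i → ‖q ^ i‖ < 1 := fun i hi => by
    rw [norm_pow]; exact pow_lt_one₀ (norm_nonneg q) hq1 (by omega)
  have htail : ∀ i, 1 ≤ i →
      peval (pcoeff p (auxSeries A)) (q ^ i) = (q ^ i) ^ M * peval c (q ^ i) := fun i hi => by
    have h := evalHom_tail (hqi i hi) (φ := auxSeries A) (M := M)
      fun n hn => not_not.mp (Nat.find_min hne hn)
    rwa [evalHom_apply] at h
  -- the first exponent without a zero
  have hex : ∃ S, 1 ≤ S ∧ peval (pcoeff p (auxSeries A)) (q ^ S) ≠ 0 := by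
    obtain ⟨n, hn⟩ := exists_pow_lt_of_lt_one (norm_pos_iff.mpr hc0) hq1
    refine ⟨n + 1, by omega, ?_⟩
    rw [htail _ (by omega)]
    refine mul_ne_zero (pow_ne_zero _ (pow_ne_zero _ hq0)) fun h => ?_
    rw [peval_eq_add hc (hqi _ (by omega)), add_eq_zero_iff_eq_neg] at h
    have h1 := congrArg norm h
    rw [norm_neg, norm_mul, norm_pow] at h1
    have h2 := mul_le_of_le_one_right (pow_nonneg (norm_nonneg q) (n + 1))
      (norm_peval_le (fun m => hc (m + 1)) (hqi (n + 1) (by omega)))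
    have h3 : ‖q‖ ^ (n + 1) ≤ ‖q‖ ^ n := pow_le_pow_of_le_one (norm_nonneg q) hq1.le (Nat.le_succ n)
    simp only [x] at hn
    linarith
  set S := Nat.find hex
  have hS1 : 1 ≤ S := (Nat.find_spec hex).1
  have hS : peval (pcoeff p (auxSeries A)) (q ^ S) ≠ 0 := (Nat.find_spec hex).2
  have hinj : Set.InjOn (fun i : ℕ => q ^ i) (Finset.Icc 1 (S - 1) : Set ℕ) := fun i _ j _ h => by
    have h' := congrArg norm h
    simp only [norm_pow] at h'
    exact (pow_right_injective₀ hx0 hq1.ne) h'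
  have h0 := norm_zero_le ((Finset.Icc 1 (S - 1)).image fun i => q ^ i) hc (fun a ha => ?_)
    (fun a ha => ?_)
  rotate_left
  · obtain ⟨i, hi, rfl⟩ := Finset.mem_image.mp ha
    exact hqi i (Finset.mem_Icc.mp hi).1
  · obtain ⟨i, hi, rfl⟩ := Finset.mem_image.mp ha
    obtain ⟨hi1, hi2⟩ := Finset.mem_Icc.mp hi
    have hz : peval (pcoeff p (auxSeries A)) (q ^ i) = 0 :=
      not_not.mp fun h => Nat.find_min hex (m := i) (by omega) ⟨hi1, h⟩
    rw [htail i hi1] at hz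
    exact (mul_eq_zero.mp hz).resolve_left (pow_ne_zero _ (pow_ne_zero _ hq0))
  rw [Finset.prod_image hinj] at h0
  have h1 : (1 : ℝ) ≤ Real.exp (C₂ * (k * s)) * x ^ (∑ i ∈ Finset.Icc 1 (S - 1), i) := by
    refine (one_le_abs_mul_norm (p := p) haM).trans (mul_le_mul habs ?_ (norm_nonneg _)
      (Real.exp_pos _).le)
    rw [← Finset.prod_pow_eq_pow_sum]
    simpa [c, pcoeff] using h0
  have h2 := Real.log_le_log one_pos h1
  rw [Real.log_one, Real.log_mul (by positivity) (by positivity), Real.log_pow,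
    Real.log_exp] at h2
  have h3 : 2 * ((∑ i ∈ Finset.Icc 1 (S - 1), i : ℕ) : ℝ) = ((S : ℝ) - 1) * S := by
    have e := congrArg (Nat.cast : ℕ → ℝ) (two_mul_sum_Icc_id (S - 1))
    push_cast [Nat.cast_sub hS1] at e ⊢
    linarith
  set T := ((∑ i ∈ Finset.Icc 1 (S - 1), i : ℕ) : ℝ)
  have hS2 : (S : ℝ) ^ 2 ≤ C₃ * (k * s) := by
    refine le_trans ?_ (mul_le_mul_of_nonneg_right (le_max_right _ _) (by positivity))
    rcases Nat.lt_or_ge S 2 with h | h
    · rw [show (S : ℝ) = 1 by exact_mod_cast (by omega : S = 1)]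
      have : 0 ≤ 4 * C₂ / lam := by positivity
      nlinarith
    · have h' : (2 : ℝ) ≤ S := by exact_mod_cast h
      have h4 : lam * T ≤ C₂ * (k * s) := by rw [hlam]; linarith
      have h5 : (S : ℝ) ^ 2 ≤ 4 * T := by nlinarith
      rw [add_mul, div_mul_eq_mul_div, one_mul]
      refine h5.trans (le_trans ?_ (le_add_of_nonneg_right (by positivity)))
      rw [le_div_iff₀ hlam0]
      linarith
  refine ⟨A, s, M, S, hsM, hks, hS1, fun i => (hA i).trans (Real.exp_le_exp.mpr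
    (mul_le_mul_of_nonneg_right (le_max_left _ _) (by positivity))), hS,
    hS2.trans (mul_le_mul_of_nonneg_right (le_max_right _ _) (by positivity)), ?_⟩
  rw [htail S hS1, norm_mul, ← pow_mul, norm_pow]
  exact mul_le_of_le_one_right (by positivity) (norm_peval_le hc (hqi S hS1))

/-- **The product formula for the value.** -/
theorem liouville {L : ℕ} (A : Box L → ℤ) {a S : ℕ} {q j₀ jS : ℚ_[p]} {Φ : ℤ[X][X]}
    (hΦ : Φ.Monic) (hΦr : Φ.eval₂ (Polynomial.aeval (R := ℤ) j₀).toRingHom jS = 0)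
    (hq : IsAlgebraic ℚ q) (hj : IsAlgebraic ℚ j₀)
    (hint : IsIntegral ℤ (clearedValue A a S Φ.natDegree q jS))
    (hne : clearedValue A a S Φ.natDegree q jS ≠ 0) {H : ℝ} (hH : 1 ≤ H)
    (hconj : ∀ q' j' x : ℂ, Polynomial.aeval q' (minpoly ℚ q) = 0 →
      Polynomial.aeval j' (minpoly ℚ j₀) = 0 →
      Φ.eval₂ (Polynomial.aeval (R := ℤ) j').toRingHom x = 0 →
      ‖clearedValue A a S Φ.natDegree q' x‖ ≤ H) :
    1 ≤ ‖clearedValue A a S Φ.natDegree q jS‖ *
      H ^ (Module.finrank ℚ (IntermediateField.adjoin ℚ ({q, j₀} : Set ℚ_[p])) *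
        Φ.natDegree) := by
  set e := Φ.natDegree
  set K₀ := IntermediateField.adjoin ℚ ({q, j₀} : Set ℚ_[p])
  haveI : FiniteDimensional ℚ K₀ := IntermediateField.finiteDimensional_adjoin (by
    rintro x (rfl | rfl)
    exacts [hq.isIntegral, hj.isIntegral])
  set jK : K₀ := ⟨j₀, IntermediateField.subset_adjoin _ _ (by simp)⟩
  set qK : K₀ := ⟨q, IntermediateField.subset_adjoin _ _ (by simp)⟩
  have hval : (algebraMap K₀ ℚ_[p]).comp (Polynomial.aeval (R := ℤ) jK).toRingHom =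
      (Polynomial.aeval (R := ℤ) j₀).toRingHom :=
    Polynomial.ringHom_ext' (Subsingleton.elim _ _) (by simp [jK])
  have hp₀ : Polynomial.aeval jS (Φ.map (Polynomial.aeval (R := ℤ) jK).toRingHom) = 0 := by
    rw [Polynomial.aeval_def, Polynomial.eval₂_map, hval]; exact hΦr
  have hjSint : IsIntegral K₀ jS := ⟨_, hΦ.map _, hp₀⟩
  haveI : FiniteDimensional K₀ K₀⟮jS⟯ := IntermediateField.adjoin.finiteDimensional hjSint
  haveI : FiniteDimensional ℚ K₀⟮jS⟯ := Module.Finite.trans K₀ _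
  haveI : NumberField K₀⟮jS⟯ := ⟨⟩
  have hdeg : Module.finrank ℚ K₀⟮jS⟯ ≤ Module.finrank ℚ K₀ * e := by
    rw [← Module.finrank_mul_finrank ℚ K₀ K₀⟮jS⟯, IntermediateField.adjoin.finrank hjSint]
    exact Nat.mul_le_mul_left _ ((Polynomial.natDegree_le_of_dvd (minpoly.dvd K₀ jS hp₀)
      (hΦ.map _).ne_zero).trans Polynomial.natDegree_map_le)
  set qL : K₀⟮jS⟯ := algebraMap K₀ K₀⟮jS⟯ qK
  set jL : K₀⟮jS⟯ := algebraMap K₀ K₀⟮jS⟯ jK
  set xL : K₀⟮jS⟯ := IntermediateField.AdjoinSimple.gen K₀ jS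
  set ψ : K₀⟮jS⟯ →+* ℚ_[p] := algebraMap K₀⟮jS⟯ ℚ_[p]
  have hψq : ψ qL = q := rfl
  have hψj : ψ jL = j₀ := rfl
  have hψx : ψ xL = jS := rfl
  set E := clearedValue A a S e qL xL with hE
  have hEval : ψ E = clearedValue A a S e q jS := by rw [hE, map_clearedValue, hψq, hψx]
  have hEint : IsIntegral ℤ E :=
    (isIntegral_algHom_iff ψ.toIntAlgHom ψ.injective).mp (show IsIntegral ℤ (ψ E) by rwa [hEval])
  have hE0 : E ≠ 0 := fun h => hne (by rw [← hEval, h, map_zero])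
  have hroot : ∀ (σ : K₀⟮jS⟯ →+* ℂ) (y : K₀⟮jS⟯) (μ : ℚ[X]), Polynomial.aeval (ψ y) μ = 0 →
      Polynomial.aeval (σ y) μ = 0 := by
    intro σ y μ hμ
    show Polynomial.aeval (σ.toRatAlgHom y) μ = 0
    rw [Polynomial.aeval_algHom_apply]
    refine (map_eq_zero_iff _ σ.toRatAlgHom.toRingHom.injective).mpr (ψ.injective ?_)
    rw [map_zero]
    show ψ.toRatAlgHom _ = 0
    rw [← Polynomial.aeval_algHom_apply]
    exact hμ
  have hhouse : house E ≤ H := (pi_norm_le_iff_of_nonneg (by linarith)).mpr fun σ => by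
    show ‖σ E‖ ≤ H
    rw [hE, map_clearedValue]
    refine hconj _ (σ jL) _ (hroot σ qL _ (hψq ▸ minpoly.aeval ℚ q))
      (hroot σ jL _ (hψj ▸ minpoly.aeval ℚ j₀)) ?_
    rw [show (Polynomial.aeval (R := ℤ) (σ jL)).toRingHom =
      σ.comp (Polynomial.aeval (R := ℤ) jL).toRingHom from
        Polynomial.ringHom_ext' (Subsingleton.elim _ _) (by simp), ← Polynomial.hom_eval₂]
    refine (map_eq_zero_iff _ σ.injective).mpr (ψ.injective ?_)
    rw [map_zero, Polynomial.hom_eval₂, show ψ.comp (Polynomial.aeval (R := ℤ) jL).toRingHom =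
      (Polynomial.aeval (R := ℤ) (ψ jL)).toRingHom from
        Polynomial.ringHom_ext' (Subsingleton.elim _ _) (by simp), hψj, hψx]
    exact hΦr
  set E' : 𝓞 K₀⟮jS⟯ := ⟨E, hEint⟩ with hE'
  set n := (Algebra.norm ℤ E').natAbs with hn
  have hn0 : n ≠ 0 := Int.natAbs_ne_zero.mpr
    (Algebra.norm_ne_zero_iff.mpr fun h => hE0 (congrArg Subtype.val h))
  obtain ⟨y, hy⟩ : E' ∣ (n : 𝓞 K₀⟮jS⟯) := by
    rw [← Ideal.mem_span_singleton]
    have := Ideal.absNorm_mem (Ideal.span {E'})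
    rwa [Ideal.absNorm_span_singleton, ← hn] at this
  have hpn : ‖(n : ℚ_[p])‖ ≤ ‖clearedValue A a S e q jS‖ := by
    have h := congrArg (fun t : 𝓞 K₀⟮jS⟯ => ψ (t : K₀⟮jS⟯)) hy
    simp only [map_natCast, map_mul, ← hEval] at h ⊢
    rw [h, norm_mul, show ψ (E' : K₀⟮jS⟯) = ψ E from rfl]
    exact mul_le_of_le_one_right (norm_nonneg _)
      (norm_le_one_of_integral (IsIntegral.map ψ.toIntAlgHom y.2))
  have hnH : (n : ℝ) ≤ H ^ Module.finrank ℚ K₀⟮jS⟯ := by
    obtain ⟨σ⟩ : Nonempty (K₀⟮jS⟯ →+* ℂ) := inferInstance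
    have h := norm_norm_le_norm_mul_house_pow (E' : K₀⟮jS⟯) σ
    rw [← Algebra.coe_norm_int, Int.norm_cast_rat, Int.norm_eq_abs, ← Int.cast_abs,
      ← Int.natCast_natAbs, Int.cast_natCast, ← hn] at h
    refine h.trans ?_
    rw [← Nat.succ_pred_eq_of_pos (Module.finrank_pos : 0 < Module.finrank ℚ K₀⟮jS⟯), pow_succ',
      Nat.succ_eq_add_one, Nat.add_sub_cancel]
    exact mul_le_mul ((norm_embedding_le_house _ σ).trans hhouse)
      (pow_le_pow_left₀ (house_nonneg _) hhouse _) (pow_nonneg (house_nonneg _) _) (by linarith)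
  have h1 := one_le_abs_mul_norm (p := p) (n := (n : ℤ)) (Int.natCast_ne_zero.mpr hn0)
  simp only [Int.cast_natCast, Nat.abs_cast] at h1
  rw [mul_comm]
  exact h1.trans (mul_le_mul (hnH.trans (pow_le_pow_right₀ hH hdeg)) hpn (norm_nonneg _)
    (pow_nonneg (by linarith) _))

/-- An algebraic number of `ℚ_p` has an integral multiple. -/
theorem exists_natCast_mul_integral {y : ℚ_[p]} (hy : IsAlgebraic ℚ y) :
    ∃ a : ℕ, 0 < a ∧ IsIntegral ℤ ((a : ℚ_[p]) * y) := by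
  obtain ⟨b, hb, hint⟩ := IsAlgebraic.exists_integral_multiple
    ((IsFractionRing.isAlgebraic_iff ℤ ℚ ℚ_[p]).mpr hy)
  rw [zsmul_eq_mul] at hint
  refine ⟨b.natAbs, Int.natAbs_pos.mpr hb, ?_⟩
  have h := Int.natAbs_eq b
  generalize b.natAbs = n at h
  rcases h with rfl | rfl
  · simpa using hint
  · simpa using hint.neg

/-- **The theorem of Saint-Étienne.** -/
theorem transcendental_padicJ {q : ℚ_[p]} (hq0 : q ≠ 0) (hq1 : ‖q‖ < 1) (hq : IsAlgebraic ℚ q) :
    Transcendental ℚ (padicJ q) := by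
  classical
  intro hj
  set j₀ := padicJ q
  obtain ⟨C₀, hC₀, hjb⟩ := exists_jfun_le
  obtain ⟨Q, hQ1, hQ⟩ := exists_root_bound (minpoly ℚ q) fun y => ‖y‖
  choose zf hzf using exists_jfun_eq
  obtain ⟨Y, hY1, hY⟩ := exists_root_bound (minpoly ℚ j₀) fun y => (zf y).im + 1 / (zf y).im
  have hμq := minpoly.ne_zero hq.isIntegral
  have hμj := minpoly.ne_zero hj.isIntegral
  obtain ⟨a₁, ha₁, hint₁⟩ := exists_natCast_mul_integral hq
  obtain ⟨a₂, ha₂, hint₂⟩ := exists_natCast_mul_integral hj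
  set a := a₁ * a₂ with ha
  have ha0 : 0 < a := Nat.mul_pos ha₁ ha₂
  have haq : IsIntegral ℤ ((a : ℚ_[p]) * q) := by
    rw [ha, Nat.cast_mul, mul_comm (a₁ : ℚ_[p]), mul_assoc]
    exact (isIntegral_natCast a₂).mul hint₁
  have haj : IsIntegral ℤ ((a : ℚ_[p]) * j₀) := by
    rw [ha, Nat.cast_mul, mul_assoc]; exact (isIntegral_natCast a₁).mul hint₂
  set d₀ := Module.finrank ℚ (IntermediateField.adjoin ℚ ({q, j₀} : Set ℚ_[p]))
  obtain ⟨C, hC, k₀, hk₀, hdata⟩ := exists_padic_data hq0 hq1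
  have hla : 0 ≤ Real.log a := Real.log_nonneg (by exact_mod_cast ha0)
  have hlQ : 0 ≤ Real.log Q := Real.log_nonneg hQ1
  have hCY : 0 ≤ C₀ * Y := mul_nonneg (by linarith) (by linarith)
  set C₄ := C + 2 + 2 * (Real.log a + Real.log Q) + C₀ * Y
  have hC₄ : 0 ≤ C₄ := by simp only [C₄]; linarith
  set C₅ := C + d₀ * C₄ with hC₅
  have hd₀C : 0 ≤ (d₀ : ℝ) * C₄ := mul_nonneg (Nat.cast_nonneg d₀) hC₄
  refine false_of_growth (neg_pos.mpr (Real.log_neg (norm_pos_iff.mpr hq0) hq1))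
    (show 1 ≤ C₅ by linarith) (k₀ := k₀) fun k hk => ?_
  obtain ⟨A, s, M, S, hsM, hks, hS1, hA, hne, hS2, hup⟩ := hdata k hk
  haveI : NeZero S := ⟨by omega⟩
  obtain ⟨Φ, hΦ, hψ, hΦd, hΦr, hΦb⟩ := exists_modular_relation hC₀ hjb S
  have hroot := eval_padicJ_eq_zero hΦr hq0 hq1
  have hqS : ‖q ^ S‖ < 1 := by rw [norm_pow]; exact pow_lt_one₀ (norm_nonneg q) hq1 (by omega)
  have e0 : 1 ≤ Φ.natDegree := by
    refine Nat.one_le_iff_ne_zero.mpr fun h => ?_
    have := hroot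
    rw [hΦ.natDegree_eq_zero.mp h, Polynomial.eval₂_one] at this
    exact one_ne_zero this
  have hval : clearedValue A a S Φ.natDegree q (padicJ (q ^ S)) =
      (a : ℚ_[p]) ^ (k ^ 2 * (2 * S + Φ.natDegree)) * peval (pcoeff p (auxSeries A)) (q ^ S) := by
    rw [clearedValue_sum, ← evalHom_apply _ hqS]
    congr 1
    simp only [auxSeries, map_sum, map_mul, map_pow, map_intCast, zsmul_eq_mul, evalHom_X,
      mul_padicJ (pow_ne_zero S hq0) hqS]
  have hL := liouville A (a := a) (S := S) hΦ hroot hq hj (H := Real.exp (C₄ *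
      ((k : ℝ) ^ 3 + (k : ℝ) ^ 2 * (S + Φ.natDegree)))) ?_ ?_ (Real.one_le_exp (by positivity)) ?_
  rotate_left
  · exact IsIntegral.sum _ fun i _ => (isIntegral_intCast _).mul (((isIntegral_natCast a).pow _).mul
      ((haq.pow _).mul ((isIntegral_mul_root hΦ hΦd haj hroot).pow _)))
  · rw [hval]
    exact mul_ne_zero (pow_ne_zero _ (Nat.cast_ne_zero.mpr ha0.ne')) hne
  · intro q' j' x hq' hj' hx
    refine norm_clearedValue_le (by omega) (by linarith) hlQ hCY hA ha0 ?_ ?_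
    · rw [Real.exp_log (by linarith)]; exact hQ hμq _ hq'
    · refine (hΦb (zf j') x (by rwa [hzf])).trans (Real.exp_le_exp.mpr ?_)
      rw [mul_assoc C₀ Y, mul_comm Y]
      exact mul_le_mul_of_nonneg_left
        (mul_le_mul_of_nonneg_left (hY hμj _ hj') (Nat.cast_nonneg S)) (by linarith)
  have hpa : ‖(a : ℚ_[p]) ^ (k ^ 2 * (2 * S + Φ.natDegree))‖ ≤ 1 := by
    rw [norm_pow]; exact pow_le_one₀ (norm_nonneg _) (Padic.norm_int_le_one (a : ℤ))
  rw [hval, norm_mul] at hL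
  have h2 := hL.trans (mul_le_mul_of_nonneg_right
    ((mul_le_of_le_one_left (norm_nonneg _) hpa).trans hup) (by positivity))
  have hqn : ‖q‖ ≠ 0 := norm_ne_zero_iff.mpr hq0
  have h3 := Real.log_le_log one_pos h2
  rw [Real.log_one, Real.log_mul (by positivity) (by positivity), Real.log_pow, Real.log_pow,
    Real.log_exp] at h3
  push_cast at h3
  rw [← hsM] at h3
  have hS1' : (1 : ℝ) ≤ S := by exact_mod_cast hS1
  have hs : 0 ≤ s := by nlinarith [sq_nonneg (k : ℝ)]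
  refine ⟨s, S, hks, hS1', hS2.trans (mul_le_mul_of_nonneg_right (by linarith)
    (mul_nonneg (Nat.cast_nonneg k) hs)), ?_⟩
  refine growth_step (C := C) (la := 0) (c := d₀ * C₄) (e := (Φ.natDegree : ℝ)) le_rfl
    (by linarith) (by linarith) (by linarith) (Nat.cast_nonneg k) hs hS1' (by exact_mod_cast e0) hψ
    (le_add_of_nonneg_right (Real.log_nonneg hS1')) ?_
  have hCks : 0 ≤ C * ((k : ℝ) * s) := by positivity
  linarith

end FA.SaintEtienne

end
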