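import Fermat.Agent.Transcendence.SixExponentials
import Fermat.Agent.Transcendence.BrumerSeries
import Fermat.Agent.Transcendence.BrumerLog

/-!
# The six exponentials theorem in `ℂ_p` (Serre)

The argument of Lang with the ultrametric lemma of Schwarz. After a scaling the points
`k₀ y₀ + k₁ y₁ + k₂ y₂` are in the unit disc and every `exp (w z)` converges on a larger disc,
so `n³` common zeros cost a factor `ρ ^ n³` with `ρ > 1` fixed, which the product formula refutes.
-/

set_option autoImplicit false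
set_option linter.unusedSectionVars false
set_option linter.style.haveILetI false

noncomputable section

namespace FA.SixExponentialsPadic

open NumberField Module Matrix
open FA.Brumer
open scoped Nat

variable {p : ℕ} [hp : Fact p.Prime] {C : Type} [NontriviallyNormedField C] [CompleteSpace C]
  [IsUltrametricDist C] [hC : NormedAlgebra ℚ_[p] C]

include hp hC in
/-- The exponential is injective on its whole disc. -/
theorem pexp_eq_one_imp {u : C} (hu : Small p u) (h : pexp u = 1) : u = 0 := by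
  haveI := charZero_of_padic p (C := C)
  have hu1 : ‖u‖ ≤ 1 := ((le_mul_of_one_le_left (norm_nonneg u) (one_lt_prime p).le).trans hu.le)
  have hn : ‖((p ^ 3 : ℕ) : C) * u‖ ≤ rad p := by
    rw [norm_mul, Nat.cast_pow, norm_pow, norm_prime p, rad, inv_pow]
    exact mul_le_of_le_one_right (inv_nonneg.mpr (pow_nonneg (prime_pos p).le 3)) hu1
  have h2 : ((p ^ 3 : ℕ) : C) * u = 0 :=
    pexp_injOn (p := p) hn (by rw [norm_zero]; exact (rad_pos (p := p)).le)
      (by rw [pexp_nat_mul hu, h, one_pow, pexp_zero])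
  exact (mul_eq_zero.mp h2).resolve_left
    (Nat.cast_ne_zero.mpr (pow_ne_zero 3 hp.out.ne_zero))

include hp hC in
theorem pexp_inj {u v : C} (hu : Small p u) (hv : Small p v) (h : pexp u = pexp v) : u = v := by
  have hv' : Small p (-v) := by rwa [Brumer.small_iff, norm_neg]
  refine sub_eq_zero.mp (pexp_eq_one_imp (p := p) (by rw [sub_eq_add_neg]; exact hu.add hv') ?_)
  rw [sub_eq_add_neg, pexp_add hu hv', h, ← pexp_add hv hv', add_neg_cancel, pexp_zero]

variable {K : Type*} [Field K]

include hp hC in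
/-- The value of an entry. -/
theorem map_entry (ψ : K →+* C) {D : ℤ} {A : Fin 2 × Fin 3 → 𝓞 K} {x : Fin 2 → C}
    {y : Fin 3 → C} (hxy : ∀ i j, Small p (x i * y j))
    (hA : ∀ ij, ψ (A ij : K) = (D : C) * pexp (x ij.1 * y ij.2))
    {T : ℕ} {l : Fin 2 → ℕ} {k : Fin 3 → ℕ}
    (hT : ∑ ij : Fin 2 × Fin 3, l ij.1 * k ij.2 ≤ T) :
    ψ (SixExponentials.entry D A T l k : K) =
      (D : C) ^ T * pexp ((∑ i, (l i : C) * x i) * ∑ j, (k j : C) * y j) := by
  have hsm : ∀ ij : Fin 2 × Fin 3,
      Small p (((l ij.1 * k ij.2 : ℕ) : C) * (x ij.1 * y ij.2)) := fun ij =>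
    (hxy _ _).mul (IsUltrametricDist.norm_natCast_le_one C _)
  rw [SixExponentials.entry]
  push_cast
  simp only [map_mul, map_prod, map_pow, map_intCast, hA, mul_pow, Finset.prod_mul_distrib,
    ← pexp_nat_mul (hxy _ _), ← pexp_sum (p := p) fun ij _ => hsm ij,
    Finset.prod_pow_eq_pow_sum]
  rw [mul_right_comm, ← pow_add, Nat.add_sub_cancel' hT, Finset.sum_mul_sum,
    Fintype.sum_prod_type]
  congr 2
  exact Finset.sum_congr rfl fun i _ => Finset.sum_congr rfl fun j _ => by push_cast; ring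

variable [NumberField K] [CharZero C]

set_option maxHeartbeats 1000000 in
include hp hC in
/-- **Lang's argument.** -/
theorem false_of_data (ψ : K →+* C) {D : ℤ} (hD : D ≠ 0) {x : Fin 2 → C} {y : Fin 3 → C}
    (hx : LinearIndependent ℚ x) (hy : LinearIndependent ℚ y) (hxs : ∀ i, Small p (x i))
    (hy1 : ∀ j, ‖y j‖ ≤ 1) (A : Fin 2 × Fin 3 → 𝓞 K)
    (hA : ∀ ij, ψ (A ij : K) = (D : C) * pexp (x ij.1 * y ij.2)) : False := by
  classical
  have hxy : ∀ i j, Small p (x i * y j) := fun i j => by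
    rw [mul_comm]; exact (hxs i).mul (hy1 j)
  -- the radius
  obtain ⟨i₀, -, hi₀⟩ := Finset.exists_max_image Finset.univ (fun i => ‖x i‖) Finset.univ_nonempty
  have hs0 : 0 < (p : ℝ) * ‖x i₀‖ := mul_pos (prime_pos p) (norm_pos_iff.mpr (hx.ne_zero i₀))
  set ρ : ℝ := ((p : ℝ) * ‖x i₀‖)⁻¹ with hρ
  have hρ1 : 1 < ρ := (one_lt_inv₀ hs0).mpr (hxs i₀)
  obtain ⟨C₁, hsiegel⟩ := GelfondSchneider.exists_siegel K
  set h := finrank ℚ K with hh
  set M₀ : ℝ := 1 + |(D : ℝ)| + ∑ ij, house (A ij : K) with hM₀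
  have hsum0 : 0 ≤ ∑ ij, house (A ij : K) := Finset.sum_nonneg fun _ _ => house_nonneg _
  have hM1 : 1 ≤ M₀ := by linarith [abs_nonneg (D : ℝ)]
  have hDM : |(D : ℝ)| ≤ M₀ := by linarith
  have hAM : ∀ ij, house (A ij : K) ≤ M₀ := fun ij => by
    linarith [Finset.single_le_sum (f := fun ij => house (A ij : K)) (fun _ _ => house_nonneg _)
      (Finset.mem_univ ij), abs_nonneg (D : ℝ)]
  set Kη : ℝ := (max 1 |C₁|) ^ 2 * 4 * M₀ ^ 6 with hKη
  set Kc : ℝ := (4 * Kη * M₀ ^ 6) ^ h with hKc
  have hKη0 : 0 ≤ Kη := by positivity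
  have hKc0 : 0 ≤ Kc := by positivity
  clear_value Kc Kη M₀
  obtain ⟨b, hb⟩ := pow_unbounded_of_one_lt Kc hρ1
  set M := 2 * b + 1 with hM
  set N := 2 * M ^ 2 with hN
  set L := 4 * M ^ 3 with hL
  have hN0 : 0 < N := by positivity
  have hL0 : 0 < L := by positivity
  have hLN : L ^ 2 = 2 * N ^ 3 := by rw [hL, hN]; ring
  clear_value L N M
  -- the linear system
  let idx := Fin 2 → Fin L
  let Mat : Matrix (Fin 3 → Fin N) idx (𝓞 K) := fun k l =>
    SixExponentials.entry D A (6 * L * N) (fun i => l i) (fun j => k j)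
  have hMat0 : Mat ≠ 0 := fun h0 => by
    have h1 := congrFun (congrFun h0 (fun _ => ⟨0, hN0⟩)) (fun _ => ⟨0, hL0⟩)
    simp [Mat, SixExponentials.entry, hD] at h1
  obtain ⟨η, hη0, hηM, hηb⟩ := hsiegel (Fin 3 → Fin N) idx Mat (N ^ 3) (L ^ 2)
    (M₀ ^ (6 * L * N)) hMat0 (by positivity)
    (by rw [hLN]; have : 0 < N ^ 3 := (by positivity); omega) (by simp) (by simp [idx])
    fun k l => SixExponentials.house_entry_le hM1 hDM hAM
      (SixExponentials.sum_exponent_le (fun i => (l i).isLt.le) fun j => (k j).isLt.le)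
  have hexp1 : (((N ^ 3 : ℕ) : ℝ) / (((L ^ 2 : ℕ) : ℝ) - ((N ^ 3 : ℕ) : ℝ))) = 1 := by
    rw [hLN]; push_cast
    rw [show 2 * (N : ℝ) ^ 3 - (N : ℝ) ^ 3 = (N : ℝ) ^ 3 by ring, div_self (by positivity)]
  rw [hexp1] at hηb
  simp only [Real.rpow_one] at hηb
  let w : idx → C := fun l => ∑ i, ((l i).val : C) * x i
  let pt : (Fin 3 → ℕ) → C := fun k => ∑ j, (k j : C) * y j
  let a : ℕ → C := fun n => ∑ l, ψ (η l : K) * (w l ^ n * ((n ! : ℕ) : C)⁻¹)
  let S : ℕ → (Fin 3 → ℕ) → 𝓞 K := fun R k =>
    ∑ l, η l * SixExponentials.entry D A (6 * L * R) (fun i => l i) k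
  have hint : ∀ z : 𝓞 K, ‖ψ (z : K)‖ ≤ 1 := fun z =>
    norm_le_one_of_integral (z.isIntegral_coe.map ψ.toIntAlgHom)
  have hwn : ∀ l, ‖w l‖ ≤ ‖x i₀‖ := fun l =>
    IsUltrametricDist.norm_sum_le_of_forall_le_of_nonneg (norm_nonneg _) fun i _ => by
      rw [norm_mul]
      exact (mul_le_of_le_one_left (norm_nonneg _)
        (IsUltrametricDist.norm_natCast_le_one C _)).trans (hi₀ i (Finset.mem_univ i))
  have hdec : Decays ρ 1 a := fun n => by
    rw [← le_div_iff₀ (pow_pos (zero_lt_one.trans hρ1) n)]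
    refine IsUltrametricDist.norm_sum_le_of_forall_le_of_nonneg
      (div_nonneg zero_le_one (pow_nonneg (zero_lt_one.trans hρ1).le n)) fun l _ => ?_
    rw [norm_mul, one_div, ← inv_pow, hρ, inv_inv]
    refine (mul_le_of_le_one_left (norm_nonneg _) (hint _)).trans
      ((norm_expTerm_le p (w l) n).trans ?_)
    exact pow_le_pow_left₀ (mul_nonneg (prime_pos p).le (norm_nonneg _))
      (mul_le_mul_of_nonneg_left (hwn l) (prime_pos p).le) n
  have hptb : ∀ k, ‖pt k‖ ≤ 1 := fun k =>
    IsUltrametricDist.norm_sum_le_of_forall_le_of_nonneg zero_le_one fun j _ => by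
      rw [norm_mul]
      exact mul_le_one₀ (IsUltrametricDist.norm_natCast_le_one C _) (norm_nonneg _) (hy1 j)
  have hws : ∀ l, Small p (w l) := fun l => Small.sum fun i _ =>
    (hxs i).mul (IsUltrametricDist.norm_natCast_le_one C _)
  have hwp : ∀ l k, Small p (w l * pt k) := fun l k => by
    rw [mul_comm]; exact (hws l).mul (hptb k)
  have hF : ∀ k, seqEval a (pt k) = ∑ l, ψ (η l : K) * pexp (w l * pt k) := fun k => by
    have hs : ∀ l, Summable fun n => ψ (η l : K) * expTerm (w l * pt k) n := fun l =>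
      (summable_norm_expTerm (hwp l k)).of_norm.mul_left _
    simp only [pexp, ← tsum_mul_left]
    rw [← Summable.tsum_finsetSum fun l _ => hs l, seqEval]
    refine tsum_congr fun n => ?_
    rw [Finset.sum_mul]
    refine Finset.sum_congr rfl fun l _ => ?_
    rw [expTerm, mul_pow]
    ring
  have hS : ∀ R k, (∀ j, k j ≤ R) → ψ (S R k : K) = (D : C) ^ (6 * L * R) * seqEval a (pt k) := by
    intro R k hk
    simp only [hF, S, Finset.mul_sum]
    push_cast
    rw [map_sum]
    refine Finset.sum_congr rfl fun l _ => ?_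
    rw [map_mul, map_entry ψ hxy hA
      (SixExponentials.sum_exponent_le (fun i => (l i).isLt.le) hk)]
    ring
  have hDC : (D : C) ≠ 0 := Int.cast_ne_zero.2 hD
  have hcardL : Fintype.card idx = L ^ 2 := by simp [idx]
  have hL4 : ∀ R : ℕ, 1 ≤ R → ((L ^ 2 : ℕ) : ℝ) ≤ 4 ^ (L * R) := fun R hR => by
    calc ((L ^ 2 : ℕ) : ℝ) ≤ (((2 ^ L) ^ 2 : ℕ) : ℝ) := by
          exact_mod_cast Nat.pow_le_pow_left Nat.lt_two_pow_self.le 2
      _ = 4 ^ L := by push_cast; rw [← pow_mul, mul_comm, pow_mul]; norm_num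
      _ ≤ 4 ^ (L * R) := pow_le_pow_right₀ (by norm_num) (Nat.le_mul_of_pos_right L hR)
  have hη : ∀ R, N ≤ R → ∀ l, house (η l : K) ≤ Kη ^ (L * R) := fun R hR l => by
    refine ((hηb l).trans (le_abs_self _)).trans ?_
    rw [abs_mul, abs_mul, abs_mul, abs_of_nonneg (Nat.cast_nonneg (α := ℝ) (L ^ 2)),
      abs_of_nonneg (pow_nonneg (zero_le_one.trans hM1) _)]
    have hC1 : |C₁| * |C₁| ≤ ((max 1 |C₁|) ^ 2) ^ (L * R) := by
      refine le_trans ?_ (le_self_pow₀ (one_le_pow₀ (le_max_left _ _))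
        (Nat.mul_ne_zero hL0.ne' (by omega)))
      rw [sq]
      exact mul_le_mul (le_max_right _ _) (le_max_right _ _) (abs_nonneg _) (by positivity)
    calc |C₁| * (|C₁| * ((L ^ 2 : ℕ) : ℝ) * M₀ ^ (6 * L * N))
        = (|C₁| * |C₁|) * ((L ^ 2 : ℕ) : ℝ) * M₀ ^ (6 * L * N) := by ring
      _ ≤ ((max 1 |C₁|) ^ 2) ^ (L * R) * 4 ^ (L * R) * (M₀ ^ 6) ^ (L * R) := by
        rw [← pow_mul M₀, ← mul_assoc 6 L R]
        refine mul_le_mul (mul_le_mul hC1 (hL4 R (by omega)) (by positivity) (by positivity))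
          (pow_le_pow_right₀ hM1 (Nat.mul_le_mul_left _ hR)) (by positivity) (by positivity)
      _ = Kη ^ (L * R) := by rw [hKη]; simp only [mul_pow]
  -- extrapolation
  have hinj : Function.Injective pt := fun k k' e => by
    have h0 : ∑ j, ((k j : ℚ) - k' j) • y j = 0 := by
      have e' : ∑ j, (k j : C) * y j = ∑ j, (k' j : C) * y j := e
      simp only [Rat.smul_def]
      push_cast
      simp only [sub_mul, Finset.sum_sub_distrib, e', sub_self]
    funext j
    exact_mod_cast sub_eq_zero.1 (Fintype.linearIndependent_iff.1 hy _ h0 j)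
  have key : ∀ R, N ≤ R → ∀ k : Fin 3 → ℕ, (∀ j, k j < R) → seqEval a (pt k) = 0 := by
    intro R hR
    induction R, hR using Nat.le_induction with
    | base =>
      intro k hk
      have h3 := congrFun hηM fun j => ⟨k j, hk j⟩
      simp only [Matrix.mulVec, dotProduct, Pi.zero_apply, Mat] at h3
      have h4 : S N k = 0 := (Finset.sum_congr rfl fun l _ => mul_comm _ _).trans h3
      have h5 := hS N k fun j => (hk j).le
      rw [h4, show ((0 : 𝓞 K) : K) = 0 from map_zero _, map_zero, eq_comm, mul_eq_zero] at h5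
      exact h5.resolve_left (pow_ne_zero _ hDC)
    | succ R hR ih =>
      intro k hk
      by_contra hne
      have hS0 : S (R + 1) k ≠ 0 := fun e => by
        have h5 := hS (R + 1) k fun j => (hk j).le
        rw [e, show ((0 : 𝓞 K) : K) = 0 from map_zero _, map_zero, eq_comm, mul_eq_zero] at h5
        exact hne (h5.resolve_left (pow_ne_zero _ hDC))
      let P : Finset C := (Finset.univ : Finset (Fin 3 → Fin R)).image fun k => pt fun j => k j
      have hPc : P.card = R ^ 3 := by
        rw [Finset.card_image_of_injective]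
        · simp
        · intro a c e
          funext j
          exact Fin.ext (congrFun (hinj e) j)
      set Sp : ℝ := 1 + ∑ u ∈ P, ∑ v ∈ P, ‖u - v‖⁻¹ with hSp
      have hSp1 : 1 ≤ Sp := le_add_of_nonneg_right
        (Finset.sum_nonneg fun _ _ => Finset.sum_nonneg fun _ _ => inv_nonneg.mpr (norm_nonneg _))
      have hcoef := schwarz (C := C) hρ1 hSp1 (T := 1) P
        (fun u hu => by obtain ⟨c, -, rfl⟩ := Finset.mem_image.1 hu; exact hptb _)
        (fun u hu v hv huv => by
          have h1 : ‖u - v‖⁻¹ ≤ Sp := by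
            refine le_trans ?_ (le_add_of_nonneg_left zero_le_one)
            refine le_trans ?_ (Finset.single_le_sum
              (fun u' _ => Finset.sum_nonneg fun v' _ => inv_nonneg.mpr (norm_nonneg (u' - v'))) hu)
            exact Finset.single_le_sum (fun v' _ => inv_nonneg.mpr (norm_nonneg (u - v'))) hv
          have h2 : 0 < ‖u - v‖ := norm_pos_iff.mpr (sub_ne_zero.mpr huv)
          calc (1 : ℝ) = ‖u - v‖⁻¹ * ‖u - v‖ := (inv_mul_cancel₀ h2.ne').symm
            _ ≤ Sp * ‖u - v‖ := mul_le_mul_of_nonneg_right h1 h2.le)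
        hdec le_rfl (fun u hu j hj => by
          obtain ⟨c, -, rfl⟩ := Finset.mem_image.1 hu
          obtain rfl : j = 0 := by omega
          rw [Function.iterate_zero, id_eq, ih _ fun j => (c j).isLt, norm_zero])
      have hFk : ‖seqEval a (pt k)‖ ≤ 1 / ρ ^ R ^ 3 := by
        refine IsUltrametricDist.norm_tsum_le_of_forall_le_of_nonneg (by positivity) fun n => ?_
        rw [norm_mul, norm_pow]
        refine ((mul_le_of_le_one_right (norm_nonneg _)
          (pow_le_one₀ (norm_nonneg _) (hptb k))).trans (hcoef n)).trans ?_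
        rw [mul_zero, pow_one, hPc]
        exact max_le (by positivity) le_rfl
      set T := L * (R + 1) with hT
      have hSh : house (S (R + 1) k : K) ≤ (4 * Kη * M₀ ^ 6) ^ T := by
        simp only [S]
        push_cast
        refine (house_sum_le_sum_house _ _).trans ?_
        refine (Finset.sum_le_card_nsmul _ _ (Kη ^ T * (M₀ ^ 6) ^ T) fun l _ => ?_).trans ?_
        · refine (house_mul_le _ _).trans (mul_le_mul (hη (R + 1) (by omega) l) ?_
            (house_nonneg _) (by positivity))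
          rw [← pow_mul, hT, ← mul_assoc 6 L (R + 1)]
          exact SixExponentials.house_entry_le hM1 hDM hAM
            (SixExponentials.sum_exponent_le (fun i => (l i).isLt.le) fun j => (hk j).le)
        · rw [Finset.card_univ, hcardL, nsmul_eq_mul]
          refine (mul_le_mul_of_nonneg_right (hL4 (R + 1) (by omega)) (by positivity)).trans
            (le_of_eq ?_)
          simp only [mul_pow]; ring
      have hψ : ‖ψ (S (R + 1) k : K)‖ ≤ 1 / ρ ^ R ^ 3 := by
        rw [hS (R + 1) k fun j => (hk j).le, norm_mul, norm_pow]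
        exact (mul_le_of_le_one_left (norm_nonneg _) (pow_le_one₀ (norm_nonneg _)
          (IsUltrametricDist.norm_intCast_le_one C D))).trans hFk
      have hfinal : ρ ^ R ^ 3 ≤ ρ ^ (b * T) := by
        have h1 := (one_le_norm_mul_house_pow p hS0 ψ).trans
          (mul_le_mul hψ (pow_le_pow_left₀ (house_nonneg _) hSh _)
            (pow_nonneg (house_nonneg _) _) (by positivity))
        rw [one_div, ← div_eq_inv_mul, le_div_iff₀ (by positivity), one_mul, ← hh] at h1
        refine h1.trans ?_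
        rw [pow_right_comm, ← hKc, pow_mul ρ]
        exact pow_le_pow_left₀ hKc0 hb.le T
      have h1 : R ^ 3 ≤ b * (L * (R + 1)) := (pow_le_pow_iff_right₀ hρ1).1 hfinal
      have h2 : R * (R * R) ≤ R * (2 * b * L) := by
        calc R * (R * R) = R ^ 3 := by ring
          _ ≤ b * (L * (R + 1)) := h1
          _ ≤ b * (L * (2 * R)) := by gcongr; omega
          _ = R * (2 * b * L) := by ring
      have h3 : M * L ≤ R * R :=
        le_trans (le_of_eq (by rw [hN, hL]; ring)) (Nat.mul_le_mul hR hR)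
      have h4 := Nat.le_of_mul_le_mul_left h2 (by omega)
      have h5 := Nat.le_of_mul_le_mul_right (h3.trans h4) hL0
      omega
  -- the auxiliary function is zero
  have hwinj : Function.Injective w := fun l l' e => by
    have h0 : ∑ i, (((l i).val : ℚ) - (l' i).val) • x i = 0 := by
      have e' : ∑ i, ((l i).val : C) * x i = ∑ i, ((l' i).val : C) * x i := e
      simp only [Rat.smul_def]
      push_cast
      simp only [sub_mul, Finset.sum_sub_distrib, e', sub_self]
    funext i
    exact Fin.ext (by exact_mod_cast sub_eq_zero.1 (Fintype.linearIndependent_iff.1 hx _ h0 i))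
  let χ : idx → (Multiplicative (Fin 3 → ℕ) →* C) := fun l =>
    { toFun := fun k => pexp (w l * pt k.toAdd)
      map_one' := by simp [pt, pexp_zero]
      map_mul' := fun k k' => by
        rw [← pexp_add (hwp l _) (hwp l _), ← mul_add]
        simp [pt, add_mul, Finset.sum_add_distrib] }
  have hχ : Function.Injective χ := fun l l' e => hwinj (by
    have he : pexp (w l * pt (Pi.single 0 1)) = pexp (w l' * pt (Pi.single 0 1)) :=
      congrArg (fun f : Multiplicative (Fin 3 → ℕ) →* C =>
        f (Multiplicative.ofAdd (Pi.single 0 1))) e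
    have h1 := pexp_inj (hwp l _) (hwp l' _) he
    have hp0 : pt (Pi.single 0 1) = y 0 := by simp [pt, Pi.single_apply]
    rw [hp0] at h1
    exact mul_right_cancel₀ (hy.ne_zero 0) h1)
  have hsum : ∑ l, ψ (η l : K) • ((χ l : Multiplicative (Fin 3 → ℕ) → C)) = 0 := by
    funext k
    have := key (N + ∑ j, (k.toAdd j + 1)) (by omega) k.toAdd fun j => by
      have := Finset.single_le_sum (f := fun j => k.toAdd j + 1) (fun _ _ => Nat.zero_le _)
        (Finset.mem_univ j)
      omega
    rw [hF] at this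
    simpa [Finset.sum_apply, χ] using this
  have hli := (linearIndependent_monoidHom (Multiplicative (Fin 3 → ℕ)) C).comp χ hχ
  have hz := Fintype.linearIndependent_iff.1 hli _ hsum
  refine hη0 (funext fun l => RingOfIntegers.ext (ψ.injective ?_))
  simpa using hz l

include hp hC in
/-- **The six exponentials theorem, `p`-adic form.** -/
theorem exists_transcendental {x : Fin 2 → C} {y : Fin 3 → C} (hx : LinearIndependent ℚ x)
    (hy : LinearIndependent ℚ y) (hxy : ∀ i j, Small p (x i * y j)) :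
    ∃ i j, Transcendental ℚ (pexp (x i * y j)) := by
  classical
  by_contra hall
  push Not at hall
  have halg : ∀ i j, IsAlgebraic ℚ (pexp (x i * y j)) := fun i j => not_not.1 (hall i j)
  set T : Set C := Set.range fun ij : Fin 2 × Fin 3 => pexp (x ij.1 * y ij.2)
  haveI : FiniteDimensional ℚ (IntermediateField.adjoin ℚ T) :=
    IntermediateField.finiteDimensional_adjoin fun z hz => by
      obtain ⟨ij, rfl⟩ := hz
      exact (halg _ _).isIntegral
  haveI : NumberField (IntermediateField.adjoin ℚ T) := { }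
  set K := IntermediateField.adjoin ℚ T
  haveI : Algebra.IsAlgebraic ℤ K :=
    (IsFractionRing.comap_isAlgebraic_iff (A := ℤ) (K := ℚ) (C := K)).2 inferInstance
  let a : Fin 2 × Fin 3 → K := fun ij =>
    ⟨_, IntermediateField.subset_adjoin ℚ T ⟨ij, rfl⟩⟩
  obtain ⟨D, hD, hint⟩ := Algebra.IsAlgebraic.exists_integral_multiples ℤ
    ((Finset.univ : Finset (Fin 2 × Fin 3)).image a)
  have hex : ∀ ij, ∃ z : 𝓞 K, (z : K) = (D : K) * a ij := fun ij =>
    ⟨⟨(D : K) * a ij, by
      simpa [mem_integralClosure_iff, zsmul_eq_mul] using hint (a ij) (by simp)⟩, rfl⟩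
  choose A hA using hex
  obtain ⟨j₀, -, hj₀⟩ := Finset.exists_max_image Finset.univ (fun j => ‖y j‖) Finset.univ_nonempty
  have h0 : y j₀ ≠ 0 := hy.ne_zero j₀
  refine false_of_data (p := p) K.val.toRingHom hD (x := fun i => x i * y j₀)
    (y := fun j => y j * (y j₀)⁻¹) ?_ ?_ (fun i => hxy i j₀) (fun j => ?_) A fun ij => ?_
  · exact hx.map' (LinearMap.mulRight ℚ (y j₀))
      (LinearMap.ker_eq_bot.mpr (mul_left_injective₀ h0))
  · exact hy.map' (LinearMap.mulRight ℚ (y j₀)⁻¹)
      (LinearMap.ker_eq_bot.mpr (mul_left_injective₀ (inv_ne_zero h0)))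
  · rw [norm_mul, norm_inv, ← div_eq_mul_inv, div_le_one (norm_pos_iff.mpr h0)]
    exact hj₀ j (Finset.mem_univ j)
  · rw [hA, map_mul, map_intCast, show x ij.1 * y j₀ * (y ij.2 * (y j₀)⁻¹) = x ij.1 * y ij.2 by
      field_simp]
    rfl

end FA.SixExponentialsPadic

end
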