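import Fermat.Agent.Transcendence.StephanoisAuxiliary
import Fermat.Agent.Transcendence.GelfondSchneider
import Mathlib.NumberTheory.NumberField.House
import Mathlib.RingTheory.Algebraic.Integral

/-!
# The theorem of Stéphanois

If `q` and `J q` were both algebraic, so would be `F (q ^ S)`, of degree `≪ S (1 + log S)` and
with conjugates and denominator at most `exp (C L (S + S log S))`, by the modular polynomial. Its
norm contradicts the bound `|q| ^ (S M) exp (C k s)`.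
-/

set_option autoImplicit false
set_option linter.style.haveILetI false

noncomputable section

namespace FA.Stephanois

open UpperHalfPlane hiding I
open NumberField FA.ModField
open scoped Real Polynomial IntermediateField

/-- An algebraic number has an integral multiple. -/
theorem exists_natCast_mul_integral {y : ℂ} (hy : IsAlgebraic ℚ y) :
    ∃ a : ℕ, 0 < a ∧ IsIntegral ℤ ((a : ℂ) * y) := by
  obtain ⟨b, hb, hint⟩ := IsAlgebraic.exists_integral_multiple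
    ((IsFractionRing.isAlgebraic_iff ℤ ℚ ℂ).mpr hy)
  rw [zsmul_eq_mul] at hint
  refine ⟨b.natAbs, Int.natAbs_pos.mpr hb, ?_⟩
  have h := Int.natAbs_eq b
  generalize b.natAbs = n at h
  rcases h with rfl | rfl
  · simpa using hint
  · simpa using hint.neg

/-- The denominator of a root of a monic relation over `ℤ[y]`. -/
theorem isIntegral_mul_root {R : Type*} [Field R] {Φ : ℤ[X][X]} (hm : Φ.Monic) {e : ℕ}
    (he : ∀ k, (Φ.coeff k).natDegree ≤ e) {a : ℕ} {y x : R} (hy : IsIntegral ℤ ((a : R) * y))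
    (hx : Φ.eval₂ (Polynomial.aeval (R := ℤ) y).toRingHom x = 0) :
    IsIntegral ℤ ((a : R) ^ e * x) := by
  set p := Φ.map (Polynomial.aeval (R := ℤ) y).toRingHom
  set d := (a : R) ^ e with hd
  have hp : p.Monic := hm.map _
  have hroot : (p.scaleRoots d).eval (d * x) = 0 := by
    rw [Polynomial.scaleRoots_eval_mul, Polynomial.eval_map, hx, mul_zero]
  have hcoef : ∀ k, d * p.coeff k ∈ integralClosure ℤ R := fun k => by
    rw [Polynomial.coeff_map, AlgHom.toRingHom_eq_coe, RingHom.coe_coe,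
      Polynomial.aeval_eq_sum_range, Finset.mul_sum]
    refine Subalgebra.sum_mem _ fun t ht => ?_
    have hte : t ≤ e := (Finset.mem_range_succ_iff.mp ht).trans (he k)
    have : d * ((Φ.coeff k).coeff t • y ^ t) =
        (((Φ.coeff k).coeff t : ℤ) : R) * ((a : R) ^ (e - t) * ((a : R) * y) ^ t) := by
      rw [zsmul_eq_mul, mul_pow, ← mul_assoc ((a : R) ^ (e - t)), ← pow_add,
        Nat.sub_add_cancel hte, hd]
      ring
    rw [this]
    exact mul_mem (intCast_mem _ _) (mul_mem (pow_mem (natCast_mem _ a) _) (pow_mem hy _))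
  have hlifts : p.scaleRoots d ∈ Polynomial.lifts (algebraMap (integralClosure ℤ R) R) := by
    rw [Polynomial.lifts_iff_coeff_lifts]
    intro k
    suffices (p.scaleRoots d).coeff k ∈ integralClosure ℤ R from ⟨⟨_, this⟩, rfl⟩
    rw [Polynomial.coeff_scaleRoots]
    rcases lt_trichotomy k p.natDegree with hk | hk | hk
    · rw [show p.natDegree - k = (p.natDegree - k - 1) + 1 by omega, pow_succ', ← mul_assoc,
        mul_comm (p.coeff k)]
      exact mul_mem (hcoef k) (pow_mem (pow_mem (natCast_mem _ a) _) _)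
    · rw [hk, hp.coeff_natDegree, one_mul, Nat.sub_self, pow_zero]
      exact one_mem _
    · rw [Polynomial.coeff_eq_zero_of_natDegree_lt hk, zero_mul]
      exact zero_mem _
  obtain ⟨p', hp', -, hm'⟩ := Polynomial.lifts_and_degree_eq_and_monic hlifts
    ((Polynomial.monic_scaleRoots_iff d).mpr hp)
  refine isIntegral_trans (A := integralClosure ℤ R) _ ⟨p', hm', ?_⟩
  rw [← Polynomial.eval_map, hp']
  exact hroot

/-- The inequalities cannot all hold for large `k`. -/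
theorem false_of_growth {lam C : ℝ} (hlam : 0 < lam) (hC : 1 ≤ C) {k₀ : ℕ}
    (h : ∀ k : ℕ, k₀ ≤ k → ∃ s S : ℝ, (k : ℝ) ^ 2 ≤ 2 * s ∧ 1 ≤ S ∧ S ^ 2 ≤ C * (k * s) ∧
      lam * s ^ 2 ≤ C * (k * s + (k : ℝ) ^ 3 * (1 + Real.log S) +
        2 * (k : ℝ) ^ 2 * S * (1 + Real.log S) ^ 2)) : False := by
  set C₆ := C * (2 + 8 * (15 * C) + 16 * C * (15 * C) ^ 2)
  set R := C₆ / lam
  obtain ⟨k, hk⟩ : ∃ k : ℕ, k₀ ≤ k ∧ 2 ≤ k ∧ 2 * R ^ 8 + 1 ≤ (k : ℝ) :=
    ⟨k₀ + 2 + ⌈2 * R ^ 8 + 1⌉₊, by omega, by omega,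
      (Nat.le_ceil _).trans (by exact_mod_cast Nat.le_add_left _ _)⟩
  obtain ⟨hk0, hk2, hkR⟩ := hk
  obtain ⟨s, S, hks, hS1, hS2, hmain⟩ := h k hk0
  have hk2' : (2 : ℝ) ≤ k := by exact_mod_cast hk2
  have hs : 1 ≤ s := by nlinarith
  set w := s ^ ((1 : ℝ) / 16) with hw
  have hw16 : w ^ 16 = s := by
    rw [hw, ← Real.rpow_natCast, ← Real.rpow_mul (by linarith)]; norm_num
  have hw1 : 1 ≤ w := Real.one_le_rpow hs (by norm_num)
  have hw0 : 0 < w := by linarith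
  have hk8 : (k : ℝ) ≤ 2 * w ^ 8 := by
    refine (abs_le_of_sq_le_sq' ?_ (by positivity)).2
    rw [mul_pow, ← pow_mul, show 8 * 2 = 16 from rfl, hw16]
    linarith
  have hS12 : S ≤ 2 * C * w ^ 12 := by
    refine (abs_le_of_sq_le_sq' (hS2.trans ?_) (by positivity)).2
    rw [← hw16]
    calc C * ((k : ℝ) * w ^ 16) ≤ C * (2 * w ^ 8 * w ^ 16) := by gcongr
      _ = C * 2 * w ^ 24 := by ring
      _ ≤ (2 * C) * (2 * C) * w ^ 24 := by gcongr <;> linarith
      _ = _ := by ring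
  set ℓ := 1 + Real.log S
  have hℓ0 : 1 ≤ ℓ := by simp only [ℓ]; linarith [Real.log_nonneg hS1]
  have hℓ : ℓ ≤ 15 * C * w := by
    have h1 := Real.log_le_log (by linarith) hS12
    rw [Real.log_mul (by positivity) (by positivity), Real.log_pow] at h1
    have h2 := Real.log_le_sub_one_of_pos (show 0 < 2 * C by linarith)
    have h3 := Real.log_le_sub_one_of_pos hw0
    push_cast at h1
    simp only [ℓ]
    nlinarith [mul_le_mul_of_nonneg_left hw1 (show (0 : ℝ) ≤ C by linarith)]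
  have e1 : (k : ℝ) * s ≤ 2 * w ^ 30 := by
    rw [← hw16]
    calc (k : ℝ) * w ^ 16 ≤ 2 * w ^ 8 * w ^ 16 := by gcongr
      _ = 2 * w ^ 24 := by ring
      _ ≤ _ := by gcongr; norm_num
  have e2 : (k : ℝ) ^ 3 * ℓ ≤ 8 * (15 * C) * w ^ 30 := by
    calc (k : ℝ) ^ 3 * ℓ ≤ (2 * w ^ 8) ^ 3 * (15 * C * w) := by gcongr
      _ = 8 * (15 * C) * w ^ 25 := by ring
      _ ≤ _ := by gcongr; norm_num
  have e3 : 2 * (k : ℝ) ^ 2 * S * ℓ ^ 2 ≤ 16 * C * (15 * C) ^ 2 * w ^ 30 := by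
    calc 2 * (k : ℝ) ^ 2 * S * ℓ ^ 2
        ≤ 2 * (2 * w ^ 8) ^ 2 * (2 * C * w ^ 12) * (15 * C * w) ^ 2 := by gcongr
      _ = _ := by ring
  have h4 : lam * w ^ 32 ≤ C₆ * w ^ 30 := by
    rw [show w ^ 32 = (w ^ 16) ^ 2 by ring, hw16]
    refine hmain.trans ((mul_le_mul_of_nonneg_left (add_le_add (add_le_add e1 e2) e3)
      (by linarith)).trans_eq ?_)
    simp only [C₆]
    ring
  have h5 : w ^ 2 ≤ R := by
    rw [le_div_iff₀ hlam]
    refine le_of_mul_le_mul_right ?_ (pow_pos hw0 30)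
    linarith [show w ^ 32 = w ^ 2 * w ^ 30 by ring,
      show w ^ 2 * lam * w ^ 30 = lam * w ^ 32 by ring]
  have h6 : s ≤ R ^ 8 := by
    rw [← hw16, show w ^ 16 = (w ^ 2) ^ 8 by ring]
    exact pow_le_pow_left₀ (by positivity) h5 8
  nlinarith

theorem exists_root_bound (μ : ℚ[X]) (f : ℂ → ℝ) :
    ∃ B : ℝ, 1 ≤ B ∧ (μ ≠ 0 → ∀ y : ℂ, Polynomial.aeval y μ = 0 → f y ≤ B) := by
  classical
  refine ⟨1 + ∑ y ∈ (μ.map (algebraMap ℚ ℂ)).roots.toFinset, |f y|,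
    le_add_of_nonneg_right (Finset.sum_nonneg fun y _ => abs_nonneg _), fun hμ y hy => ?_⟩
  have hmem : y ∈ (μ.map (algebraMap ℚ ℂ)).roots.toFinset := by
    rw [Multiset.mem_toFinset, Polynomial.mem_roots (Polynomial.map_ne_zero hμ),
      Polynomial.IsRoot, Polynomial.eval_map, ← Polynomial.aeval_def]
    exact hy
  linarith [le_abs_self (f y), Finset.single_le_sum (f := fun y => |f y|)
    (fun y _ => abs_nonneg _) hmem]

/-- `a ^ D F (q ^ S)` as a combination of `a q` and `a ^ e J (q ^ S)`, `D = L (2 S + e)`. -/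
def clearedValue {R : Type*} [CommRing R] {L : ℕ} (A : Box L → ℤ) (a : ℕ) (S e : ℕ) (q j : R) : R :=
  ∑ p : Box L, (A p : R) * ((a : R) ^ (L * (2 * S + e) - (S * ((p.1 : ℕ) + p.2) + e * p.2)) *
    (((a : R) * q) ^ (S * ((p.1 : ℕ) + p.2)) * ((a : R) ^ e * j) ^ (p.2 : ℕ)))

theorem map_clearedValue {R R' : Type*} [CommRing R] [CommRing R'] (f : R →+* R') {L : ℕ}
    (A : Box L → ℤ) (a S e : ℕ) (q j : R) :
    f (clearedValue A a S e q j) = clearedValue A a S e (f q) (f j) := by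
  simp only [clearedValue, map_sum, map_mul, map_pow, map_intCast, map_natCast]

theorem exponent_le {L : ℕ} (p : Box L) (S e : ℕ) :
    S * ((p.1 : ℕ) + p.2) + e * p.2 ≤ L * (2 * S + e) := by
  nlinarith [Nat.mul_le_mul_left S p.1.is_le, Nat.mul_le_mul_left S p.2.is_le,
    Nat.mul_le_mul_left e p.2.is_le]

theorem clearedValue_sum {R : Type*} [CommRing R] {L : ℕ} (A : Box L → ℤ) (a S e : ℕ) (q j : R) :
    clearedValue A a S e q j = (a : R) ^ (L * (2 * S + e)) *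
      ∑ p : Box L, (A p : R) * ((q ^ S) ^ (p.1 : ℕ) * (q ^ S * j) ^ (p.2 : ℕ)) := by
  rw [Finset.mul_sum, clearedValue]
  refine Finset.sum_congr rfl fun p _ => ?_
  conv_rhs => rw [← Nat.sub_add_cancel (exponent_le p S e), pow_add, pow_add]
  simp only [mul_pow, ← pow_mul]
  ring

theorem clearedValue_eq {L : ℕ} (A : Box L → ℤ) {a : ℕ} {q j : ℂ} {S e : ℕ}
    (hjt : jTilde (q ^ S) = q ^ S * j) :
    clearedValue A a S e q j = (a : ℂ) ^ (L * (2 * S + e)) * auxFun A (q ^ S) := by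
  rw [clearedValue_sum, auxFun, hjt]

/-- The size of a conjugate. -/
theorem norm_clearedValue_le {k : ℕ} (hk : 1 ≤ k) {A : Box (k ^ 2) → ℤ} {C lQ B : ℝ} (hC : 0 ≤ C)
    (hlQ : 0 ≤ lQ) (hB : 0 ≤ B) (hA : ∀ p, |(A p : ℝ)| ≤ Real.exp (C * (k : ℝ) ^ 3)) {a : ℕ}
    (ha : 0 < a) {S e : ℕ} {x y : ℂ} (hx : ‖x‖ ≤ Real.exp lQ) (hy : ‖y‖ ≤ Real.exp (B * S)) :
    ‖clearedValue A a S e x y‖ ≤ Real.exp ((C + 2 + 2 * (Real.log a + lQ) + B) *
      ((k : ℝ) ^ 3 + (k : ℝ) ^ 2 * (S + e))) := by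
  have ha1 : (1 : ℝ) ≤ a := by exact_mod_cast ha
  set la := Real.log (a : ℝ)
  have hla : 0 ≤ la := Real.log_nonneg ha1
  have hLr : ((k ^ 2 : ℕ) : ℝ) = (k : ℝ) ^ 2 := by push_cast; rfl
  have hterm : ∀ p : Box (k ^ 2), ‖(A p : ℂ) *
      ((a : ℂ) ^ (k ^ 2 * (2 * S + e) - (S * ((p.1 : ℕ) + p.2) + e * p.2)) *
        (((a : ℂ) * x) ^ (S * ((p.1 : ℕ) + p.2)) * ((a : ℂ) ^ e * y) ^ (p.2 : ℕ)))‖ ≤
      Real.exp (C * (k : ℝ) ^ 3 + ((k : ℝ) ^ 2 * (2 * S + e) * la +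
        (2 * (k : ℝ) ^ 2 * S * lQ + (k : ℝ) ^ 2 * (B * S)))) := by
    intro p
    simp only [norm_mul, norm_pow, Complex.norm_intCast, Complex.norm_natCast]
    rw [Real.exp_add]
    refine mul_le_mul (hA p) ?_ (by positivity) (Real.exp_pos _).le
    rw [show (a : ℝ) ^ (k ^ 2 * (2 * S + e) - (S * ((p.1 : ℕ) + p.2) + e * p.2)) *
        (((a : ℝ) * ‖x‖) ^ (S * ((p.1 : ℕ) + p.2)) * ((a : ℝ) ^ e * ‖y‖) ^ (p.2 : ℕ)) =
        (a : ℝ) ^ (k ^ 2 * (2 * S + e) - (S * ((p.1 : ℕ) + p.2) + e * p.2) +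
          (S * ((p.1 : ℕ) + p.2) + e * p.2)) *
          (‖x‖ ^ (S * ((p.1 : ℕ) + p.2)) * ‖y‖ ^ (p.2 : ℕ)) by
      simp only [pow_add, mul_pow, ← pow_mul]; ring]
    rw [Nat.sub_add_cancel (exponent_le p S e), Real.exp_add]
    refine mul_le_mul ?_ ?_ (by positivity) (Real.exp_pos _).le
    · refine le_of_eq ?_
      rw [show (k : ℝ) ^ 2 * (2 * S + e) = ((k ^ 2 * (2 * S + e) : ℕ) : ℝ) by push_cast; ring,
        Real.exp_nat_mul, Real.exp_log (by linarith)]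
    rw [Real.exp_add]
    refine mul_le_mul ?_ ?_ (by positivity) (Real.exp_pos _).le
    · refine (pow_le_pow_left₀ (norm_nonneg _) hx _).trans ?_
      rw [← Real.exp_nat_mul, Real.exp_le_exp]
      refine mul_le_mul_of_nonneg_right ?_ hlQ
      have h1 : ((p.1 : ℕ) : ℝ) ≤ (k : ℝ) ^ 2 := hLr ▸ Nat.cast_le.mpr p.1.is_le
      have h2 : ((p.2 : ℕ) : ℝ) ≤ (k : ℝ) ^ 2 := hLr ▸ Nat.cast_le.mpr p.2.is_le
      push_cast
      nlinarith
    · refine (pow_le_pow_left₀ (norm_nonneg _) hy _).trans ?_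
      rw [← Real.exp_nat_mul, Real.exp_le_exp]
      exact mul_le_mul_of_nonneg_right (hLr ▸ Nat.cast_le.mpr p.2.is_le) (by positivity)
  refine (norm_sum_le _ _).trans ((Finset.sum_le_card_nsmul _ _ _ fun p _ => hterm p).trans ?_)
  rw [nsmul_eq_mul, Finset.card_univ, Fintype.card_prod, Fintype.card_fin]
  push_cast
  have h2 : (k : ℝ) ^ 2 + 1 ≤ Real.exp ((k : ℝ) ^ 2) := Real.add_one_le_exp _
  refine (mul_le_mul_of_nonneg_right (mul_le_mul h2 h2 (by positivity) (Real.exp_pos _).le)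
    (Real.exp_pos _).le).trans ?_
  rw [← Real.exp_add, ← Real.exp_add, Real.exp_le_exp]
  have hk' : (1 : ℝ) ≤ k := by exact_mod_cast hk
  have h3 : (k : ℝ) ^ 2 ≤ (k : ℝ) ^ 3 := by nlinarith
  have h4 : 0 ≤ (k : ℝ) ^ 2 * e * (C + 2 + lQ * 2 + la + B) := by positivity
  have h5 : 0 ≤ (k : ℝ) ^ 2 * S * (C + 2) := by positivity
  have h6 : 0 ≤ (k : ℝ) ^ 3 * (2 * (la + lQ) + B) := by positivity
  linarith

/-- The final inequality. -/
theorem growth_step {lam C C₅ la c k s S e ℓ : ℝ} (hla : 0 ≤ la) (hC : C ≤ C₅)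
    (hC0 : 0 ≤ C) (hC₅ : 2 * la + c ≤ C₅) (hk : 0 ≤ k) (hs : 0 ≤ s) (hS : 1 ≤ S) (he : 1 ≤ e)
    (heS : e ≤ S * ℓ) (hℓ : 1 ≤ ℓ)
    (h : 0 ≤ k ^ 2 * (2 * S + e) * la + (-(S * s ^ 2 * lam) + C * (k * s)) +
      c * e * (k ^ 3 + k ^ 2 * (S + e))) :
    lam * s ^ 2 ≤ C₅ * (k * s + k ^ 3 * ℓ + 2 * k ^ 2 * S * ℓ ^ 2) := by
  set G := k ^ 3 + k ^ 2 * (S + e)
  have hG : 0 ≤ G := by positivity
  have h4 : k ^ 2 * (2 * S + e) * la ≤ 2 * la * (e * G) := by
    have h5 : k ^ 2 * (2 * S + e) ≤ 2 * (e * G) := by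
      have h6 : k ^ 2 * (2 * S + e) ≤ 2 * (k ^ 2 * (S + e)) := by nlinarith
      have h7 : k ^ 2 * (S + e) ≤ e * G := by
        refine le_trans ?_ (le_mul_of_one_le_left hG he)
        have : 0 ≤ k ^ 3 := by positivity
        linarith
      linarith
    linarith [mul_le_mul_of_nonneg_right h5 hla]
  have heG : e * G ≤ S * (k ^ 3 * ℓ + 2 * k ^ 2 * S * ℓ ^ 2) := by
    have h6 : S + e ≤ 2 * (S * ℓ) := by nlinarith
    calc e * G ≤ (S * ℓ) * (k ^ 3 + k ^ 2 * (2 * (S * ℓ))) := by simp only [G]; gcongr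
      _ = _ := by ring
  refine le_of_mul_le_mul_left ?_ (show (0 : ℝ) < S by linarith)
  have h7 : C * (k * s) ≤ S * (C₅ * (k * s)) :=
    (mul_le_mul_of_nonneg_right hC (by positivity)).trans
      (le_mul_of_one_le_left (mul_nonneg (hC0.trans hC) (by positivity)) hS)
  have h8 : (2 * la + c) * (e * G) ≤ C₅ * (S * (k ^ 3 * ℓ + 2 * k ^ 2 * S * ℓ ^ 2)) :=
    mul_le_mul hC₅ heG (by positivity) (hC0.trans hC)
  nlinarith

/-- **Liouville's inequality for the value.** -/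
theorem liouville {L : ℕ} (A : Box L → ℤ) {a S : ℕ} {q j₀ jS : ℂ} {Φ : ℤ[X][X]} (hΦ : Φ.Monic)
    (hΦr : Φ.eval₂ (Polynomial.aeval (R := ℤ) j₀).toRingHom jS = 0) (hq : IsAlgebraic ℚ q)
    (hj : IsAlgebraic ℚ j₀) (hint : IsIntegral ℤ (clearedValue A a S Φ.natDegree q jS))
    (hne : clearedValue A a S Φ.natDegree q jS ≠ 0) {H : ℝ} (hH : 1 ≤ H)
    (hconj : ∀ q' j' x : ℂ, Polynomial.aeval q' (minpoly ℚ q) = 0 →
      Polynomial.aeval j' (minpoly ℚ j₀) = 0 →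
      Φ.eval₂ (Polynomial.aeval (R := ℤ) j').toRingHom x = 0 →
      ‖clearedValue A a S Φ.natDegree q' x‖ ≤ H) :
    1 ≤ ‖clearedValue A a S Φ.natDegree q jS‖ *
      H ^ (Module.finrank ℚ (IntermediateField.adjoin ℚ ({q, j₀} : Set ℂ)) * Φ.natDegree) := by
  set e := Φ.natDegree
  set K₀ := IntermediateField.adjoin ℚ ({q, j₀} : Set ℂ)
  haveI : FiniteDimensional ℚ K₀ := IntermediateField.finiteDimensional_adjoin (by
    rintro x (rfl | rfl)
    exacts [hq.isIntegral, hj.isIntegral])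
  set jK : K₀ := ⟨j₀, IntermediateField.subset_adjoin _ _ (by simp)⟩
  set qK : K₀ := ⟨q, IntermediateField.subset_adjoin _ _ (by simp)⟩
  have hval : (algebraMap K₀ ℂ).comp (Polynomial.aeval (R := ℤ) jK).toRingHom =
      (Polynomial.aeval (R := ℤ) j₀).toRingHom :=
    Polynomial.ringHom_ext' (Subsingleton.elim _ _) (by simp [jK])
  have hp₀ : Polynomial.aeval jS (Φ.map (Polynomial.aeval (R := ℤ) jK).toRingHom) = 0 := by
    rw [Polynomial.aeval_def, Polynomial.eval₂_map, hval]; exact hΦr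
  have hjSint : IsIntegral K₀ jS := ⟨_, hΦ.map _, hp₀⟩
  haveI : FiniteDimensional K₀ K₀⟮jS⟯ := IntermediateField.adjoin.finiteDimensional hjSint
  haveI : FiniteDimensional ℚ K₀⟮jS⟯ := Module.Finite.trans K₀ _
  haveI : NumberField K₀⟮jS⟯ := ⟨⟩
  have hdeg : Module.finrank ℚ K₀⟮jS⟯ ≤ Module.finrank ℚ K₀ * e := by
    rw [← Module.finrank_mul_finrank ℚ K₀ K₀⟮jS⟯, IntermediateField.adjoin.finrank hjSint]
    exact Nat.mul_le_mul_left _ ((Polynomial.natDegree_le_of_dvd (minpoly.dvd K₀ jS hp₀)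
      (hΦ.map _).ne_zero).trans Polynomial.natDegree_map_le)
  set qL : K₀⟮jS⟯ := algebraMap K₀ K₀⟮jS⟯ qK
  set jL : K₀⟮jS⟯ := algebraMap K₀ K₀⟮jS⟯ jK
  set xL : K₀⟮jS⟯ := IntermediateField.AdjoinSimple.gen K₀ jS
  set ψ : K₀⟮jS⟯ →+* ℂ := algebraMap K₀⟮jS⟯ ℂ
  have hψq : ψ qL = q := rfl
  have hψj : ψ jL = j₀ := rfl
  have hψx : ψ xL = jS := rfl
  set E := clearedValue A a S e qL xL with hE
  have hEval : ψ E = clearedValue A a S e q jS := by rw [hE, map_clearedValue, hψq, hψx]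
  have hEint : IsIntegral ℤ E :=
    (isIntegral_algHom_iff ψ.toIntAlgHom ψ.injective).mp (show IsIntegral ℤ (ψ E) by rwa [hEval])
  have hE0 : (⟨E, hEint⟩ : 𝓞 K₀⟮jS⟯) ≠ 0 := fun h => hne (by
    rw [← hEval, show E = 0 from congrArg Subtype.val h, map_zero])
  have hroot : ∀ (σ : K₀⟮jS⟯ →+* ℂ) (y : K₀⟮jS⟯) (μ : ℚ[X]), Polynomial.aeval (ψ y) μ = 0 →
      Polynomial.aeval (σ y) μ = 0 := by
    intro σ y μ hμ
    show Polynomial.aeval (σ.toRatAlgHom y) μ = 0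
    rw [Polynomial.aeval_algHom_apply]
    refine (map_eq_zero_iff _ σ.toRatAlgHom.toRingHom.injective).mpr (ψ.injective ?_)
    rw [map_zero]
    show ψ.toRatAlgHom _ = 0
    rw [← Polynomial.aeval_algHom_apply]
    exact hμ
  have hcomp : ∀ ρ : K₀⟮jS⟯ →+* ℂ, ρ.comp (Polynomial.aeval (R := ℤ) jL).toRingHom =
      (Polynomial.aeval (R := ℤ) (ρ jL)).toRingHom := fun ρ =>
    Polynomial.ringHom_ext' (Subsingleton.elim _ _) (by simp)
  have hhouse : house E ≤ H := (pi_norm_le_iff_of_nonneg (by linarith)).mpr fun σ => by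
    show ‖σ E‖ ≤ H
    rw [hE, map_clearedValue]
    refine hconj _ (σ jL) _ (hroot σ qL _ (hψq ▸ minpoly.aeval ℚ q))
      (hroot σ jL _ (hψj ▸ minpoly.aeval ℚ j₀)) ?_
    rw [← hcomp σ, ← Polynomial.hom_eval₂]
    refine (map_eq_zero_iff _ σ.injective).mpr (ψ.injective ?_)
    rw [map_zero, Polynomial.hom_eval₂, hcomp ψ, hψj, hψx]
    exact hΦr
  refine (FA.GelfondSchneider.one_le_norm_mul_house_pow hE0 ψ).trans
    (mul_le_mul (le_of_eq (by rw [← hEval]; rfl)) ?_ (pow_nonneg (house_nonneg _) _)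
      (norm_nonneg _))
  exact (pow_le_pow_left₀ (house_nonneg _) hhouse _).trans
    (pow_le_pow_right₀ hH ((Nat.sub_le _ _).trans hdeg))

/-- **The theorem of Stéphanois.** -/
theorem transcendental_jfun {τ : ℍ} (hq : IsAlgebraic ℚ (qp 1 τ)) :
    Transcendental ℚ (jfun τ) := by
  classical
  intro hj
  set q := qp 1 τ with hqdef
  set j₀ := jfun τ with hj₀
  have hq0 : q ≠ 0 := qp_ne_zero 1 τ
  have hq1 : ‖q‖ < 1 := norm_qp_lt_one 1 τ
  obtain ⟨C₀, hC₀, hjb⟩ := exists_jfun_le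
  obtain ⟨Q, hQ1, hQ⟩ := exists_root_bound (minpoly ℚ q) fun y => ‖y‖
  choose zf hzf using exists_jfun_eq
  obtain ⟨Y, hY1, hY⟩ := exists_root_bound (minpoly ℚ j₀) fun y => (zf y).im + 1 / (zf y).im
  have hμq := minpoly.ne_zero hq.isIntegral
  have hμj := minpoly.ne_zero hj.isIntegral
  obtain ⟨a₁, ha₁, hint₁⟩ := exists_natCast_mul_integral hq
  obtain ⟨a₂, ha₂, hint₂⟩ := exists_natCast_mul_integral hj
  set a := a₁ * a₂ with ha
  have ha0 : 0 < a := Nat.mul_pos ha₁ ha₂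
  have haq : IsIntegral ℤ ((a : ℂ) * q) := by
    rw [ha, Nat.cast_mul, mul_comm (a₁ : ℂ), mul_assoc]; exact (isIntegral_natCast a₂).mul hint₁
  have haj : IsIntegral ℤ ((a : ℂ) * j₀) := by
    rw [ha, Nat.cast_mul, mul_assoc]; exact (isIntegral_natCast a₁).mul hint₂
  set d₀ := Module.finrank ℚ (IntermediateField.adjoin ℚ ({q, j₀} : Set ℂ))
  obtain ⟨C, hC, k₀, hk₀, hdata⟩ := exists_auxiliary_data hq0 hq1
  set la := Real.log a
  have hla : 0 ≤ la := Real.log_nonneg (by exact_mod_cast ha0)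
  have hlQ : 0 ≤ Real.log Q := Real.log_nonneg hQ1
  have hCY : 0 ≤ C₀ * Y := mul_nonneg (by linarith) (by linarith)
  set C₄ := C + 2 + 2 * (la + Real.log Q) + C₀ * Y
  have hC₄ : 0 ≤ C₄ := by simp only [C₄]; linarith
  set C₅ := C + 2 * la + d₀ * C₄ with hC₅
  have hd₀C : 0 ≤ (d₀ : ℝ) * C₄ := mul_nonneg (Nat.cast_nonneg d₀) hC₄
  refine false_of_growth (neg_pos.mpr (Real.log_neg (norm_pos_iff.mpr hq0) hq1))
    (show 1 ≤ C₅ by linarith) (k₀ := k₀) fun k hk => ?_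
  obtain ⟨A, s, M, S, hsM, hks, hS1, hA, hne, hS2, hup⟩ := hdata k hk
  haveI : NeZero S := ⟨by omega⟩
  obtain ⟨Φ, hΦ, hψ, hΦd, hΦr, hΦb⟩ := exists_modular_relation hC₀ hjb S
  have hqS : qp 1 (scaleH S τ) = q ^ S := by
    rw [hqdef, qp_eq, qp_eq, ← Complex.exp_nat_mul, coe_scaleH]; ring_nf
  have hjt : jTilde (q ^ S) = q ^ S * jfun (scaleH S τ) := by rw [← hqS, jTilde_qp]
  have e0 : 1 ≤ Φ.natDegree := by
    refine Nat.one_le_iff_ne_zero.mpr fun h => ?_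
    have := hΦr τ
    rw [hΦ.natDegree_eq_zero.mp h, Polynomial.eval₂_one] at this
    exact one_ne_zero this
  have hval := clearedValue_eq A (a := a) (e := Φ.natDegree) hjt
  have hL := liouville A (a := a) (S := S) hΦ (hΦr τ) hq hj (H := Real.exp (C₄ *
      ((k : ℝ) ^ 3 + (k : ℝ) ^ 2 * (S + Φ.natDegree)))) ?_ ?_ (Real.one_le_exp (by positivity)) ?_
  rotate_left
  · exact IsIntegral.sum _ fun p _ => (isIntegral_intCast _).mul (((isIntegral_natCast a).pow _).mul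
      ((haq.pow _).mul ((isIntegral_mul_root hΦ hΦd haj (hΦr τ)).pow _)))
  · rw [hval]
    exact mul_ne_zero (pow_ne_zero _ (Nat.cast_ne_zero.mpr ha0.ne')) hne
  · intro q' j' x hq' hj' hx
    refine norm_clearedValue_le (by omega) (by linarith) hlQ hCY hA ha0 ?_ ?_
    · rw [Real.exp_log (by linarith)]; exact hQ hμq _ hq'
    · refine (hΦb (zf j') x (by rwa [hzf])).trans (Real.exp_le_exp.mpr ?_)
      rw [mul_assoc C₀ Y, mul_comm Y]
      exact mul_le_mul_of_nonneg_left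
        (mul_le_mul_of_nonneg_left (hY hμj _ hj') (Nat.cast_nonneg S)) (by linarith)
  rw [hval, norm_mul, norm_pow, Complex.norm_natCast] at hL
  have h2 := hL.trans (mul_le_mul_of_nonneg_right
    (mul_le_mul_of_nonneg_left hup (by positivity)) (by positivity))
  have hqn : ‖q‖ ≠ 0 := norm_ne_zero_iff.mpr hq0
  have han : (a : ℝ) ≠ 0 := Nat.cast_ne_zero.mpr ha0.ne'
  have h3 := Real.log_le_log one_pos h2
  rw [Real.log_one, Real.log_mul (by positivity) (by positivity),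
    Real.log_mul (by positivity) (by positivity), Real.log_mul (by positivity) (by positivity),
    Real.log_pow, Real.log_pow, Real.log_pow, Real.log_exp, Real.log_exp] at h3
  push_cast at h3
  rw [← hsM] at h3
  have hS1' : (1 : ℝ) ≤ S := by exact_mod_cast hS1
  have hs : 0 ≤ s := by nlinarith [sq_nonneg (k : ℝ)]
  refine ⟨s, S, hks, hS1', hS2.trans (mul_le_mul_of_nonneg_right (by linarith)
    (mul_nonneg (Nat.cast_nonneg k) hs)), ?_⟩
  refine growth_step (C := C) (la := la) (c := d₀ * C₄) (e := (Φ.natDegree : ℝ)) hla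
    (by linarith) (by linarith) (by linarith) (Nat.cast_nonneg k) hs hS1' (by exact_mod_cast e0) hψ
    (le_add_of_nonneg_right (Real.log_nonneg hS1')) (le_of_le_of_eq h3 ?_)
  ring

end FA.Stephanois

end
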