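import Fermat.Agent.Transcendence.StephanoisBounds
import Mathlib.NumberTheory.SiegelsLemma

/-!
# The auxiliary function of Stéphanois

Siegel's lemma gives integers `A i j`, `i, j ≤ L = k ^ 2`, at most `exp (C k ^ 3)`, such that
`F z = ∑ A i j zⁱ (z J z)ʲ` vanishes to an order `M ≥ L ^ 2 / 2` at `0`. With `s = √M`, the
maximum principle on the circle of radius `1 - k / s` bounds by `C √(k s)` the first exponent `S`
with `F (q ^ S) ≠ 0`, and `F (q ^ S)` by `|q| ^ (S M) exp (C k s)`.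
-/

set_option autoImplicit false

noncomputable section

namespace FA.Stephanois

open UpperHalfPlane hiding I
open PowerSeries (coeff)
open Filter Metric FA.ModField FA.JBound
open scoped Real MatrixGroups Topology

/-- The indices. -/
abbrev Box (L : ℕ) : Type := Fin (L + 1) × Fin (L + 1)

/-- The series of `∑ A i j zⁱ (z J z)ʲ`. -/
def auxSeries {L : ℕ} (A : Box L → ℤ) : PowerSeries ℤ :=
  ∑ p, A p • (PowerSeries.X ^ (p.1 : ℕ) * ModularCurve.jNum ^ (p.2 : ℕ))

/-- `∑ A i j zⁱ (z J z)ʲ`. -/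
def auxFun {L : ℕ} (A : Box L → ℤ) (z : ℂ) : ℂ :=
  ∑ p, (A p : ℂ) * (z ^ (p.1 : ℕ) * jTilde z ^ (p.2 : ℕ))

theorem represents_auxSeries {L : ℕ} (A : Box L → ℤ) : Represents (auxSeries A) (auxFun A) :=
  Represents.sum _ A fun p _ => by
    simpa [Pi.mul_def, Pi.pow_def] using (represents_X.pow _).mul (represents_jNum.pow (p.2 : ℕ))

/-- Infinitely many values of `q` lie over one value of `j`. -/
theorem exists_infinite_qp (y : ℂ) :
    Set.Infinite {x : ℂ | ∃ τ : ℍ, jfun τ = y ∧ qp 1 τ = x} := by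
  obtain ⟨τ, rfl⟩ := exists_jfun_eq y
  set K : ℕ := ⌈|τ.re| / (τ.re ^ 2 + τ.im ^ 2)⌉₊ + 1
  have hK : |τ.re| < K * (τ.re ^ 2 + τ.im ^ 2) := by
    have hpos : 0 < τ.re ^ 2 + τ.im ^ 2 := by nlinarith [τ.im_pos]
    rw [← div_lt_iff₀ hpos]
    simp only [K]
    push_cast
    linarith [Nat.le_ceil (|τ.re| / (τ.re ^ 2 + τ.im ^ 2))]
  let g : ℕ → SL(2, ℤ) := fun n => ⟨!![1, 0; ((n + K : ℕ) : ℤ), 1], by simp [Matrix.det_fin_two_of]⟩
  refine Set.infinite_of_injective_forall_mem (f := fun n => qp 1 (g n • τ)) (fun n m h => ?_)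
    fun n => ⟨_, jfun_smul _ _, rfl⟩
  have h1 := congrArg norm h
  simp only [norm_qp, Real.exp_eq_exp, ModularGroup.im_smul_eq_div_normSq,
    ModularGroup.denom_apply] at h1
  have hd : ∀ n, Complex.normSq (((g n) 1 0 : ℤ) * (τ : ℂ) + ((g n) 1 1 : ℤ)) =
      ((n : ℝ) + K) ^ 2 * (τ.re ^ 2 + τ.im ^ 2) + 2 * ((n : ℝ) + K) * τ.re + 1 := fun n => by
    simp [g, Complex.normSq_apply]
    ring
  rw [hd, hd] at h1
  have hπ : (-2 * π) ≠ 0 := by simp [Real.pi_ne_zero]
  have h2 := congrArg (·⁻¹) (mul_left_cancel₀ hπ h1)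
  simp only [inv_div, div_left_inj' τ.im_pos.ne'] at h2
  have h3 : ((n : ℝ) - m) *
      (((n : ℝ) + m + 2 * K) * (τ.re ^ 2 + τ.im ^ 2) + 2 * τ.re) = 0 := by
    linear_combination h2
  rcases mul_eq_zero.mp h3 with h4 | h4
  · exact_mod_cast sub_eq_zero.mp h4
  · nlinarith [neg_abs_le τ.re, mul_nonneg (add_nonneg (Nat.cast_nonneg (α := ℝ) n)
      (Nat.cast_nonneg m)) (add_nonneg (sq_nonneg τ.re) (sq_nonneg τ.im))]

/-- **`j` is transcendental over `ℂ(q)`.** -/
theorem auxSeries_ne_zero {L : ℕ} {A : Box L → ℤ} (hA : A ≠ 0) : auxSeries A ≠ 0 := by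
  classical
  intro h0
  have hval : ∀ τ : ℍ, ∑ p : Box L,
      (A p : ℂ) * jfun τ ^ (p.2 : ℕ) * qp 1 τ ^ ((p.1 : ℕ) + p.2) = 0 := fun τ => by
    have hq : ‖qp 1 τ‖ < 1 := norm_qp_lt_one 1 τ
    have h := (represents_auxSeries A _ hq)
    simp only [h0, map_zero, Int.cast_zero, zero_mul] at h
    rw [← h.unique hasSum_zero, auxFun]
    refine Finset.sum_congr rfl fun p _ => ?_
    rw [jTilde_qp, mul_pow, pow_add]
    ring
  have hm : ∀ (m : ℕ) (y : ℂ), ∑ p : Box L,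
      (if (p.1 : ℕ) + p.2 = m then (A p : ℂ) * y ^ (p.2 : ℕ) else 0) = 0 := by
    intro m y
    set R : Polynomial ℂ :=
      ∑ p : Box L, Polynomial.monomial ((p.1 : ℕ) + p.2) ((A p : ℂ) * y ^ (p.2 : ℕ))
    have hR : R = 0 := Polynomial.eq_zero_of_infinite_isRoot R ((exists_infinite_qp y).mono
      fun x hx => by
        obtain ⟨τ, hτ, hτx⟩ := hx
        subst hτ hτx
        simpa [R, Polynomial.eval_finsetSum] using hval τ)
    have h := congrArg (Polynomial.coeff · m) hR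
    simpa [R, Polynomial.finsetSum_coeff, Polynomial.coeff_monomial] using h
  refine hA (funext fun p₀ => ?_)
  set Q : Polynomial ℂ := ∑ p : Box L,
    (if (p.1 : ℕ) + p.2 = (p₀.1 : ℕ) + p₀.2 then Polynomial.monomial (p.2 : ℕ) (A p : ℂ) else 0)
  have hQ : Q = 0 := Polynomial.funext fun y => by
    have hy := hm ((p₀.1 : ℕ) + p₀.2) y
    simp only [Q, Polynomial.eval_finsetSum, Polynomial.eval_zero]
    refine (Finset.sum_congr rfl fun p _ => ?_).trans hy
    split_ifs <;> simp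
  have h := congrArg (Polynomial.coeff · (p₀.2 : ℕ)) hQ
  simp only [Q, Polynomial.finsetSum_coeff, Polynomial.coeff_zero] at h
  rw [Finset.sum_eq_single p₀ (fun p _ hp => ?_) (by simp)] at h
  · simpa using h
  · split_ifs with he
    · rw [Polynomial.coeff_monomial, if_neg]
      intro h2
      refine hp (Prod.ext (Fin.ext ?_) (Fin.ext h2))
      omega
    · simp

theorem rpow_le_self_of_one_le {x e : ℝ} (hx : 1 ≤ x) (he : e ≤ 1) : x ^ e ≤ x :=
  (Real.rpow_le_rpow_of_exponent_le hx he).trans_eq (Real.rpow_one x)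

attribute [local instance] Matrix.seminormedAddCommGroup in
/-- **Siegel's lemma for the coefficients.** -/
theorem exists_aux {C : ℝ} (hC1 : 1 ≤ C)
    (hC : ∀ r : ℝ, 0 ≤ r → r < 1 → jMajor r ≤ Real.exp (C / (1 - r))) {k : ℕ} (hk : 2 ≤ k) :
    ∃ A : Box (k ^ 2) → ℤ, A ≠ 0 ∧ (∀ n, 2 * n + 2 ≤ k ^ 4 → coeff n (auxSeries A) = 0) ∧
      ∀ p, |(A p : ℝ)| ≤ Real.exp ((C + 12) * (k : ℝ) ^ 3) := by
  classical
  set L := k ^ 2
  set m := (L + 1) * (L + 1) / 2 with hm
  have hL : 4 ≤ L := by simp only [L]; nlinarith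
  have hm0 : 0 < m := Nat.div_pos (by nlinarith) two_pos
  have hcard : Fintype.card (Box L) = (L + 1) * (L + 1) := by simp
  let M : Matrix (Fin m) (Box L) ℤ := Matrix.of fun n p =>
    coeff (n : ℕ) (PowerSeries.X ^ (p.1 : ℕ) * ModularCurve.jNum ^ (p.2 : ℕ))
  obtain ⟨t, ht, hMt, hnorm⟩ := Int.Matrix.exists_ne_zero_int_vec_norm_le M
    (by rw [hcard, Fintype.card_fin]; exact Nat.div_lt_self (by positivity) one_lt_two)
    (by rwa [Fintype.card_fin])
  refine ⟨t, ht, fun n hn => ?_, fun p => ?_⟩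
  · have hnm : n < m := by
      rw [hm, show k ^ 4 = L * L by simp only [L]; ring] at *
      have : 2 * (n + 1) ≤ (L + 1) * (L + 1) := by nlinarith
      exact Nat.lt_of_succ_le ((Nat.le_div_iff_mul_le two_pos).mpr (by omega))
    have h := congrFun hMt ⟨n, hnm⟩
    simp only [Matrix.mulVec, dotProduct, M, Matrix.of_apply, Pi.zero_apply] at h
    rw [auxSeries, map_sum, ← h]
    exact Finset.sum_congr rfl fun p _ => by rw [map_zsmul, smul_eq_mul, mul_comm]
  have hk' : (2 : ℝ) ≤ k := by exact_mod_cast hk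
  have hk0 : (0 : ℝ) < k := by linarith
  set r : ℝ := 1 - 1 / k with hr
  have hk1 : 1 / (k : ℝ) ≤ 1 / 2 := one_div_le_one_div_of_le two_pos hk'
  have hr0 : 1 / 2 ≤ r := by rw [hr]; linarith
  have hr1 : r < 1 := by rw [hr]; linarith [one_div_pos.mpr hk0]
  have hlog : -Real.log r ≤ 2 / k := by
    have h1 := Real.one_sub_inv_le_log_of_pos (show 0 < r by linarith)
    have h2 : r⁻¹ ≤ 1 + 2 / k := by
      rw [inv_le_iff_one_le_mul₀ (by linarith), hr]
      have h3 : 2 * (1 / (k : ℝ)) ^ 2 ≤ 1 / k := by nlinarith [one_div_pos.mpr hk0]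
      nlinarith [show 2 / (k : ℝ) = 2 * (1 / k) by ring]
    linarith
  have hLk : ((L : ℕ) : ℝ) = (k : ℝ) ^ 2 := by simp [L]
  have hentry : ∀ n p, ‖M n p‖ ≤ Real.exp ((C + 8) * (k : ℝ) ^ 3) := by
    intro n p
    have h := abs_coeff_monomial_le hC (p.1 : ℕ) (p.2 : ℕ) n (by linarith : (0 : ℝ) ≤ r) hr1
    rw [← le_div_iff₀ (by positivity), hr] at h
    rw [Int.norm_eq_abs]
    refine h.trans ?_
    rw [← hr, ← Real.exp_log (show 0 < r by linarith), ← Real.exp_nat_mul, ← Real.exp_sub,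
      Real.exp_log (show 0 < r by linarith), show 1 - r = 1 / k by rw [hr]; ring,
      div_div_eq_mul_div,
      div_one]
    refine Real.exp_le_exp.mpr ?_
    have hn : (n : ℝ) ≤ 4 * (k : ℝ) ^ 4 := by
      have : (n : ℕ) ≤ 4 * (L * L) := n.2.le.trans (by
        rw [hm]; exact Nat.div_le_of_le_mul (by nlinarith))
      have h' : (n : ℝ) ≤ 4 * ((L : ℝ) * L) := by exact_mod_cast this
      rw [hLk] at h'
      linarith
    have hp : ((p.2 : ℕ) : ℝ) ≤ (k : ℝ) ^ 2 := by rw [← hLk]; exact_mod_cast p.2.is_le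
    have h1 : ((p.2 : ℕ) : ℝ) * (C * k) ≤ (k : ℝ) ^ 2 * (C * k) :=
      mul_le_mul_of_nonneg_right hp (by positivity)
    have h2 : (n : ℝ) * -Real.log r ≤ 4 * (k : ℝ) ^ 4 * (2 / k) :=
      mul_le_mul hn hlog (by linarith [Real.log_nonpos (by linarith) hr1.le]) (by positivity)
    rw [show 4 * (k : ℝ) ^ 4 * (2 / k) = 8 * (k : ℝ) ^ 3 by field_simp; ring] at h2
    nlinarith
  have hM : max 1 ‖M‖ ≤ Real.exp ((C + 8) * (k : ℝ) ^ 3) :=
    max_le (Real.one_le_exp (by positivity)) ((Matrix.norm_le_iff (Real.exp_pos _).le).mpr hentry)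
  have hpt : |(t p : ℝ)| ≤ ‖t‖ := by rw [← Int.norm_eq_abs]; exact norm_le_pi_norm t p
  refine hpt.trans (hnorm.trans ((rpow_le_self_of_one_le ?_ ?_).trans ?_))
  · refine one_le_mul_of_one_le_of_one_le ?_ (le_max_left _ _)
    rw [hcard]; exact_mod_cast Nat.one_le_iff_ne_zero.mpr (by positivity)
  · rw [hcard, Fintype.card_fin]
    have h2 : ((2 * m : ℕ) : ℝ) ≤ (((L + 1) * (L + 1) : ℕ) : ℝ) :=
      Nat.cast_le.mpr (Nat.mul_div_le _ _)
    have h3 : (0 : ℝ) < m := by exact_mod_cast hm0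
    push_cast at h2 ⊢
    rw [div_le_one (by linarith)]
    linarith
  · rw [hcard, show (C + 12) * (k : ℝ) ^ 3 = 4 * (k : ℝ) ^ 3 + (C + 8) * (k : ℝ) ^ 3 by ring,
      Real.exp_add]
    refine mul_le_mul ?_ hM (by positivity) (Real.exp_pos _).le
    push_cast
    rw [hLk]
    have h2 : (k : ℝ) ^ 2 + 1 ≤ Real.exp ((k : ℝ) ^ 2) := Real.add_one_le_exp _
    refine (mul_le_mul h2 h2 (by positivity) (Real.exp_pos _).le).trans ?_
    rw [← Real.exp_add]
    exact Real.exp_le_exp.mpr (by nlinarith [sq_nonneg (k : ℝ)])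

/-- Division by `z ^ M`. -/
theorem exists_tail {φ : PowerSeries ℤ} {f : ℂ → ℂ} (hf : Represents φ f) {M : ℕ}
    (hlow : ∀ n < M, coeff n φ = 0) :
    ∃ G : ℂ → ℂ, DifferentiableOn ℂ G (ball 0 1) ∧ G 0 = (coeff M φ : ℤ) ∧
      ∀ z : ℂ, ‖z‖ < 1 → f z = z ^ M * G z := by
  refine ⟨fun z => ∑' n, ((coeff (n + M) φ : ℤ) : ℂ) * z ^ n, fun z hz => ?_, ?_, fun z hz => ?_⟩
  · rw [mem_ball_zero_iff] at hz
    obtain ⟨r, hzr, hr1⟩ := exists_between hz
    have hr0 : 0 < r := (norm_nonneg z).trans_lt hzr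
    have hu : Summable fun n => ‖((coeff (n + M) φ : ℤ) : ℂ) * (r : ℂ) ^ n‖ := by
      have h := (hf (r : ℂ) (by simpa [abs_of_pos hr0] using hr1)).summable
      refine (((summable_nat_add_iff M).mpr h).mul_right ((r : ℂ) ^ M)⁻¹).norm.congr fun n => ?_
      congr 1
      rw [pow_add]
      field_simp [Complex.ofReal_ne_zero.mpr hr0.ne']
    have hd := Complex.differentiableOn_tsum_of_summable_norm (U := ball (0 : ℂ) r)
      (F := fun n z => ((coeff (n + M) φ : ℤ) : ℂ) * z ^ n) hu (fun n => by fun_prop) isOpen_ball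
      fun n w hw => by
        rw [mem_ball_zero_iff] at hw
        rw [norm_mul, norm_mul, norm_pow, norm_pow, Complex.norm_real, Real.norm_eq_abs,
          abs_of_pos hr0]
        gcongr
    exact (hd.differentiableAt (isOpen_ball.mem_nhds (mem_ball_zero_iff.mpr hzr))
      ).differentiableWithinAt
  · show ∑' n, _ = _
    rw [tsum_eq_single 0 fun n hn => by rw [zero_pow hn, mul_zero]]
    simp
  · have h := (hasSum_nat_add_iff' M).mpr (hf z hz)
    rw [Finset.sum_eq_zero fun n hn => by rw [hlow n (Finset.mem_range.mp hn)]; simp, sub_zero] at h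
    rw [← h.tsum_eq, ← tsum_mul_left]
    exact tsum_congr fun n => by rw [pow_add]; ring

/-- **The maximum principle with zeros.** -/
theorem norm_zero_le (s : Finset ℂ) : ∀ {G : ℂ → ℂ}, DifferentiableOn ℂ G (ball 0 1) →
    (∀ a ∈ s, G a = 0) → ∀ {r ρ B : ℝ}, (∀ a ∈ s, ‖a‖ ≤ ρ) → 0 ≤ ρ → ρ < r → r < 1 →
    (∀ z, ‖z‖ = r → ‖G z‖ ≤ B) → ‖G 0‖ ≤ (∏ a ∈ s, ‖a‖) * (B / (r - ρ) ^ s.card) := by
  classical
  induction s using Finset.induction with
  | empty =>
    intro G hG _ r ρ B _ hρ hρr hr hB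
    simp only [Finset.prod_empty, Finset.card_empty, pow_zero, div_one, one_mul]
    refine Complex.norm_le_of_forall_mem_frontier_norm_le (U := ball (0 : ℂ) r) isBounded_ball
      ?_ (fun w hw => ?_) (subset_closure (mem_ball_self (hρ.trans_lt hρr)))
    · refine (hG.mono ?_).diffContOnCl
      exact closure_ball_subset_closedBall.trans (closedBall_subset_ball hr)
    · rw [frontier_ball _ (hρ.trans_lt hρr).ne', mem_sphere_zero_iff_norm] at hw
      exact hB w hw
  | @insert a s ha ih =>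
    intro G hG hz r ρ B hρa hρ hρr hr hB
    have haρ := hρa a (Finset.mem_insert_self a s)
    have ha1 : a ∈ ball (0 : ℂ) 1 := mem_ball_zero_iff.mpr (by linarith)
    have hGa : G a = 0 := hz a (Finset.mem_insert_self a s)
    have hH := (Complex.differentiableOn_dslope (isOpen_ball.mem_nhds ha1)).mpr hG
    have hfac : ∀ w, G w = (w - a) * dslope G a w := fun w => by
      have := sub_smul_dslope G a w
      rw [smul_eq_mul, hGa, sub_zero] at this
      exact this.symm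
    have h := ih hH (fun b hb => (mul_eq_zero.mp
      ((hfac b).symm.trans (hz b (Finset.mem_insert_of_mem hb)))).resolve_left
        (sub_ne_zero.mpr fun e : b = a => ha (e ▸ hb)))
      (fun b hb => hρa b (Finset.mem_insert_of_mem hb)) hρ hρr hr (B := B / (r - ρ)) fun w hw => by
        rw [le_div_iff₀ (by linarith), mul_comm]
        have h1 := hB w hw
        rw [hfac w, norm_mul] at h1
        refine le_trans (mul_le_mul_of_nonneg_right ?_ (norm_nonneg _)) h1
        have := norm_sub_norm_le w a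
        linarith
    rw [hfac 0, norm_mul, zero_sub, norm_neg, Finset.prod_insert ha,
      Finset.card_insert_of_notMem ha,
      pow_succ', ← div_div, mul_assoc]
    exact mul_le_mul_of_nonneg_left h (norm_nonneg a)

theorem two_mul_sum_Icc_id (n : ℕ) : 2 * ∑ i ∈ Finset.Icc 1 n, i = n * (n + 1) := by
  induction n with
  | zero => simp
  | succ n ih => rw [Finset.sum_Icc_succ_top (by omega), mul_add, ih]; ring

/-- **The auxiliary data.** -/
theorem exists_auxiliary_data {q : ℂ} (hq0 : q ≠ 0) (hq1 : ‖q‖ < 1) :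
    ∃ C : ℝ, 1 ≤ C ∧ ∃ k₀ : ℕ, 2 ≤ k₀ ∧ ∀ k : ℕ, k₀ ≤ k →
      ∃ (A : Box (k ^ 2) → ℤ) (s : ℝ) (M S : ℕ), s ^ 2 = M ∧ (k : ℝ) ^ 2 ≤ 2 * s ∧ 1 ≤ S ∧
        (∀ p, |(A p : ℝ)| ≤ Real.exp (C * (k : ℝ) ^ 3)) ∧ auxFun A (q ^ S) ≠ 0 ∧
        (S : ℝ) ^ 2 ≤ C * (k * s) ∧
        ‖auxFun A (q ^ S)‖ ≤ ‖q‖ ^ (S * M) * Real.exp (C * (k * s)) := by
  classical
  obtain ⟨C, hC1, hC⟩ := exists_jMajor_le
  set x := ‖q‖
  have hx0 : 0 < x := norm_pos_iff.mpr hq0
  set δ := (1 - x) / 2 with hδ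
  have hδ0 : 0 < δ := by rw [hδ]; linarith
  set lam := -Real.log x with hlam
  have hlam0 : 0 < lam := neg_pos.mpr (Real.log_neg hx0 hq1)
  set Λ := -Real.log δ with hΛ
  set C₂ := 2 * (C + 12) + C + 10
  have hC₂ : 1 ≤ C₂ := by simp only [C₂]; linarith
  set C₃ := max C₂ (4 / lam * (C₂ + 2 * Λ ^ 2 / lam + lam / 2))
  refine ⟨max (C + 12) C₃, le_max_of_le_left (by linarith), ⌈2 / δ⌉₊ + 2, by omega, fun k hk => ?_⟩
  have hk2 : 2 ≤ k := by omega
  have hkδ : 2 / δ ≤ k := (Nat.le_ceil _).trans (by exact_mod_cast (by omega : ⌈2 / δ⌉₊ ≤ k))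
  obtain ⟨A, hA0, hlow, hA⟩ := exists_aux hC1 hC hk2
  have hne : ∃ n, coeff n (auxSeries A) ≠ 0 := by
    by_contra h
    exact auxSeries_ne_zero hA0 (PowerSeries.ext fun n => by
      rw [map_zero]; exact not_not.mp fun hn => h ⟨n, hn⟩)
  set M := Nat.find hne with hM
  have hM0 : k ^ 4 ≤ 2 * M + 1 := by
    by_contra hlt
    exact Nat.find_spec hne (hlow M (by omega))
  set s := Real.sqrt M
  have hsM : s ^ 2 = M := Real.sq_sqrt (Nat.cast_nonneg M)
  have hk' : (2 : ℝ) ≤ k := by exact_mod_cast hk2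
  have hks : (k : ℝ) ^ 2 ≤ 2 * s := by
    have h1 : ((k : ℝ) ^ 2) ^ 2 ≤ 2 * (M : ℝ) + 1 := by
      rw [← pow_mul]; exact_mod_cast hM0
    have hM1 : (2 : ℝ) ≤ M := by
      linarith [pow_le_pow_left₀ two_pos.le hk' 4, show ((k : ℝ) ^ 2) ^ 2 = (k : ℝ) ^ 4 by ring]
    refine (abs_le_of_sq_le_sq' ?_ (by positivity)).2
    rw [mul_pow, hsM]
    linarith
  have hs2 : 2 ≤ s := by nlinarith
  set ε := (k : ℝ) / s with hε
  have hεk : ε ≤ 2 / k := by
    rw [hε, div_le_div_iff₀ (by linarith) (by linarith)]; linarith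
  have hεδ : ε ≤ δ := hεk.trans (by
    rw [div_le_iff₀ (by linarith)]; rw [div_le_iff₀ hδ0] at hkδ; linarith)
  have hε0 : 0 < ε := div_pos (by linarith) (by linarith)
  have hεh : ε ≤ 1 / 2 := by rw [hδ] at hεδ; linarith
  set r := 1 - ε with hr
  have hr0 : 0 < r := by linarith
  have hrx : x + δ ≤ r := by rw [hr, hδ] at *; linarith
  obtain ⟨G, hG, hG0, hFG⟩ := exists_tail (represents_auxSeries A) (M := M)
    fun n hn => not_not.mp (Nat.find_min hne hn)
  have hks0 : 4 ≤ (k : ℝ) * s := by nlinarith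
  -- the maximum on the circle
  have hB : ∀ z : ℂ, ‖z‖ = r → ‖G z‖ ≤ Real.exp (C₂ * (k * s)) := by
    intro z hz
    have hz1 : ‖z‖ < 1 := by rw [hz, hr]; linarith
    have hj : ‖jTilde z‖ ≤ Real.exp (C * s / k) := by
      refine (norm_jTilde_le hz.le (by linarith)).trans ((hC r hr0.le (by linarith)).trans_eq ?_)
      rw [hr, sub_sub_cancel, hε, div_div_eq_mul_div]
    have hterm : ∀ p : Box (k ^ 2), ‖(A p : ℂ) * (z ^ (p.1 : ℕ) * jTilde z ^ (p.2 : ℕ))‖ ≤
        Real.exp ((C + 12) * (k : ℝ) ^ 3) * Real.exp (C * (k * s)) := fun p => by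
      rw [norm_mul, norm_mul, norm_pow, norm_pow, Complex.norm_intCast]
      refine mul_le_mul (hA p) ?_ (by positivity) (Real.exp_pos _).le
      refine (mul_le_of_le_one_left (by positivity) (pow_le_one₀ (norm_nonneg _) hz1.le)).trans ?_
      refine (pow_le_pow_left₀ (norm_nonneg _) hj _).trans ?_
      rw [← Real.exp_nat_mul, Real.exp_le_exp]
      have hp : ((p.2 : ℕ) : ℝ) ≤ ((k ^ 2 : ℕ) : ℝ) := Nat.cast_le.mpr p.2.is_le
      push_cast at hp
      refine (mul_le_mul_of_nonneg_right hp (by positivity)).trans_eq ?_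
      field_simp
    have hF : ‖auxFun A z‖ ≤ Real.exp ((2 * (C + 12) + C + 8) * (k * s)) := by
      refine (norm_sum_le _ _).trans ((Finset.sum_le_card_nsmul _ _ _ fun p _ => hterm p).trans ?_)
      rw [nsmul_eq_mul, Finset.card_univ, Fintype.card_prod, Fintype.card_fin]
      push_cast
      have h2 : (k : ℝ) ^ 2 + 1 ≤ Real.exp ((k : ℝ) ^ 2) := Real.add_one_le_exp _
      refine (mul_le_mul_of_nonneg_right (mul_le_mul h2 h2 (by positivity) (Real.exp_pos _).le)
        (by positivity)).trans ?_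
      rw [← Real.exp_add, ← Real.exp_add, ← Real.exp_add, Real.exp_le_exp]
      nlinarith [mul_le_mul_of_nonneg_left hks (show (0 : ℝ) ≤ k by linarith),
        mul_le_mul_of_nonneg_right (show (1 : ℝ) ≤ k by linarith) (show (0 : ℝ) ≤ s by linarith)]
    rw [hFG z hz1, norm_mul, norm_pow, hz, ← le_div_iff₀' (by positivity)] at hF
    refine hF.trans ?_
    rw [← Real.exp_log hr0, ← Real.exp_nat_mul, ← Real.exp_sub, Real.exp_le_exp]
    have h1 : -Real.log r ≤ 2 * ε := by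
      have h1 := Real.one_sub_inv_le_log_of_pos hr0
      have h2 : r⁻¹ ≤ 1 + 2 * ε := by
        rw [inv_le_iff_one_le_mul₀ hr0, hr]; nlinarith
      linarith
    have h2 : (M : ℝ) * -Real.log r ≤ 2 * (k * s) :=
      (mul_le_mul_of_nonneg_left h1 (Nat.cast_nonneg M)).trans_eq (by
        rw [← hsM, hε]; field_simp)
    simp only [C₂]
    nlinarith
  -- the first exponent without a zero
  have hG00 : G 0 ≠ 0 := by rw [hG0]; exact_mod_cast Nat.find_spec hne
  have hex : ∃ S, 1 ≤ S ∧ auxFun A (q ^ S) ≠ 0 := by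
    have ht : Tendsto (fun n : ℕ => q ^ (n + 1)) atTop (𝓝 0) :=
      (tendsto_pow_atTop_nhds_zero_of_norm_lt_one hq1).comp (tendsto_add_atTop_nat 1)
    obtain ⟨n, hn⟩ := (ht.eventually ((hG.differentiableAt
      (isOpen_ball.mem_nhds (mem_ball_self one_pos))).continuousAt.eventually_ne hG00)).exists
    refine ⟨n + 1, by omega, ?_⟩
    rw [hFG _ (by rw [norm_pow]; exact pow_lt_one₀ (norm_nonneg q) hq1 (by omega))]
    exact mul_ne_zero (pow_ne_zero _ (pow_ne_zero _ hq0)) hn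
  set S := Nat.find hex
  have hS1 : 1 ≤ S := (Nat.find_spec hex).1
  have hS : auxFun A (q ^ S) ≠ 0 := (Nat.find_spec hex).2
  have hqS : ∀ i, 1 ≤ i → ‖q ^ i‖ ≤ x := fun i hi => by
    rw [norm_pow]; exact pow_le_of_le_one (norm_nonneg q) hq1.le (by omega)
  have hinj : Set.InjOn (fun i : ℕ => q ^ i) (Finset.Icc 1 (S - 1) : Set ℕ) := fun i _ j _ h => by
    have h' := congrArg norm h
    simp only [norm_pow] at h'
    exact (pow_right_injective₀ hx0 hq1.ne) h'
  have h0 := norm_zero_le ((Finset.Icc 1 (S - 1)).image fun i => q ^ i) hG (fun a ha => ?_)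
    (r := r) (ρ := x) (fun a ha => ?_) hx0.le (by linarith) (by linarith) hB
  rotate_left
  · obtain ⟨i, hi, rfl⟩ := Finset.mem_image.mp ha
    obtain ⟨hi1, hi2⟩ := Finset.mem_Icc.mp hi
    have hz : auxFun A (q ^ i) = 0 :=
      not_not.mp fun h => Nat.find_min hex (m := i) (by omega) ⟨hi1, h⟩
    rw [hFG _ ((hqS i hi1).trans_lt hq1)] at hz
    exact (mul_eq_zero.mp hz).resolve_left (pow_ne_zero _ (pow_ne_zero _ hq0))
  · obtain ⟨i, hi, rfl⟩ := Finset.mem_image.mp ha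
    exact hqS i (Finset.mem_Icc.mp hi).1
  rw [Finset.prod_image hinj, Finset.card_image_of_injOn hinj, Nat.card_Icc] at h0
  have h1 : (1 : ℝ) ≤ x ^ (∑ i ∈ Finset.Icc 1 (S - 1), i) *
      (Real.exp (C₂ * (k * s)) / δ ^ (S - 1)) := by
    refine le_trans ?_ (h0.trans ?_)
    · rw [hG0, Complex.norm_intCast]
      exact_mod_cast Int.one_le_abs (Nat.find_spec hne)
    · rw [← Finset.prod_pow_eq_pow_sum, Nat.add_sub_cancel]
      simp only [norm_pow]
      exact mul_le_mul_of_nonneg_left (div_le_div_of_nonneg_left (Real.exp_pos _).le (by positivity)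
        (pow_le_pow_left₀ hδ0.le (by linarith) _)) (Finset.prod_nonneg fun i _ => by positivity)
  have h2 := Real.log_le_log one_pos h1
  rw [Real.log_one, Real.log_mul (by positivity) (by positivity), Real.log_pow,
    Real.log_div (by positivity) (by positivity), Real.log_pow, Real.log_exp] at h2
  have h3 : 2 * ((∑ i ∈ Finset.Icc 1 (S - 1), i : ℕ) : ℝ) = ((S : ℝ) - 1) * S := by
    have e := congrArg (Nat.cast : ℕ → ℝ) (two_mul_sum_Icc_id (S - 1))
    push_cast [Nat.cast_sub hS1] at e ⊢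
    linarith
  rw [Nat.cast_sub hS1, Nat.cast_one] at h2
  set T := ((∑ i ∈ Finset.Icc 1 (S - 1), i : ℕ) : ℝ)
  have hS2 : (S : ℝ) ^ 2 ≤ C₃ * (k * s) := by
    have h4 : lam * (((S : ℝ) - 1) * S) ≤ 2 * (C₂ * (k * s)) + 2 * (((S : ℝ) - 1) * Λ) := by
      have : lam * T ≤ C₂ * (k * s) + ((S : ℝ) - 1) * Λ := by simp only [hlam, hΛ]; linarith
      calc lam * (((S : ℝ) - 1) * S) = 2 * (lam * T) := by rw [← h3]; ring
        _ ≤ _ := by linarith
    have h5 : ((S : ℝ) - 1) * Λ ≤ lam / 8 * (S : ℝ) ^ 2 + 2 * Λ ^ 2 / lam := by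
      have hS1' : (1 : ℝ) ≤ S := by exact_mod_cast hS1
      have e : lam / 8 * (S : ℝ) ^ 2 + 2 * Λ ^ 2 / lam - S * |Λ| =
          2 / lam * (lam * S / 4 - |Λ|) ^ 2 := by
        rw [← sq_abs Λ]
        field_simp
        ring
      have : 0 ≤ 2 / lam * (lam * S / 4 - |Λ|) ^ 2 := by positivity
      nlinarith [le_abs_self Λ, abs_nonneg Λ]
    have h6 : lam * S ≤ lam / 4 * (S : ℝ) ^ 2 + lam := by nlinarith [sq_nonneg ((S : ℝ) - 2)]
    have h7 : (S : ℝ) ^ 2 ≤ 4 / lam * (C₂ + 2 * Λ ^ 2 / lam + lam / 2) * (k * s) := by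
      have h8 : lam / 2 * (S : ℝ) ^ 2 ≤ 2 * (C₂ * (k * s)) + 4 * Λ ^ 2 / lam + lam := by
        have : 4 * Λ ^ 2 / lam = 2 * (2 * Λ ^ 2 / lam) := by ring
        linarith
      rw [show 4 / lam * (C₂ + 2 * Λ ^ 2 / lam + lam / 2) * (k * s) =
        4 * ((C₂ + 2 * Λ ^ 2 / lam + lam / 2) * (k * s)) / lam by ring, le_div_iff₀ hlam0]
      have h9 : 0 ≤ 2 * Λ ^ 2 / lam + lam / 2 := by positivity
      nlinarith [mul_le_mul_of_nonneg_left (show 1 ≤ (k : ℝ) * s by linarith) h9]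
    exact h7.trans (mul_le_mul_of_nonneg_right (le_max_right _ _) (by positivity))
  have hmax : C₂ ≤ max (C + 12) C₃ := le_max_of_le_right (le_max_left _ _)
  refine ⟨A, s, M, S, hsM, hks, hS1, fun p => (hA p).trans (Real.exp_le_exp.mpr
    (mul_le_mul_of_nonneg_right (le_max_left _ _) (by positivity))), hS,
    hS2.trans (mul_le_mul_of_nonneg_right (le_max_right _ _) (by positivity)), ?_⟩
  have hqS1 : ‖q ^ S‖ ≤ x := hqS S hS1
  rw [hFG _ (hqS1.trans_lt hq1), norm_mul, ← pow_mul, norm_pow]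
  refine mul_le_mul_of_nonneg_left ?_ (by positivity)
  refine le_trans ?_ (Real.exp_le_exp.mpr (mul_le_mul_of_nonneg_right hmax (by positivity)))
  refine Complex.norm_le_of_forall_mem_frontier_norm_le (U := ball (0 : ℂ) r) isBounded_ball
    ?_ (fun w hw => ?_) (subset_closure (mem_ball_zero_iff.mpr (by linarith)))
  · refine (hG.mono ?_).diffContOnCl
    exact closure_ball_subset_closedBall.trans (closedBall_subset_ball (by linarith))
  · rw [frontier_ball _ hr0.ne', mem_sphere_zero_iff_norm] at hw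
    exact hB w hw

end FA.Stephanois

end
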