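import Fermat.Agent.Tau.JBound
import Fermat.Agent.Tau.ModularSymmetry
import Mathlib.NumberTheory.Harmonic.Bounds

/-!
# Bounds for the theorem of Stéphanois

`q j(q)` has non-negative integral coefficients, so everything is controlled by its values at real
`q`, where the invariance under `SL(2, ℤ)` gives `exp (C / (1 - q))`. The modular polynomial of
level `N` has degree at most `N (1 + log N)` in both variables and its roots over `j z` are at
most `exp (C N (Im z + 1 / Im z))`.
-/

set_option autoImplicit false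
set_option linter.style.haveILetI false

noncomputable section

namespace FA.Stephanois

open UpperHalfPlane hiding I
open PowerSeries (coeff)
open FA.ModField FA.JBound
open scoped Real MatrixGroups Polynomial

/-! ### The series `q j(q)` on the disc -/

theorem exists_qp {z : ℂ} (hz : z ≠ 0) (h1 : ‖z‖ < 1) : ∃ τ : ℍ, qp 1 τ = z :=
  ⟨⟨_, Function.Periodic.im_invQParam_pos_of_norm_lt_one (h := ((1 : ℕ) : ℝ)) (by norm_num) h1 hz⟩,
    Function.Periodic.qParam_right_inv (h := ((1 : ℕ) : ℝ)) (by norm_num) hz⟩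

theorem norm_qp (τ : ℍ) : ‖qp 1 τ‖ = Real.exp (-2 * π * τ.im) := by
  simp [qp, Function.Periodic.norm_qParam]

/-- `q j(q)` as a function on the disc. -/
def jTilde (z : ℂ) : ℂ := ∑' k, (a k : ℂ) * z ^ k

theorem hasSum_jTilde {z : ℂ} (h : ‖z‖ < 1) :
    HasSum (fun k => (a k : ℂ) * z ^ k) (jTilde z) := by
  refine Summable.hasSum ?_
  rcases eq_or_ne z 0 with rfl | hz
  · exact summable_of_ne_finset_zero (s := {0}) fun k hk => by
      simp [zero_pow (Finset.notMem_singleton.mp hk)]
  · obtain ⟨τ, rfl⟩ := exists_qp hz h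
    exact (hasSum_qj τ).summable

theorem jTilde_qp (τ : ℍ) : jTilde (qp 1 τ) = qp 1 τ * jfun τ := (hasSum_qj τ).tsum_eq

/-- The majorant. -/
def jMajor (r : ℝ) : ℝ := ∑' k, (a k : ℝ) * r ^ k

theorem summable_jMajor {r : ℝ} (h0 : 0 ≤ r) (h1 : r < 1) :
    Summable fun k => (a k : ℝ) * r ^ k := by
  have h := (hasSum_jTilde (z := (r : ℂ)) (by simpa [abs_of_nonneg h0] using h1)).summable
  refine (Complex.reCLM.summable h).congr fun k => ?_
  rw [Complex.reCLM_apply, ← Complex.ofReal_intCast, ← Complex.ofReal_pow, ← Complex.ofReal_mul,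
    Complex.ofReal_re]

theorem norm_jTilde_le {z : ℂ} {r : ℝ} (hz : ‖z‖ ≤ r) (h1 : r < 1) : ‖jTilde z‖ ≤ jMajor r := by
  refine (hasSum_jTilde (hz.trans_lt h1)).norm_le_of_bounded
    (summable_jMajor ((norm_nonneg z).trans hz) h1).hasSum fun k => ?_
  have ha : (0 : ℝ) ≤ a k := by exact_mod_cast a_nonneg k
  rw [norm_mul, norm_pow, Complex.norm_intCast, abs_of_nonneg ha]
  gcongr

theorem jTilde_ofReal {r : ℝ} (h0 : 0 ≤ r) (h1 : r < 1) : jTilde r = (jMajor r : ℂ) := by
  refine (hasSum_jTilde (by simpa [abs_of_nonneg h0] using h1)).unique ?_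
  simpa [jMajor] using Complex.hasSum_ofReal.mpr (summable_jMajor h0 h1).hasSum

theorem im_smul_le (g : SL(2, ℤ)) (w : ℍ) : (g • w).im ≤ w.im + 1 / w.im := by
  have hw := w.im_pos
  have hd : 0 < Complex.normSq (denom g w) := normSq_denom_pos g w.im_pos.ne'
  rw [ModularGroup.im_smul_eq_div_normSq]
  have h1 : Complex.normSq (denom g w) =
      ((g 1 0 : ℤ) * w.re + (g 1 1 : ℤ)) ^ 2 + ((g 1 0 : ℤ) * w.im) ^ 2 := by
    rw [ModularGroup.denom_apply, Complex.normSq_apply]
    simp [sq]
  rcases eq_or_ne (g 1 0) 0 with hc | hc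
  · have hdet := g.det_coe
    rw [Matrix.det_fin_two, hc, mul_zero, sub_zero] at hdet
    have h2 : ((g 1 1 : ℤ) : ℝ) ^ 2 = 1 := by
      rcases Int.mul_eq_one_iff_eq_one_or_neg_one.mp hdet with ⟨-, e⟩ | ⟨-, e⟩ <;> simp [e]
    rw [h1, hc]
    simp [h2, hw.le]
  · have h2 : (1 : ℝ) ≤ ((g 1 0 : ℤ) : ℝ) ^ 2 := by
      exact_mod_cast (one_le_sq_iff_one_le_abs _).mpr (Int.one_le_abs hc)
    rw [div_le_iff₀ hd, h1]
    calc w.im ≤ (1 / w.im) * (w.im ^ 2) := by field_simp; exact le_rfl
      _ ≤ _ := by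
        refine mul_le_mul (by linarith) ?_ (by positivity) (by positivity)
        nlinarith [sq_nonneg (((g 1 0 : ℤ) : ℝ) * w.re + ((g 1 1 : ℤ) : ℝ))]

/-- **`|j w| ≤ exp (C (Im w + 1 / Im w))`.** -/
theorem exists_jfun_le :
    ∃ C : ℝ, 1 ≤ C ∧ ∀ w : ℍ, ‖jfun w‖ ≤ Real.exp (C * (w.im + 1 / w.im)) := by
  set r₀ := Real.exp (-π)
  have hr₀ : r₀ < 1 := Real.exp_lt_one_iff.mpr (neg_neg_of_pos Real.pi_pos)
  set C₀ := max 1 (jMajor r₀)
  have hC₀ : 1 ≤ C₀ := le_max_left _ _
  refine ⟨2 * π + Real.log C₀, by linarith [Real.log_nonneg hC₀, Real.pi_gt_three], fun w => ?_⟩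
  obtain ⟨g, hg⟩ := ModularGroup.exists_smul_mem_fd w
  set v := g • w with hv
  have hv2 : 1 / 2 ≤ v.im := by
    have h1 := hg.1
    have h2 := abs_le.mp hg.2
    rw [Complex.normSq_apply, UpperHalfPlane.coe_re, UpperHalfPlane.coe_im] at h1
    nlinarith [v.im_pos]
  have hq : ‖qp 1 v‖ ≤ r₀ := by
    rw [norm_qp]; exact Real.exp_le_exp.mpr (by nlinarith [Real.pi_pos])
  have h := norm_jTilde_le hq hr₀
  rw [jTilde_qp, norm_mul, norm_qp] at h
  have hj : ‖jfun v‖ ≤ C₀ * Real.exp (2 * π * v.im) := by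
    have h' := mul_le_mul_of_nonneg_left (h.trans (le_max_right 1 _))
      (Real.exp_pos (2 * π * v.im)).le
    rw [← mul_assoc, ← Real.exp_add, show 2 * π * v.im + -2 * π * v.im = 0 by ring, Real.exp_zero,
      one_mul] at h'
    linarith
  rw [← jfun_smul g w, ← hv]
  refine hj.trans ?_
  rw [← Real.exp_log (show (0 : ℝ) < C₀ by linarith), ← Real.exp_add, Real.exp_log (by linarith)]
  refine Real.exp_le_exp.mpr ?_
  have hle : v.im ≤ w.im + 1 / w.im := im_smul_le g w
  have h2 : 1 ≤ w.im + 1 / w.im := by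
    rcases le_or_gt 1 w.im with h | h
    · linarith [one_div_pos.mpr w.im_pos]
    · linarith [one_le_one_div w.im_pos h.le, w.im_pos]
  nlinarith [Real.pi_pos, Real.log_nonneg hC₀,
    mul_le_mul_of_nonneg_left hle (by positivity : (0 : ℝ) ≤ 2 * π)]

/-- **`q j(q) ≤ exp (C / (1 - q))` for real `q`.** -/
theorem exists_jMajor_le :
    ∃ C : ℝ, 1 ≤ C ∧ ∀ r : ℝ, 0 ≤ r → r < 1 → jMajor r ≤ Real.exp (C / (1 - r)) := by
  obtain ⟨C, hC, hj⟩ := exists_jfun_le
  refine ⟨2 * C * (1 + 2 * π), by nlinarith [Real.pi_pos], fun r h0 h1 => ?_⟩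
  set r' := max r (1 / 2) with hr'
  have hr'0 : 0 < r' := lt_of_lt_of_le (by norm_num) (le_max_right _ _)
  have hr'1 : r' < 1 := max_lt h1 (by norm_num)
  set t := -Real.log r' / (2 * π) with ht
  have hlog : 1 - r' ≤ -Real.log r' := by linarith [Real.log_le_sub_one_of_pos hr'0]
  have hlog' : -Real.log r' ≤ 1 := by
    have h2 : Real.log (1 / 2) ≤ Real.log r' := Real.log_le_log (by norm_num) (le_max_right _ _)
    rw [one_div, Real.log_inv] at h2
    linarith [Real.log_two_lt_d9]
  have htlo : (1 - r') / (2 * π) ≤ t := div_le_div_of_nonneg_right hlog (by positivity)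
  have ht0 : 0 < t := lt_of_lt_of_le (div_pos (by linarith) (by positivity)) htlo
  have hthi : t ≤ 1 := by
    rw [ht, div_le_one (by positivity)]; linarith [Real.pi_gt_three]
  set τ : ℍ := ⟨Complex.I * t, by simpa using ht0⟩ with hτ
  have hτi : τ.im = t := by simp [hτ, UpperHalfPlane.im]
  have hq : qp 1 τ = (r' : ℂ) := by
    rw [qp_eq, hτ, ← Real.exp_log hr'0, Complex.ofReal_exp]
    congr 1
    have hπ : (π : ℂ) ≠ 0 := Complex.ofReal_ne_zero.mpr Real.pi_ne_zero
    simp only [ht]
    push_cast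
    field_simp
    linear_combination -(Real.log r' : ℂ) * Complex.I_sq
  have hsum := summable_jMajor h0 h1
  have h2 : jMajor r ≤ jMajor r' :=
    hsum.tsum_le_tsum (fun k => mul_le_mul_of_nonneg_left
      (pow_le_pow_left₀ h0 (le_max_left _ _) k) (by exact_mod_cast a_nonneg k))
      (summable_jMajor hr'0.le hr'1)
  have h3 : jMajor r' ≤ ‖jfun τ‖ := by
    have h := congrArg norm (jTilde_ofReal hr'0.le hr'1)
    rw [← hq, jTilde_qp, norm_mul, Complex.norm_real, Real.norm_eq_abs] at h
    refine (le_abs_self _).trans (h.symm.trans_le ?_)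
    refine mul_le_of_le_one_left (norm_nonneg _) ?_
    rw [hq, Complex.norm_real, Real.norm_eq_abs, abs_of_pos hr'0]
    exact hr'1.le
  refine (h2.trans h3).trans ((hj τ).trans (Real.exp_le_exp.mpr ?_))
  rw [hτi]
  have ht' : 1 / t ≤ 2 * π / (1 - r') := by
    refine (one_div_le_one_div_of_le (div_pos (by linarith) (by positivity)) htlo).trans_eq ?_
    rw [one_div_div]
  have h4 : t + 1 / t ≤ (1 + 2 * π) / (1 - r') := by
    rw [add_div]
    have : 1 ≤ 1 / (1 - r') := one_le_one_div (by linarith) (by linarith)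
    linarith
  have h5 : (1 - r) / 2 ≤ 1 - r' := by
    rw [hr']; rcases max_choice r (1 / 2) with e | e <;> rw [e] <;> linarith
  refine (mul_le_mul_of_nonneg_left h4 (by linarith)).trans ?_
  rw [← mul_div_assoc, div_le_div_iff₀ (by linarith) (by linarith)]
  nlinarith [mul_pos (show (0 : ℝ) < C by linarith) Real.pi_pos]

/-! ### Coefficients -/

/-- The majorant of a series, truncated. -/
def truncNorm (φ : PowerSeries ℤ) (n : ℕ) (r : ℝ) : ℝ :=
  ∑ k ∈ Finset.range (n + 1), |((coeff k φ : ℤ) : ℝ)| * r ^ k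

theorem truncNorm_nonneg (φ : PowerSeries ℤ) (n : ℕ) {r : ℝ} (hr : 0 ≤ r) :
    0 ≤ truncNorm φ n r := Finset.sum_nonneg fun k _ => by positivity

theorem truncNorm_mul (φ ψ : PowerSeries ℤ) (n : ℕ) {r : ℝ} (hr : 0 ≤ r) :
    truncNorm (φ * ψ) n r ≤ truncNorm φ n r * truncNorm ψ n r := by
  classical
  set g : ℕ × ℕ → ℝ := fun p =>
    |((coeff p.1 φ : ℤ) : ℝ)| * r ^ p.1 * (|((coeff p.2 ψ : ℤ) : ℝ)| * r ^ p.2)
  calc truncNorm (φ * ψ) n r
      ≤ ∑ k ∈ Finset.range (n + 1), ∑ p ∈ Finset.HasAntidiagonal.antidiagonal k, g p := by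
        refine Finset.sum_le_sum fun k _ => ?_
        rw [PowerSeries.coeff_mul, Int.cast_sum]
        refine (mul_le_mul_of_nonneg_right (Finset.abs_sum_le_sum_abs _ _) (by positivity)).trans
          (le_of_eq ?_)
        rw [Finset.sum_mul]
        refine Finset.sum_congr rfl fun p hp => ?_
        rw [← Finset.HasAntidiagonal.mem_antidiagonal.mp hp]
        simp only [g, Int.cast_mul, abs_mul, pow_add]
        ring
    _ = ∑ p ∈ (Finset.range (n + 1)).biUnion Finset.HasAntidiagonal.antidiagonal, g p := by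
        refine (Finset.sum_biUnion fun x _ y _ hxy =>
          Finset.disjoint_left.mpr fun p hx hy => ?_).symm
        exact hxy ((Finset.HasAntidiagonal.mem_antidiagonal.mp hx).symm.trans
          (Finset.HasAntidiagonal.mem_antidiagonal.mp hy))
    _ ≤ ∑ p ∈ Finset.range (n + 1) ×ˢ Finset.range (n + 1), g p := by
        refine Finset.sum_le_sum_of_subset_of_nonneg (fun p hp => ?_) fun p _ _ => by positivity
        simp only [Finset.mem_biUnion, Finset.mem_range,
          Finset.HasAntidiagonal.mem_antidiagonal] at hp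
        simp only [Finset.mem_product, Finset.mem_range]
        omega
    _ = truncNorm φ n r * truncNorm ψ n r := by
        rw [Finset.sum_product, truncNorm, truncNorm, Finset.sum_mul_sum]

theorem truncNorm_X_pow (i n : ℕ) {r : ℝ} (hr : 0 ≤ r) (h1 : r ≤ 1) :
    truncNorm (PowerSeries.X ^ i) n r ≤ 1 := by
  simp only [truncNorm, PowerSeries.coeff_X_pow, apply_ite (fun x : ℤ => |(x : ℝ)|), Int.cast_one,
    Int.cast_zero, abs_one, abs_zero, ite_mul, one_mul, zero_mul, Finset.sum_ite_eq']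
  split_ifs
  · exact pow_le_one₀ hr h1
  · exact zero_le_one

theorem truncNorm_jNum (n : ℕ) {r : ℝ} (hr : 0 ≤ r) (h1 : r < 1) :
    truncNorm ModularCurve.jNum n r ≤ jMajor r := by
  refine le_of_eq_of_le (Finset.sum_congr rfl fun k _ => ?_)
    ((summable_jMajor hr h1).sum_le_tsum _ fun k _ => mul_nonneg (by exact_mod_cast a_nonneg k)
      (pow_nonneg hr k))
  rw [abs_of_nonneg (by exact_mod_cast a_nonneg k)]
  rfl

/-- **The coefficients of `Xⁱ (q j)ʲ`.** -/
theorem abs_coeff_monomial_le {C : ℝ}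
    (hC : ∀ r : ℝ, 0 ≤ r → r < 1 → jMajor r ≤ Real.exp (C / (1 - r))) (i j n : ℕ) {r : ℝ}
    (hr : 0 ≤ r) (h1 : r < 1) :
    |((coeff n (PowerSeries.X ^ i * ModularCurve.jNum ^ j) : ℤ) : ℝ)| * r ^ n ≤
      Real.exp (j * (C / (1 - r))) := by
  have hp : ∀ j : ℕ, truncNorm (PowerSeries.X ^ i * ModularCurve.jNum ^ j) n r ≤
      Real.exp (j * (C / (1 - r))) := by
    intro j
    induction j with
    | zero => simpa using truncNorm_X_pow i n hr h1.le
    | succ j ih =>
      rw [pow_succ, ← mul_assoc]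
      refine (truncNorm_mul _ _ n hr).trans ?_
      rw [Nat.cast_succ, add_mul, one_mul, Real.exp_add]
      exact mul_le_mul ih ((truncNorm_jNum n hr h1).trans (hC r hr h1)) (truncNorm_nonneg _ n hr)
        (Real.exp_pos _).le
  exact (Finset.single_le_sum (f := fun k =>
    |((coeff k (PowerSeries.X ^ i * ModularCurve.jNum ^ j) : ℤ) : ℝ)| * r ^ k)
    (fun k _ => by positivity)
    (Finset.self_mem_range_succ n)).trans (hp j)

/-- A series represents a function on the disc. -/
def Represents (φ : PowerSeries ℤ) (f : ℂ → ℂ) : Prop :=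
  ∀ z : ℂ, ‖z‖ < 1 → HasSum (fun n => ((coeff n φ : ℤ) : ℂ) * z ^ n) (f z)

theorem Represents.mul {φ ψ : PowerSeries ℤ} {f g : ℂ → ℂ} (hf : Represents φ f)
    (hg : Represents ψ g) : Represents (φ * ψ) (f * g) := fun z hz => by
  have h1 := (hf z hz).summable.norm
  have h2 := (hg z hz).summable.norm
  have h := hasSum_sum_range_mul_of_summable_norm h1 h2
  rw [(hf z hz).tsum_eq, (hg z hz).tsum_eq] at h
  refine h.congr_fun fun n => ?_
  rw [PowerSeries.coeff_mul, Finset.Nat.sum_antidiagonal_eq_sum_range_succ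
    (fun i j => coeff i φ * coeff j ψ), Int.cast_sum, Finset.sum_mul]
  refine Finset.sum_congr rfl fun k hk => ?_
  push_cast
  rw [mul_mul_mul_comm, ← pow_add, Nat.add_sub_cancel' (Finset.mem_range_succ_iff.mp hk)]

theorem represents_one : Represents 1 1 := fun z _ => by
  have h := hasSum_single (f := fun n => ((coeff n (1 : PowerSeries ℤ) : ℤ) : ℂ) * z ^ n)
    0 fun n hn => by simp [PowerSeries.coeff_one, hn]
  simpa using h

theorem Represents.pow {φ : PowerSeries ℤ} {f : ℂ → ℂ} (hf : Represents φ f) :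
    ∀ n : ℕ, Represents (φ ^ n) (f ^ n)
  | 0 => by simpa using represents_one
  | n + 1 => by rw [pow_succ, pow_succ]; exact (hf.pow n).mul hf

theorem represents_X : Represents PowerSeries.X id := fun z _ => by
  have h := hasSum_single
    (f := fun n => ((coeff n (PowerSeries.X : PowerSeries ℤ) : ℤ) : ℂ) * z ^ n) 1
    fun n hn => by simp [PowerSeries.coeff_X, hn]
  simpa using h

theorem represents_jNum : Represents ModularCurve.jNum jTilde := fun _ hz => hasSum_jTilde hz

theorem Represents.sum {ι : Type*} (s : Finset ι) {φ : ι → PowerSeries ℤ} {f : ι → ℂ → ℂ}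
    (c : ι → ℤ) (h : ∀ i ∈ s, Represents (φ i) (f i)) :
    Represents (∑ i ∈ s, c i • φ i) (fun z => ∑ i ∈ s, (c i : ℂ) * f i z) := fun z hz => by
  refine (hasSum_sum fun i hi => (h i hi z hz).mul_left (c i : ℂ)).congr_fun fun n => ?_
  simp only [map_sum, map_zsmul, smul_eq_mul, Int.cast_sum, Int.cast_mul, Finset.sum_mul, mul_assoc]

/-! ### The modular polynomial -/

theorem coeff_coeff_swap (p : ℤ[X][X]) (m n : ℕ) :
    ((Polynomial.Bivariate.swap p).coeff m).coeff n = (p.coeff n).coeff m := by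
  induction p using Polynomial.induction_on' with
  | add a b ha hb => simp only [map_add, Polynomial.coeff_add, ha, hb]
  | monomial i f =>
    induction f using Polynomial.induction_on' with
    | add a b ha hb => simp only [map_add, Polynomial.coeff_add, ha, hb]
    | monomial e r =>
      rw [Polynomial.Bivariate.swap_monomial_monomial]
      simp only [Polynomial.coeff_monomial]
      split_ifs <;> simp_all [Polynomial.coeff_monomial]

theorem dedekindPsi_le (N : ℕ) :
    (ModularCurve.dedekindPsi N : ℝ) ≤ N * (1 + Real.log N) := by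
  refine le_trans ?_ (mul_le_mul_of_nonneg_left (harmonic_le_one_add_log N) (Nat.cast_nonneg N))
  rw [ModularCurve.dedekindPsi, Nat.cast_sum]
  calc ∑ d ∈ N.divisors with Squarefree d, ((N / d : ℕ) : ℝ)
      ≤ ∑ d ∈ N.divisors with Squarefree d, (N : ℝ) * (d : ℝ)⁻¹ :=
        Finset.sum_le_sum fun d _ => Nat.cast_div_le
    _ ≤ ∑ d ∈ Finset.Icc 1 N, (N : ℝ) * (d : ℝ)⁻¹ := by
        refine Finset.sum_le_sum_of_subset_of_nonneg (fun d hd => ?_) fun d _ _ => by positivity
        obtain ⟨hd, -⟩ := Finset.mem_filter.mp hd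
        exact Finset.mem_Icc.mpr ⟨Nat.pos_of_mem_divisors hd, Nat.divisor_le hd⟩
    _ = N * ((harmonic N : ℚ) : ℝ) := by
        rw [harmonic_eq_sum_Icc, Rat.cast_sum, Finset.mul_sum]
        simp

/-- **The modular relation with its bounds.** -/
theorem exists_modular_relation {C : ℝ} (hC : 1 ≤ C)
    (hj : ∀ w : ℍ, ‖jfun w‖ ≤ Real.exp (C * (w.im + 1 / w.im))) (N : ℕ) [NeZero N] :
    ∃ Φ : ℤ[X][X], Φ.Monic ∧ (Φ.natDegree : ℝ) ≤ N * (1 + Real.log N) ∧
      (∀ k, (Φ.coeff k).natDegree ≤ Φ.natDegree) ∧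
      (∀ z, Φ.eval₂ (Polynomial.aeval (R := ℤ) (jfun z)).toRingHom (jfun (scaleH N z)) = 0) ∧
      ∀ z x, Φ.eval₂ (Polynomial.aeval (R := ℤ) (jfun z)).toRingHom x = 0 →
        ‖x‖ ≤ Real.exp (C * (N * (z.im + 1 / z.im))) := by
  rcases eq_or_ne N 1 with rfl | hN
  · refine ⟨Polynomial.X - Polynomial.C Polynomial.X, Polynomial.monic_X_sub_C _, by
      rw [Polynomial.natDegree_X_sub_C]; simp, fun k => ?_, fun z => ?_, fun z x hx => ?_⟩
    · rw [Polynomial.natDegree_X_sub_C]
      rcases k with _ | k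
      · simp
      · simp [Polynomial.coeff_X]
        split_ifs <;> simp
    · have : scaleH 1 z = z := UpperHalfPlane.ext (by rw [coe_scaleH]; simp)
      simp [this]
    · have : x = jfun z := by simpa [sub_eq_zero] using hx
      rw [this]
      simpa using hj z
  · classical
    let _ := Fintype.ofFinite (FA.Dim.Cos N)
    have h1N : 1 < N := by have := NeZero.ne N; omega
    have hd : (FA.ModPoly.phi N).natDegree = ModularCurve.dedekindPsi N := by
      rw [FA.ModPoly.phi_natDegree, FA.Dim.card_cos]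
    refine ⟨FA.ModPoly.phi N, FA.ModPoly.phi_monic N, hd ▸ dedekindPsi_le N, fun k => ?_,
      fun z => by simpa [FA.ModPoly.fN] using FA.ModPoly.phi_eval N z 1, fun z x hx => ?_⟩
    · refine Polynomial.natDegree_le_iff_coeff_eq_zero.mpr fun e he => ?_
      rw [← FA.ModPoly.swap_phi N h1N, coeff_coeff_swap,
        Polynomial.coeff_eq_zero_of_natDegree_lt he, Polynomial.coeff_zero]
    · set φ := (Polynomial.aeval (R := ℤ) (jfun z)).toRingHom
      have hmap : (FA.ModPoly.phi N).map φ =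
          ∏ i, (Polynomial.X - Polynomial.C (cosVal N (FA.ModPoly.fN N) i z)) := by
        ext1 k
        rw [FA.ModPoly.phi, Polynomial.map_sum]
        simp only [Polynomial.map_mul, Polynomial.map_C, Polynomial.map_pow, Polynomial.map_X,
          Polynomial.finsetSum_coeff, Polynomial.coeff_C_mul_X_pow, Finset.sum_ite_eq,
          Finset.mem_range]
        split_ifs with h
        · exact (FA.ModPoly.exists_int_coeff N k).choose_spec.2 z
        · rw [Polynomial.coeff_eq_zero_of_natDegree_lt]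
          rw [Polynomial.natDegree_finsetProd_X_sub_C_eq_card, Finset.card_univ,
            ← Nat.card_eq_fintype_card]
          omega
      rw [← Polynomial.eval_map, hmap, Polynomial.eval_prod, Finset.prod_eq_zero_iff] at hx
      obtain ⟨i, -, hi⟩ := hx
      rw [Polynomial.eval_sub, Polynomial.eval_X, Polynomial.eval_C, sub_eq_zero] at hi
      subst hi
      obtain ⟨a, δ, b, ha, haδ, -, hw⟩ := exists_upper N (Quotient.out i)⁻¹
      obtain ⟨w, hwc, hwj⟩ := hw z
      rw [cosVal, FA.ModPoly.fN, hwj]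
      refine (hj w).trans (Real.exp_le_exp.mpr (mul_le_mul_of_nonneg_left ?_ (by linarith)))
      have hwi : w.im = a * z.im / δ := by
        rw [← UpperHalfPlane.coe_im, hwc, Complex.div_natCast_im]
        simp
      have hδ : 0 < δ := Nat.pos_of_ne_zero fun h => by
        rw [h, mul_zero] at haδ; exact NeZero.ne N haδ.symm
      have haN : (a : ℝ) ≤ N := by exact_mod_cast haδ ▸ Nat.le_mul_of_pos_right a hδ
      have hδN : (δ : ℝ) ≤ N := by exact_mod_cast haδ ▸ Nat.le_mul_of_pos_left δ ha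
      have ha1 : (1 : ℝ) ≤ a := by exact_mod_cast ha
      have hδ1 : (1 : ℝ) ≤ δ := by exact_mod_cast hδ
      have hy := z.im_pos
      rw [hwi, one_div_div, mul_add]
      refine add_le_add ?_ ?_
      · exact (div_le_self (by positivity) hδ1).trans
          (mul_le_mul_of_nonneg_right haN hy.le)
      · rw [mul_one_div, ← div_div]
        exact div_le_div_of_nonneg_right ((div_le_self (by positivity) ha1).trans hδN) hy.le

end FA.Stephanois

end
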